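import Fermat.Agent.Two.Recip.CubicPlace
import Fermat.Agent.Arith.InertiaLift
import Fermat.Agent.CFT.Tangent.LocalPlace
import Mathlib.RingTheory.Ideal.Norm.AbsNorm
import Mathlib.FieldTheory.Finite.Basic

/-!
# Kummer theory of quadratic characters of a subfield of `ℚ̄`

Radicals of characters, their orders and tame symbols at the primes below the fixed place, and
their signs at the real places.
-/

set_option autoImplicit false
set_option synthInstance.maxHeartbeats 200000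
set_option linter.style.haveILetI false
set_option linter.unusedSectionVars false

noncomputable section

namespace Fermat.Agent.Two.Recip

open IsDedekindDomain Fermat.Agent.Arith
open Fermat.Agent.CFT.Local (padicPlace_liesOverPrime)
open Fermat.Agent.CFT.Tangent (IsFiniteLevel)
open scoped Pointwise NumberField

variable {q : ℕ}

/-- If `g` acts trivially modulo `A` on the algebraic integers fixed by the closed subgroup `H`,
then some element of `g * H` is in the inertia group at `A`. -/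
theorem exists_inertia_mul {A : ValuationSubring QBar} (hA : A.LiesOverPrime q) (hq : q.Prime)
    (H : Subgroup GQ) (hH : IsClosed (H : Set GQ)) (g : GQ)
    (hg : ∀ x : QBar, IsIntegral ℤ x → (∀ h ∈ H, h x = x) → g x - x ∈ A.nonunits) :
    ∃ h ∈ H, g * h ∈ A.inertiaSubgroupIn ℚ := by
  haveI : CompactSpace H := isCompact_iff_compactSpace.mp hH.isCompact
  let R := FixedPoints.subalgebra ℤ ZBar H
  haveI : SMulCommClass H R ZBar := ⟨fun h r x => by
    show h • ((r : ZBar) * x) = (r : ZBar) * h • x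
    rw [smul_mul', show h • (r : ZBar) = r from r.2 h]⟩
  haveI : Algebra.IsInvariant R ZBar H := ⟨fun x hx => ⟨⟨x, hx⟩, rfl⟩⟩
  have hfix : ∀ x : R, ∀ h ∈ H, h ((x : ZBar) : QBar) = ((x : ZBar) : QBar) := fun x h hh =>
    congrArg Subtype.val (x.2 ⟨h, hh⟩)
  have hres : ∀ x : R, g ((x : ZBar) : QBar) - ((x : ZBar) : QBar) ∈ A.nonunits := fun x =>
    hg _ (x : ZBar).2 (hfix x)
  have hunder : (centre (g⁻¹ • A)).under R = (centre A).under R := by
    ext x
    show (x : ZBar) ∈ centre (g⁻¹ • A) ↔ (x : ZBar) ∈ centre A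
    rw [centre_smul, Ideal.mem_pointwise_smul_iff_inv_smul_mem, inv_inv, mem_centre, mem_centre]
    have h1 := hres x
    rw [integralClosure.coe_smul, AlgEquiv.smul_def]
    constructor
    · intro h2; simpa using nonunits_sub h2 h1
    · intro h2; simpa using nonunits_add h1 h2
  obtain ⟨h₁, hh₁⟩ := Algebra.IsInvariant.exists_smul_of_under_eq_of_profinite (A := R) (G := H)
    (centre (g⁻¹ • A)) (centre A) hunder
  set σ : GQ := g * (h₁ : GQ)⁻¹ with hσdef
  have hσA : σ • A = A := by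
    have e : ((h₁ : GQ) * g⁻¹) • A = A := by
      refine eq_of_centre_eq (liesOverPrime_smul_iff.mpr hA) hA hq ?_
      rw [centre_smul, mul_smul, ← centre_smul]
      exact hh₁.symm
    rw [hσdef, show g * (h₁ : GQ)⁻¹ = ((h₁ : GQ) * g⁻¹)⁻¹ by group, inv_smul_eq_iff, e]
  haveI : (centre A).LiesOver ((centre A).under R) := ⟨rfl⟩
  have hstab : σ • centre A = centre A := by rw [← centre_smul, hσA]
  let P : Ideal R := (centre A).under R
  let F₀ : (ZBar ⧸ centre A) ≃+* ZBar ⧸ centre A :=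
    Ideal.quotientEquiv (centre A) (centre A) (MulSemiringAction.toRingEquiv GQ ZBar σ) hstab.symm
  let F : (ZBar ⧸ centre A) ≃ₐ[R ⧸ P] ZBar ⧸ centre A :=
    AlgEquiv.ofRingEquiv (f := F₀) fun r => by
      obtain ⟨x, rfl⟩ := Ideal.Quotient.mk_surjective r
      show Ideal.Quotient.mk (centre A) (σ • (x : ZBar)) = Ideal.Quotient.mk (centre A) (x : ZBar)
      rw [Ideal.Quotient.eq, mem_centre]
      show σ ((x : ZBar) : QBar) - ((x : ZBar) : QBar) ∈ A.nonunits
      rw [hσdef, AlgEquiv.mul_apply, hfix x _ (inv_mem h₁.2)]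
      exact hres x
  obtain ⟨⟨h₂, hh₂⟩, hh₂F⟩ :=
    Ideal.Quotient.stabilizerHom_surjective_of_profinite (A := R) (G := H) P (centre A) F
  have hh₂A : (h₂ : GQ) • A = A := by
    refine eq_of_centre_eq (liesOverPrime_smul_iff.mpr hA) hA hq ?_
    rw [centre_smul]
    exact hh₂
  refine ⟨((h₁⁻¹ * h₂⁻¹ : H) : GQ), (h₁⁻¹ * h₂⁻¹ : H).2, (mem_inertia_iff hA hq).mpr fun x hx => ?_⟩
  set y : ZBar := (h₂ : GQ)⁻¹ • ⟨x, hx⟩ with hy
  have h5 := DFunLike.congr_fun hh₂F (Ideal.Quotient.mk (centre A) y)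
  have h6 : Ideal.Quotient.mk (centre A) (h₂ • y) = Ideal.Quotient.mk (centre A) (σ • y) := h5
  rw [Ideal.Quotient.eq, mem_centre] at h6
  have h7 : x - σ ((h₂ : GQ)⁻¹ x) ∈ A.nonunits := by
    have e : (h₂ : GQ) ((y : ZBar) : QBar) = x := (h₂ : GQ).apply_symm_apply x
    have h' : (h₂ : GQ) ((y : ZBar) : QBar) - σ ((y : ZBar) : QBar) ∈ A.nonunits := h6
    rwa [e] at h'
  have h9 : (g * ((h₁⁻¹ * h₂⁻¹ : H) : GQ)) x = σ ((h₂ : GQ)⁻¹ x) := by
    rw [hσdef, Subgroup.coe_mul, Subgroup.coe_inv, Subgroup.coe_inv, ← mul_assoc,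
      AlgEquiv.mul_apply]
  rw [h9]
  simpa using nonunits_neg h7

theorem valuation_le_one_iff_apply [Fact q.Prime] {F : IntermediateField ℚ QBar} [NumberField F]
    (g : GQ) (x : F) :
    (placeAt F q g).valuation F x ≤ 1 ↔ g (x : QBar) ∈ padicPlace q :=
  (valuation_placeAt F q g x).2.trans (CFT.Local.mem_padicPlace_iff_norm q).symm

theorem valuation_lt_one_iff_apply [Fact q.Prime] {F : IntermediateField ℚ QBar} [NumberField F]
    (g : GQ) (x : F) :
    (placeAt F q g).valuation F x < 1 ↔ g (x : QBar) ∈ (padicPlace q).nonunits :=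
  (valuation_placeAt_lt_one_iff F q g x).trans (CFT.Local.mem_nonunits_padicPlace_iff q).symm

theorem apply_integer_mem [Fact q.Prime] {F : IntermediateField ℚ QBar} [NumberField F]
    (g : GQ) (x : 𝓞 F) : g ((x : F) : QBar) ∈ padicPlace q :=
  (CFT.Local.mem_padicPlace_iff_norm q).mpr (nrm_apply_le_one F q g x)

variable {F : IntermediateField ℚ QBar} {ψ : GQ → ZMod 2} {a : Fˣ} {α : QBar}

/-- `α` is a square root of `a` on which `G_F` acts through `ψ`. -/
structure IsRadical (ψ : GQ → ZMod 2) (a : Fˣ) (α : QBar) : Prop where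
  sq : α ^ 2 = ((a : F) : QBar)
  apply_eq : ∀ σ ∈ F.fixingSubgroup, σ α = (-1) ^ (ψ σ).val * α

theorem fix_coe {σ : GQ} (hσ : σ ∈ F.fixingSubgroup) (x : F) : σ (x : QBar) = x :=
  (IntermediateField.mem_fixingSubgroup_iff _ _).mp hσ _ x.2

theorem zmod_two_cases (x : ZMod 2) : x = 0 ∨ x = 1 := by revert x; decide

theorem IsRadical.ne_zero (h : IsRadical ψ a α) : α ≠ 0 := fun e => by
  have := h.sq
  rw [e, zero_pow two_ne_zero] at this
  exact a.ne_zero (Subtype.ext this.symm)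

theorem IsRadical.fix_iff (h : IsRadical ψ a α) {σ : GQ} (hσ : σ ∈ F.fixingSubgroup) :
    σ α = α ↔ ψ σ = 0 := by
  rw [h.apply_eq σ hσ]
  rcases zmod_two_cases (ψ σ) with e | e
  · simp [e]
  · rw [e, ZMod.val_one, pow_one, neg_one_mul, neg_eq_iff_add_eq_zero, add_self_eq_zero]
    simp [h.ne_zero]

theorem IsRadical.apply_eq_neg (h : IsRadical ψ a α) {σ : GQ} (hσ : σ ∈ F.fixingSubgroup)
    (h1 : ψ σ = 1) : σ α = -α := by
  rw [h.apply_eq σ hσ, h1, ZMod.val_one, pow_one, neg_one_mul]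

theorem IsRadical.mul_sq (h : IsRadical ψ a α) (z : Fˣ) :
    IsRadical ψ (a * z ^ 2) (α * ((z : F) : QBar)) where
  sq := by rw [mul_pow, h.sq]; simp
  apply_eq σ hσ := by rw [map_mul, h.apply_eq σ hσ, fix_coe hσ, mul_assoc]

/-- A quadratic character of finite level has a radical. -/
theorem exists_radical [NumberField F] (hlev : IsFiniteLevel ψ)
    (hadd : ∀ σ ∈ F.fixingSubgroup, ∀ τ ∈ F.fixingSubgroup, ψ (σ * τ) = ψ σ + ψ τ) :
    ∃ (a : Fˣ) (α : QBar), IsRadical ψ a α := by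
  obtain ⟨L, hLfd, hL⟩ := hlev
  by_cases hall : ∀ σ ∈ F.fixingSubgroup, ψ σ = 0
  · exact ⟨1, 1, ⟨by simp, fun σ hσ => by simp [hall σ hσ]⟩⟩
  push Not at hall
  obtain ⟨σ₀, hσ₀, hψσ₀⟩ := hall
  replace hψσ₀ : ψ σ₀ = 1 := (zmod_two_cases _).resolve_left hψσ₀
  have h1 : ψ 1 = 0 := hL 1 fun x _ => rfl
  have hinv : ∀ σ ∈ F.fixingSubgroup, ψ σ⁻¹ = ψ σ := fun σ hσ => by
    have := hadd σ hσ _ (inv_mem hσ)
    rw [mul_inv_cancel, h1] at this
    exact ((CharTwo.add_eq_zero).mp this.symm).symm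
  let K : Subgroup GQ :=
    { carrier := {σ | σ ∈ F.fixingSubgroup ∧ ψ σ = 0}
      one_mem' := ⟨one_mem _, h1⟩
      mul_mem' := fun {x y} hx hy =>
        ⟨mul_mem hx.1 hy.1, by rw [hadd x hx.1 y hy.1, hx.2, hy.2, add_zero]⟩
      inv_mem' := fun {x} hx => ⟨inv_mem hx.1, by rw [hinv x hx.1, hx.2]⟩ }
  haveI := hLfd
  have hKo : IsOpen (K : Set GQ) :=
    Subgroup.isOpen_mono (H₁ := (F ⊔ L).fixingSubgroup) (fun σ hσ =>
      ⟨IntermediateField.fixingSubgroup_antitone (le_sup_left : F ≤ F ⊔ L) hσ,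
        hL σ ((IntermediateField.mem_fixingSubgroup_iff _ _).mp
          (IntermediateField.fixingSubgroup_antitone (le_sup_right : L ≤ F ⊔ L) hσ))⟩)
      (IntermediateField.fixingSubgroup_isOpen _)
  set E := IntermediateField.fixedField K
  have hE : E.fixingSubgroup = K :=
    InfiniteGalois.fixingSubgroup_fixedField (⟨K, Subgroup.isClosed_of_isOpen K hKo⟩ : ClosedSubgroup GQ)
  obtain ⟨y, hyE, hy⟩ : ∃ y ∈ E, σ₀ y ≠ y := by
    by_contra! hc
    have : σ₀ ∈ E.fixingSubgroup := (IntermediateField.mem_fixingSubgroup_iff _ _).mpr hc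
    rw [hE] at this
    rw [this.2] at hψσ₀
    exact zero_ne_one hψσ₀
  have hK : ∀ σ ∈ K, σ y = y := fun σ hσ => hyE ⟨σ, hσ⟩
  set α := y - σ₀ y with hαdef
  have hσsq : σ₀ (σ₀ y) = y := hK (σ₀ * σ₀)
    ⟨mul_mem hσ₀ hσ₀, by rw [hadd _ hσ₀ _ hσ₀, CharTwo.add_self_eq_zero]⟩
  have hker : ∀ σ ∈ K, σ α = α := fun σ hσ => by
    have : (σ₀⁻¹ * σ * σ₀) y = y := hK _ ⟨mul_mem (mul_mem (inv_mem hσ₀) hσ.1) hσ₀, by
      rw [hadd _ (mul_mem (inv_mem hσ₀) hσ.1) _ hσ₀, hadd _ (inv_mem hσ₀) _ hσ.1, hinv _ hσ₀,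
        hσ.2, add_zero, CharTwo.add_self_eq_zero]⟩
    rw [hαdef, map_sub, hK σ hσ]
    congr 1
    calc σ (σ₀ y) = (σ₀ * (σ₀⁻¹ * σ * σ₀)) y := by rw [← AlgEquiv.mul_apply]; congr 1; group
      _ = σ₀ y := by rw [AlgEquiv.mul_apply, this]
  have heig : ∀ σ ∈ F.fixingSubgroup, σ α = (-1) ^ (ψ σ).val * α := by
    intro σ hσ
    rcases zmod_two_cases (ψ σ) with e | e
    · rw [e, ZMod.val_zero, pow_zero, one_mul, hker σ ⟨hσ, e⟩]
    · rw [e, ZMod.val_one, pow_one, neg_one_mul]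
      have hk : σ * σ₀⁻¹ ∈ K := ⟨mul_mem hσ (inv_mem hσ₀), by
        rw [hadd _ hσ _ (inv_mem hσ₀), hinv _ hσ₀, e, hψσ₀, CharTwo.add_self_eq_zero]⟩
      calc σ α = (σ * σ₀⁻¹) (σ₀ α) := by rw [← AlgEquiv.mul_apply, inv_mul_cancel_right]
        _ = (σ * σ₀⁻¹) (-α) := by rw [hαdef, map_sub, hσsq, neg_sub]
        _ = -α := by rw [map_neg, hker _ hk]
  have hmem : α ^ 2 ∈ F := by
    rw [← InfiniteGalois.fixedField_fixingSubgroup F]
    rintro ⟨σ, hσ⟩
    show σ (α ^ 2) = α ^ 2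
    rw [map_pow, heig σ hσ, mul_pow, ← pow_mul, Even.neg_one_pow ⟨(ψ σ).val, by ring⟩, one_mul]
  have hα0 : α ^ 2 ≠ 0 := pow_ne_zero _ (sub_ne_zero.mpr hy.symm)
  exact ⟨Units.mk0 ⟨α ^ 2, hmem⟩ fun e => hα0 (congrArg Subtype.val e), α, ⟨rfl, heig⟩⟩

section Place

variable [Fact q.Prime] [NumberField F]

theorem ordAt_surjective (P : HeightOneSpectrum (𝓞 F)) (n : ℤ) : ∃ z : Fˣ, ordAt P z = n := by
  obtain ⟨π, hπ⟩ := P.valuation_exists_uniformizer F
  have hπ0 : π ≠ 0 := fun e => by rw [e, map_zero] at hπ; exact WithZero.exp_ne_zero hπ.symm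
  refine ⟨Units.mk0 π hπ0 ^ n, ?_⟩
  have h1 : ordAt P (Units.mk0 π hπ0) = 1 := by
    have := valuation_eq_exp P (Units.mk0 π hπ0)
    rw [Units.val_mk0, hπ, WithZero.exp_inj] at this
    omega
  rw [ordAt_zpow, h1, mul_one]

/-- `z` is integral at the place `g⁻¹ A` as soon as its square is. -/
theorem mem_of_sq_mem {A : ValuationSubring QBar} {x : QBar} (h : x ^ 2 ∈ A) : x ∈ A := by
  rcases A.mem_or_inv_mem x with hx | hx
  · exact hx
  rcases eq_or_ne x 0 with rfl | h0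
  · exact A.zero_mem
  rw [show x = x ^ 2 * x⁻¹ by rw [pow_two, mul_assoc, mul_inv_cancel₀ h0, mul_one]]
  exact mul_mem h hx

/-- Radicals of characters trivial on the inertia at a prime have even order there. -/
theorem even_ordAt (hlev : IsFiniteLevel ψ)
    (hadd : ∀ σ ∈ F.fixingSubgroup, ∀ τ ∈ F.fixingSubgroup, ψ (σ * τ) = ψ σ + ψ τ)
    (h : IsRadical ψ a α) (g : GQ)
    (hin : ∀ t ∈ (padicPlace q).inertiaSubgroupIn ℚ, g⁻¹ * t * g ∈ F.fixingSubgroup →
      ψ (g⁻¹ * t * g) = 0) :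
    Even (ordAt (placeAt F q g) a) := by
  by_contra hodd
  rw [Int.not_even_iff_odd] at hodd
  obtain ⟨m, hm⟩ := hodd
  obtain ⟨z, hz⟩ := ordAt_surjective (placeAt F q g) (-m)
  set a' := a * z ^ 2 with ha'
  set β := α * ((z : F) : QBar) with hβdef
  have hβ : IsRadical ψ a' β := h.mul_sq z
  have hord : ordAt (placeAt F q g) a' = 1 := by
    rw [ha', ordAt_mul, ordAt_pow, hm, hz]; push_cast; ring
  obtain ⟨σ₀, hσ₀, hψσ₀⟩ : ∃ σ ∈ F.fixingSubgroup, ψ σ = 1 := by
    by_contra! hall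
    have hβF : β ∈ F := by
      rw [← InfiniteGalois.fixedField_fixingSubgroup F]
      rintro ⟨σ, hσ⟩
      exact (hβ.fix_iff hσ).mpr ((zmod_two_cases _).resolve_right (hall σ hσ))
    have hne : (⟨β, hβF⟩ : F) ≠ 0 := fun e => hβ.ne_zero (congrArg Subtype.val e)
    have he : a' = Units.mk0 _ hne ^ 2 := Units.ext (Subtype.ext (by simpa using hβ.sq.symm))
    rw [he, ordAt_pow] at hord
    omega
  -- the conjugate of the kernel
  let K : Subgroup GQ := F.fixingSubgroup ⊓ MulAction.stabilizer GQ β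
  have hKo : IsOpen (K : Set GQ) := by
    haveI : FiniteDimensional ℚ (IntermediateField.adjoin ℚ ({β} : Set QBar)) :=
      IntermediateField.adjoin.finiteDimensional (Algebra.IsIntegral.isIntegral β)
    refine Subgroup.isOpen_mono (H₁ := (F ⊔ IntermediateField.adjoin ℚ {β}).fixingSubgroup)
      (fun σ hσ => ⟨IntermediateField.fixingSubgroup_antitone le_sup_left hσ, ?_⟩)
      (IntermediateField.fixingSubgroup_isOpen _)
    exact (IntermediateField.mem_fixingSubgroup_iff _ _).mp hσ β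
      ((le_sup_right : IntermediateField.adjoin ℚ {β} ≤ F ⊔ IntermediateField.adjoin ℚ {β})
        (IntermediateField.mem_adjoin_simple_self ℚ β))
  let H : Subgroup GQ := K.comap (MulAut.conj g⁻¹).toMonoidHom
  have hH : IsClosed (H : Set GQ) :=
    (Subgroup.isClosed_of_isOpen K hKo).preimage (by
      show Continuous fun x : GQ => g⁻¹ * x * g⁻¹⁻¹
      fun_prop)
  obtain ⟨k, hk, hkin⟩ := exists_inertia_mul (padicPlace_liesOverPrime q) Fact.out H hH
    (g * σ₀ * g⁻¹) fun x hx hfix => by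
    set x' := g⁻¹ x with hx'
    have hfix' : ∀ σ ∈ K, σ x' = x' := fun σ hσ => by
      have hmem : g * σ * g⁻¹ ∈ H := by
        show g⁻¹ * (g * σ * g⁻¹) * g⁻¹⁻¹ ∈ K
        simpa [mul_assoc] using hσ
      have := congrArg (fun y => g⁻¹ y) (hfix _ hmem)
      calc σ x' = (g⁻¹ * (g * σ * g⁻¹)) x := by
            rw [hx', ← AlgEquiv.mul_apply]; congr 1; group
        _ = x' := this
    set w := σ₀ x' - x' with hw
    have hgw : (g * σ₀ * g⁻¹) x - x = g w := by
      rw [hw, map_sub, hx', AlgEquiv.mul_apply, AlgEquiv.mul_apply]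
      exact congrArg _ (g.apply_symm_apply x).symm
    rw [hgw]
    -- `w = c β` with `c ∈ F`
    have hwneg : ∀ σ ∈ F.fixingSubgroup, σ w = (-1) ^ (ψ σ).val * w := by
      intro σ hσ
      have hmemK : ∀ τ ∈ F.fixingSubgroup, ψ τ = 0 → τ ∈ K := fun τ hτ e =>
        ⟨hτ, (hβ.fix_iff hτ).mpr e⟩
      have h1 : ψ 1 = 0 := by obtain ⟨L, -, hL⟩ := hlev; exact hL 1 fun x _ => rfl
      have hinv₀ : ψ σ₀⁻¹ = 1 := by
        have := hadd σ₀ hσ₀ _ (inv_mem hσ₀)
        rw [mul_inv_cancel, h1, hψσ₀] at this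
        exact ((CharTwo.add_eq_zero).mp this.symm).symm
      rcases zmod_two_cases (ψ σ) with e | e
      · rw [e, ZMod.val_zero, pow_zero, one_mul, hw, map_sub, hfix' σ (hmemK σ hσ e)]
        congr 1
        calc σ (σ₀ x') = (σ₀ * (σ₀⁻¹ * σ * σ₀)) x' := by
              rw [← AlgEquiv.mul_apply]; congr 1; group
          _ = σ₀ x' := by
            rw [AlgEquiv.mul_apply, hfix' _ (hmemK _ (mul_mem (mul_mem (inv_mem hσ₀) hσ) hσ₀) ?_)]
            rw [hadd _ (mul_mem (inv_mem hσ₀) hσ) _ hσ₀, hadd _ (inv_mem hσ₀) _ hσ, hinv₀, e,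
              hψσ₀, add_zero, CharTwo.add_self_eq_zero]
      · rw [e, ZMod.val_one, pow_one, neg_one_mul, hw, map_sub, neg_sub]
        congr 1
        · rw [← AlgEquiv.mul_apply, hfix' _ (hmemK _ (mul_mem hσ hσ₀) ?_)]
          rw [hadd _ hσ _ hσ₀, e, hψσ₀, CharTwo.add_self_eq_zero]
        · calc σ x' = (σ₀ * (σ₀⁻¹ * σ)) x' := by congr 1; group
            _ = σ₀ x' := by
              rw [AlgEquiv.mul_apply, hfix' _ (hmemK _ (mul_mem (inv_mem hσ₀) hσ) ?_)]
              rw [hadd _ (inv_mem hσ₀) _ hσ, hinv₀, e, CharTwo.add_self_eq_zero]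
    have hc : w * β⁻¹ ∈ F := by
      rw [← InfiniteGalois.fixedField_fixingSubgroup F]
      rintro ⟨σ, hσ⟩
      show σ (w * β⁻¹) = w * β⁻¹
      rw [map_mul, map_inv₀, hwneg σ hσ, hβ.apply_eq σ hσ, mul_inv, mul_mul_mul_comm,
        mul_inv_cancel₀ (pow_ne_zero _ (neg_ne_zero.mpr one_ne_zero)), one_mul]
    obtain ⟨c, hc⟩ : ∃ c : F, w = (c : QBar) * β :=
      ⟨⟨_, hc⟩, (inv_mul_cancel_right₀ hβ.ne_zero w).symm⟩
    rcases eq_or_ne c 0 with rfl | hc0
    · rw [hc, ZeroMemClass.coe_zero, zero_mul, map_zero]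
      exact (padicPlace q).nonunits.zero_mem
    set u : Fˣ := Units.mk0 c hc0 ^ 2 * a' with hu
    have hwsq : w ^ 2 = ((u : F) : QBar) := by rw [hc, mul_pow, hβ.sq, hu]; simp
    have hgint : IsIntegral ℤ w := by
      have hx'i : IsIntegral ℤ x' := hx.map ((g⁻¹ : GQ) : QBar →ₐ[ℚ] QBar).toIntAlgHom
      exact (hx'i.map (σ₀ : QBar →ₐ[ℚ] QBar).toIntAlgHom).sub hx'i
    have hle : (placeAt F q g).valuation F (u : F) ≤ 1 := by
      rw [valuation_le_one_iff_apply, ← hwsq, map_pow]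
      exact pow_mem (mem_of_isIntegral _ (hgint.map (g : QBar →ₐ[ℚ] QBar).toIntAlgHom)) 2
    have hlt : (placeAt F q g).valuation F (u : F) < 1 := by
      rw [valuation_le_one_iff] at hle
      rw [valuation_lt_one_iff]
      have : ordAt (placeAt F q g) u = 2 * ordAt (placeAt F q g) (Units.mk0 c hc0) + 1 := by
        rw [hu, ordAt_mul, ordAt_pow, hord]; push_cast; ring
      omega
    rw [valuation_lt_one_iff_apply, ← hwsq, map_pow] at hlt
    by_contra hnu
    have hgm : g w ∈ padicPlace q :=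
      mem_of_isIntegral (padicPlace q) (hgint.map (g : QBar →ₐ[ℚ] QBar).toIntAlgHom)
    obtain ⟨h0, hi⟩ := (notMem_nonunits_iff hgm).mp hnu
    have := nonunits_mul_left hi hlt
    rw [pow_two, inv_mul_cancel_left₀ h0] at this
    exact hnu this
  have hconj : g⁻¹ * (g * σ₀ * g⁻¹ * k) * g = σ₀ * (g⁻¹ * k * g⁻¹⁻¹) := by group
  have hk' : g⁻¹ * k * g⁻¹⁻¹ ∈ K := hk
  have h2 := hin _ hkin (hconj ▸ mul_mem hσ₀ hk'.1)
  rw [hconj, hadd _ hσ₀ _ hk'.1, hψσ₀, (hβ.fix_iff hk'.1).mp hk'.2, add_zero] at h2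
  exact one_ne_zero h2

end Place

section Tame

variable {v : ℕ} [Fact v.Prime] [NumberField F]

/-- Every conjugate of inertia at `v` fixes `F`. -/
def InertiaFixesF (v : ℕ) [Fact v.Prime] (F : IntermediateField ℚ QBar) : Prop :=
  ∀ g : GQ, ∀ t ∈ (padicPlace v).inertiaSubgroupIn ℚ, g⁻¹ * t * g ∈ F.fixingSubgroup

theorem apply_unit_notMem {g : GQ} {z : Fˣ} (hz : ordAt (placeAt F v g) z = 0) :
    g ((z : F) : QBar) ∈ padicPlace v ∧ g ((z : F) : QBar) ∉ (padicPlace v).nonunits := by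
  refine ⟨(valuation_le_one_iff_apply g _).mp ((valuation_le_one_iff _ z).mpr hz.ge), fun h => ?_⟩
  have := (valuation_lt_one_iff _ z).mp ((valuation_lt_one_iff_apply g _).mpr h)
  omega

theorem two_notMem_nonunits (hv : v ≠ 2) : (2 : QBar) ∉ (padicPlace v).nonunits := by
  rw [show (2 : QBar) = ((2 : ℕ) : QBar) from Nat.cast_ofNat.symm,
    natCast_mem_nonunits_iff (padicPlace_liesOverPrime v) Fact.out]
  exact fun h => hv ((Nat.prime_dvd_prime_iff_eq Fact.out Nat.prime_two).mp h)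

/-- Inertia fixes the square roots of the elements of even order. -/
theorem apply_root_of_even (hv : v ≠ 2) (g : GQ) {t : GQ}
    (ht : t ∈ (padicPlace v).inertiaSubgroupIn ℚ) (htF : g⁻¹ * t * g ∈ F.fixingSubgroup)
    {x : Fˣ} (hx : Even (ordAt (placeAt F v g) x)) {y : QBar} (hy : y ^ 2 = ((x : F) : QBar)) :
    (g⁻¹ * t * g) y = y := by
  obtain ⟨m, hm⟩ := hx
  obtain ⟨z, hz⟩ := ordAt_surjective (placeAt F v g) (-m)
  set y' := y * ((z : F) : QBar) with hy'
  have hsq : y' ^ 2 = ((((x * z ^ 2 : Fˣ)) : F) : QBar) := by rw [hy', mul_pow, hy]; simp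
  have hord : ordAt (placeAt F v g) (x * z ^ 2) = 0 := by
    rw [ordAt_mul, ordAt_pow, hm, hz]; push_cast; ring
  obtain ⟨hmem, hnu⟩ := apply_unit_notMem hord
  rw [← hsq, map_pow] at hmem hnu
  have hy'A : g y' ∈ padicPlace v := mem_of_sq_mem hmem
  have hy'u : g y' ∉ (padicPlace v).nonunits := fun h =>
    hnu (by rw [pow_two]; exact nonunits_mul_left hy'A h)
  have h1 : t (g y') - g y' ∈ (padicPlace v).nonunits := (mem_inertia_iff_forall_mem.mp ht).2 _ hy'A
  have hfix : (g⁻¹ * t * g) (y' ^ 2) = y' ^ 2 := by rw [hsq, fix_coe htF]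
  rw [map_pow, sq_eq_sq_iff_eq_or_eq_neg] at hfix
  rcases hfix with h | h
  · rw [hy', map_mul, fix_coe htF] at h
    exact mul_right_cancel₀ (by simp) h
  · exfalso
    have e : t (g y') = -g y' := by
      rw [← map_neg g, ← h, AlgEquiv.mul_apply, AlgEquiv.mul_apply]
      exact (g.apply_symm_apply _).symm
    rw [e] at h1
    have h2 : (2 : QBar) * g y' ∈ (padicPlace v).nonunits := by
      simpa [two_mul, sub_eq_add_neg, neg_add_rev] using nonunits_neg h1
    obtain ⟨h20, h2i⟩ := (notMem_nonunits_iff (natCast_mem (padicPlace v) 2)).mp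
      (by simpa using two_notMem_nonunits hv)
    have := nonunits_mul_left h2i h2
    rw [Nat.cast_ofNat, ← mul_assoc, inv_mul_cancel₀ (by exact_mod_cast h20), one_mul] at this
    exact hy'u this

/-- A prime moving `√v` under inertia has odd order at every prime of `F` above it. -/
theorem odd_ordAt_self (hv : v ≠ 2) (g : GQ) (hin : InertiaFixesF v F) {τ : GQ}
    (hτ : τ ∈ (padicPlace v).inertiaSubgroupIn ℚ) (hmove : ∃ y : QBar, y ^ 2 = (v : QBar) ∧ τ y ≠ y)
    (u : Fˣ) (hu : (u : F) = (v : F)) :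
    Odd (ordAt (placeAt F v g) u) := by
  rw [← Int.not_even_iff_odd]
  intro he
  obtain ⟨y, hy, hne⟩ := hmove
  have h := apply_root_of_even hv g hτ (hin g τ hτ) he (y := g⁻¹ y)
    (by rw [← map_pow, hy, map_natCast, hu]; norm_cast)
  rw [AlgEquiv.mul_apply, AlgEquiv.mul_apply, show g (g⁻¹ y) = y from g.apply_symm_apply y] at h
  exact hne (g⁻¹.injective h)

/-- The order of the radical of a character ramified at `v`. -/
theorem ordAt_radical_mod_two (hv : v ≠ 2) (g : GQ) (hin : InertiaFixesF v F) {τ : GQ}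
    (hτ : τ ∈ (padicPlace v).inertiaSubgroupIn ℚ) (hmove : ∃ y : QBar, y ^ 2 = (v : QBar) ∧ τ y ≠ y)
    (h : IsRadical ψ a α) :
    ((ordAt (placeAt F v g) a : ℤ) : ZMod 2) = ψ (g⁻¹ * τ * g) := by
  have ht := hin g τ hτ
  have hv0 : (v : F) ≠ 0 := Nat.cast_ne_zero.mpr (Fact.out : v.Prime).ne_zero
  set u : Fˣ := Units.mk0 (v : F) hv0
  rcases Int.even_or_odd (ordAt (placeAt F v g) a) with he | ho
  · rw [(ZMod.intCast_eq_zero_iff_even).mpr he,
      (h.fix_iff ht).mp (apply_root_of_even hv g hτ ht he h.sq)]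
  · rw [(ZMod.intCast_eq_one_iff_odd).mpr ho]
    symm
    refine (zmod_two_cases _).resolve_left fun h0 => ?_
    obtain ⟨y, hy, hne⟩ := hmove
    have hy' : (α * g⁻¹ y) ^ 2 = (((a * u : Fˣ) : F) : QBar) := by
      rw [mul_pow, h.sq, ← map_pow, hy, map_natCast]
      simp [u]
    have he : Even (ordAt (placeAt F v g) (a * u)) := by
      rw [ordAt_mul]
      exact ho.add_odd (odd_ordAt_self hv g hin hτ ⟨y, hy, hne⟩ u rfl)
    have h1 := apply_root_of_even hv g hτ ht he hy'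
    rw [map_mul, (h.fix_iff ht).mpr h0] at h1
    have h2 := mul_left_cancel₀ h.ne_zero h1
    rw [AlgEquiv.mul_apply, AlgEquiv.mul_apply, show g (g⁻¹ y) = y from g.apply_symm_apply y] at h2
    exact hne (g⁻¹.injective h2)

theorem tame_of_even (P : HeightOneSpectrum (𝓞 F)) {a b : Fˣ} {m : ℤ} (hm : ordAt P a = m + m)
    {z : Fˣ} (hz : ordAt P z = -m) :
    tame P a b = ordAt P b • nsq P ((a * z ^ 2 : Fˣ) : F) := by
  have h0 : ordAt P (a * z ^ 2) = 0 := by rw [ordAt_mul, ordAt_pow, hm, hz]; push_cast; ring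
  have h := tame_of_ordAt_eq_zero P h0 b
  rwa [tame_mul_left, tame_sq_left, add_zero] at h

/-- An element fixed by an `n`-fold Frobenius at `g⁻¹ A` with residue in `F` is a square there. -/
theorem nsq_radical (hv : v ≠ 2) (g : GQ) {n : ℕ} {ρ : GQ}
    (hρ : ∀ x ∈ padicPlace v, ρ x - x ^ (v ^ n) ∈ (padicPlace v).nonunits)
    (hρF : g⁻¹ * ρ * g ∈ F.fixingSubgroup) (h : IsRadical ψ a α)
    (ha : ordAt (placeAt F v g) a = 0)
    (hres : ∀ x ∈ padicPlace v, x ^ (v ^ n) - x ∈ (padicPlace v).nonunits →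
      ∃ z : F, g (z : QBar) - x ∈ (padicPlace v).nonunits) :
    nsq (placeAt F v g) (a : F) = ψ (g⁻¹ * ρ * g) := by
  obtain ⟨hmem, hnu⟩ := apply_unit_notMem ha
  rw [← h.sq, map_pow] at hmem hnu
  have hαA : g α ∈ padicPlace v := mem_of_sq_mem hmem
  have hαu : g α ∉ (padicPlace v).nonunits := fun h' =>
    hnu (by rw [pow_two]; exact nonunits_mul_left hαA h')
  have hconj : ρ (g α) = g ((g⁻¹ * ρ * g) α) := by
    rw [AlgEquiv.mul_apply, AlgEquiv.mul_apply]
    exact (g.apply_symm_apply _).symm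
  rcases zmod_two_cases (ψ (g⁻¹ * ρ * g)) with e | e
  · rw [e, nsq, if_pos]
    have h1 := hρ _ hαA
    rw [hconj, (h.fix_iff hρF).mpr e] at h1
    obtain ⟨z, hz⟩ := hres _ hαA (by simpa using nonunits_neg h1)
    refine ⟨z, (valuation_lt_one_iff_apply g _).mpr ?_⟩
    have hzA : g (z : QBar) ∈ padicPlace v := by
      simpa using add_mem (mem_of_mem_nonunits hz) hαA
    have e' : g (((a : F) - z ^ 2 : F) : QBar) =
        -((g (z : QBar) - g α) * (g (z : QBar) + g α)) := by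
      rw [show (((a : F) - z ^ 2 : F) : QBar) = α ^ 2 - (z : QBar) ^ 2 by rw [h.sq]; simp]
      rw [map_sub, map_pow, map_pow]
      ring
    rw [e']
    exact nonunits_neg (nonunits_mul_right hz (add_mem hzA hαA))
  · rw [e, nsq, if_neg]
    rintro ⟨z, hz⟩
    have hz' := (valuation_lt_one_iff_apply g _).mp hz
    rw [show (((a : F) - z ^ 2 : F) : QBar) = α ^ 2 - (z : QBar) ^ 2 by rw [h.sq]; simp,
      map_sub, map_pow, map_pow] at hz'
    have hzA : g (z : QBar) ∈ padicPlace v := mem_of_sq_mem (by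
      simpa using sub_mem (pow_mem hαA 2) (mem_of_mem_nonunits hz'))
    have hρz : ρ (g (z : QBar)) = g (z : QBar) := by
      have := fix_coe hρF z
      rw [AlgEquiv.mul_apply, AlgEquiv.mul_apply] at this
      calc ρ (g (z : QBar)) = g (g⁻¹ (ρ (g (z : QBar)))) := (g.apply_symm_apply _).symm
        _ = g (z : QBar) := by rw [this]
    -- `g α ≡ ± g z`
    obtain ⟨s, hs, hsd⟩ : ∃ s, (ρ s = s ∧ s ∈ padicPlace v) ∧ g α - s ∈ (padicPlace v).nonunits := by
      by_contra! hc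
      obtain ⟨ha0, hai⟩ := (notMem_nonunits_iff (sub_mem hαA hzA)).mp (hc _ ⟨hρz, hzA⟩)
      have hb := hc (-g (z : QBar)) ⟨by rw [map_neg, hρz], neg_mem hzA⟩
      rw [sub_neg_eq_add] at hb
      have := nonunits_mul_left hai hz'
      rw [sq_sub_sq, mul_comm (g α + g (z : QBar)), inv_mul_cancel_left₀ ha0] at this
      exact hb this
    have h1 : ρ (g α) - s ∈ (padicPlace v).nonunits := by
      have hd := hρ _ (mem_of_mem_nonunits hsd)
      rw [map_sub, hs.1] at hd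
      have := nonunits_add hd (by
        rw [show (g α - s) ^ (v ^ n) = (g α - s) ^ (v ^ n - 1) * (g α - s) from
          (pow_sub_one_mul (pow_ne_zero n (Fact.out : v.Prime).ne_zero) _).symm]
        exact nonunits_mul_left (pow_mem (mem_of_mem_nonunits hsd) _) hsd :
          (g α - s) ^ (v ^ n) ∈ (padicPlace v).nonunits)
      simpa using this
    rw [hconj, h.apply_eq_neg hρF e, map_neg] at h1
    have h2 : (2 : QBar) * g α ∈ (padicPlace v).nonunits := by
      have := nonunits_sub hsd h1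
      rwa [show g α - s - (-g α - s) = 2 * g α by ring] at this
    obtain ⟨h20, h2i⟩ := (notMem_nonunits_iff (natCast_mem (padicPlace v) 2)).mp
      (by simpa using two_notMem_nonunits hv)
    have := nonunits_mul_left h2i h2
    rw [Nat.cast_ofNat, ← mul_assoc, inv_mul_cancel₀ (by exact_mod_cast h20), one_mul] at this
    exact hαu this

/-- The residues fixed by `x ↦ x ^ v` are integers. -/
theorem exists_natCast_sub_mem {x : QBar} (hx : x ∈ padicPlace v)
    (h : x ^ v - x ∈ (padicPlace v).nonunits) : ∃ m : ℕ, (m : QBar) - x ∈ (padicPlace v).nonunits := by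
  classical
  by_contra! hc
  let A := padicPlace v
  let r : A →+* IsLocalRing.ResidueField A := IsLocalRing.residue A
  let f : Polynomial (IsLocalRing.ResidueField A) := Polynomial.X ^ v - Polynomial.X
  have hvp : v.Prime := Fact.out
  have hdeg : f.natDegree = v := FiniteField.X_pow_card_sub_X_natDegree_eq _ hvp.one_lt
  have hcast : ∀ m : ℕ, (m : IsLocalRing.ResidueField A) = r (m : A) := fun m => (map_natCast r m).symm
  let Z : Finset (IsLocalRing.ResidueField A) :=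
    insert (r ⟨x, hx⟩) ((Finset.range v).image fun m : ℕ => (m : IsLocalRing.ResidueField A))
  have hinj : Set.InjOn (fun m : ℕ => (m : IsLocalRing.ResidueField A)) (Finset.range v) := by
    intro i hi j hj hij
    simp only [hcast] at hij
    rw [residue_eq_iff, show ((i : A) : QBar) - ((j : A) : QBar) = ((i : ℤ) - j : ℤ) by simp,
      intCast_mem_nonunits_iff (padicPlace_liesOverPrime v) hvp] at hij
    rw [Finset.coe_range, Set.mem_Iio] at hi hj
    have h0 := Int.eq_zero_of_dvd_of_natAbs_lt_natAbs hij (by omega)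
    omega
  have hnot : r ⟨x, hx⟩ ∉ (Finset.range v).image fun m : ℕ => (m : IsLocalRing.ResidueField A) := by
    rw [Finset.mem_image]
    rintro ⟨m, -, hm⟩
    rw [hcast, residue_eq_iff] at hm
    exact hc m (by simpa using hm)
  have hZ : Z.card = v + 1 := by
    rw [Finset.card_insert_of_notMem hnot, Finset.card_image_of_injOn hinj, Finset.card_range]
  have hf0 : f ≠ 0 := FiniteField.X_pow_card_sub_X_ne_zero _ hvp.one_lt
  have hroots : Z.card ≤ f.natDegree := by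
    refine Polynomial.card_le_degree_of_subset_roots fun y hy => ?_
    rw [Polynomial.mem_roots hf0, Polynomial.IsRoot.def, Polynomial.eval_sub, Polynomial.eval_pow,
      Polynomial.eval_X, sub_eq_zero]
    rcases Finset.mem_insert.mp (Finset.mem_def.mpr hy) with rfl | hy'
    · rw [← map_pow, residue_eq_iff]
      exact h
    · obtain ⟨m, -, rfl⟩ := Finset.mem_image.mp hy'
      haveI : CharP (IsLocalRing.ResidueField A) v := (CharP.charP_iff_prime_eq_zero hvp).mpr (by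
        rw [hcast, ← map_zero r, residue_eq_iff]
        simp only [ZeroMemClass.coe_zero, sub_zero]
        exact padicPlace_liesOverPrime v)
      exact map_natCast (frobenius (IsLocalRing.ResidueField A) v) m
  omega

variable {φ τ : GQ}

theorem frob_iter (hφ : (padicPlace v).IsFrobeniusAt φ v) :
    ∀ x ∈ padicPlace v, (φ ^ 2) x - x ^ (v ^ 2) ∈ (padicPlace v).nonunits := by
  obtain ⟨hstab, hf⟩ := isFrobeniusAt_iff_forall_mem.mp hφ
  intro x hx
  have h1 := hf _ (map_mem_of_mem_decomposition hstab hx)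
  have h2 : (φ x) ^ v - (x ^ v) ^ v ∈ (padicPlace v).nonunits := by
    obtain ⟨c, hc⟩ := sub_dvd_pow_sub_pow
      (⟨φ x, map_mem_of_mem_decomposition hstab hx⟩ : padicPlace v) ⟨x ^ v, pow_mem hx v⟩ v
    have := congrArg Subtype.val hc
    push_cast at this
    rw [this]
    exact nonunits_mul_right (hf x hx) c.2
  have := nonunits_add h1 h2
  rw [pow_two, AlgEquiv.mul_apply, pow_two, pow_mul]
  simpa using this

/-- Where Frobenius leaves `F`, it moves some residue of `F`. -/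
theorem exists_residue_moved (hφ : (padicPlace v).IsFrobeniusAt φ v) (hin : InertiaFixesF v F)
    (g : GQ) (hnot : g⁻¹ * φ * g ∉ F.fixingSubgroup) :
    ∃ z : 𝓞 F, (g ((z : F) : QBar)) ^ v - g ((z : F) : QBar) ∉ (padicPlace v).nonunits := by
  by_contra! hall
  let H : Subgroup GQ := F.fixingSubgroup.comap (MulAut.conj g⁻¹).toMonoidHom
  have hH : IsClosed (H : Set GQ) :=
    (IntermediateField.fixingSubgroup_isClosed F).preimage (by
      show Continuous fun x : GQ => g⁻¹ * x * g⁻¹⁻¹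
      fun_prop)
  have hmemH : ∀ x, x ∈ H ↔ g⁻¹ * x * g ∈ F.fixingSubgroup := fun x => by
    show g⁻¹ * x * g⁻¹⁻¹ ∈ F.fixingSubgroup ↔ _
    rw [inv_inv]
  obtain ⟨k, hk, hki⟩ := exists_inertia_mul (padicPlace_liesOverPrime v) Fact.out H hH φ
    fun x hx hfix => by
    have hx' : g⁻¹ x ∈ F := by
      rw [← InfiniteGalois.fixedField_fixingSubgroup F]
      rintro ⟨σ, hσ⟩
      have h' := congrArg (fun y => g⁻¹ y) (hfix (g * σ * g⁻¹) ((hmemH _).mpr (by
        simpa [mul_assoc] using hσ)))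
      show σ (g⁻¹ x) = g⁻¹ x
      calc σ (g⁻¹ x) = (g⁻¹ * (g * σ * g⁻¹)) x := by rw [← AlgEquiv.mul_apply]; congr 1; group
        _ = g⁻¹ x := h'
    have hint : IsIntegral ℤ (⟨g⁻¹ x, hx'⟩ : F) :=
      (isIntegral_algHom_iff F.val.toIntAlgHom F.val.injective).mp
        (hx.map ((g⁻¹ : GQ) : QBar →ₐ[ℚ] QBar).toIntAlgHom)
    have h2 : (g (g⁻¹ x)) ^ v - g (g⁻¹ x) ∈ (padicPlace v).nonunits := hall ⟨_, hint⟩
    rw [show g (g⁻¹ x) = x from g.apply_symm_apply x] at h2
    simpa using nonunits_add ((isFrobeniusAt_iff_forall_mem.mp hφ).2 x (mem_of_isIntegral _ hx)) h2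
  have h1 := hin g _ hki
  have h2 := (hmemH k).mp hk
  apply hnot
  rw [show g⁻¹ * φ * g = g⁻¹ * (φ * k) * g * (g⁻¹ * k * g)⁻¹ by group]
  exact mul_mem h1 (inv_mem h2)

/-- The residues fixed by `x ↦ x ^ (v ^ 2)` come from `F` where Frobenius leaves `F` and its
square does not. -/
theorem exists_sub_mem_two (hφ : (padicPlace v).IsFrobeniusAt φ v) (hin : InertiaFixesF v F)
    (g : GQ) (hnot : g⁻¹ * φ * g ∉ F.fixingSubgroup) (hsq : g⁻¹ * φ ^ 2 * g ∈ F.fixingSubgroup)
    {x : QBar} (hx : x ∈ padicPlace v) (h : x ^ (v ^ 2) - x ∈ (padicPlace v).nonunits) :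
    ∃ z : F, g (z : QBar) - x ∈ (padicPlace v).nonunits := by
  obtain ⟨z₀, hz₀⟩ := exists_residue_moved hφ hin g hnot
  let A := padicPlace v
  let r : A →+* IsLocalRing.ResidueField A := IsLocalRing.residue A
  have hz₀A : g ((z₀ : F) : QBar) ∈ A := apply_integer_mem g z₀
  set u := r ⟨x, hx⟩
  set ζ := r ⟨_, hz₀A⟩
  have hvp : v.Prime := Fact.out
  have hζ : ζ ^ v - ζ ≠ 0 := by
    rw [sub_ne_zero, ← map_pow, Ne, residue_eq_iff]
    exact hz₀
  have hu2 : (u ^ v) ^ v = u := by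
    rw [← pow_mul, ← pow_two, ← map_pow, residue_eq_iff]
    exact h
  have hζ2 : (ζ ^ v) ^ v = ζ := by
    rw [← pow_mul, ← pow_two, ← map_pow, residue_eq_iff]
    have h1 := frob_iter hφ _ hz₀A
    have h2 : (φ ^ 2) (g ((z₀ : F) : QBar)) = g ((z₀ : F) : QBar) := by
      have := fix_coe hsq (z₀ : F)
      rw [AlgEquiv.mul_apply, AlgEquiv.mul_apply] at this
      calc (φ ^ 2) (g ((z₀ : F) : QBar)) = g (g⁻¹ ((φ ^ 2) (g ((z₀ : F) : QBar)))) :=
            (g.apply_symm_apply _).symm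
        _ = g ((z₀ : F) : QBar) := by rw [this]
    rw [h2] at h1
    have := nonunits_neg h1
    rwa [neg_sub] at this
  haveI : CharP (IsLocalRing.ResidueField A) v := (CharP.charP_iff_prime_eq_zero hvp).mpr (by
    rw [← map_natCast r, ← map_zero r, residue_eq_iff]
    simp only [ZeroMemClass.coe_zero, sub_zero]
    exact padicPlace_liesOverPrime v)
  set c := (u ^ v - u) / (ζ ^ v - ζ) with hc
  have hcv : c ^ v = c := by
    rw [hc, div_pow, sub_pow_char, sub_pow_char, hu2, hζ2, ← neg_sub u (u ^ v),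
      ← neg_sub ζ (ζ ^ v), neg_div_neg_eq]
  have hd : (u - c * ζ) ^ v = u - c * ζ := by
    rw [sub_pow_char, mul_pow, hcv]
    have := div_mul_cancel₀ (u ^ v - u) hζ
    rw [← hc] at this
    linear_combination -this
  -- lift the two residues fixed by `x ↦ x ^ v`
  have lift : ∀ e : IsLocalRing.ResidueField A, e ^ v = e → ∃ m : ℕ, (m : IsLocalRing.ResidueField A) = e := by
    intro e he
    obtain ⟨⟨y, hy⟩, rfl⟩ := IsLocalRing.residue_surjective e
    rw [← map_pow, residue_eq_iff] at he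
    obtain ⟨m, hm⟩ := exists_natCast_sub_mem hy he
    exact ⟨m, by rw [← map_natCast r, residue_eq_iff]; simpa using hm⟩
  obtain ⟨m₁, hm₁⟩ := lift c hcv
  obtain ⟨m₂, hm₂⟩ := lift _ hd
  refine ⟨(m₂ : F) + (m₁ : F) * (z₀ : F), ?_⟩
  have key : r ((m₂ : A) + (m₁ : A) * ⟨_, hz₀A⟩) = u := by
    rw [map_add, map_mul, map_natCast, map_natCast, hm₁, hm₂]
    ring
  rw [residue_eq_iff] at key
  simpa using key

variable {ψA ψB : GQ → ZMod 2} {b : Fˣ} {β : QBar}

/-- Where Frobenius lies in `G_F`, the tame symbol is the product of the values at Frobenius and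
at inertia. -/
theorem tame_split (hv : v ≠ 2) (hφ : (padicPlace v).IsFrobeniusAt φ v)
    (hτ : τ ∈ (padicPlace v).inertiaSubgroupIn ℚ) (hmove : ∃ y : QBar, y ^ 2 = (v : QBar) ∧ τ y ≠ y)
    (hin : InertiaFixesF v F) (hlev : IsFiniteLevel ψA)
    (hadd : ∀ σ ∈ F.fixingSubgroup, ∀ σ' ∈ F.fixingSubgroup, ψA (σ * σ') = ψA σ + ψA σ')
    (hzero : ∀ g, ∀ t ∈ (padicPlace v).inertiaSubgroupIn ℚ, ψA (g⁻¹ * t * g) = 0)
    (ha : IsRadical ψA a α) (hb : IsRadical ψB b β) (g : GQ)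
    (hg : g⁻¹ * φ * g ∈ F.fixingSubgroup) :
    tame (placeAt F v g) a b = ψA (g⁻¹ * φ * g) * ψB (g⁻¹ * τ * g) := by
  obtain ⟨m, hm⟩ := even_ordAt hlev hadd ha g fun t ht _ => hzero g t ht
  obtain ⟨z, hz⟩ := ordAt_surjective (placeAt F v g) (-m)
  rw [tame_of_even _ hm hz, nsq_radical hv g (n := 1) (ρ := φ)
    (fun x hx => by simpa using (isFrobeniusAt_iff_forall_mem.mp hφ).2 x hx) hg (ha.mul_sq z)
    (by rw [ordAt_mul, ordAt_pow, hm, hz]; push_cast; ring)
    (fun x hx h => by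
      rw [pow_one] at h
      obtain ⟨k, hk⟩ := exists_natCast_sub_mem hx h
      exact ⟨k, by simpa using hk⟩),
    zsmul_eq_mul, ordAt_radical_mod_two hv g hin hτ hmove hb, mul_comm]

/-- Where only the square of Frobenius lies in `G_F`. -/
theorem tame_inert (hv : v ≠ 2) (hφ : (padicPlace v).IsFrobeniusAt φ v)
    (hτ : τ ∈ (padicPlace v).inertiaSubgroupIn ℚ) (hmove : ∃ y : QBar, y ^ 2 = (v : QBar) ∧ τ y ≠ y)
    (hin : InertiaFixesF v F) (hlev : IsFiniteLevel ψA)
    (hadd : ∀ σ ∈ F.fixingSubgroup, ∀ σ' ∈ F.fixingSubgroup, ψA (σ * σ') = ψA σ + ψA σ')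
    (hzero : ∀ g, ∀ t ∈ (padicPlace v).inertiaSubgroupIn ℚ, ψA (g⁻¹ * t * g) = 0)
    (ha : IsRadical ψA a α) (hb : IsRadical ψB b β) (g : GQ)
    (hnot : g⁻¹ * φ * g ∉ F.fixingSubgroup) (hsq : g⁻¹ * φ ^ 2 * g ∈ F.fixingSubgroup) :
    tame (placeAt F v g) a b = ψA (g⁻¹ * φ ^ 2 * g) * ψB (g⁻¹ * τ * g) := by
  obtain ⟨m, hm⟩ := even_ordAt hlev hadd ha g fun t ht _ => hzero g t ht
  obtain ⟨z, hz⟩ := ordAt_surjective (placeAt F v g) (-m)
  rw [tame_of_even _ hm hz, nsq_radical hv g (n := 2) (ρ := φ ^ 2)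
    (frob_iter hφ) hsq (ha.mul_sq z)
    (by rw [ordAt_mul, ordAt_pow, hm, hz]; push_cast; ring)
    (fun x hx h => exists_sub_mem_two hφ hin g hnot hsq hx h),
    zsmul_eq_mul, ordAt_radical_mod_two hv g hin hτ hmove hb, mul_comm]

end Tame

section Real

/-- A character trivial at the complex conjugations in `G_F` has a totally positive radical. -/
theorem radical_pos (h : IsRadical ψ a α) [NumberField F]
    (hconj : ∀ (ι : QBar →+* ℂ) (c : GQ), (∀ x, ι (c x) = starRingEnd ℂ (ι x)) →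
      c ∈ F.fixingSubgroup → ψ c = 0) (σ : F →+* ℝ) : 0 < σ (a : F) := by
  letI : Algebra F ℂ := (Complex.ofRealHom.comp σ).toAlgebra
  let ιA : QBar →ₐ[F] ℂ := IsAlgClosed.lift
  set ι : QBar →+* ℂ := ιA.toRingHom with hι
  have hιF : ∀ x : F, ι (x : QBar) = ((σ x : ℝ) : ℂ) := fun x => ιA.commutes x
  let φ₁ : QBar →ₐ[ℚ] ℂ := ι.toRatAlgHom
  let φ₂ : QBar →ₐ[ℚ] ℂ := ((starRingEnd ℂ).comp ι).toRatAlgHom
  letI : Algebra QBar ℂ := ι.toAlgebra
  haveI : IsScalarTower ℚ QBar ℂ := IsScalarTower.of_algebraMap_eq fun x => (map_ratCast ι x).symm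
  haveI : Normal ℚ QBar := IsAlgClosure.normal ℚ QBar
  set c : GQ := AlgHom.restrictNormal' φ₂ QBar
  have hc : ∀ x, ι (c x) = starRingEnd ℂ (ι x) := fun x =>
    AlgHom.restrictNormal_commutes φ₂ QBar x
  have hcF : c ∈ F.fixingSubgroup := by
    rw [IntermediateField.mem_fixingSubgroup_iff]
    intro x hx
    refine ι.injective ?_
    rw [hc, hιF ⟨x, hx⟩, Complex.conj_ofReal]
  have hcα : starRingEnd ℂ (ι α) = ι α := by
    rw [← hc, (h.fix_iff hcF).mpr (hconj ι c hc hcF)]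
  obtain ⟨r, hr⟩ : ∃ r : ℝ, ι α = (r : ℂ) := Complex.conj_eq_iff_real.mp hcα
  have hr0 : r ≠ 0 := fun e => h.ne_zero (ι.injective (by rw [hr, e, map_zero, Complex.ofReal_zero]))
  have e : ((σ (a : F) : ℝ) : ℂ) = ((r ^ 2 : ℝ) : ℂ) := by
    rw [← hιF, ← h.sq, map_pow, hr]; push_cast; rfl
  rw [Complex.ofReal_inj] at e
  rw [e]
  positivity

end Real

end Fermat.Agent.Two.Recip
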