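import Fermat.Agent.Two.Recip.CubicTwo
import Fermat.Agent.Two.Recip.Kummer

/-!
# Quadratic reciprocity in the cubic field

For a dihedral representation with tame inertia at two acting trivially and an elliptic element in
inertia at two: characters of the cubic subgroup deep at two, trivial on conjugations and unramified
outside the auxiliary primes pair to zero at these primes.
-/

set_option autoImplicit false
set_option linter.style.haveILetI false
set_option linter.unusedSectionVars false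

noncomputable section

namespace Fermat.Agent.Two.Recip

open Fermat.Agent.Deform Fermat.Agent.Arith IsDedekindDomain
open Fermat.Agent.CFT.Flat (decG inG inG_le_decG HasDeep)
open Fermat.Agent.CFT.Tangent (IsFiniteLevel)
open Fermat.Agent.Two.Tangent (Dihedral InCubic CubicRecip rinv_mul rmul_inv)
open scoped NumberField Pointwise

theorem conj_mem {q : ℕ} [Fact q.Prime] (g : GQ) {t : GQ}
    (ht : t ∈ (padicPlace q).inertiaSubgroupIn ℚ) :
    g⁻¹ * t * g ∈ (g⁻¹ • padicPlace q).inertiaSubgroupIn ℚ := by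
  have h := (mem_inertia_smul_iff (g := g⁻¹)).mpr ht
  rwa [inv_inv] at h

/-- **Quadratic reciprocity in the cubic field.** -/
theorem cubicRecip_of {k : Type} [Field k] [CharP k 2] {r : Gal →* M2 k} {D : Finset ℕ} {δ : QBar}
    (h : Dihedral r D δ) (htame : ∀ σ ∈ CFT.Flat.tame 2, r σ = 1)
    (hell : ∃ τ ∈ inG 2, (r τ - 1).det ≠ 0) : CubicRecip r := by
  intro R V φ τ g₁ g₂ ψ₁ ψ₂ hσ hR1 hR hV hloc hψ hunr₁ hunr₂
  obtain ⟨σ₀, hσ₀⟩ := hσ
  have hmove : σ₀ δ ≠ δ := move_of_sq_eq_one h (hσ₀ ▸ hR1) (by rw [hσ₀, hR])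
  set F := cubicField r R hR with hFdef
  haveI hFfd : FiniteDimensional ℚ F := finiteDimensional_cubicField h hR
  haveI : NumberField F := { to_finiteDimensional := hFfd }
  have hfixF : ∀ {g : Gal}, g ∈ F.fixingSubgroup ↔ InCubic r R g := mem_cubicField_fixing h hR
  obtain ⟨hl₁, hadd₁, hdeep₁, hcc₁⟩ := hψ ψ₁ (Set.mem_insert _ _)
  obtain ⟨hl₂, hadd₂, hdeep₂, hcc₂⟩ := hψ ψ₂ (Set.mem_insert_of_mem _ rfl)
  have ha₁ : ∀ g ∈ F.fixingSubgroup, ∀ g' ∈ F.fixingSubgroup, ψ₁ (g * g') = ψ₁ g + ψ₁ g' :=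
    fun g hg g' hg' => hadd₁ g g' (hfixF.1 hg) (hfixF.1 hg')
  have ha₂ : ∀ g ∈ F.fixingSubgroup, ∀ g' ∈ F.fixingSubgroup, ψ₂ (g * g') = ψ₂ g + ψ₂ g' :=
    fun g hg g' hg' => hadd₂ g g' (hfixF.1 hg) (hfixF.1 hg')
  obtain ⟨a, α, hrad₁⟩ := exists_radical (F := F) hl₁ ha₁
  obtain ⟨b, β, hrad₂⟩ := exists_radical (F := F) hl₂ ha₂
  have htameF : ∀ g ∈ CFT.Flat.tame 2, g ∈ F.fixingSubgroup := fun g hg =>
    hfixF.2 (Or.inl (htame g hg))
  -- the primes over the auxiliary primes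
  haveI : ∀ v : V, Fact (v : ℕ).Prime := fun v => ⟨(hV v v.2).1⟩
  have hodd : ∀ (v : V) (g : Gal), (2 : 𝓞 F) ∉ (placeAt F v g).asIdeal := fun v g => by
    have := natCast_not_mem_placeAt F (v : ℕ) (m := 2) (fun hd =>
      (hV v v.2).2 ((Nat.prime_dvd_prime_iff_eq (hV v v.2).1 Nat.prime_two).1 hd)) g
    exact_mod_cast this
  let P : V → OddPlace F := fun v => ⟨placeAt F v (g₁ v)⁻¹, hodd v _⟩
  let Q : V → OddPlace F := fun v => ⟨placeAt F v (g₂ v)⁻¹, hodd v _⟩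
  have hsame : ∀ (v w : V) (g g' : Gal), placeAt F v g = placeAt F w g' → v = w :=
    fun v w g g' e => by
    by_contra hne
    have hd : ¬ (w : ℕ) ∣ (v : ℕ) := fun hd => hne (Subtype.ext
      ((Nat.prime_dvd_prime_iff_eq (hV w w.2).1 (hV v v.2).1).1 hd).symm)
    exact natCast_not_mem_placeAt F (w : ℕ) hd g' (e ▸ natCast_mem_placeAt F (v : ℕ) g)
  have hfrob : ∀ v : V, (padicPlace (v : ℕ)).IsFrobeniusAt (φ v) v := fun v => (hloc v v.2).1
  have hr1 : ∀ (v : V), ∀ t ∈ inG (v : ℕ), r t = 1 := fun v => (hloc v v.2).2.2.2.1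
  have hg1 : ∀ v : V, InCubic r R (g₁ v * φ v * (g₁ v)⁻¹) := fun v =>
    Or.inr (hloc v v.2).2.2.2.2.1
  have hg2 : ∀ v : V, ¬ InCubic r R (g₂ v * φ v * (g₂ v)⁻¹) := fun v =>
    not_or.2 ⟨(hloc v v.2).2.2.2.2.2.2.1, (hloc v v.2).2.2.2.2.2.1⟩
  have hcover : ∀ (v : V) (R' : OddPlace F), ((v : ℕ) : 𝓞 F) ∈ R'.1.asIdeal →
      R' = P v ∨ R' = Q v := by
    intro v R' hv
    obtain ⟨g, hg⟩ := exists_placeAt F (v : ℕ) R'.1 hv
    rcases coset_cases h hR hσ₀ hmove (hg1 v) (hg2 v) g with e | e | e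
    · refine Or.inl (Subtype.ext (hg.trans ?_))
      rw [show g = (g₁ v)⁻¹ * (g₁ v * g) by rw [inv_mul_cancel_left],
        placeAt_mul_right _ _ _ (hfixF.2 e)]
    · refine Or.inr (Subtype.ext (hg.trans ?_))
      rw [show g = (g₂ v)⁻¹ * (g₂ v * g) by rw [inv_mul_cancel_left],
        placeAt_mul_right _ _ _ (hfixF.2 e)]
    · refine Or.inr (Subtype.ext (hg.trans ?_))
      rw [show g = φ v * ((g₂ v)⁻¹ * (g₂ v * (φ v)⁻¹ * g)) by group,
        placeAt_mul_left _ _ (frobenius_mem_decG (hfrob v)),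
        placeAt_mul_right _ _ _ (hfixF.2 e)]
  have hsum := sum_tame_eq_zero (F := F) (finrank_cubicField h hR hσ₀ hmove)
    (fun g hg x hx => (IntermediateField.mem_fixingSubgroup_iff _ _).1 (htameF g hg) x hx)
    (valuation_over_two h hR hσ₀ hmove hell) V.attach P Q
    (fun v _ w _ e => hsame v w _ _ (congrArg Subtype.val e))
    (fun v _ w _ e => hsame v w _ _ (congrArg Subtype.val e))
    (fun v _ w _ e => by
      have e' := congrArg Subtype.val e
      obtain rfl := hsame v w _ _ e'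
      exact placeAt_ne h hR hσ₀ hmove (hfrob v) (hr1 v) (hg1 v) (hg2 v) e')
    (radical_pos hrad₁ fun ι c hc hcF => hcc₁ ι c hc (hfixF.1 hcF)) hrad₁.sq hrad₂.sq
    (fun g hg => hrad₁.apply_eq g (htameF g hg)) (fun g hg => hrad₂.apply_eq g (htameF g hg))
    hdeep₁ hdeep₂
    (fun R' hR' => by
      obtain ⟨q, hq⟩ := exists_prime_mem R'.1
      haveI : Fact (q : ℕ).Prime := ⟨q.2⟩
      have hq2 : (q : ℕ) ≠ 2 := fun e => R'.2 (by rw [e] at hq; exact_mod_cast hq)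
      by_cases hqV : (q : ℕ) ∈ V
      · rcases hcover ⟨q, hqV⟩ R' hq with e | e
        · exact absurd e (hR' _ (Finset.mem_attach _ _)).1
        · exact absurd e (hR' _ (Finset.mem_attach _ _)).2
      · obtain ⟨g, hg⟩ := exists_placeAt F (q : ℕ) R'.1 hq
        rw [hg]
        refine tame_eq_zero_of_even _ ?_ ?_
        · exact even_ordAt hl₁ ha₁ hrad₁ g fun t ht htF =>
            hunr₁ q q.2 hq2 _ (liesOverPrime_inv_smul (q : ℕ) g) _ (conj_mem g ht) (hfixF.1 htF)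
        · exact even_ordAt hl₂ ha₂ hrad₂ g fun t ht htF =>
            hunr₂ q q.2 hq2 hqV _ (liesOverPrime_inv_smul (q : ℕ) g) _ (conj_mem g ht)
              (hfixF.1 htF))
  rw [← Finset.sum_attach V, ← hsum]
  refine Finset.sum_congr rfl fun v _ => ?_
  show _ = tame (placeAt F v (g₁ v)⁻¹) a b + tame (placeAt F v (g₂ v)⁻¹) a b
  obtain ⟨-, hτ, hτmove, -, -, -, -, hsq⟩ := hloc v v.2
  have hconj : ∀ g, ∀ t ∈ inG (v : ℕ), InCubic r R (g⁻¹ * t * g) := fun g t ht =>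
    Or.inl (map_conj_inv_of_eq_one (hr1 v t ht) g)
  have hin : InertiaFixesF (v : ℕ) F := fun g t ht => hfixF.2 (hconj g t ht)
  have hzero : ∀ g, ∀ t ∈ (padicPlace (v : ℕ)).inertiaSubgroupIn ℚ, ψ₁ (g⁻¹ * t * g) = 0 :=
    fun g t ht => hunr₁ v (hV v v.2).1 (hV v v.2).2 _ (liesOverPrime_inv_smul (v : ℕ) g) _
      (conj_mem g ht) (hconj g t ht)
  have hv2 : (v : ℕ) ≠ 2 := (hV v v.2).2
  rw [tame_split hv2 (hfrob v) hτ hτmove hin hl₁ ha₁ hzero hrad₁ hrad₂ (g₁ v)⁻¹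
      (by rw [inv_inv]; exact hfixF.2 (hg1 v)),
    tame_inert hv2 (hfrob v) hτ hτmove hin hl₁ ha₁ hzero hrad₁ hrad₂ (g₂ v)⁻¹
      (by rw [inv_inv]; exact fun e => hg2 v (hfixF.1 e))
      (by rw [inv_inv]; exact hfixF.2 (Or.inl hsq))]
  simp only [inv_inv]

end Fermat.Agent.Two.Recip
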