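import Fermat.Agent.Two.Recip.SquareClasses
import Fermat.Agent.Two.Tangent.Basic
import Fermat.Agent.Mazur.Eisenstein.Unram
import Mathlib.NumberTheory.RamificationInertia.Valuation

/-!
# The quadratic characters of the splitting field unramified outside two have a common level
-/

set_option autoImplicit false
set_option linter.style.haveILetI false

noncomputable section

namespace Fermat.Agent.Two.Recip

open IsDedekindDomain
open Fermat.Agent.Arith Fermat.Agent.Mazur.Eisenstein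
open scoped NumberField Pointwise

/-- A square root fixed by the inertia group forces an even exponent. -/
theorem even_ordAt_of_inertia_fixed {F M : Type} [Field F] [NumberField F] [Field M] [NumberField M]
    [Algebra F M] [IsGalois F M] (P : HeightOneSpectrum (𝓞 F)) (Q : Ideal (𝓞 M)) [Q.IsPrime]
    [Q.LiesOver P.asIdeal] {a : Fˣ} {α : M} (hα : α ^ 2 = algebraMap F M (a : F))
    (hfix : ∀ τ : M ≃ₐ[F] M, τ ∈ Q.inertia (M ≃ₐ[F] M) → τ α = α) :
    Even (ordAt P a) := by
  classical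
  set I := Q.inertia (M ≃ₐ[F] M) with hI
  let E : IntermediateField F M := FixedPoints.intermediateField I
  haveI : IsGaloisGroup I E M := IsGaloisGroup.subgroup (M ≃ₐ[F] M) F M I
  haveI : NumberField E := NumberField.of_intermediateField E
  haveI : IsGaloisGroup I (𝓞 E) (𝓞 M) := IsGaloisGroup.of_isFractionRing I (𝓞 E) (𝓞 M) E M
  haveI : IsGaloisGroup (M ≃ₐ[F] M) (𝓞 F) (𝓞 M) :=
    IsGaloisGroup.of_isFractionRing (M ≃ₐ[F] M) (𝓞 F) (𝓞 M) F M
  have hQ0 : Q ≠ ⊥ := Ideal.ne_bot_of_liesOver_of_ne_bot P.ne_bot Q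
  set QE : Ideal (𝓞 E) := Q.comap (algebraMap (𝓞 E) (𝓞 M)) with hQE
  haveI : Q.LiesOver QE := ⟨rfl⟩
  haveI : QE.IsPrime := Ideal.IsPrime.comap _
  haveI : QE.LiesOver P.asIdeal := Ideal.LiesOver.tower_bot Q QE _
  have hQE0 : QE ≠ ⊥ := Ideal.ne_bot_of_liesOver_of_ne_bot P.ne_bot QE
  haveI : QE.IsMaximal := Ideal.IsPrime.isMaximal inferInstance hQE0
  haveI : P.asIdeal.IsMaximal := P.isMaximal
  haveI : Finite (𝓞 E ⧸ QE) := Ideal.finiteQuotientOfFreeOfNeBot QE hQE0
  haveI : Finite (𝓞 F ⧸ P.asIdeal) := Ideal.finiteQuotientOfFreeOfNeBot P.asIdeal P.ne_bot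
  let q : HeightOneSpectrum (𝓞 M) := ⟨Q, inferInstance, hQ0⟩
  let qE : HeightOneSpectrum (𝓞 E) := ⟨QE, inferInstance, hQE0⟩
  haveI : q.asIdeal.LiesOver P.asIdeal := ‹Q.LiesOver P.asIdeal›
  haveI : q.asIdeal.LiesOver qE.asIdeal := ‹Q.LiesOver QE›
  have hIcard : Nat.card (Q.inertia I) = Nat.card I := by
    have htop : Q.inertia I = ⊤ := (Subgroup.eq_top_iff' _).mpr fun g => g.2
    rw [htop, Subgroup.card_top]
  have h1 : P.asIdeal.ramificationIdx' q.asIdeal = Nat.card I := by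
    rw [Ideal.ramificationIdx'_eq_ramificationIdx _ _ P.ne_bot,
      ← Ideal.ramificationIdxIn_eq_ramificationIdx P.asIdeal Q (M ≃ₐ[F] M), hI,
      Ideal.card_inertia_eq_ramificationIdxIn (G := M ≃ₐ[F] M) P.asIdeal Q]
  have h2 : qE.asIdeal.ramificationIdx' q.asIdeal = Nat.card I := by
    rw [Ideal.ramificationIdx'_eq_ramificationIdx _ _ qE.ne_bot,
      ← Ideal.ramificationIdxIn_eq_ramificationIdx QE Q I, ← hIcard,
      Ideal.card_inertia_eq_ramificationIdxIn (G := I) QE Q]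
  have hαE : α ∈ E := fun τ => hfix τ.1 τ.2
  have hα0 : α ≠ 0 := fun h => a.ne_zero ((algebraMap F M).injective (by
    rw [← hα, h, zero_pow two_ne_zero, map_zero]))
  let β : Eˣ := Units.mk0 ⟨α, hαE⟩ fun h => hα0 (congrArg Subtype.val h)
  have e1 := P.valuation_liesOver M q (a : F)
  have e2 := qE.valuation_liesOver M q (β : E)
  rw [show algebraMap E M (β : E) = α from rfl, h2, valuation_eq_exp] at e2
  rw [← hα, h1, valuation_eq_exp, map_pow, ← e2, ← WithZero.exp_nsmul, ← WithZero.exp_nsmul,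
    ← WithZero.exp_nsmul, WithZero.exp_inj, nsmul_eq_mul, nsmul_eq_mul, nsmul_eq_mul] at e1
  have hI0 : (Nat.card I : ℤ) ≠ 0 := Int.natCast_ne_zero.mpr Nat.card_pos.ne'
  refine ⟨ordAt qE β, mul_left_cancel₀ hI0 ?_⟩
  push_cast at e1
  linear_combination -e1

/-- A homomorphism to `ℤ/2` on a normal subgroup of finite level has a square root radical. -/
theorem exists_sqRadical (H : Subgroup GQ) [H.Normal] (hH : IsOpen (H : Set GQ)) (ψ : GQ → ZMod 2)
    (hadd : ∀ g ∈ H, ∀ h ∈ H, ψ (g * h) = ψ g + ψ h)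
    (hlevel : CFT.Tangent.IsFiniteLevel ψ) {g₀ : GQ} (hg₀ : g₀ ∈ H) (hψ : ψ g₀ = 1) :
    ∃ α : QBar, α ≠ 0 ∧ g₀ α = -α ∧ ∀ h ∈ H, ψ h = 0 → h α = α := by
  have h1 : ψ 1 = 0 := by
    have := hadd 1 H.one_mem 1 H.one_mem
    rw [one_mul] at this
    exact left_eq_add.mp this
  let H₀ : Subgroup GQ :=
    { carrier := {g | g ∈ H ∧ ψ g = 0}
      one_mem' := ⟨H.one_mem, h1⟩
      mul_mem' := fun {a b} ha hb => ⟨H.mul_mem ha.1 hb.1, by rw [hadd a ha.1 b hb.1, ha.2, hb.2, add_zero]⟩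
      inv_mem' := fun {a} ha => ⟨H.inv_mem ha.1, by
        have := hadd a ha.1 a⁻¹ (H.inv_mem ha.1)
        rw [mul_inv_cancel, h1, ha.2, zero_add] at this
        exact this.symm⟩ }
  obtain ⟨L₀, hL₀, h₀⟩ := hlevel
  haveI := hL₀
  have hopen : IsOpen (H₀ : Set GQ) := by
    refine Subgroup.isOpen_mono (H₁ := H ⊓ L₀.fixingSubgroup) (fun g hg => ⟨hg.1, h₀ g fun x hx =>
      (IntermediateField.mem_fixingSubgroup_iff _ _).mp hg.2 x hx⟩) ?_
    exact hH.inter (IntermediateField.fixingSubgroup_isOpen L₀)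
  have hg₀' : g₀ ∉ H₀ := fun h => one_ne_zero (hψ.symm.trans h.2)
  obtain ⟨x, hx, hgx⟩ : ∃ x : QBar, (∀ h ∈ H₀, h x = x) ∧ g₀ x ≠ x := by
    by_contra hall
    push Not at hall
    refine hg₀' ?_
    rw [show H₀ = (IntermediateField.fixedField H₀).fixingSubgroup from
      (InfiniteGalois.fixingSubgroup_fixedField ⟨H₀, H₀.isClosed_of_isOpen hopen⟩).symm,
      IntermediateField.mem_fixingSubgroup_iff]
    exact fun x hx => hall x fun h hh => hx ⟨h, hh⟩
  have hsq : g₀ * g₀ ∈ H₀ := ⟨H.mul_mem hg₀ hg₀, by rw [hadd _ hg₀ _ hg₀, hψ]; decide⟩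
  refine ⟨x - g₀ x, sub_ne_zero.mpr (Ne.symm hgx), ?_, fun h hh hψh => ?_⟩
  · rw [map_sub, neg_sub]
    congr 1
    exact hx _ hsq
  · have hconj : g₀⁻¹ * h * g₀ ∈ H₀ := by
      refine ⟨H.mul_mem (H.mul_mem (H.inv_mem hg₀) hh) hg₀, ?_⟩
      rw [hadd _ (H.mul_mem (H.inv_mem hg₀) hh) _ hg₀, hadd _ (H.inv_mem hg₀) _ hh, hψh, add_zero,
        ← hadd _ (H.inv_mem hg₀) _ hg₀, inv_mul_cancel, h1]
    have := congrArg g₀ (hx _ hconj)
    rw [← AlgEquiv.mul_apply, mul_assoc, mul_inv_cancel_left, AlgEquiv.mul_apply] at this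
    rw [map_sub, hx h ⟨hh, hψh⟩, this]

theorem below_smul (F : IntermediateField ℚ QBar) [Normal ℚ F] (g : GQ) (A : ValuationSubring QBar) :
    below F (g • A) = AlgEquiv.restrictNormalHom F g • below F A := by
  ext x
  rw [Ideal.mem_pointwise_smul_iff_inv_smul_mem, mem_below, mem_below, ← map_inv]
  have hc : ((((AlgEquiv.restrictNormalHom F g⁻¹ • x : 𝓞 F) : F)) : QBar) =
      g⁻¹ ((x : F) : QBar) :=
    AlgEquiv.restrictNormal_commutes g⁻¹ F (x : F)
  rw [hc]
  conv_lhs => rw [show ((x : F) : QBar) = g • (g⁻¹ ((x : F) : QBar)) from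
    (g.apply_symm_apply _).symm]
  exact smul_mem_nonunits_smul_iff

/-- Every prime of a Galois number field is below a place. -/
theorem exists_below_eq (F : IntermediateField ℚ QBar) [FiniteDimensional ℚ F] [IsGalois ℚ F]
    (P : Ideal (𝓞 F)) [P.IsPrime] {q : ℕ} (hq : q.Prime) (hP : (q : 𝓞 F) ∈ P) :
    ∃ A : ValuationSubring QBar, A.LiesOverPrime q ∧ below F A = P := by
  haveI : NumberField F := { to_finiteDimensional := inferInstance }
  haveI : IsGaloisGroup Gal(F/ℚ) ℤ (𝓞 F) := IsGaloisGroup.of_isFractionRing Gal(F/ℚ) ℤ (𝓞 F) ℚ F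
  obtain ⟨A, hA⟩ := exists_liesOverPrime hq
  haveI := below_liesOver F hA hq
  haveI : P.LiesOver (Ideal.span {(q : ℤ)}) :=
    (Ideal.liesOver_span_iff Ideal.IsPrime.ne_top' (Nat.prime_iff_prime_int.mp hq)).mpr
      (by simpa using hP)
  haveI : (Ideal.span {(q : ℤ)}).IsMaximal :=
    PrincipalIdealRing.isMaximal_of_irreducible (Nat.prime_iff_prime_int.mp hq).irreducible
  obtain ⟨τ, hτ⟩ := Ideal.exists_smul_eq_of_isGaloisGroup (Ideal.span {(q : ℤ)}) (below F A) P
    Gal(F/ℚ)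
  obtain ⟨g, rfl⟩ := AlgEquiv.restrictNormalHom_surjective (K₁ := F) QBar τ
  exact ⟨g • A, liesOverPrime_smul_iff.mpr hA, by rw [below_smul, hτ]⟩

/-- **Finiteness of the quadratic characters unramified outside `2`.** -/
theorem hKummerFinite {k : Type} [Field k] (r : GQ →* Deform.M2 k)
    (hlevel : GaloisFactorsThroughFiniteLevel r) : Tangent.HKummerFinite r := by
  classical
  obtain ⟨L₀, hL₀, h₀⟩ := hlevel
  haveI := hL₀
  let H : Subgroup GQ := galKer r
  have hopen : IsOpen (H : Set GQ) := isOpen_galKer_of_fixing L₀ h₀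
  let F : IntermediateField ℚ QBar := IntermediateField.fixedField H
  have hFH : F.fixingSubgroup = H :=
    InfiniteGalois.fixingSubgroup_fixedField ⟨H, H.isClosed_of_isOpen hopen⟩
  haveI : FiniteDimensional ℚ F :=
    (InfiniteGalois.isOpen_iff_finite F).mp (by rw [hFH]; exact hopen)
  haveI : IsGalois ℚ F := (InfiniteGalois.normal_iff_isGalois F).mp (by
    rw [hFH]; exact galKer_normal r)
  haveI : NumberField F := { to_finiteDimensional := inferInstance }
  have hS : {P : HeightOneSpectrum (𝓞 F) | P.asIdeal ∣ Ideal.span {(2 : 𝓞 F)}}.Finite :=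
    Ideal.finite_factors (by simp)
  obtain ⟨T, hT, hTs⟩ := exists_finite_evenOrd (F := F) hS.toFinset
  choose root hroot using fun t : Fˣ => IsAlgClosed.exists_pow_nat_eq ((t : F) : QBar) two_pos
  let R : IntermediateField ℚ QBar := F ⊔ IntermediateField.adjoin ℚ (root '' T)
  haveI : FiniteDimensional ℚ (IntermediateField.adjoin ℚ (root '' T)) := by
    haveI : Finite (root '' T) := (hT.image _).to_subtype
    exact IntermediateField.finiteDimensional_adjoin fun y _ => Algebra.IsIntegral.isIntegral y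
  refine ⟨R, inferInstance, fun ψ hψ hadd hunr σ hσ hσR => ?_⟩
  have hmemH : ∀ g, g ∈ H ↔ r g = 1 := fun g => mem_galKer
  by_contra hne
  have hψσ : ψ σ = 1 := by
    revert hne
    generalize ψ σ = d
    revert d
    decide
  obtain ⟨α, hα0, hσα, hfix⟩ := exists_sqRadical H hopen ψ
    (fun g hg h hh => hadd g h ((hmemH g).mp hg) ((hmemH h).mp hh)) hψ ((hmemH σ).mpr hσ) hψσ
  -- the square lies in `F`
  have hneg : ∀ h ∈ H, h α = α ∨ h α = -α := by
    intro h hh
    by_cases h0 : ψ h = 0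
    · exact Or.inl (hfix h hh h0)
    · refine Or.inr ?_
      have hψh : ψ h = 1 := by
        revert h0
        generalize ψ h = d
        revert d
        decide
      have hmem : h * σ ∈ H := H.mul_mem hh ((hmemH σ).mpr hσ)
      have h2 := hfix _ hmem (by
        rw [hadd h σ ((hmemH h).mp hh) hσ, hψh, hψσ]; decide)
      rw [AlgEquiv.mul_apply, hσα, map_neg] at h2
      exact neg_eq_iff_eq_neg.mp h2
  have hsqF : α ^ 2 ∈ F := fun h => by
    show (h : GQ) (α ^ 2) = α ^ 2
    rcases hneg h.1 h.2 with e | e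
    · rw [map_pow, e]
    · rw [map_pow, e, neg_sq]
  let a : Fˣ := Units.mk0 ⟨α ^ 2, hsqF⟩ fun h => pow_ne_zero 2 hα0 (congrArg Subtype.val h)
  -- even exponents away from two
  obtain ⟨t, ht, c, hc⟩ := hTs a fun P hP => by
    have hP2 : (2 : 𝓞 F) ∉ P.asIdeal := fun h => hP (hS.mem_toFinset.mpr
      (Ideal.dvd_span_singleton.mpr h))
    haveI : P.asIdeal.IsMaximal := P.isMaximal
    haveI : NeZero P.asIdeal := ⟨P.ne_bot⟩
    set q := Ideal.absNorm (P.asIdeal.under ℤ)
    have hq : q.Prime := Nat.absNorm_under_prime P.asIdeal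
    have hqP : (q : 𝓞 F) ∈ P.asIdeal := Int.absNorm_under_mem P.asIdeal
    obtain ⟨A, hA, hAP⟩ := exists_below_eq F P.asIdeal hq hqP
    have hq2 : q ≠ 2 := fun h => hP2 (by rw [h] at hqP; exact_mod_cast hqP)
    -- a Galois field containing `F` and `α`
    let M : IntermediateField ℚ QBar :=
      IntermediateField.normalClosure ℚ (F ⊔ IntermediateField.adjoin ℚ {α} : IntermediateField ℚ QBar) QBar
    haveI : FiniteDimensional ℚ (IntermediateField.adjoin ℚ {α}) :=
      IntermediateField.adjoin.finiteDimensional (Algebra.IsIntegral.isIntegral α)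
    haveI : Normal ℚ M := normalClosure.normal ℚ _ QBar
    haveI : IsGalois ℚ M := ⟨⟩
    haveI : NumberField M := { to_finiteDimensional := inferInstance }
    have hle : F ≤ M :=
      (le_sup_left : F ≤ F ⊔ IntermediateField.adjoin ℚ {α}).trans (IntermediateField.le_normalClosure _)
    have hαM : α ∈ M := IntermediateField.le_normalClosure _
      ((le_sup_right : IntermediateField.adjoin ℚ {α} ≤ F ⊔ IntermediateField.adjoin ℚ {α})
        (IntermediateField.mem_adjoin_simple_self ℚ α))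
    letI : Algebra F M := (IntermediateField.inclusion hle).toRingHom.toAlgebra
    haveI : IsScalarTower ℚ F M := IsScalarTower.of_algebraMap_eq fun _ => rfl
    haveI : IsGalois F M := IsGalois.tower_top_of_isGalois ℚ F M
    haveI := below_liesOver M hA hq
    haveI : (below M A).LiesOver P.asIdeal := ⟨by
      rw [← hAP]
      ext x
      rfl⟩
    refine even_ordAt_of_inertia_fixed P (below M A) (α := (⟨α, hαM⟩ : M)) (Subtype.ext rfl)
      fun τ hτ => ?_
    obtain ⟨g, hg, hgτ⟩ := exists_inertia_restrict M hA hq (τ := τ.restrictScalars ℚ) hτ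
    have hgH : g ∈ H := by
      rw [← hFH, IntermediateField.mem_fixingSubgroup_iff]
      intro x hx
      rw [hgτ ⟨x, hle hx⟩]
      exact congrArg Subtype.val (τ.commutes ⟨x, hx⟩)
    refine Subtype.ext ((hgτ ⟨α, hαM⟩).symm.trans ?_)
    exact hfix g hgH (hunr q hq hq2 A hA g hg ((hmemH g).mp hgH))
  -- so `σ` fixes `α`
  have hαR : α ∈ R := by
    have hrt : root t ∈ R := (le_sup_right : IntermediateField.adjoin ℚ (root '' T) ≤ R)
      (IntermediateField.subset_adjoin _ _ ⟨t, ht, rfl⟩)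
    have hcR : ((c : F) : QBar) ∈ R := (le_sup_left : F ≤ R) (c : F).2
    have hsq : α ^ 2 = (root t * ((c : F) : QBar)) ^ 2 := by
      rw [mul_pow, hroot]
      exact congrArg (fun u : Fˣ => (((u : F)) : QBar)) hc
    rcases sq_eq_sq_iff_eq_or_eq_neg.mp hsq with e | e <;> rw [e]
    · exact mul_mem hrt hcR
    · exact neg_mem (mul_mem hrt hcR)
  have h3 := hσR α hαR
  rw [hσα] at h3
  exact hα0 (by linear_combination (-1 / 2 : QBar) * h3)

end Fermat.Agent.Two.Recip
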