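import Fermat.Agent.Two.Recip.RingClassRat
import Fermat.Agent.CFT.Idele.Decomp

/-!
# The cubic character at the split primes

At a split odd prime the value at an element of valuation one at the distinguished place and zero at
the other is trivial iff the Frobenius elements fix `H`.
-/

set_option autoImplicit false
set_option synthInstance.maxHeartbeats 200000
set_option linter.unusedSectionVars false
set_option linter.style.haveILetI false

noncomputable section

namespace Fermat.Agent.Two.Recip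

open ExtCitation Fermat.Agent.Arith IntermediateField Fermat.Agent.CFT.Local Fermat.Agent.CFT.Idele

local instance factPrimeTwoRing (q : Nat.Primes) : Fact (q : ℕ).Prime := ⟨q.2⟩

variable {H : IntermediateField ℚ QBar} [FiniteDimensional ℚ H] [Normal ℚ H]
  {K : IntermediateField ℚ QBar} [FiniteDimensional ℚ K] [Normal ℚ K]

variable (H K) in
/-- The automorphisms of `H(ζ₃)` fixing `K`. -/
def baseGroup : Subgroup (fieldL H ≃ₐ[ℚ] fieldL H) := K.fixingSubgroup.map (res (fieldL H))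

theorem mem_baseGroup (hKH : K ≤ H) {g : GQ} :
    res (fieldL H) g ∈ baseGroup H K ↔ ∀ x ∈ K, g x = x := by
  constructor
  · rintro ⟨h, h1, e⟩ x hx
    rw [← res_apply (fieldL H) g ⟨x, le_fieldL H (hKH hx)⟩, ← e, res_apply]
    exact (IntermediateField.mem_fixingSubgroup_iff _ _).1 h1 x hx
  · exact fun h => ⟨g, (IntermediateField.mem_fixingSubgroup_iff _ _).2 h, rfl⟩

section

variable (hKH : K ≤ H) (hK : Module.finrank ℚ K = 2) (hH : Module.finrank ℚ H = 6)

include hKH hK hH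

/-- The automorphisms fixing `K` commute with the step group. -/
theorem baseGroup_comm {a s : fieldL H ≃ₐ[ℚ] fieldL H} (ha : a ∈ baseGroup H K)
    (hs : s ∈ stepGroup H K) : a * s = s * a := by
  obtain ⟨g, rfl⟩ := AlgEquiv.restrictNormalHom_surjective (K₁ := fieldL H) QBar a
  obtain ⟨h, rfl⟩ := AlgEquiv.restrictNormalHom_surjective (K₁ := fieldL H) QBar s
  obtain ⟨hh, hω⟩ := (mem_stepGroup H K hKH).1 hs
  have hg := (mem_baseGroup hKH).1 ha
  haveI : Fact (Nat.Prime 3) := ⟨Nat.prime_three⟩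
  haveI : IsCyclic (cubicGroup H K hKH) := isCyclic_of_prime_card (card_cubicGroup H K hKH hK hH)
  have hc : res H g * res H h = res H h * res H g := by
    obtain ⟨γ, hγ⟩ := IsCyclic.exists_generator (α := cubicGroup H K hKH)
    obtain ⟨i, hi⟩ := hγ ⟨res H g, (mem_cubicGroup H K hKH).2 hg⟩
    obtain ⟨j, hj⟩ := hγ ⟨res H h, (mem_cubicGroup H K hKH).2 hh⟩
    have := congrArg Subtype.val (Commute.zpow_zpow_self γ i j).eq
    simp only [hi, hj, Subgroup.coe_mul] at this
    exact this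
  rw [← map_mul, ← map_mul, eq_comm, ← inv_mul_eq_one, ← map_inv, ← map_mul]
  refine res_eq_one_of_fixes H ((IntermediateField.mem_fixingSubgroup_iff _ _).1
    ((res_eq_one_iff H).1 (by rw [map_mul, map_inv, map_mul, map_mul, hc, inv_mul_cancel]))) ?_
  have e : h (g omega3) = g omega3 := by
    rcases map_omega3 g with e | e <;> rw [e]
    · exact hω
    · rw [map_pow, hω]
  have e2 : (g * h) omega3 = (h * g) omega3 := by
    rw [AlgEquiv.mul_apply, AlgEquiv.mul_apply, hω, e]
  rw [AlgEquiv.mul_apply, e2]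
  exact (h * g).symm_apply_apply _

/-- Two automorphisms fixing `K` outside the step group have product inside. -/
theorem mul_mem_stepGroup {a b : fieldL H ≃ₐ[ℚ] fieldL H} (ha : a ∈ baseGroup H K)
    (hb : b ∈ baseGroup H K) (ha' : a ∉ stepGroup H K) (hb' : b ∉ stepGroup H K) :
    a * b ∈ stepGroup H K := by
  obtain ⟨g, rfl⟩ := AlgEquiv.restrictNormalHom_surjective (K₁ := fieldL H) QBar a
  obtain ⟨h, rfl⟩ := AlgEquiv.restrictNormalHom_surjective (K₁ := fieldL H) QBar b
  have hg := (mem_baseGroup hKH).1 ha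
  have hh := (mem_baseGroup hKH).1 hb
  have e1 : g omega3 = omega3 ^ 2 :=
    (map_omega3 g).resolve_left fun e => ha' ((mem_stepGroup H K hKH).2 ⟨hg, e⟩)
  have e2 : h omega3 = omega3 ^ 2 :=
    (map_omega3 h).resolve_left fun e => hb' ((mem_stepGroup H K hKH).2 ⟨hh, e⟩)
  rw [← map_mul]
  refine (mem_stepGroup H K hKH).2 ⟨fun x hx => by rw [AlgEquiv.mul_apply, hh x hx, hg x hx], ?_⟩
  rw [AlgEquiv.mul_apply, e2, map_pow, e1, ← pow_mul, show 2 * 2 = 3 + 1 by norm_num, pow_add,
    omega3_spec.pow_eq_one, one_mul, pow_one]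

end

variable (hKH : K ≤ H) (hK : Module.finrank ℚ K = 2) (hH : Module.finrank ℚ H = 6)
  (hun : UnramAwayTwo H K) (q : Nat.Primes) (π : Kˣ)

section

variable (h1 : ‖emb q ((π : K) : QBar)‖ = ((q : ℕ) : ℝ)⁻¹)
  (h2 : ∀ g : GQ, (¬ ∀ x ∈ K, g x = x) → ‖emb q (g ((π : K) : QBar))‖ = 1)

include hKH h1 h2 in
/-- The decomposition group fixes `K`. -/
theorem fixes_of_mem_range {g : GQ}
    (hg : res (fieldL H) g ∈ (toGlobal (q : ℕ) (fieldL H)).range) : ∀ x ∈ K, g x = x := by
  obtain ⟨t, ht⟩ := hg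
  by_contra hne
  have e := h2 g hne
  rw [← coe_toL hKH π, ← res_apply, ← ht, padicEmbedding_toGlobal] at e
  have e' : ‖t (localEmb (q : ℕ) (fieldL H) (toL hKH π : fieldL H))‖ = 1 := e
  rw [norm_algEquiv, norm_localEmb, coe_toL] at e'
  exact (inv_lt_one_of_one_lt₀ (Nat.one_lt_cast.2 q.2.one_lt)).ne (h1.symm.trans e')

include hKH h1 h2 hun in
theorem fixes_of_mem_inertia (hq : (q : ℕ) ≠ 2) {g : GQ}
    (hg : g ∈ (padicPlace (q : ℕ)).inertiaSubgroupIn ℚ) : ∀ x ∈ H, g x = x := by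
  obtain ⟨σ, -, hσ⟩ := exists_mem_inertia_of_inertia (q : ℕ) (fieldL H) hg
  exact hun q q.2 hq _ (padicPlace_liesOverPrime (q : ℕ)) g hg
    (fixes_of_mem_range hKH q π h1 h2 ⟨σ, hσ⟩)

set_option maxHeartbeats 1000000 in
include h1 h2 in
/-- A decomposition element moving `H` gives a nontrivial value. -/
theorem ringChar_ne_one (hq : (q : ℕ) ≠ 2) {g : GQ}
    (hg : res (fieldL H) g ∈ (toGlobal (q : ℕ) (fieldL H)).range) (hgH : ¬ ∀ x ∈ H, g x = x) :
    ringChar hKH hK hH hun q π ≠ 1 := by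
  classical
  set c := cubicStep H K hKH hK hH hun with hc
  set N := baseGroup H K with hN
  set D := (toGlobal (q : ℕ) (fieldL H)).range with hD
  have hDN : D ≤ N := fun σ hσ => by
    obtain ⟨g', rfl⟩ := AlgEquiv.restrictNormalHom_surjective (K₁ := fieldL H) QBar σ
    exact (mem_baseGroup hKH).2 (fixes_of_mem_range hKH q π h1 h2 hσ)
  have hS : c.S ≤ D := by
    obtain ⟨e4, m4⟩ := res_pow_four H K hKH hK hH (fixes_of_mem_range hKH q π h1 h2 hg)
    have hne : (⟨_, m4⟩ : c.S) ≠ 1 := fun e => by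
      refine hgH ((IntermediateField.mem_fixingSubgroup_iff _ _).1 ((res_eq_one_iff H).1 ?_))
      rw [← e4, ← resTo_res (le_fieldL H), show res (fieldL H) (g ^ 4) = 1 from congrArg Subtype.val e,
        map_one]
    intro s hs
    haveI : Fact (Nat.Prime 3) := ⟨Nat.prime_three⟩
    have htop := zpowers_eq_top_of_prime_card c.card hne
    obtain ⟨i, hi⟩ : (⟨s, hs⟩ : c.S) ∈ Subgroup.zpowers (⟨_, m4⟩ : c.S) := htop ▸ Subgroup.mem_top _
    have hi' := congrArg Subtype.val hi
    simp only [Subgroup.coe_zpow] at hi'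
    rw [← hi']
    refine D.zpow_mem ?_ i
    rw [map_pow]
    exact D.pow_mem hg 4
  set y : (E (fieldL H) q)ˣ :=
    Units.map (localEmb (q : ℕ) (fieldL H)).toMonoidHom (toL hKH π) with hy
  have hy_smul : ∀ t, t • y = val (compAt q (toL hKH π)) q (toGlobal (q : ℕ) (fieldL H) t) :=
    fun t => by
    rw [val_compAt_self]
    exact Units.ext (localEmb_toGlobal (q : ℕ) (fieldL H) t _).symm
  have hfixy : ∀ t, toGlobal (q : ℕ) (fieldL H) t ∈ c.S → t • y = y := fun t ht => by
    rw [hy_smul, val_compAt_self, smul_toL hKH ⟨_, ht⟩]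
  have hy3 : ¬ (3 : ℤ) ∣ ordZ (E (fieldL H) q) y := fun h3 => by
    have hnorm : ‖(y : E (fieldL H) q)‖ = ((q : ℕ) : ℝ)⁻¹ := by rw [← h1]; rfl
    have h3' : 3 ∣ Nat.card (inertia (E (fieldL H) q)) :=
      Int.natCast_dvd_natCast.1 (h3.trans (ordZ_dvd_card_inertia (E (fieldL H) q) y hnorm))
    haveI : Fact (Nat.Prime 3) := ⟨Nat.prime_three⟩
    obtain ⟨⟨t, ht⟩, hord⟩ := exists_prime_orderOf_dvd_card' 3 h3'
    have ht3 : t ^ 3 = 1 := congrArg Subtype.val (hord ▸ pow_orderOf_eq_one _)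
    obtain ⟨g', hg'⟩ := AlgEquiv.restrictNormalHom_surjective (K₁ := fieldL H) QBar
      (toGlobal (q : ℕ) (fieldL H) t)
    obtain ⟨-, m4⟩ := res_pow_four H K hKH hK hH
      (fixes_of_mem_range hKH q π h1 h2 (g := g') (by rw [hg']; exact ⟨t, rfl⟩))
    rw [map_pow, hg', ← map_pow, pow_succ, ht3, one_mul] at m4
    have h1' := c.unram q hq t ht m4
    subst h1'
    rw [show (⟨1, ht⟩ : inertia (E (fieldL H) q)) = 1 from rfl, orderOf_one] at hord
    norm_num at hord
  have hfix : ∀ s ∈ c.S, s • locIdl q y = locIdl q y := fun s hs => by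
    obtain ⟨t, rfl⟩ := hS hs
    rw [smul_locIdl, hfixy t hs]
  set fL : fixedBy c.S (idl (fieldL H)) := ⟨locIdl q y, fun s hs => hfix s hs⟩
  have n1 : c.inv fL ≠ 1 := c.inv_locIdl_ne_one q hS y hfixy hy3 fL rfl
  set P : fixedBy c.S (idl (fieldL H)) := compFix hKH q π
  -- replace the idele of `π` by one supported at the places over `q` fixing `K`
  have hrepl : ∀ G : fixedBy c.S (idl (fieldL H)),
      (∀ σ ∈ N, val (G : idl (fieldL H)) q σ = val (compAt q (toL hKH π)) q σ) →
      (∀ σ ∉ N, val (G : idl (fieldL H)) q σ = 1) →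
      (∀ q', q' ≠ q → ∀ σ, val (G : idl (fieldL H)) q' σ = 1) →
      c.inv P = c.inv G := fun G hG1 hG2 hG3 => by
    have key : c.inv (G⁻¹ * P) = 1 := by
      refine c.inv_of_unit _ fun q' σ => Or.inl ?_
      have e : val ((G⁻¹ * P : fixedBy c.S (idl (fieldL H))) : idl (fieldL H)) q' σ =
          (val (G : idl (fieldL H)) q' σ)⁻¹ * val (compAt q (toL hKH π)) q' σ := by
        show valHom q' σ _ = (valHom q' σ _)⁻¹ * valHom q' σ _
        rw [← map_inv, ← map_mul]
        rfl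
      rw [e]
      rcases eq_or_ne q' q with rfl | hne
      · by_cases hσ : σ ∈ N
        · rw [hG1 σ hσ, inv_mul_cancel, Units.val_one, norm_one, sub_self, norm_zero]
          exact ⟨rfl, fun _ => by norm_num⟩
        · rw [hG2 σ hσ, inv_one, one_mul, norm_val_compAt hKH q' π (res_lift _ σ)]
          refine ⟨h2 _ fun h => hσ ?_, fun e => absurd e hq⟩
          rw [← res_lift (fieldL H) σ]
          exact (mem_baseGroup hKH).2 h
      · rw [hG3 q' hne, val_compAt_of_ne q _ hne, inv_one, one_mul, Units.val_one, norm_one,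
          sub_self, norm_zero]
        exact ⟨rfl, fun _ => by norm_num⟩
    rwa [map_mul, map_inv, inv_mul_eq_one, eq_comm] at key
  show c.inv P ≠ 1
  by_cases hND : N ≤ D
  · rw [hrepl fL ?_ ?_ fun q' hne σ => val_locIdl_of_ne q y hne σ]
    · exact n1
    · intro σ hσ
      obtain ⟨t, rfl⟩ := hND hσ
      show val (locIdl q y) q _ = _
      rw [val_locIdl_self, hy_smul]
    · exact fun σ hσ => val_locIdl_of_notMem q y fun h => hσ (hDN h)
  obtain ⟨a, haN, haD⟩ := SetLike.not_le_iff_exists.1 hND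
  have hcomm : ∀ s ∈ c.S, a * s = s * a := fun s hs => baseGroup_comm hKH hK hH haN hs
  set fA : fixedBy c.S (idl (fieldL H)) :=
    ⟨a • locIdl q y, fun s hs => by rw [smul_smul, ← hcomm s hs, mul_smul, hfix s hs]⟩
  have eA : c.inv fA = c.inv fL := c.inv_smul fL fA a (fun s => hcomm s s.2) rfl
  have hval : ∀ q' σ, val ((fL * fA : fixedBy c.S (idl (fieldL H))) : idl (fieldL H)) q' σ =
      val (locIdl q y) q' σ * val (locIdl q y) q' (σ * a) := fun q' σ => by
    rw [← val_smul]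
    exact val_mul _ _ q' σ
  have hax : a • toL hKH π = toL hKH π := by
    obtain ⟨g', rfl⟩ := AlgEquiv.restrictNormalHom_surjective (K₁ := fieldL H) QBar a
    refine Units.ext (Subtype.ext ?_)
    show ((res (fieldL H) g' (toL hKH π : fieldL H) : fieldL H) : QBar) = _
    rw [res_apply, coe_toL]
    exact (mem_baseGroup hKH).1 haN _ (π : K).2
  rw [hrepl (fL * fA) ?_ ?_ ?_, map_mul, eA]
  · revert n1; generalize c.inv fL = v; revert v; decide
  · intro σ hσ
    rw [hval]
    by_cases hσD : σ ∈ D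
    · rw [val_locIdl_of_notMem q y (σ := σ * a) fun h => haD ((D.mul_mem_cancel_left hσD).1 h),
        mul_one]
      obtain ⟨t, rfl⟩ := hσD
      rw [val_locIdl_self, hy_smul]
    · obtain ⟨t, ht⟩ : σ * a ∈ D :=
        hS (mul_mem_stepGroup hKH hK hH hσ haN (fun h => hσD (hS h)) fun h => haD (hS h))
      rw [val_locIdl_of_notMem q y hσD, one_mul, ← ht, val_locIdl_self, hy_smul, ht,
        val_compAt_self, val_compAt_self, mul_smul, hax]
  · intro σ hσ
    rw [hval, val_locIdl_of_notMem q y fun h => hσ (hDN h),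
      val_locIdl_of_notMem q y (σ := σ * a) fun h => hσ ((N.mul_mem_cancel_right haN).1 (hDN h)),
      one_mul]
  · intro q' hne σ
    rw [hval, val_locIdl_of_ne q y hne, val_locIdl_of_ne q y hne, one_mul]

include h1 h2 in
/-- **The value at a split prime.** -/
theorem ringChar_eq_one_iff (hq : (q : ℕ) ≠ 2) :
    ringChar hKH hK hH hun q π = 1 ↔
      ∀ φ : GQ, (padicPlace (q : ℕ)).IsFrobeniusAt φ (q : ℕ) → ∀ x ∈ H, φ x = x := by
  constructor
  · intro h φ hφ
    by_contra hne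
    refine ringChar_ne_one hKH hK hH hun q π h1 h2 hq
      ((mem_range_toGlobal_iff (q : ℕ) (fieldL H) _).2 fun x hx => ?_) hne h
    rw [res_apply]
    exact map_mem_of_mem_decomposition (isFrobeniusAt_iff_forall_mem.1 hφ).1 hx
  · intro h
    obtain ⟨φ, hφ⟩ := exists_isFrobeniusAt (padicPlace_liesOverPrime (q : ℕ)) q.2
    have hin : ∀ g ∈ (padicPlace (q : ℕ)).inertiaSubgroupIn ℚ, ∀ x : H, g (x : QBar) = (x : QBar) :=
      fun g hg x => fixes_of_mem_inertia hKH hun q π h1 h2 hq hg x x.2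
    rw [ringChar_apply]
    refine (cubicStep H K hKH hK hH hun).inv_of_unit _ fun q' r => ?_
    rcases eq_or_ne q' q with rfl | hne
    · refine Or.inr (eq_bot_iff.2 fun t ht => ?_)
      have ht' : toGlobal (q' : ℕ) (fieldL H) t ∈ stepGroup H K := by
        have := (stepGroup_normal H K hKH).conj_mem _
          ((mem_semiStab _ (cubicStep H K hKH hK hH hun).S).1 ht) r
        simpa [mul_assoc] using this
      obtain ⟨τ, rfl⟩ := AlgEquiv.restrictNormalHom_surjective (K₁ := E (fieldL H) q') (Ω q') t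
      rw [toGlobal_restrict] at ht'
      obtain ⟨i, hi⟩ := exists_pow_restrict_eq H hin hφ τ
      have h1' : res H φ = 1 :=
        (res_eq_one_iff H).2 ((IntermediateField.mem_fixingSubgroup_iff _ _).2 (h φ hφ))
      rw [show AlgEquiv.restrictNormalHom H φ = 1 from h1', one_pow] at hi
      rw [Subgroup.mem_bot]
      refine toGlobal_injective (q' : ℕ) (fieldL H) ?_
      rw [map_one, toGlobal_restrict]
      exact res_eq_one_of_fixes H ((IntermediateField.mem_fixingSubgroup_iff _ _).1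
        ((res_eq_one_iff H).1 hi)) ((mem_stepGroup H K hKH).1 ht').2
    · refine Or.inl ?_
      rw [coe_compFix, val_compAt_of_ne q _ hne, Units.val_one, norm_one, sub_self, norm_zero]
      exact ⟨rfl, fun _ => by norm_num⟩

end

/-- **The cubic ring class character.** -/
theorem exists_ringClassChar (hKH : K ≤ H) (hK : Module.finrank ℚ K = 2)
    (hH : Module.finrank ℚ H = 6) (hun : UnramAwayTwo H K) :
    ∃ χ : Nat.Primes → Kˣ →* Multiplicative (ZMod 3),
      (∀ x, (Function.mulSupport fun q => χ q x).Finite) ∧ (∀ x, ∏ᶠ q, χ q x = 1) ∧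
      (∀ q (x : Kˣ), (∀ g : GQ, ‖emb q (g ((x : K) : QBar))‖ = 1) →
        ((q : ℕ) = 2 → ∀ g : GQ, ‖emb q (g ((x : K) : QBar)) - 1‖ ≤ 1 / 2) → χ q x = 1) ∧
      (∀ q (r : ℚˣ), χ q (ratK K r) = 1) ∧
      (∀ q (x : Kˣ) (σ : K ≃ₐ[ℚ] K), σ ≠ 1 → χ q (σ • x) = (χ q x)⁻¹) ∧
      ∀ q : Nat.Primes, (q : ℕ) ≠ 2 → ∀ π : Kˣ,
        ‖emb q ((π : K) : QBar)‖ = ((q : ℕ) : ℝ)⁻¹ →
        (∀ g : GQ, (¬ ∀ x ∈ K, g x = x) → ‖emb q (g ((π : K) : QBar))‖ = 1) →
        (χ q π = 1 ↔
          ∀ φ : GQ, (padicPlace (q : ℕ)).IsFrobeniusAt φ (q : ℕ) → ∀ x ∈ H, φ x = x) :=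
  ⟨ringChar hKH hK hH hun, finite_mulSupport_ringChar hKH hK hH hun,
    finprod_ringChar hKH hK hH hun, ringChar_of_unit hKH hK hH hun,
    ringChar_rat hKH hK hH hun, ringChar_conj hKH hK hH hun,
    fun q hq π h1 h2 => ringChar_eq_one_iff hKH hK hH hun q π h1 h2 hq⟩

end Fermat.Agent.Two.Recip
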