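import Fermat.Agent.Two.Recip.NormIdele
import Fermat.Agent.CFT.Idele.Incl
import Mathlib.RingTheory.RootsOfUnity.AlgebraicallyClosed

/-!
# The step of a cubic extension of a quadratic field after adjoining `ζ₃`

For `K ≤ H` normal of degrees `2` and `6`, with inertia outside two trivial on `H` once trivial on
`K`: the automorphisms of `L = H(ζ₃)` fixing `K(ζ₃)` form a cubic step, and unramified valuations
have the ramification index dividing the order of inertia.
-/

set_option autoImplicit false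
set_option synthInstance.maxHeartbeats 200000
set_option linter.unusedSectionVars false
set_option linter.style.haveILetI false

noncomputable section

namespace Fermat.Agent.Two.Recip

open ExtCitation Fermat.Agent.Arith IntermediateField Fermat.Agent.CFT.Local Fermat.Agent.CFT.Idele

local instance factPrimeTwoStep (q : Nat.Primes) : Fact (q : ℕ).Prime := ⟨q.2⟩

/-- The valuation of the prime divides the order of inertia. -/
theorem ordZ_dvd_card_inertia {q : ℕ} [Fact q.Prime] (E : IntermediateField ℚ_[q] (PadicAlgCl q))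
    [FiniteDimensional ℚ_[q] E] [Normal ℚ_[q] E] (x : Eˣ) (hx : ‖(x : E)‖ = (q : ℝ)⁻¹) :
    ordZ E x ∣ (Nat.card (inertia E) : ℤ) := by
  classical
  haveI : IsGalois ℚ_[q] E := ⟨⟩
  have hf0 : (resDeg E : ℤ) ≠ 0 := Int.natCast_ne_zero.mpr (resDeg_pos E).ne'
  have hq0 : (q : E) ≠ 0 := Nat.cast_ne_zero.mpr (Fact.out : q.Prime).ne_zero
  have hq : ‖(q : E)‖ = (q : ℝ)⁻¹ := by
    rw [← map_natCast (algebraMap ℚ_[q] E) q, norm_algebraMap', Padic.norm_p]
  rw [(norm_eq_norm_iff E x (Units.mk0 (q : E) hq0)).1 (by rw [hx, Units.val_mk0, hq])]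
  have hfe : (resDeg E : ℤ) * ordZ E (Units.mk0 (q : E) hq0) = Module.finrank ℚ_[q] E := by
    have h := ordQFun_eq E (Units.mk0 (q : E) hq0)
    rw [show ordQFun E (Units.mk0 (q : E) hq0) = (Module.finrank ℚ_[q] E : ℤ) from
      congrArg Multiplicative.toAdd (ordQ_natCast_self E)] at h
    exact h.symm
  haveI : Finite (ResField E) := Nat.finite_of_card_ne_zero (by
    rw [card_resField]; exact pow_ne_zero _ (Fact.out : q.Prime).ne_zero)
  have hdeg : Module.finrank (ZMod q) (ResField E) = resDeg E := by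
    refine Nat.pow_right_injective (Fact.out : q.Prime).two_le ?_
    show q ^ _ = q ^ _
    rw [← card_resField, Module.natCard_eq_pow_finrank (K := ZMod q) (V := ResField E),
      Nat.card_zmod]
  have hcard := (inertia E).card_mul_index
  rw [IsGalois.card_aut_eq_finrank] at hcard
  have hr : (inertia E).index ∣ resDeg E := by
    show (resAut E).ker.index ∣ _
    rw [Subgroup.index_ker, ← hdeg, ← IsGalois.card_aut_eq_finrank (ZMod q) (ResField E)]
    exact Subgroup.card_subgroup_dvd_card _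
  obtain ⟨s, hs⟩ := hr
  refine ⟨s, ?_⟩
  have hidx : (inertia E).index ≠ 0 := Subgroup.index_ne_zero_of_finite
  apply mul_left_cancel₀ (Int.natCast_ne_zero.mpr hidx)
  rw [← Nat.cast_mul, mul_comm (inertia E).index, hcard, ← hfe]
  conv_lhs => rw [hs, Nat.cast_mul]
  ring

/-- A primitive cube root of unity. -/
def omega3 : QBar :=
  haveI : NeZero ((3 : ℕ) : QBar) := ⟨by norm_num⟩
  (HasEnoughRootsOfUnity.exists_primitiveRoot QBar 3).choose

theorem omega3_spec : IsPrimitiveRoot omega3 3 :=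
  haveI : NeZero ((3 : ℕ) : QBar) := ⟨by norm_num⟩
  (HasEnoughRootsOfUnity.exists_primitiveRoot QBar 3).choose_spec

theorem map_omega3 (g : GQ) : g omega3 = omega3 ∨ g omega3 = omega3 ^ 2 := by
  have h : (g omega3) ^ 3 = 1 := by rw [← map_pow, omega3_spec.pow_eq_one, map_one]
  obtain ⟨i, hi, e⟩ := omega3_spec.eq_pow_of_pow_eq_one h
  interval_cases i
  · exact absurd ((map_eq_one_iff g g.injective).1 (e.symm.trans (pow_zero _)))
      (omega3_spec.ne_one (by norm_num))
  · exact Or.inl (e.symm.trans (pow_one _))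
  · exact Or.inr e.symm

theorem map_map_omega3 (g : GQ) : (g * g) omega3 = omega3 := by
  rw [AlgEquiv.mul_apply]
  rcases map_omega3 g with h | h
  · rw [h, h]
  · rw [h, map_pow, h, ← pow_mul, show 2 * 2 = 3 + 1 by norm_num, pow_add, omega3_spec.pow_eq_one,
      one_mul, pow_one]

instance : FiniteDimensional ℚ ℚ⟮omega3⟯ :=
  IntermediateField.adjoin.finiteDimensional (Algebra.IsIntegral.isIntegral _)

theorem normal_omega3 : Normal ℚ ℚ⟮omega3⟯ := by
  refine IntermediateField.normal_iff_forall_map_le'.mpr fun g => ?_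
  rw [IntermediateField.adjoin_map, IntermediateField.adjoin_le_iff]
  rintro _ ⟨_, rfl, rfl⟩
  rcases map_omega3 g with h | h
  · show g omega3 ∈ _
    rw [h]; exact IntermediateField.mem_adjoin_simple_self ℚ omega3
  · show g omega3 ∈ _
    rw [h]; exact pow_mem (IntermediateField.mem_adjoin_simple_self ℚ omega3) 2

variable (H : IntermediateField ℚ QBar) [FiniteDimensional ℚ H] [Normal ℚ H]

/-- The field `H(ζ₃)`. -/
def fieldL : IntermediateField ℚ QBar := H ⊔ ℚ⟮omega3⟯

instance : FiniteDimensional ℚ (fieldL H) := IntermediateField.finiteDimensional_sup H _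

instance : Normal ℚ (fieldL H) := @IntermediateField.normal_sup ℚ QBar _ _ _ H ℚ⟮omega3⟯ ‹_› normal_omega3

theorem le_fieldL : H ≤ fieldL H := le_sup_left

theorem omega3_mem_fieldL : omega3 ∈ fieldL H :=
  (le_sup_right : ℚ⟮omega3⟯ ≤ fieldL H) (IntermediateField.mem_adjoin_simple_self ℚ omega3)

theorem res_eq_one_of_fixes {g : GQ} (hH : ∀ x ∈ H, g x = x) (hω : g omega3 = omega3) :
    res (fieldL H) g = 1 := by
  rw [res_eq_one_iff, IntermediateField.mem_fixingSubgroup_iff]
  have : fieldL H ≤ IntermediateField.fixedField (Subgroup.zpowers g) := by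
    refine sup_le (fun x hx => ?_) (IntermediateField.adjoin_simple_le_iff.2 ?_) <;>
      rw [IntermediateField.mem_fixedField_iff] <;> intro k hk <;>
      refine (Subgroup.zpowers_le.2 (?_ : g ∈ MulAction.stabilizer GQ _)) hk
    · exact hH x hx
    · exact hω
  intro x hx
  exact (IntermediateField.mem_fixedField_iff _ x).1 (this hx) g (Subgroup.mem_zpowers g)

variable (K : IntermediateField ℚ QBar) [FiniteDimensional ℚ K] [Normal ℚ K]

/-- The automorphisms of `H(ζ₃)` fixing `K` and `ζ₃`. -/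
def stepGroup : Subgroup (fieldL H ≃ₐ[ℚ] fieldL H) :=
  (K.fixingSubgroup ⊓ ℚ⟮omega3⟯.fixingSubgroup).map (res (fieldL H))

theorem mem_stepGroup (hKH : K ≤ H) {g : GQ} :
    res (fieldL H) g ∈ stepGroup H K ↔ (∀ x ∈ K, g x = x) ∧ g omega3 = omega3 := by
  constructor
  · rintro ⟨h, ⟨h1, h2⟩, e⟩
    have key : ∀ x ∈ fieldL H, h x = g x := fun x hx => by
      rw [← res_apply (fieldL H) h ⟨x, hx⟩, e, res_apply]
    refine ⟨fun x hx => ?_, ?_⟩
    · rw [← key x (le_fieldL H (hKH hx))]
      exact (IntermediateField.mem_fixingSubgroup_iff _ _).1 h1 x hx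
    · rw [← key _ (omega3_mem_fieldL H)]
      exact (IntermediateField.mem_fixingSubgroup_iff _ _).1 h2 _
        (IntermediateField.mem_adjoin_simple_self ℚ omega3)
  · rintro ⟨h1, h2⟩
    refine ⟨g, ⟨(IntermediateField.mem_fixingSubgroup_iff _ _).2 h1, ?_⟩, rfl⟩
    have : ℚ⟮omega3⟯ ≤ IntermediateField.fixedField (Subgroup.zpowers g) := by
      rw [IntermediateField.adjoin_simple_le_iff, IntermediateField.mem_fixedField_iff]
      intro k hk
      exact (Subgroup.zpowers_le.2 (show g ∈ MulAction.stabilizer GQ omega3 from h2)) hk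
    refine (IntermediateField.mem_fixingSubgroup_iff _ _).2 fun x hx => ?_
    exact (IntermediateField.mem_fixedField_iff _ x).1 (this hx) g (Subgroup.mem_zpowers g)

theorem stepGroup_normal (hKH : K ≤ H) : (stepGroup H K).Normal := by
  refine ⟨fun s hs g => ?_⟩
  obtain ⟨s₀, rfl⟩ := AlgEquiv.restrictNormalHom_surjective (K₁ := fieldL H) QBar s
  obtain ⟨g₀, rfl⟩ := AlgEquiv.restrictNormalHom_surjective (K₁ := fieldL H) QBar g
  rw [← map_inv, ← map_mul, ← map_mul]
  obtain ⟨h1, h2⟩ := (mem_stepGroup H K hKH).1 hs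
  refine (mem_stepGroup H K hKH).2 ⟨fun x hx => ?_, ?_⟩
  · rw [AlgEquiv.mul_apply, AlgEquiv.mul_apply, h1 (g₀⁻¹ x)]
    · exact g₀.apply_symm_apply x
    · rw [← res_apply K g₀⁻¹ ⟨x, hx⟩]
      exact SetLike.coe_mem _
  · rw [AlgEquiv.mul_apply, AlgEquiv.mul_apply]
    have e : s₀ (g₀⁻¹ omega3) = g₀⁻¹ omega3 := by
      rcases map_omega3 g₀⁻¹ with h | h <;> rw [h]
      · exact h2
      · rw [map_pow, h2]
    rw [e]
    exact g₀.apply_symm_apply _

variable (hKH : K ≤ H) (hK : Module.finrank ℚ K = 2) (hH : Module.finrank ℚ H = 6)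

/-- The automorphisms of `H` fixing `K`. -/
def cubicGroup : Subgroup (H ≃ₐ[ℚ] H) :=
  (IntermediateField.restrict hKH).fixingSubgroup

theorem mem_cubicGroup {g : GQ} : res H g ∈ cubicGroup H K hKH ↔ ∀ x ∈ K, g x = x := by
  refine (IntermediateField.mem_fixingSubgroup_iff (IntermediateField.restrict hKH) _).trans ?_
  constructor
  · intro h x hx
    exact (res_apply H g ⟨x, hKH hx⟩).symm.trans
      (congrArg Subtype.val (h ⟨x, hKH hx⟩ ((IntermediateField.mem_restrict hKH _).2 hx)))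
  · rintro h ⟨x, hx⟩ hxK
    exact Subtype.ext ((res_apply H g ⟨x, hx⟩).trans
      (h x ((IntermediateField.mem_restrict hKH _).1 hxK)))

include hK hH in
theorem card_cubicGroup : Nat.card (cubicGroup H K hKH) = 3 := by
  haveI : IsGalois ℚ H := ⟨⟩
  have h2 : Module.finrank ℚ (IntermediateField.restrict hKH) = 2 := by
    rw [← hK]
    exact (IntermediateField.restrictAlgEquiv hKH).toLinearEquiv.finrank_eq.symm
  refine (@IsGalois.card_fixingSubgroup_eq_finrank ℚ _ H _ _ (IntermediateField.restrict hKH) _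
    ‹IsGalois ℚ H›).trans ?_
  have := Module.finrank_mul_finrank ℚ (IntermediateField.restrict hKH) H
  rw [h2, hH] at this
  omega

include hKH hK hH in
theorem fixes_pow_three {g : GQ} (hg : ∀ x ∈ K, g x = x) : ∀ x ∈ H, (g ^ 3) x = x := by
  intro x hx
  have h : (⟨res H g, (mem_cubicGroup H K hKH).2 hg⟩ : cubicGroup H K hKH) ^ 3 = 1 := by
    rw [← card_cubicGroup H K hKH hK hH]; exact pow_card_eq_one'
  have h' : res H (g ^ 3) = 1 := by rw [map_pow]; exact congrArg Subtype.val h
  rw [← res_apply H (g ^ 3) ⟨x, hx⟩, h']; rfl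

include hKH hK hH in
theorem res_pow_four {g : GQ} (hg : ∀ x ∈ K, g x = x) :
    res H (g ^ 4) = res H g ∧ res (fieldL H) (g ^ 4) ∈ stepGroup H K := by
  refine ⟨?_, (mem_stepGroup H K hKH).2 ⟨fun x hx => ?_, ?_⟩⟩
  · have h' : res H (g ^ 3) = 1 := (res_eq_one_iff H).2
      ((IntermediateField.mem_fixingSubgroup_iff _ _).2 (fixes_pow_three H K hKH hK hH hg))
    rw [show g ^ 4 = g ^ 3 * g from pow_succ g 3, map_mul, h', one_mul]
  · simp only [pow_succ, pow_zero, one_mul, AlgEquiv.mul_apply, hg x hx]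
  · rw [show g ^ 4 = (g * g) * (g * g) by simp only [pow_succ, pow_zero, one_mul, mul_assoc],
      AlgEquiv.mul_apply, map_map_omega3, map_map_omega3]

include hKH hK hH in
theorem card_stepGroup : Nat.card (stepGroup H K) = 3 := by
  rw [← card_cubicGroup H K hKH hK hH]
  refine Nat.card_eq_of_bijective (fun s => ⟨resTo (le_fieldL H) (s : fieldL H ≃ₐ[ℚ] fieldL H), ?_⟩)
    ⟨fun s t e => ?_, fun c => ?_⟩
  · obtain ⟨g, hg⟩ := AlgEquiv.restrictNormalHom_surjective (K₁ := fieldL H) QBar
      (s : fieldL H ≃ₐ[ℚ] fieldL H)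
    rw [← hg, resTo_res]
    exact (mem_cubicGroup H K hKH).2 ((mem_stepGroup H K hKH).1 (hg ▸ s.2)).1
  · refine Subtype.ext ?_
    obtain ⟨g, hg⟩ := AlgEquiv.restrictNormalHom_surjective (K₁ := fieldL H) QBar
      (s : fieldL H ≃ₐ[ℚ] fieldL H)
    obtain ⟨g', hg'⟩ := AlgEquiv.restrictNormalHom_surjective (K₁ := fieldL H) QBar
      (t : fieldL H ≃ₐ[ℚ] fieldL H)
    have e' := congrArg Subtype.val e
    simp only [← hg, ← hg', resTo_res] at e'
    rw [← hg, ← hg', eq_comm, ← inv_mul_eq_one, ← map_inv, ← map_mul]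
    refine res_eq_one_of_fixes H
      ((IntermediateField.mem_fixingSubgroup_iff _ _).1 ((res_eq_one_iff H).1
        (by rw [map_mul, map_inv, e', inv_mul_cancel]))) ?_
    rw [AlgEquiv.mul_apply, ((mem_stepGroup H K hKH).1 (hg ▸ s.2)).2]
    exact g'.injective ((g'.apply_symm_apply _).trans
      ((mem_stepGroup H K hKH).1 (hg' ▸ t.2)).2.symm)
  · obtain ⟨g, hg⟩ := AlgEquiv.restrictNormalHom_surjective (K₁ := H) QBar (c : H ≃ₐ[ℚ] H)
    have hgK := (mem_cubicGroup H K hKH).1 (hg ▸ c.2)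
    obtain ⟨h1, h2⟩ := res_pow_four H K hKH hK hH hgK
    exact ⟨⟨_, h2⟩, Subtype.ext (by show resTo _ (res _ _) = _; rw [resTo_res, h1, hg])⟩

/-- The ramification hypothesis outside two. -/
def UnramAwayTwo : Prop :=
  ∀ q : ℕ, q.Prime → q ≠ 2 → ∀ A : ValuationSubring QBar, A.LiesOverPrime q →
    ∀ t ∈ A.inertiaSubgroupIn ℚ, (∀ x ∈ K, t x = x) → ∀ x ∈ H, t x = x

/-- The cubic step of `H(ζ₃)` over `K(ζ₃)`. -/
def cubicStep (hun : UnramAwayTwo H K) : CubicStep (fieldL H) where
  S := stepGroup H K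
  normal := stepGroup_normal H K hKH
  card := card_stepGroup H K hKH hK hH
  zeta := ⟨⟨omega3, omega3_mem_fieldL H⟩,
    IsPrimitiveRoot.of_map_of_injective (f := (fieldL H).val) (by exact omega3_spec)
      (fieldL H).val.injective⟩
  unram q hq t ht hS := by
    obtain ⟨g, hg, hgt⟩ := exists_inertia_of_mem_inertia (q : ℕ) (fieldL H) ht
    obtain ⟨hgK, hgω⟩ := (mem_stepGroup H K hKH).1 (hgt.symm ▸ hS)
    refine toGlobal_injective (q : ℕ) (fieldL H) ?_
    rw [map_one, ← hgt]
    exact res_eq_one_of_fixes H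
      (hun q q.2 hq _ (padicPlace_liesOverPrime (q : ℕ)) g hg hgK) hgω

end Fermat.Agent.Two.Recip
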