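import Fermat.Agent.Two.Recip.CubicNear

/-!
# Reciprocity at two in a cubic field

If two elements of a cubic field are not both negative at a real place and satisfy
`v (a - 1) * v (b - 1) < v 4` at every prime over two, their symbols at the odd primes cancel.
The second one is then, up to a unit close to one, a norm `(1 + s) ^ 2 - a * s ^ 2`.
-/

set_option autoImplicit false

noncomputable section

namespace Fermat.Agent.Two.Recip

open IsDedekindDomain Module
open scoped NumberField WithZero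

variable {F : Type*} [Field F] [NumberField F]

/-- A norm from the square root of `a` pairs trivially with `a`. -/
theorem away2_norm_form {a c : Fˣ} {s : F} (hc : (c : F) = (1 + s) ^ 2 - a * s ^ 2) :
    away2 a c = 0 := by
  rcases eq_or_ne s 0 with rfl | hs
  · obtain rfl : c = 1 := Units.ext (by simpa using hc)
    simpa using away2_mul_right a 1 1
  rcases eq_or_ne (1 + s) 0 with h1 | h1
  · obtain rfl : c = -a := Units.ext (by
      rw [hc, Units.val_neg]
      linear_combination (1 + s - (a : F) * (s - 1)) * h1)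
    exact away2_self_neg a
  set p : Fˣ := Units.mk0 s hs * (Units.mk0 _ h1)⁻¹
  set q : Fˣ := (Units.mk0 _ h1)⁻¹
  have h : ((p ^ 2 * a : Fˣ) : F) + ((q ^ 2 * c : Fˣ) : F) = 1 := by
    simp only [p, q, Units.val_mul, Units.val_pow_eq_pow_val, Units.val_inv_eq_inv_val,
      Units.val_mk0, hc]
    field_simp
    ring
  have h0 := away2_steinberg h
  rwa [away2_mul_left, away2_sq_left, zero_add, away2_comm, away2_mul_left, away2_sq_left,
    zero_add, away2_comm] at h0

theorem exists_over_two : ∃ P : HeightOneSpectrum (𝓞 F), (2 : 𝓞 F) ∈ P.asIdeal := by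
  have htop : Ideal.span {(2 : 𝓞 F)} ≠ ⊤ := fun h => by
    obtain ⟨v, hv⟩ := isUnit_iff_exists_inv.mp (Ideal.span_singleton_eq_top.mp h)
    have e := congrArg (Algebra.norm ℤ) hv
    rw [map_mul, map_one, ← map_ofNat (algebraMap ℤ (𝓞 F)) 2, Algebra.norm_algebraMap] at e
    have h2 : (2 : ℤ) ∣ 1 := e ▸ (dvd_pow_self 2 Module.finrank_pos.ne').mul_right _
    omega
  obtain ⟨Q, hQ, hle⟩ := Ideal.exists_le_maximal _ htop
  have h2 : (2 : 𝓞 F) ∈ Q := hle (Ideal.mem_span_singleton_self _)
  exact ⟨⟨Q, hQ.isPrime, fun e => two_ne_zero (α := 𝓞 F) (by simp [e] at h2)⟩, h2⟩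

theorem over_twoPrime_iff (P : HeightOneSpectrum (𝓞 F)) :
    P ∈ over F twoPrime ↔ (2 : 𝓞 F) ∈ P.asIdeal := by
  rw [mem_over]; simp [twoPrime]

/-- The approximations of the root of `u ^ 2 + u = t`. -/
def artinRoot (t : F) : ℕ → F
  | 0 => 0
  | n + 1 => t - artinRoot t n ^ 2

theorem valuation_artinRoot {t : F} (P : HeightOneSpectrum (𝓞 F)) (ht : P.valuation F t < 1) :
    ∀ n, P.valuation F (artinRoot t n) ≤ P.valuation F t ∧
      P.valuation F (artinRoot t n ^ 2 + artinRoot t n - t) ≤ P.valuation F t ^ (n + 1) := by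
  intro n
  induction n with
  | zero => simp [artinRoot]
  | succ n ih =>
    obtain ⟨h1, h2⟩ := ih
    set u := artinRoot t n with hu
    have hv : P.valuation F (t - u ^ 2) ≤ P.valuation F t := by
      refine (Valuation.map_sub _ _ _).trans (max_le le_rfl ?_)
      rw [map_pow, pow_two]
      exact (mul_le_of_le_one_left zero_le (h1.trans ht.le)).trans h1
    refine ⟨by rw [artinRoot]; exact hv, ?_⟩
    rw [artinRoot, show (t - u ^ 2) ^ 2 + (t - u ^ 2) - t =
      -((u ^ 2 + u - t) * ((t - u ^ 2) + u)) by ring, Valuation.map_neg, map_mul, pow_succ (P.valuation F t)]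
    exact mul_le_mul' h2 ((Valuation.map_add _ _ _).trans (max_le hv h1))

/-- **Reciprocity at two.** -/
theorem away2_eq_zero (hd : finrank ℚ F = 3) {a b : Fˣ}
    (htwo : ∀ P : HeightOneSpectrum (𝓞 F), (2 : 𝓞 F) ∈ P.asIdeal →
      P.valuation F ((a : F) - 1) * P.valuation F ((b : F) - 1) < P.valuation F (4 : F)) :
    away2 a b = 0 := by
  classical
  rcases eq_or_ne a 1 with rfl | ha
  · rw [away2_comm]; simpa using away2_mul_right b 1 1
  rcases eq_or_ne b 1 with rfl | hb
  · simpa using away2_mul_right a 1 1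
  set α : Fˣ := Units.mk0 ((a : F) - 1) (sub_ne_zero.mpr (Units.val_eq_one.not.mpr ha))
  set δ : Fˣ := Units.mk0 ((b : F) - 1) (sub_ne_zero.mpr (Units.val_eq_one.not.mpr hb))
  set four : Fˣ := Units.mk0 (4 : F) (by norm_num)
  set tU : Fˣ := -(α * δ * four⁻¹) with htU
  have ht : ∀ P : HeightOneSpectrum (𝓞 F), (2 : 𝓞 F) ∈ P.asIdeal → 0 < ordAt P tU := fun P hP => by
    have h := htwo P hP
    rw [← map_mul] at h
    change P.valuation F ((α * δ : Fˣ) : F) < P.valuation F (four : F) at h
    rw [valuation_eq_exp, valuation_eq_exp, WithZero.exp_lt_exp, ordAt_mul] at h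
    rw [htU, ordAt_neg, ordAt_mul, ordAt_mul, ordAt_inv]
    omega
  obtain ⟨M, hM⟩ := exists_level_away2 hd a
  set two : Fˣ := Units.mk0 (2 : F) two_ne_zero
  let K : HeightOneSpectrum (𝓞 F) → ℕ := fun P =>
    ((M + 1 : ℕ) * ordAt P two + ordAt P b - ordAt P δ).toNat
  set n := (over F twoPrime).sup K with hn
  set t : F := (tU : F) with htdef
  set u := artinRoot t n with hu
  set E := u ^ 2 + u - t with hE
  have hvt : ∀ P : HeightOneSpectrum (𝓞 F), (2 : 𝓞 F) ∈ P.asIdeal → P.valuation F t < 1 :=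
    fun P hP => (valuation_lt_one_iff P tU).mpr (ht P hP)
  have hvu : ∀ P : HeightOneSpectrum (𝓞 F), (2 : 𝓞 F) ∈ P.asIdeal →
      P.valuation F (1 + u) = 1 := fun P hP => by
    rw [Valuation.map_add_eq_of_lt_left _
      (by rw [map_one]; exact (valuation_artinRoot P (hvt P hP) n).1.trans_lt (hvt P hP)), map_one]
  obtain ⟨P₀, hP₀⟩ := exists_over_two (F := F)
  have h1u : 1 + u ≠ 0 := fun h => by
    have := hvu P₀ hP₀
    rw [h, map_zero] at this
    exact zero_ne_one this
  have h2 : (2 : F) ≠ 0 := two_ne_zero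
  set s : F := δ / (2 * (1 + u)) with hs
  set c : F := (1 + s) ^ 2 - a * s ^ 2 with hc
  have hcb : c - b = -((δ : F) * E) / (1 + u) ^ 2 := by
    have haeq : (a : F) = 1 + α := by simp [α]
    have hbeq : (b : F) = 1 + δ := by simp [δ]
    have hteq : t = -((α : F) * δ / 4) := by simp [htdef, htU, four, div_eq_mul_inv]
    rw [hc, hs, hE, hteq, haeq, hbeq]
    field_simp
    ring
  have hclose : ∀ P : HeightOneSpectrum (𝓞 F), (2 : 𝓞 F) ∈ P.asIdeal →
      P.valuation F (c - b) ≤ P.valuation F ((2 : F) ^ (M + 1)) * P.valuation F (b : F) := by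
    intro P hP
    have hK : K P ≤ n := Finset.le_sup (f := K) ((over_twoPrime_iff P).mpr hP)
    rw [hcb, map_div₀, Valuation.map_neg, map_mul, map_pow, hvu P hP, one_pow, div_one]
    refine (mul_le_mul' le_rfl (valuation_artinRoot P (hvt P hP) n).2).trans ?_
    rw [htdef, show (2 : F) ^ (M + 1) = ((two ^ (M + 1) : Fˣ) : F) by simp [two],
      valuation_eq_exp, valuation_eq_exp, valuation_eq_exp, valuation_eq_exp, ordAt_pow,
      ← WithZero.exp_nsmul, ← WithZero.exp_add, ← WithZero.exp_add, WithZero.exp_le_exp,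
      nsmul_eq_mul]
    have h3 := ht P hP
    have h4 : (K P : ℤ) ≤ n := by exact_mod_cast hK
    have h5 : ((M + 1 : ℕ) : ℤ) * ordAt P two + ordAt P b - ordAt P δ ≤ (K P : ℤ) :=
      Int.self_le_toNat _
    push_cast at h5 ⊢
    nlinarith
  have htwoLt : ∀ P : HeightOneSpectrum (𝓞 F), (2 : 𝓞 F) ∈ P.asIdeal →
      P.valuation F (2 : F) < 1 := fun P hP => by
    rw [← map_ofNat (algebraMap (𝓞 F) F) 2, P.valuation_lt_one_iff_mem]; exact hP
  have hc0 : c ≠ 0 := fun h => by
    have h' := hclose P₀ hP₀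
    rw [h, zero_sub, Valuation.map_neg, map_pow] at h'
    exact absurd h' (not_le.mpr (mul_lt_of_lt_one_left ((Valuation.pos_iff _).mpr b.ne_zero)
      (pow_lt_one₀ zero_le (htwoLt P₀ hP₀) M.succ_ne_zero)))
  set cU : Fˣ := Units.mk0 c hc0 with hcU
  have hw : CloseOne F M ((cU * b⁻¹ : Fˣ) : F) := fun P hP => by
    rw [Units.val_mul, Units.val_inv_eq_inv_val, hcU, Units.val_mk0,
      show c * (b : F)⁻¹ - 1 = (c - b) / b by rw [sub_div, div_self b.ne_zero, div_eq_mul_inv],
      map_div₀, div_le_iff₀ ((Valuation.pos_iff _).mpr b.ne_zero)]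
    refine (hclose P hP).trans (mul_le_mul' ?_ le_rfl)
    rw [map_pow, map_pow, pow_succ]
    exact mul_le_of_le_one_right zero_le (htwoLt P hP).le
  have h := hM _ hw
  rw [away2_mul_right, away2_norm_form (c := cU) (s := s) rfl, zero_add, away2_comm] at h
  have hinv := away2_mul_left b⁻¹ (b ^ 2) a
  rw [pow_two, inv_mul_cancel_left, ← pow_two, away2_sq_left, add_zero] at hinv
  rw [away2_comm, hinv, h]

/-- **Reciprocity at two**, at the odd primes. -/
theorem oddTame_eq_zero (hd : finrank ℚ F = 3) {a b : Fˣ} (hr : realTerm a b = 0)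
    (htwo : ∀ P : HeightOneSpectrum (𝓞 F), (2 : 𝓞 F) ∈ P.asIdeal →
      P.valuation F ((a : F) - 1) * P.valuation F ((b : F) - 1) < P.valuation F (4 : F)) :
    oddTame a b = 0 := by
  have h := away2_eq_zero hd htwo
  rwa [away2, hr, add_zero] at h

end Fermat.Agent.Two.Recip
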