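import Fermat.Agent.Two.Recip.CubicField
import Fermat.Agent.CFT.Tangent.LocalPlace

/-!
# Decomposition at the auxiliary primes in the cubic field

At an unramified prime with Frobenius a reflection: one fixed coset of the cubic subgroup and one
orbit of two cosets.
-/

set_option autoImplicit false
set_option linter.style.haveILetI false
set_option linter.unusedSectionVars false

noncomputable section

namespace Fermat.Agent.Two.Recip

open Fermat.Agent.Deform Fermat.Agent.Arith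
open Fermat.Agent.CFT.Flat (decG inG inG_le_decG)
open Fermat.Agent.Two.Tangent (Dihedral InCubic rinv_mul)
open scoped Pointwise

variable {k : Type} [Field k] {r : Gal →* M2 k} {R : M2 k}

theorem map_conj_inv_of_eq_one {t : Gal} (ht : r t = 1) (g : Gal) : r (g⁻¹ * t * g) = 1 := by
  rw [map_mul, map_mul, ht, mul_one, rinv_mul]

theorem inCubic_pow (hR : R * R = 1) {g : Gal} (hg : InCubic r R g) (n : ℕ) :
    InCubic r R (g ^ n) :=
  (cubicSubgroup r R hR).pow_mem hg n

variable {D : Finset ℕ} {δ : QBar}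

section

variable [CharP k 2] (h : Dihedral r D δ) (hR : R * R = 1) {v : ℕ} [Fact v.Prime] {φ : Gal}
  (hφ : (padicPlace v).IsFrobeniusAt φ v) (hunr : ∀ t ∈ inG v, r t = 1)

include hφ

theorem frobenius_mem_decG : φ ∈ decG v :=
  MulAction.mem_stabilizer_iff.mpr (isFrobeniusAt_iff_forall_mem.mp hφ).1

include h hR hunr in
/-- The decomposition group fixes the coset fixed by Frobenius. -/
theorem inCubic_conj_decG {g : Gal} (hg : InCubic r R (g * φ * g⁻¹)) {d : Gal}
    (hd : d ∈ decG v) : InCubic r R (g * d * g⁻¹) := by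
  obtain ⟨L₀, hL₀, hr⟩ := h.level
  haveI := hL₀
  haveI : Normal ℚ QBar := IsAlgClosure.normal ℚ QBar
  let L : IntermediateField ℚ QBar := IntermediateField.normalClosure ℚ L₀ QBar
  haveI : Normal ℚ L := normalClosure.normal ℚ L₀ QBar
  obtain ⟨i, t, ht, hdt⟩ := CFT.Tangent.exists_frobenius_mul_inertia L hφ hd
  have e : r d = r (φ ^ i * t) := by
    have h1 : r ((φ ^ i * t)⁻¹ * d) = 1 := hr _ fun x hx => by
      rw [AlgEquiv.mul_apply, hdt x (L₀.le_normalClosure hx)]
      exact (φ ^ i * t).symm_apply_apply x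
    calc r d = r ((φ ^ i * t) * ((φ ^ i * t)⁻¹ * d)) := by rw [mul_inv_cancel_left]
      _ = r (φ ^ i * t) := by rw [map_mul, h1, mul_one]
  have e' : r (g * d * g⁻¹) = r ((g * φ * g⁻¹) ^ i) := by
    rw [conj_pow, map_mul, map_mul, map_mul, map_mul, e, map_mul, hunr t ht, mul_one]
  rcases inCubic_pow hR hg i with e'' | e''
  · exact Or.inl (e'.trans e'')
  · exact Or.inr (e'.trans e'')

end

section

variable [CharP k 2] (h : Dihedral r D δ) (hR : R * R = 1) {σ₀ : Gal} (hσ₀ : r σ₀ = R)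
  (hmove : σ₀ δ ≠ δ) {φ g₁ g₂ : Gal} (h1 : InCubic r R (g₁ * φ * g₁⁻¹))
  (h2 : ¬ InCubic r R (g₂ * φ * g₂⁻¹))

include h hR hσ₀ hmove h1 h2

/-- The three cosets. -/
theorem coset_cases (g : Gal) :
    InCubic r R (g₁ * g) ∨ InCubic r R (g₂ * g) ∨ InCubic r R (g₂ * φ⁻¹ * g) := by
  haveI := qBar_isGalois
  set G := cubicSubgroup r R hR
  have hcard : Nat.card (Gal ⧸ G) = 3 := by
    rw [← finrank_cubicField h hR hσ₀ hmove, IntermediateField.finrank_eq_fixingSubgroup_index,
      fixingSubgroup_cubicField h hR]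
    rfl
  haveI : Finite (Gal ⧸ G) := Nat.finite_of_card_ne_zero (by omega)
  letI : Fintype (Gal ⧸ G) := Fintype.ofFinite _
  classical
  have h12 : ¬ InCubic r R (g₁ * g₂⁻¹) := fun e => h2 (by
    have := G.mul_mem (G.mul_mem (G.inv_mem e) h1) e
    rwa [show (g₁ * g₂⁻¹)⁻¹ * (g₁ * φ * g₁⁻¹) * (g₁ * g₂⁻¹) = g₂ * φ * g₂⁻¹ by group] at this)
  have h13 : ¬ InCubic r R (g₁ * φ * g₂⁻¹) := fun e => h12 (by
    have := G.mul_mem (G.inv_mem h1) e
    rwa [show (g₁ * φ * g₁⁻¹)⁻¹ * (g₁ * φ * g₂⁻¹) = g₁ * g₂⁻¹ by group] at this)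
  set a : Gal ⧸ G := QuotientGroup.mk g₁⁻¹
  set b : Gal ⧸ G := QuotientGroup.mk g₂⁻¹
  set c : Gal ⧸ G := QuotientGroup.mk (φ * g₂⁻¹)
  have hab : a ≠ b := fun e => h12 (by
    have := QuotientGroup.eq.1 e; rwa [inv_inv] at this)
  have hac : a ≠ c := fun e => h13 (by
    have := QuotientGroup.eq.1 e; rwa [inv_inv, ← mul_assoc] at this)
  have hbc : b ≠ c := fun e => h2 (by
    have := QuotientGroup.eq.1 e; rwa [inv_inv, ← mul_assoc] at this)
  have huniv : ({a, b, c} : Finset (Gal ⧸ G)) = Finset.univ :=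
    Finset.eq_univ_of_card _ (by
      rw [Finset.card_eq_three.2 ⟨a, b, c, hab, hac, hbc, rfl⟩, ← Nat.card_eq_fintype_card, hcard])
  have hg : (QuotientGroup.mk g : Gal ⧸ G) ∈ ({a, b, c} : Finset (Gal ⧸ G)) :=
    huniv ▸ Finset.mem_univ _
  simp only [Finset.mem_insert, Finset.mem_singleton] at hg
  rcases hg with e | e | e <;> have e' := QuotientGroup.eq.1 e.symm <;>
    simp only [inv_inv, mul_inv_rev] at e'
  · exact Or.inl e'
  · exact Or.inr (Or.inl e')
  · exact Or.inr (Or.inr e')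

end

end Fermat.Agent.Two.Recip
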