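import Fermat.Agent.Two.Tangent.SelTriv

/-!
# The cubic field of a dihedral representation

For a reflection `R` in the image, the elements acting as `1` or `R` form the subgroup fixing a
cubic field.
-/

set_option autoImplicit false
set_option linter.style.haveILetI false
set_option linter.unusedSectionVars false

noncomputable section

namespace Fermat.Agent.Two.Recip

open Fermat.Agent.Deform Fermat.Agent.Arith
open Fermat.Agent.Two.Tangent (Dihedral InCubic omega_cube trace_rot rinv_mul)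

variable {k : Type} [Field k] {r : Gal →* M2 k} {R : M2 k}

/-- The elements acting as `1` or `R`. -/
def cubicSubgroup (r : Gal →* M2 k) (R : M2 k) (hR : R * R = 1) : Subgroup Gal where
  carrier := {g | InCubic r R g}
  one_mem' := Or.inl (map_one r)
  mul_mem' := by
    rintro a b (ha | ha) (hb | hb) <;>
      simp only [Set.mem_ofPred_eq, InCubic, map_mul, ha, hb, mul_one, one_mul, hR] <;> simp
  inv_mem' := by
    rintro g (hg | hg)
    · left; have e := rinv_mul r g; rwa [hg, mul_one] at e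
    · right
      calc r g⁻¹ = r g⁻¹ * (r g * R) := by rw [hg, hR, mul_one]
        _ = R := by rw [← mul_assoc, rinv_mul, one_mul]

/-- The cubic field. -/
def cubicField (r : Gal →* M2 k) (R : M2 k) (hR : R * R = 1) : IntermediateField ℚ QBar :=
  IntermediateField.fixedField (cubicSubgroup r R hR)

variable {D : Finset ℕ} {δ : QBar}

section

variable [CharP k 2] (h : Dihedral r D δ) (hR : R * R = 1)

include h

theorem isOpen_cubicSubgroup : IsOpen (cubicSubgroup r R hR : Set Gal) := by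
  obtain ⟨L, hL, hL'⟩ := h.level
  haveI := hL
  exact Subgroup.isOpen_mono
    (fun g hg => Or.inl (hL' g ((IntermediateField.mem_fixingSubgroup_iff _ _).1 hg)))
    (IntermediateField.fixingSubgroup_isOpen L)

theorem fixingSubgroup_cubicField :
    (cubicField r R hR).fixingSubgroup = cubicSubgroup r R hR := by
  haveI := qBar_isGalois
  exact InfiniteGalois.fixingSubgroup_fixedField
    ⟨cubicSubgroup r R hR, Subgroup.isClosed_of_isOpen _ (isOpen_cubicSubgroup h hR)⟩

theorem mem_cubicField_fixing {g : Gal} :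
    g ∈ (cubicField r R hR).fixingSubgroup ↔ InCubic r R g := by
  rw [fixingSubgroup_cubicField h hR]; rfl

theorem finiteDimensional_cubicField : FiniteDimensional ℚ (cubicField r R hR) := by
  haveI := qBar_isGalois
  rw [← InfiniteGalois.isOpen_iff_finite, fixingSubgroup_cubicField h hR]
  exact isOpen_cubicSubgroup h hR

/-- A reflection moves `δ`. -/
theorem move_of_sq_eq_one {σ : Gal} (h1 : r σ ≠ 1) (h2 : r σ * r σ = 1) : σ δ ≠ δ := by
  intro e
  refine h1 (h.eq_one_of_fix e ?_)
  obtain ⟨ω, hω, hf⟩ := h.form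
  obtain ⟨a, ha⟩ := (hf σ).1 e
  rw [ha, Matrix.mul_fin_two] at h2
  simp only [mul_zero, zero_mul, add_zero, zero_add, ← pow_add] at h2
  have h3 : Matrix.trace !![ω ^ (a + a), 0; 0, ω ^ (2 * (a + a))] = 0 := by
    rw [show 2 * (a + a) = 2 * a + 2 * a by ring, h2, Matrix.trace_one, Fintype.card_fin]
    exact CharTwo.two_eq_zero
  rw [ha]
  rcases trace_rot hω a with ⟨e1, -⟩ | ⟨-, e1⟩
  · exact e1
  · rcases trace_rot hω (a + a) with ⟨-, e2⟩ | ⟨e2, -⟩
    · omega
    · exact absurd (h3.symm.trans e2) zero_ne_one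

theorem finrank_cubicField {σ₀ : Gal} (hσ₀ : r σ₀ = R) (hmove : σ₀ δ ≠ δ) :
    Module.finrank ℚ (cubicField r R hR) = 3 := by
  haveI := qBar_isGalois
  rw [IntermediateField.finrank_eq_fixingSubgroup_index, fixingSubgroup_cubicField h hR]
  obtain ⟨t, ht⟩ := h.exists_trace_ne_zero
  obtain ⟨ω, hω, hf⟩ := h.form
  have htfix : t δ = δ := by_contra fun e => ht (h.trace_of_move e)
  obtain ⟨a, ha⟩ := (hf t).1 htfix
  have ha3 : a % 3 ≠ 0 := by
    rw [ha] at ht
    exact ((trace_rot hω a).resolve_left fun hh => ht hh.1).2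
  have hpow : ∀ n : ℕ, r (t ^ n) = !![ω ^ (a * n), 0; 0, ω ^ (2 * (a * n))] := fun n => by
    induction n with
    | zero => simp [Matrix.one_fin_two]
    | succ n ih =>
      rw [pow_succ, map_mul, ih, ha, Matrix.mul_fin_two]
      simp only [mul_zero, zero_mul, add_zero, zero_add, ← pow_add]
      ring_nf
  have hfixpow : ∀ n : ℕ, (t ^ n) δ = δ := fun n => by
    induction n with
    | zero => rfl
    | succ n ih => rw [pow_succ, AlgEquiv.mul_apply, htfix, ih]
  have h1 : ∀ n : ℕ, r (t ^ n) = 1 → n % 3 = 0 := fun n e => by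
    have e' : (r (t ^ n)).trace = 0 := by
      rw [e, Matrix.trace_one, Fintype.card_fin]; exact CharTwo.two_eq_zero
    rw [hpow] at e'
    rcases trace_rot hω (a * n) with ⟨-, h'⟩ | ⟨h', -⟩
    · rcases (Nat.prime_three.dvd_mul.1 (Nat.dvd_of_mod_eq_zero h')) with h'' | h'' <;> omega
    · exact absurd (e'.symm.trans h') zero_ne_one
  have hrot : ∀ g : Gal, g δ = δ → ∃ n : Fin 3, r g = r (t ^ (n : ℕ)) := fun g hg => by
    obtain ⟨b, hb⟩ := (hf g).1 hg
    obtain ⟨n, hn⟩ : ∃ n : Fin 3, a * (n : ℕ) % 3 = b % 3 := by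
      have : ∀ a' b' : Fin 3, a' ≠ 0 → ∃ n : Fin 3, a' * n = b' := by decide
      obtain ⟨n, hn⟩ := this ⟨a % 3, Nat.mod_lt _ (by norm_num)⟩ ⟨b % 3, Nat.mod_lt _ (by norm_num)⟩
        (fun e => ha3 (congrArg Fin.val e))
      refine ⟨n, ?_⟩
      have := congrArg Fin.val hn
      rw [Fin.val_mul] at this
      simpa [Nat.mul_mod] using this
    refine ⟨n, ?_⟩
    rw [hb, hpow, pow_eq_pow_mod b (omega_cube hω), pow_eq_pow_mod (a * (n : ℕ)) (omega_cube hω),
      pow_eq_pow_mod (2 * b) (omega_cube hω), pow_eq_pow_mod (2 * (a * (n : ℕ))) (omega_cube hω),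
      hn, show 2 * (a * (n : ℕ)) % 3 = 2 * b % 3 by omega]
  have hbij : Function.Bijective
      (fun n : Fin 3 => (QuotientGroup.mk (t ^ (n : ℕ)) : Gal ⧸ cubicSubgroup r R hR)) := by
    refine ⟨fun n m e => ?_, fun c => ?_⟩
    · have e' : InCubic r R ((t ^ (n : ℕ))⁻¹ * t ^ (m : ℕ)) := QuotientGroup.eq.1 e
      rcases e' with e' | e'
      · have e'' : r (t ^ (m : ℕ)) = r (t ^ (n : ℕ)) := by
          calc r (t ^ (m : ℕ)) = r (t ^ (n : ℕ) * ((t ^ (n : ℕ))⁻¹ * t ^ (m : ℕ))) := by
                rw [mul_inv_cancel_left]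
            _ = r (t ^ (n : ℕ)) := by rw [map_mul, e', mul_one]
        have e3 : r (t ^ ((m : ℕ) + 2 * (n : ℕ))) = r (t ^ (3 * (n : ℕ))) := by
          rw [pow_add, map_mul, e'', ← map_mul, ← pow_add]
          congr 2; omega
        have e4 : r (t ^ (3 * (n : ℕ))) = 1 := by
          rw [hpow, pow_eq_pow_mod _ (omega_cube hω), pow_eq_pow_mod (2 * _) (omega_cube hω),
            show a * (3 * (n : ℕ)) % 3 = 0 by simp [Nat.mul_mod],
            show 2 * (a * (3 * (n : ℕ))) % 3 = 0 by simp [Nat.mul_mod], pow_zero, Matrix.one_fin_two]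
        have := h1 _ (e3.trans e4)
        exact Fin.ext (by omega)
      · have hfix : ((t ^ (n : ℕ))⁻¹ * t ^ (m : ℕ)) δ = δ := by
          rw [AlgEquiv.mul_apply, hfixpow]
          exact (h.inv_fix_iff _).2 (hfixpow _)
        exact absurd ((h.diag_iff σ₀).1 (by rw [hσ₀, ← e']; exact (h.diag_iff _).2 hfix)) hmove
    · obtain ⟨g, rfl⟩ := QuotientGroup.mk_surjective c
      by_cases hg : g δ = δ
      · obtain ⟨n, hn⟩ := hrot g hg
        refine ⟨n, QuotientGroup.eq.2 (Or.inl ?_)⟩
        rw [map_mul, hn, rinv_mul]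
      · have hfix : (g * σ₀) δ = δ := by
          rw [AlgEquiv.mul_apply, (h.delta_or_neg σ₀).resolve_left hmove, map_neg,
            (h.delta_or_neg g).resolve_left hg, neg_neg]
        obtain ⟨n, hn⟩ := hrot _ hfix
        refine ⟨n, QuotientGroup.eq.2 (Or.inr ?_)⟩
        calc r ((t ^ (n : ℕ))⁻¹ * g) = r (t ^ (n : ℕ))⁻¹ * (r (g * σ₀) * R) := by
              rw [map_mul, map_mul r g σ₀, hσ₀, mul_assoc (r g), hR, mul_one]
          _ = R := by rw [hn, ← mul_assoc, rinv_mul, one_mul]
  rw [Subgroup.index, ← Nat.card_eq_of_bijective _ hbij, Nat.card_fin]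

end

end Fermat.Agent.Two.Recip
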