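import Fermat.Agent.Two.Recip.TameNorm
import Mathlib.Topology.Instances.Matrix
import Mathlib.FieldTheory.IntermediateField.Adjoin.Basic
import Mathlib.NumberTheory.Padics.PadicNumbers
import Mathlib.Analysis.Normed.Group.Basic

/-!
# Continuity at two of the symbols away from two

In a cubic field the symbol of `a` and `w` away from two vanishes once `w` is close enough to one at
the primes over two. For an irrational `a` the elements near a fixed `g` are quotients of two
elements `u a + v` whose symbols with `a` are rational symbols.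
-/

set_option autoImplicit false

noncomputable section

namespace Fermat.Agent.Two.Recip

open IsDedekindDomain Filter Topology Module
open scoped NumberField WithZero

variable {F : Type*} [Field F] [NumberField F]

local instance factTwoNear : Fact (Nat.Prime 2) := ⟨Nat.prime_two⟩

/-! ### Neighbourhoods at two -/

/-- A linear form is bounded on the elements integral at two. -/
theorem exists_form_bound (φ : F →ₗ[ℚ] ℚ) : ∃ C : ℝ, ∀ x : F,
    (∀ P : HeightOneSpectrum (𝓞 F), (2 : 𝓞 F) ∈ P.asIdeal → P.valuation F x ≤ 1) →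
      ‖((φ x : ℚ) : ℚ_[2])‖ ≤ C := by
  classical
  set b := NumberField.RingOfIntegers.basis F
  refine ⟨∑ i, ‖((φ (algebraMap (𝓞 F) F (b i)) : ℚ) : ℚ_[2])‖, fun x hx => ?_⟩
  let D : Ideal (𝓞 F) :=
    { carrier := {s | ∃ a, x * algebraMap (𝓞 F) F s = algebraMap (𝓞 F) F a}
      add_mem' := fun ⟨a, ha⟩ ⟨c, hc⟩ => ⟨a + c, by rw [map_add, map_add, mul_add, ha, hc]⟩
      zero_mem' := ⟨0, by simp⟩
      smul_mem' := fun c s ⟨a, ha⟩ => ⟨c * a, by rw [smul_eq_mul, map_mul, map_mul, ← ha]; ring⟩ }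
  have hD0 : D ≠ ⊥ := fun h => by
    obtain ⟨⟨n, d⟩, hnd⟩ := IsLocalization.surj (nonZeroDivisors (𝓞 F)) x
    have hd : (d : 𝓞 F) ∈ D := ⟨n, hnd⟩
    rw [h, Ideal.mem_bot] at hd
    exact nonZeroDivisors.ne_zero d.2 hd
  have htop : D ⊔ Ideal.span {(2 : 𝓞 F)} = ⊤ := by
    by_contra h
    obtain ⟨Q, hQ, hle⟩ := Ideal.exists_le_maximal _ h
    have hQ0 : Q ≠ ⊥ := fun e => hD0 (le_bot_iff.mp (e ▸ le_sup_left.trans hle))
    let P : HeightOneSpectrum (𝓞 F) := ⟨Q, hQ.isPrime, hQ0⟩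
    obtain ⟨n, d, hnd⟩ := P.exists_primeCompl_mul_eq_of_integer x
      (hx P (hle (Ideal.mem_sup_right (Ideal.mem_span_singleton_self _))))
    exact d.2 (hle (Ideal.mem_sup_left ⟨n, hnd⟩))
  set d := Ideal.absNorm D with hd
  have hodd : ¬ 2 ∣ d := fun h2 => by
    have : Finite (𝓞 F ⧸ D) := Ring.HasFiniteQuotients.finiteQuotient hD0
    let := Fintype.ofFinite (𝓞 F ⧸ D)
    rw [hd, Ideal.absNorm_apply, Submodule.cardQuot_apply, Nat.card_eq_fintype_card] at h2
    obtain ⟨y, hy⟩ := exists_prime_addOrderOf_dvd_card 2 h2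
    obtain ⟨e, he, c, hc, hec⟩ := Submodule.mem_sup.mp (htop.ge (Submodule.mem_top (x := 1)))
    obtain ⟨c, rfl⟩ := Ideal.mem_span_singleton'.mp hc
    have h2y : y + y = 0 := by rw [← two_nsmul, ← hy, addOrderOf_nsmul_eq_zero]
    have h1 : (1 : 𝓞 F ⧸ D) = 2 * Ideal.Quotient.mk D c := by
      rw [← map_one (Ideal.Quotient.mk D), ← map_ofNat (Ideal.Quotient.mk D) 2, ← map_mul,
        Ideal.Quotient.eq]
      convert he using 1
      linear_combination -hec
    have hy0 : y = 0 := by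
      rw [← one_mul y, h1, mul_right_comm, two_mul, h2y, zero_mul]
    rw [hy0, addOrderOf_zero] at hy
    omega
  obtain ⟨a, ha⟩ : ∃ a, x * algebraMap (𝓞 F) F (d : 𝓞 F) = algebraMap (𝓞 F) F a :=
    Ideal.absNorm_mem D
  have hdn : ‖((d : ℚ) : ℚ_[2])‖ = 1 := by
    rw [Rat.cast_natCast]
    refine le_antisymm ?_ (not_lt.mp fun hlt => hodd ?_)
    · simpa using Padic.norm_int_le_one (p := 2) (d : ℤ)
    · have := (Padic.norm_intCast_lt_one_iff (p := 2) (k := (d : ℤ))).mp (by simpa using hlt)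
      exact Int.natCast_dvd_natCast.mp this
  have hφd : ((φ x : ℚ) : ℚ_[2]) * ((d : ℚ) : ℚ_[2]) =
      ((φ (algebraMap (𝓞 F) F a) : ℚ) : ℚ_[2]) := by
    rw [← Rat.cast_mul, ← ha, map_natCast, mul_comm x, ← nsmul_eq_mul, map_nsmul, nsmul_eq_mul,
      mul_comm]
  have hn := congrArg norm hφd
  rw [norm_mul, hdn, mul_one] at hn
  rw [hn]
  conv_lhs => rw [← b.sum_repr a]
  rw [map_sum, map_sum, Rat.cast_sum]
  refine (norm_sum_le _ _).trans (Finset.sum_le_sum fun i _ => ?_)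
  rw [map_zsmul, map_zsmul, zsmul_eq_mul, Rat.cast_mul, Rat.cast_intCast, norm_mul]
  exact mul_le_of_le_one_left (norm_nonneg _) (Padic.norm_int_le_one _)

variable (F) in
/-- `w` is congruent to one modulo `2 ^ M` at the primes over two. -/
def CloseOne (M : ℕ) (w : F) : Prop :=
  ∀ P : HeightOneSpectrum (𝓞 F), (2 : 𝓞 F) ∈ P.asIdeal →
    P.valuation F (w - 1) ≤ P.valuation F ((2 : F) ^ M)

variable {ι : Type*} [Fintype ι] (e : Basis ι ℚ F)

/-- The coordinates in `ℚ₂`. -/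
def coords (z : F) : ι → ℚ_[2] := fun i => ((e.repr z i : ℚ) : ℚ_[2])

/-- The neighbourhoods of `g` for the topology at two. -/
def nearF (g : F) : Filter F := comap (coords e) (𝓝 (coords e g))

theorem exists_close (g : F) {s : Set F} (hs : s ∈ nearF e g) :
    ∃ M : ℕ, ∀ w : F, CloseOne F M w → w * g ∈ s := by
  classical
  obtain ⟨t, ht, hts⟩ := mem_comap.mp hs
  obtain ⟨ε, hε, hball⟩ := Metric.mem_nhds_iff.mp ht
  choose C hC using fun i => exists_form_bound ((e.coord i).comp (LinearMap.mulRight ℚ g))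
  obtain ⟨M, hM⟩ := exists_pow_lt_of_lt_one
    (show (0 : ℝ) < ε / (1 + ∑ i, |C i|) by positivity) (show (1 / 2 : ℝ) < 1 by norm_num)
  refine ⟨M, fun w hw => hts (hball ?_)⟩
  rw [Metric.mem_ball, dist_pi_lt_iff hε]
  intro i
  have hx : ∀ P : HeightOneSpectrum (𝓞 F), (2 : 𝓞 F) ∈ P.asIdeal →
      P.valuation F ((w - 1) / 2 ^ M) ≤ 1 := fun P hP => by
    rw [map_div₀]
    exact (div_le_one₀ ((Valuation.pos_iff _).mpr (pow_ne_zero _ two_ne_zero))).mpr (hw P hP)
  have key : e.repr (w * g) i - e.repr g i =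
      (2 : ℚ) ^ M * e.repr ((w - 1) / 2 ^ M * g) i := by
    rw [← Finsupp.sub_apply, ← map_sub,
      show w * g - g = ((2 : ℚ) ^ M) • ((w - 1) / 2 ^ M * g) by
        rw [Algebra.smul_def, map_pow, map_ofNat]; field_simp,
      map_smul, Finsupp.smul_apply, smul_eq_mul]
  rw [dist_eq_norm, coords, coords, ← Rat.cast_sub, key, Rat.cast_mul, norm_mul, Rat.cast_pow,
    norm_pow, Rat.cast_ofNat, show ‖(2 : ℚ_[2])‖ = 1 / 2 by
      simpa using Padic.norm_p (p := 2)]
  have h1 : ‖((e.repr ((w - 1) / 2 ^ M * g) i : ℚ) : ℚ_[2])‖ ≤ C i := hC i _ hx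
  have h2 : C i < 1 + ∑ j, |C j| :=
    lt_of_le_of_lt ((le_abs_self _).trans (Finset.single_le_sum (f := fun j => |C j|)
      (fun j _ => abs_nonneg _) (Finset.mem_univ i))) (lt_one_add _)
  calc (1 / 2 : ℝ) ^ M * _ ≤ (1 / 2 : ℝ) ^ M * (1 + ∑ j, |C j|) :=
        mul_le_mul_of_nonneg_left (h1.trans h2.le) (by positivity)
    _ < ε := (lt_div_iff₀ (by positivity)).mp hM

omit [Fintype ι] in
theorem tendsto_coord (g : F) (i : ι) :
    Tendsto (fun z => ((e.repr z i : ℚ) : ℚ_[2])) (nearF e g) (𝓝 ((e.repr g i : ℚ) : ℚ_[2])) :=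
  ((continuous_apply i).tendsto (coords e g)).comp (tendsto_comap (f := coords e))

theorem tendsto_norm {α : Type*} {l : Filter α} (m : α → F) (m₀ : F)
    (h : ∀ i, Tendsto (fun z => ((e.repr (m z) i : ℚ) : ℚ_[2])) l
      (𝓝 ((e.repr m₀ i : ℚ) : ℚ_[2]))) :
    Tendsto (fun z => ((Algebra.norm ℚ (m z) : ℚ) : ℚ_[2])) l
      (𝓝 ((Algebra.norm ℚ m₀ : ℚ) : ℚ_[2])) := by
  classical
  let A : ι → Matrix ι ι ℚ_[2] := fun i =>
    (Algebra.leftMulMatrix e (e i)).map (Rat.castHom ℚ_[2])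
  have key : ∀ z : F, ((Algebra.norm ℚ z : ℚ) : ℚ_[2]) =
      (∑ i, ((e.repr z i : ℚ) : ℚ_[2]) • A i).det := fun z => by
    rw [Algebra.norm_eq_matrix_det e, ← Rat.coe_castHom, RingHom.map_det]
    congr 1
    conv_lhs => rw [← e.sum_repr z]
    simp only [map_sum, map_smul, RingHom.mapMatrix_apply]
    ext j k
    simp [A, Matrix.sum_apply]
  simp only [key]
  refine ((continuous_id.matrix_det).tendsto _).comp ?_
  exact tendsto_finsetSum _ fun i _ => (h i).smul_const _

/-- Rational functions near a nonzero value differ from it by units near one. -/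
theorem eventually_nearOne {α : Type*} {l : Filter α} {f : α → ℚ} {q : ℚ} (hq : q ≠ 0)
    (h : Tendsto (fun z => (f z : ℚ_[2])) l (𝓝 (q : ℚ_[2]))) :
    ∀ᶠ z in l, f z ≠ 0 ∧ ∀ u : ℚˣ, (u : ℚ) = f z → NearOne (u * (Units.mk0 q hq)⁻¹) := by
  have hq' : (q : ℚ_[2]) ≠ 0 := by exact_mod_cast hq
  have h1 : Tendsto (fun z => (f z : ℚ_[2]) / q) l (𝓝 1) := by
    simpa [div_self hq'] using h.div_const (q : ℚ_[2])
  refine (h1.eventually (Metric.closedBall_mem_nhds 1 (show (0 : ℝ) < 1 / 8 by norm_num))).mono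
    fun z hz => ?_
  rw [dist_eq_norm] at hz
  refine ⟨fun h0 => ?_, fun u hu => ?_⟩
  · rw [h0, Rat.cast_zero, zero_div, zero_sub, norm_neg, norm_one] at hz
    norm_num at hz
  · rw [NearOne, Units.val_mul, Units.val_inv_eq_inv_val, Units.val_mk0, Rat.cast_mul,
      Rat.cast_inv, hu, ← div_eq_mul_inv]
    exact hz

theorem hilbertTwo_congr {x x' y y' : ℚˣ} (hx : NearOne (x' * x⁻¹)) (hy : NearOne (y' * y⁻¹)) :
    hilbertTwo x' y' = hilbertTwo x y := by
  rw [show x' = x' * x⁻¹ * x by rw [inv_mul_cancel_right],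
    show y' = y' * y⁻¹ * y by rw [inv_mul_cancel_right], hilbertTwo_mul_left,
    hilbertTwo_of_nearOne hx, zero_add, hilbertTwo_mul_right, hilbertTwo_comm x,
    hilbertTwo_of_nearOne hy, zero_add]

/-! ### Linear elements -/

/-- The symbol of `θ` and `u θ + v` is rational. -/
theorem away2_linear (hd : finrank ℚ F = 3) {θ m : Fˣ} {u v : ℚˣ}
    (hm : (m : F) = algebraMap ℚ F u * θ + algebraMap ℚ F v) :
    away2 θ m = hilbertTwo (-u * v⁻¹) v + hilbertTwo v (normUnit θ) +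
      hilbertTwo (-u * v⁻¹) (normUnit m) := by
  have hv : algebraMap ℚ F (v : ℚ) ≠ 0 := (map_ne_zero _).mpr v.ne_zero
  have h : ((ratUnit (-u * v⁻¹) * θ : Fˣ) : F) + ((ratUnit v⁻¹ * m : Fˣ) : F) = 1 := by
    simp only [Units.val_mul, coe_ratUnit, Units.val_neg, Units.val_inv_eq_inv_val, map_mul,
      map_neg, map_inv₀, hm]
    field_simp
    ring
  have h0 := away2_steinberg h
  rw [away2_mul_left, away2_mul_right, away2_mul_right, away2_ratUnit hd, away2_ratUnit hd,
    away2_comm θ (ratUnit v⁻¹), away2_ratUnit hd, normUnit_ratUnit hd, hilbertTwo_inv_left] at h0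
  have hcube : ∀ x y : ℚˣ, hilbertTwo x (y⁻¹ ^ 3) = hilbertTwo x y := fun x y => by
    rw [pow_succ, pow_two, hilbertTwo_mul_right, hilbertTwo_mul_right, CharTwo.add_self_eq_zero,
      zero_add, hilbertTwo_comm, hilbertTwo_inv_left, hilbertTwo_comm]
  rw [hcube] at h0
  generalize hilbertTwo (-u * v⁻¹) v = A at h0 ⊢
  generalize hilbertTwo v (normUnit θ) = B at h0 ⊢
  generalize hilbertTwo (-u * v⁻¹) (normUnit m) = C at h0 ⊢
  generalize away2 θ m = X at h0 ⊢
  revert A B C X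
  decide

theorem eventually_linear (hd : finrank ℚ F = 3) {l : Filter F} {θ : Fˣ} (r s : F → ℚ)
    {r₀ s₀ : ℚˣ} (hr : Tendsto (fun z => (r z : ℚ_[2])) l (𝓝 ((r₀ : ℚ) : ℚ_[2])))
    (hs : Tendsto (fun z => (s z : ℚ_[2])) l (𝓝 ((s₀ : ℚ) : ℚ_[2]))) {m₀ : Fˣ}
    (hm₀ : (m₀ : F) = algebraMap ℚ F r₀ * θ + algebraMap ℚ F s₀) :
    ∀ᶠ z in l, algebraMap ℚ F (r z) * θ + algebraMap ℚ F (s z) ≠ 0 ∧
      ∀ m : Fˣ, (m : F) = algebraMap ℚ F (r z) * θ + algebraMap ℚ F (s z) →
        away2 θ m = away2 θ m₀ := by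
  let b := Module.finBasis ℚ F
  have hN : Tendsto (fun z => ((Algebra.norm ℚ
      (algebraMap ℚ F (r z) * θ + algebraMap ℚ F (s z)) : ℚ) : ℚ_[2])) l
      (𝓝 ((Algebra.norm ℚ (m₀ : F) : ℚ) : ℚ_[2])) := by
    refine tendsto_norm b _ _ fun i => ?_
    have hlin : ∀ a c : ℚ, b.repr (algebraMap ℚ F a * θ + algebraMap ℚ F c) i =
        a * b.repr (θ : F) i + c * b.repr 1 i := fun a c => by
      rw [← Algebra.smul_def, Algebra.algebraMap_eq_smul_one, map_add, map_smul, map_smul,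
        Finsupp.add_apply, Finsupp.smul_apply, Finsupp.smul_apply, smul_eq_mul, smul_eq_mul]
    simp only [hm₀, hlin, Rat.cast_add, Rat.cast_mul]
    exact (hr.mul_const _).add (hs.mul_const _)
  have hN0 : Algebra.norm ℚ (m₀ : F) ≠ 0 := Algebra.norm_ne_zero_iff.mpr m₀.ne_zero
  filter_upwards [eventually_nearOne r₀.ne_zero hr, eventually_nearOne s₀.ne_zero hs,
    eventually_nearOne hN0 hN] with z hzr hzs hzN
  refine ⟨fun h => hzN.1 (by rw [h, Algebra.norm_zero]), fun m hm => ?_⟩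
  set u := Units.mk0 (r z) hzr.1
  set v := Units.mk0 (s z) hzs.1
  rw [away2_linear hd (u := u) (v := v) hm, away2_linear hd hm₀]
  have hu : NearOne (u * r₀⁻¹) := by simpa using hzr.2 u rfl
  have hv : NearOne (v * s₀⁻¹) := by simpa using hzs.2 v rfl
  have hnm : NearOne (normUnit m * (normUnit m₀)⁻¹) := by
    have h := hzN.2 (normUnit m) (by rw [coe_normUnit, hm])
    rwa [show Units.mk0 _ hN0 = normUnit m₀ from Units.ext (coe_normUnit m₀).symm] at h
  have hone : ∀ y : ℚˣ, NearOne (y * y⁻¹) := fun y => by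
    simp [NearOne]
  have huv : NearOne (-u * v⁻¹ * (-r₀ * s₀⁻¹)⁻¹) := by
    have hv' : NearOne (v * s₀⁻¹)⁻¹ := by
      unfold NearOne at hv ⊢
      rw [Units.val_inv_eq_inv_val, Rat.cast_inv]
      set x := (((v * s₀⁻¹ : ℚˣ) : ℚ) : ℚ_[2])
      have hx1 : ‖x‖ = 1 := by
        rw [show x = 1 + (x - 1) by ring, Padic.add_eq_max_of_ne, norm_one]
        · exact max_eq_left (hv.trans (by norm_num))
        · rw [norm_one]; intro h; rw [← h] at hv; norm_num at hv
      have hx0 : x ≠ 0 := norm_ne_zero_iff.mp (by rw [hx1]; exact one_ne_zero)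
      rw [show x⁻¹ - 1 = -(x - 1) * x⁻¹ by field_simp; ring, norm_mul, norm_neg, norm_inv, hx1,
        inv_one, mul_one]
      exact hv
    convert nearOne_mul hu hv' using 1
    apply Units.ext
    simp only [Units.val_mul, Units.val_inv_eq_inv_val, Units.val_neg]
    field_simp
  rw [hilbertTwo_congr huv hv, hilbertTwo_congr hv (hone _), hilbertTwo_congr huv hnm]

/-- **Continuity at two.** -/
theorem exists_level_away2 (hd : finrank ℚ F = 3) (a : Fˣ) :
    ∃ M : ℕ, ∀ w : Fˣ, CloseOne F M w → away2 a w = 0 := by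
  classical
  by_cases ha : ∃ c : ℚ, algebraMap ℚ F c = a
  · obtain ⟨c, hc⟩ := ha
    have hc0 : c ≠ 0 := fun h => a.ne_zero (by rw [← hc, h, map_zero])
    have haU : a = ratUnit (Units.mk0 c hc0) := Units.ext (by rw [coe_ratUnit, Units.val_mk0, hc])
    let e := Module.finBasis ℚ F
    have hN := tendsto_norm e id (1 : F) (fun i => tendsto_coord e 1 i)
    obtain ⟨M, hM⟩ := exists_close e (1 : F)
      (eventually_nearOne (Algebra.norm_ne_zero_iff.mpr one_ne_zero) hN)
    refine ⟨M, fun w hw => ?_⟩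
    have h := hM (w : F) hw
    rw [mul_one] at h
    have hn : NearOne (normUnit w) := by
      have h2 := h.2 (normUnit w) (coe_normUnit w)
      simpa using h2
    rw [haU, away2_ratUnit hd, hilbertTwo_comm, hilbertTwo_of_nearOne hn]
  set θ : F := (a : F) with hθ
  push Not at ha
  have hint : IsIntegral ℚ θ := Algebra.IsIntegral.isIntegral θ
  have hdeg : (minpoly ℚ θ).natDegree = 3 := by
    have hdvd : (minpoly ℚ θ).natDegree ∣ 3 := hd ▸ minpoly.degree_dvd hint
    rcases (Nat.dvd_prime Nat.prime_three).mp hdvd with h | h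
    · obtain ⟨c, hc⟩ := minpoly.natDegree_eq_one_iff.mp h
      exact absurd hc (ha c)
    · exact h
  have hquad : ∀ x y z : ℚ, algebraMap ℚ F x + algebraMap ℚ F y * θ +
      algebraMap ℚ F z * θ ^ 2 = 0 → x = 0 ∧ y = 0 ∧ z = 0 := fun x y z h => by
    have hli : LinearIndependent ℚ fun i : Fin (minpoly ℚ θ).natDegree => θ ^ (i : ℕ) :=
      linearIndependent_pow θ
    have h' := Fintype.linearIndependent_iff.mp
      ((linearIndependent_equiv (finCongr hdeg.symm)).mpr hli) ![x, y, z] (by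
        simp [Fin.sum_univ_three, Algebra.smul_def, eq_ratCast] at h ⊢
        exact h)
    exact ⟨by simpa using h' 0, by simpa using h' 1, by simpa using h' 2⟩
  have hlin : ∀ x y : ℚ, (x ≠ 0 ∨ y ≠ 0) → algebraMap ℚ F x + algebraMap ℚ F y * θ ≠ 0 :=
    fun x y hxy h => by
      have := hquad x y 0 (by simpa using h)
      tauto
  have h1 : θ + 1 ≠ 0 := fun h => hlin 1 1 (by simp) (by simp; linear_combination h)
  have h2 : θ + 2 ≠ 0 := fun h => hlin 2 1 (by simp) (by simp; linear_combination h)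
  set g : F := (θ + 2) / (θ + 1) with hg
  have hgθ : g * θ = θ + 2 - g := by rw [hg]; field_simp; ring
  have hli : LinearIndependent ℚ ![(1 : F), θ, g] := by
    refine Fintype.linearIndependent_iff.mpr fun c hc => ?_
    simp only [Fin.sum_univ_three, Matrix.cons_val_zero, Matrix.cons_val_one, Matrix.cons_val,
      Algebra.smul_def, mul_one] at hc
    obtain ⟨e0, e1, e2⟩ := hquad (c 0 + 2 * c 2) (c 0 + c 1 + c 2) (c 1) (by
      simp only [map_add, map_mul, map_ofNat]
      linear_combination (θ + 1) * hc - algebraMap ℚ F (c 2) * hgθ)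
    intro i
    fin_cases i <;> simp <;> linarith
  let e : Basis (Fin 3) ℚ F :=
    basisOfLinearIndependentOfCardEqFinrank hli (by rw [Fintype.card_fin, hd])
  have he : ∀ i, e i = ![(1 : F), θ, g] i := fun i => by
    simp [e]
  have hsum : ∀ z : F, z = algebraMap ℚ F (e.repr z 0) + algebraMap ℚ F (e.repr z 1) * θ +
      algebraMap ℚ F (e.repr z 2) * g := fun z => by
    conv_lhs => rw [← e.sum_repr z]
    simp [Fin.sum_univ_three, he, Algebra.smul_def]
  have hg0 : e.repr g 0 = 0 ∧ e.repr g 1 = 0 ∧ e.repr g 2 = 1 := by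
    have h := e.repr_self 2
    rw [he] at h
    simp only [Matrix.cons_val] at h
    simp [h]
  set A : Fin 3 → ℚ := fun i => e.repr (θ ^ 2) i with hA
  let c0 : F → ℚ := fun z => e.repr z 0
  let c1 : F → ℚ := fun z => e.repr z 1
  let c2 : F → ℚ := fun z => e.repr z 2
  let t : F → ℚ := fun z => 1 - c1 z * A 2 / c2 z
  let r : F → ℚ := fun z => c0 z + c1 z * A 1 + c2 z + t z * c1 z
  let s : F → ℚ := fun z => c1 z * A 0 + 2 * c2 z + t z * c0 z
  have hc0 : Tendsto (fun z => (c0 z : ℚ_[2])) (nearF e g) (𝓝 0) := by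
    simpa [c0, hg0.1] using tendsto_coord e g 0
  have hc1 : Tendsto (fun z => (c1 z : ℚ_[2])) (nearF e g) (𝓝 0) := by
    simpa [c1, hg0.2.1] using tendsto_coord e g 1
  have hc2 : Tendsto (fun z => (c2 z : ℚ_[2])) (nearF e g) (𝓝 1) := by
    simpa [c2, hg0.2.2] using tendsto_coord e g 2
  have ht : Tendsto (fun z => (t z : ℚ_[2])) (nearF e g) (𝓝 1) := by
    simpa [t] using tendsto_const_nhds.sub ((hc1.mul_const (A 2 : ℚ_[2])).div hc2 one_ne_zero)
  have hr : Tendsto (fun z => (r z : ℚ_[2])) (nearF e g) (𝓝 1) := by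
    simpa [r] using ((hc0.add (hc1.mul_const (A 1 : ℚ_[2]))).add hc2).add (ht.mul hc1)
  have hs : Tendsto (fun z => (s z : ℚ_[2])) (nearF e g) (𝓝 2) := by
    simpa [s] using ((hc1.mul_const (A 0 : ℚ_[2])).add (hc2.const_mul (2 : ℚ_[2]))).add (ht.mul hc0)
  set n₀ : Fˣ := Units.mk0 (θ + 1) h1
  set m₀ : Fˣ := Units.mk0 (θ + 2) h2
  set gU : Fˣ := m₀ * n₀⁻¹ with hgU
  have hgv : (gU : F) = g := by simp [hgU, m₀, n₀, hg, div_eq_mul_inv]
  have h2q : ((2 : ℚ) : ℚ_[2]) = 2 := Rat.cast_ofNat 2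
  have hn := eventually_linear hd (θ := a) (fun _ => 1) t (r₀ := 1) (s₀ := 1)
    (l := nearF e g) (by simpa using tendsto_const_nhds) (by simpa using ht) (m₀ := n₀)
    (by simp [n₀, hθ])
  have hm := eventually_linear hd (θ := a) r s (r₀ := 1) (s₀ := Units.mk0 2 two_ne_zero)
    (l := nearF e g) (by simpa using hr) (by simpa using hs) (m₀ := m₀) (by simp [m₀, hθ])
  have hev : ∀ᶠ z in nearF e g, ∀ zU : Fˣ, (zU : F) = z → away2 a zU = away2 a gU := by
    filter_upwards [hn, hm, eventually_nearOne one_ne_zero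
      (show Tendsto (fun z => (c2 z : ℚ_[2])) (nearF e g) (𝓝 ((1 : ℚ) : ℚ_[2])) by simpa using hc2)]
      with z hzn hzm hz2 zU hzU
    rw [← hθ] at hzn hzm
    have hsplit : z * (algebraMap ℚ F 1 * θ + algebraMap ℚ F (t z)) =
        algebraMap ℚ F (r z) * θ + algebraMap ℚ F (s z) := by
      have ht' : algebraMap ℚ F (t z) * algebraMap ℚ F (c2 z) =
          algebraMap ℚ F (c2 z) - algebraMap ℚ F (c1 z) * algebraMap ℚ F (A 2) := by
        rw [← map_mul, ← map_mul, ← map_sub]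
        congr 1
        have hne : c2 z ≠ 0 := hz2.1
        simp only [t]; field_simp
      have hsq : θ ^ 2 = algebraMap ℚ F (A 0) + algebraMap ℚ F (A 1) * θ +
          algebraMap ℚ F (A 2) * g := hsum _
      have hz : z = algebraMap ℚ F (c0 z) + algebraMap ℚ F (c1 z) * θ +
          algebraMap ℚ F (c2 z) * g := hsum z
      simp only [r, s, map_add, map_mul, map_one, one_mul, map_ofNat]
      linear_combination (θ + algebraMap ℚ F (t z)) * hz + algebraMap ℚ F (c1 z) * hsq +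
        algebraMap ℚ F (c2 z) * hgθ + g * ht'
    set nU : Fˣ := Units.mk0 _ hzn.1
    set mU : Fˣ := Units.mk0 _ hzm.1
    have hU : zU * nU = mU := Units.ext (by rw [Units.val_mul, hzU]; exact hsplit)
    rw [eq_mul_inv_of_mul_eq hU, hgU, away2_mul_right, away2_mul_right, hzm.2 mU rfl,
      away2_comm a nU⁻¹, away2_comm a n₀⁻¹]
    have hinv : ∀ x : Fˣ, away2 x⁻¹ a = away2 x a := fun x => by
      have h := away2_mul_left x⁻¹ (x ^ 2) a
      rw [pow_two, inv_mul_cancel_left, ← pow_two, away2_sq_left, add_zero] at h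
      exact h.symm
    rw [hinv, hinv, away2_comm nU, away2_comm n₀, hzn.2 nU rfl]
  obtain ⟨M, hM⟩ := exists_close e g hev
  refine ⟨M, fun w hw => ?_⟩
  have h := hM (w : F) hw (w * gU) (by rw [Units.val_mul, hgv])
  rw [away2_mul_right] at h
  exact add_eq_right.mp h

end Fermat.Agent.Two.Recip
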