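import Fermat.Agent.Two.Recip.TameBasic
import Fermat.Agent.Mazur.Eisenstein.Unram
import Fermat.Agent.CFT.Flat.Norm

/-!
# The primes of a number field inside `ℚ̄` seen from `padicPlace`

For `g` in the absolute Galois group the prime `placeAt F q g` consists of the integers `x` with
`|g x| < 1`; all primes over `q` arise, and two coincide exactly on a double coset.
-/

set_option autoImplicit false
set_option linter.style.haveILetI false
set_option linter.unusedSectionVars false

noncomputable section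

namespace Fermat.Agent.Two.Recip

open Fermat.Agent.Arith Fermat.Agent.Mazur.Eisenstein IsDedekindDomain
open Fermat.Agent.CFT.Flat (nrm decG mem_nonunits_iff)
open scoped NumberField Pointwise

variable (F : IntermediateField ℚ QBar) [NumberField F] (q : ℕ) [hq : Fact q.Prime]

theorem liesOverPrime_inv_smul (g : GQ) : (g⁻¹ • padicPlace q).LiesOverPrime q :=
  liesOverPrime_smul_iff.mpr (CFT.Local.padicPlace_liesOverPrime q)

/-- The prime of `F` seen by `g`. -/
def placeAt (g : GQ) : HeightOneSpectrum (𝓞 F) :=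
  ⟨below F (g⁻¹ • padicPlace q), inferInstance, fun e => by
    have h := natCast_mem_below F (liesOverPrime_inv_smul q g)
    rw [e, Ideal.mem_bot] at h
    exact hq.out.ne_zero (by exact_mod_cast h)⟩

theorem mem_placeAt {g : GQ} {x : 𝓞 F} :
    x ∈ (placeAt F q g).asIdeal ↔ nrm q (g ((x : F) : QBar)) < 1 := by
  show x ∈ below F _ ↔ _
  rw [mem_below, ← mem_nonunits_iff, ← smul_mem_nonunits_smul_iff (g := g), smul_inv_smul]
  rfl

theorem natCast_mem_placeAt (g : GQ) : (q : 𝓞 F) ∈ (placeAt F q g).asIdeal :=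
  natCast_mem_below F (liesOverPrime_inv_smul q g)

theorem natCast_not_mem_placeAt {m : ℕ} (hm : ¬ q ∣ m) (g : GQ) :
    (m : 𝓞 F) ∉ (placeAt F q g).asIdeal := by
  rw [mem_placeAt]
  simp [CFT.Flat.nrm_natCast_eq_one q hm]

theorem nrm_apply_le_one (g : GQ) (x : 𝓞 F) : nrm q (g ((x : F) : QBar)) ≤ 1 :=
  CFT.Flat.nrm_le_one_of_isIntegral q ((intEmb F x).2.map (g.toAlgHom.restrictScalars ℤ))

theorem valuation_placeAt (g : GQ) (x : F) :
    ((placeAt F q g).valuation F x < 1 ↔ nrm q (g (x : QBar)) < 1) ∧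
      ((placeAt F q g).valuation F x ≤ 1 ↔ nrm q (g (x : QBar)) ≤ 1) := by
  set P := placeAt F q g
  have key : ∀ y : F, P.valuation F y ≤ 1 →
      nrm q (g (y : QBar)) ≤ 1 ∧ (P.valuation F y < 1 ↔ nrm q (g (y : QBar)) < 1) := by
    intro y hy
    obtain ⟨n, d, h⟩ := P.exists_primeCompl_mul_eq_of_integer y hy
    have hd : nrm q (g (((d : 𝓞 F) : F) : QBar)) = 1 :=
      le_antisymm (nrm_apply_le_one F q g d) (not_lt.1 fun hlt => d.2 ((mem_placeAt F q).2 hlt))
    have hd' : P.valuation F (algebraMap (𝓞 F) F d) = 1 :=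
      (P.valuation_eq_one_iff_notMem).mpr d.2
    have e : nrm q (g (y : QBar)) = nrm q (g ((n : F) : QBar)) := by
      rw [← mul_one (nrm q (g (y : QBar))), ← hd, ← CFT.Flat.nrm_mul, ← map_mul]
      congr 2
      exact congrArg Subtype.val h
    have e' : P.valuation F y = P.valuation F (algebraMap (𝓞 F) F n) := by
      rw [← mul_one (P.valuation F y), ← hd', ← map_mul, h]
    refine ⟨e ▸ nrm_apply_le_one F q g n, ?_⟩
    rw [e, e', P.valuation_lt_one_iff_mem, ← mem_placeAt]
  rcases le_or_gt (P.valuation F x) 1 with hle | hgt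
  · exact ⟨(key x hle).2, iff_of_true hle (key x hle).1⟩
  · have hinv : P.valuation F x⁻¹ < 1 := by rw [map_inv₀]; exact inv_lt_one_of_one_lt₀ hgt
    have h := (key _ hinv.le).2.1 hinv
    have hpos : 0 < nrm q (g (x : QBar)) := CFT.Flat.nrm_pos q fun e => by
      have hx : (x : QBar) = 0 := by rwa [map_eq_zero] at e
      rw [show x = 0 from Subtype.ext hx, map_zero] at hgt
      exact absurd hgt (not_lt.2 zero_le_one)
    push_cast at h
    rw [map_inv₀, CFT.Flat.nrm_inv, inv_lt_one₀ hpos] at h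
    exact ⟨iff_of_false hgt.le.not_gt h.le.not_gt, iff_of_false hgt.not_ge h.not_ge⟩

theorem valuation_placeAt_lt_one_iff (g : GQ) (x : F) :
    (placeAt F q g).valuation F x < 1 ↔ nrm q (g (x : QBar)) < 1 :=
  (valuation_placeAt F q g x).1

theorem placeAt_mul_right (g : GQ) {h : GQ} (hh : h ∈ F.fixingSubgroup) :
    placeAt F q (g * h) = placeAt F q g := by
  refine HeightOneSpectrum.ext (Ideal.ext fun x => ?_)
  rw [mem_placeAt, mem_placeAt, AlgEquiv.mul_apply,
    (IntermediateField.mem_fixingSubgroup_iff _ _).1 hh _ (x : F).2]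

theorem placeAt_mul_left {d : GQ} (hd : d ∈ decG q) (g : GQ) :
    placeAt F q (d * g) = placeAt F q g := by
  refine HeightOneSpectrum.ext (Ideal.ext fun x => ?_)
  rw [mem_placeAt, mem_placeAt, AlgEquiv.mul_apply, CFT.Flat.nrm_map q hd]

/-- Every prime over `q` is seen by some element. -/
theorem exists_placeAt (P : HeightOneSpectrum (𝓞 F)) (hP : (q : 𝓞 F) ∈ P.asIdeal) :
    ∃ g : GQ, P = placeAt F q g := by
  let f : 𝓞 F →+* QBar := F.val.toRingHom.comp (algebraMap (𝓞 F) F)
  have hf : Function.Injective f :=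
    F.val.injective.comp (IsFractionRing.injective (𝓞 F) F)
  have hne : P.asIdeal.map f.rangeRestrict ≠ ⊤ := fun e => by
    have h1 := congrArg (Ideal.comap f.rangeRestrict) e
    rw [Ideal.comap_map_of_surjective _ f.rangeRestrict_surjective, Ideal.comap_top] at h1
    refine P.isPrime.ne_top (eq_top_iff.2 (h1 ▸ sup_le le_rfl fun x hx => ?_))
    rw [show x = 0 from hf ((congrArg Subtype.val (Ideal.mem_comap.1 hx)).trans (map_zero f).symm)]
    exact zero_mem _
  obtain ⟨A, -, hA⟩ := Ideal.image_subset_nonunits_valuationSubring _ hne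
  have hmem : ∀ x ∈ P.asIdeal, ((x : F) : QBar) ∈ A.nonunits := fun x hx =>
    hA ⟨f.rangeRestrict x, Ideal.mem_map_of_mem _ hx, rfl⟩
  have hAq : A.LiesOverPrime q := by
    show (q : QBar) ∈ A.nonunits
    simpa using hmem _ hP
  obtain ⟨g, hg⟩ := exists_smul_eq hAq (CFT.Local.padicPlace_liesOverPrime q) hq.out
  refine ⟨g, HeightOneSpectrum.ext (P.isMaximal.eq_of_le (placeAt F q g).isPrime.ne_top
    fun x hx => ?_)⟩
  rw [mem_placeAt, ← mem_nonunits_iff, ← hg]
  exact smul_mem_nonunits_smul_iff.2 (hmem x hx)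

/-- Equal primes come from one double coset. -/
theorem exists_of_placeAt_eq {g g' : GQ} (e : placeAt F q g = placeAt F q g') :
    ∃ h ∈ F.fixingSubgroup, g' * h * g⁻¹ ∈ decG q := by
  set A := g⁻¹ • padicPlace q
  set B := g'⁻¹ • padicPlace q
  haveI : CompactSpace F.fixingSubgroup :=
    isCompact_iff_compactSpace.mp F.fixingSubgroup_isClosed.isCompact
  let R := FixedPoints.subalgebra ℤ ZBar F.fixingSubgroup
  haveI : SMulCommClass F.fixingSubgroup R ZBar := ⟨fun h r x => by
    show h • ((r : ZBar) * x) = (r : ZBar) * h • x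
    rw [smul_mul', show h • (r : ZBar) = r from r.2 h]⟩
  haveI : Algebra.IsInvariant R ZBar F.fixingSubgroup := ⟨fun x hx => ⟨⟨x, hx⟩, rfl⟩⟩
  have hunder : (centre A).under R = (centre B).under R := by
    ext x
    have hxF : ((x : ZBar) : QBar) ∈ F := by
      rw [← InfiniteGalois.fixedField_fixingSubgroup F]
      exact fun h => congrArg Subtype.val (x.2 h)
    let y : 𝓞 F := ⟨⟨_, hxF⟩,
      (isIntegral_algHom_iff (F.val.toRingHom.toIntAlgHom) F.val.injective).mp (x : ZBar).2⟩
    have hy := Ideal.ext_iff.1 (congrArg HeightOneSpectrum.asIdeal e) y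
    show (x : ZBar) ∈ centre A ↔ (x : ZBar) ∈ centre B
    rw [mem_centre, mem_centre]
    exact ((mem_below F).symm.trans hy).trans (mem_below F)
  obtain ⟨⟨h, hh⟩, hhA⟩ := Algebra.IsInvariant.exists_smul_of_under_eq_of_profinite (A := R)
    (G := F.fixingSubgroup) (centre A) (centre B) hunder
  have hAB : h • A = B := eq_of_centre_eq (liesOverPrime_smul_iff.mpr (liesOverPrime_inv_smul q g))
    (liesOverPrime_inv_smul q g') hq.out (centre_smul.trans hhA.symm)
  refine ⟨h, hh, MulAction.mem_stabilizer_iff.mpr ?_⟩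
  rw [mul_smul, mul_smul, hAB, smul_inv_smul]

end Fermat.Agent.Two.Recip
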