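import Fermat.Agent.CFT.Flat.Slots

/-!
# Deep radicals at two inside a tame field

If the radical of a character on tame inertia is congruent to one at level five, then the class
modulo squares of a field fixed by tame inertia has a representative congruent to one at level four.
-/

set_option autoImplicit false
set_option linter.style.haveILetI false

noncomputable section

namespace Fermat.Agent.Two.Recip

open Fermat.Agent.Arith Fermat.Agent.CFT.Flat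

local notation "qr" => nrm 2 (rad 2)

theorem qr_cube : qr ^ 3 = nrm 2 (2 : QBar) := by
  rw [← Fermat.Agent.CFT.Flat.nrm_pow, show (3 : ℕ) = e₀ 2 from rfl, rad_pow, Nat.cast_ofNat]

theorem nrm_two_pow_sub_pow_le {x y : QBar} (hx : nrm 2 x ≤ 1) (hy : nrm 2 y ≤ 1) (n : ℕ) :
    nrm 2 (x ^ n - y ^ n) ≤ nrm 2 (x - y) := by
  rw [← geom_sum₂_mul, nrm_mul]
  refine mul_le_of_le_one_left (nrm_nonneg 2 _) (nrm_sum_le 2 _ _ zero_le_one fun i _ => ?_)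
  rw [nrm_mul, Fermat.Agent.CFT.Flat.nrm_pow, Fermat.Agent.CFT.Flat.nrm_pow]
  exact mul_le_one₀ (pow_le_one₀ (nrm_nonneg 2 x) hx) (pow_nonneg (nrm_nonneg 2 y) _)
    (pow_le_one₀ (nrm_nonneg 2 y) hy)

/-- An odd power of a unit is a principal unit. -/
theorem exists_odd_pow_near_one {x : QBar} (hx : nrm 2 x = 1) :
    ∃ j : ℕ, nrm 2 (x ^ (2 * j + 1) - 1) < 1 := by
  obtain ⟨ζ, m, hm, hm2, hζ, hlt⟩ := exists_rootOfUnity 2 hx
  refine ⟨m / 2, ?_⟩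
  rw [show 2 * (m / 2) + 1 = m by omega, ← hζ]
  exact (nrm_two_pow_sub_pow_le hx.le (nrm_root 2 hm hζ).le m).trans_lt hlt

/-- Odd levels below five are not attained. -/
theorem nrm_sub_one_le_of_odd {A Z : QBar} (hA : nrm 2 A = 1) (hZ : ∀ g ∈ tame 2, g Z = Z)
    (h5 : nrm 2 (A * Z ^ 2 - 1) ≤ qr ^ 5) {n : ℕ} (hn5 : n + 1 ≤ 5) (hn : ¬ 2 ∣ n)
    (h : nrm 2 (A - 1) ≤ qr ^ n) : nrm 2 (A - 1) ≤ qr ^ (n + 1) := by
  have hq0 := (isUnif_rad 2).pos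
  have hq1 := (isUnif_rad 2).lt_one
  have hAZ : nrm 2 (A * Z ^ 2) = 1 := by
    rw [show A * Z ^ 2 = 1 + (A * Z ^ 2 - 1) by ring, nrm_add_eq_of_lt 2, nrm_one]
    rw [nrm_one]
    exact h5.trans_lt (pow_lt_one₀ hq0.le hq1 (by omega))
  have hZ1 : nrm 2 (Z ^ 2) = 1 := by rwa [nrm_mul, hA, one_mul] at hAZ
  have hZ0 : Z ≠ 0 := fun e => by simp [e] at hZ1
  have hle : ∀ k ≤ 5, qr ^ 5 ≤ qr ^ k := fun k hk => pow_le_pow_of_le_one hq0.le hq1.le hk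
  have hd : nrm 2 (Z⁻¹ ^ 2 - A) ≤ qr ^ 5 := by
    rw [show Z⁻¹ ^ 2 - A = -((A * Z ^ 2 - 1) / Z ^ 2) by field_simp; ring, nrm_neg, nrm_div, hZ1,
      div_one]
    exact h5
  have hw : nrm 2 (Z⁻¹ ^ 2 - 1) ≤ qr ^ n := by
    rw [show Z⁻¹ ^ 2 - 1 = (Z⁻¹ ^ 2 - A) + (A - 1) by ring]
    exact nrm_add_le_of_le 2 (hd.trans (hle n (by omega))) h
  have hw' := nrm_pow_sub_one_le 2 (y := Z⁻¹) (fun g hg => by rw [map_inv₀, hZ g hg]) (n := n)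
    (Nat.pos_of_ne_zero fun e => hn (e ▸ dvd_zero 2)) (by omega) hn hw
  rw [show A - 1 = (Z⁻¹ ^ 2 - 1) - (Z⁻¹ ^ 2 - A) by ring]
  exact nrm_sub_le_of_le 2 hw' (hd.trans (hle (n + 1) hn5))

/-- **The representative congruent to one at level four.** -/
theorem exists_deep_mul {F : IntermediateField ℚ QBar} (hF : ∀ g ∈ tame 2, ∀ x ∈ F, g x = x)
    {a : QBar} (ha : a ∈ F) (ha0 : a ≠ 0) {α₀ : QBar} (hα : α₀ ^ 2 = a) {ψ : GQ → ZMod 2}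
    (heig : IsEigen 2 ψ α₀) (h : HasDeep 2 ψ 5) :
    ∃ c ∈ F, c ≠ 0 ∧ nrm 2 (a * c ^ 2 - 1) ≤ qr ^ 4 := by
  have u := isUnif_rad 2
  have hq0 := u.pos
  have hq1 := u.lt_one
  have h2F : (2 : QBar) ∈ F := by simp
  obtain ⟨α₁, hα₁, h5⟩ := h
  set y := α₁ / α₀ with hy
  have hyfix : ∀ g ∈ tame 2, g y = y := fun g hg => by
    rw [hy, map_div₀, hα₁.2 g hg, heig.2 g hg,
      mul_div_mul_left _ _ (pow_ne_zero _ ((zp_spec 2).ne_zero (by norm_num)))]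
  have hy0 : y ≠ 0 := div_ne_zero hα₁.1 heig.1
  have hay : a * y ^ 2 = α₁ ^ 2 := by
    rw [← hα, hy, div_pow, mul_div_cancel₀ _ (pow_ne_zero 2 heig.1)]
  obtain ⟨l, hl⟩ := u.exists_zpow hy0 hyfix
  have hα1 : nrm 2 (α₁ ^ 2) = 1 := by
    rw [show α₁ ^ 2 = 1 + (α₁ ^ 2 - 1) by ring, nrm_add_eq_of_lt 2, nrm_one]
    rw [nrm_one]
    exact h5.trans_lt (pow_lt_one₀ hq0.le hq1 (by omega))
  have hna : nrm 2 a * qr ^ (2 * l) = 1 := by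
    rw [← hα1, ← hay, nrm_mul, Fermat.Agent.CFT.Flat.nrm_pow, hl, mul_comm 2 l, zpow_mul]
    norm_cast
  -- make the representative a unit
  set c₁ := a * (2 : QBar) ^ l with hc₁
  have hc₁F : c₁ ∈ F := mul_mem ha (zpow_mem h2F l)
  have hc₁0 : c₁ ≠ 0 := mul_ne_zero ha0 (zpow_ne_zero _ two_ne_zero)
  set A₁ := a * c₁ ^ 2 with hA₁
  have hA₁F : A₁ ∈ F := mul_mem ha (pow_mem hc₁F 2)
  have hA₁1 : nrm 2 A₁ = 1 := by
    have e : nrm 2 ((2 : QBar) ^ l) = qr ^ (3 * l) := by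
      rw [zpow_mul, zpow_ofNat, qr_cube, nrm, map_zpow₀, norm_zpow]
      rfl
    have ea : nrm 2 a = qr ^ (-(2 * l)) := by
      rw [zpow_neg]; exact eq_inv_of_mul_eq_one_left hna
    rw [hA₁, hc₁, nrm_mul, Fermat.Agent.CFT.Flat.nrm_pow, nrm_mul, e, ea, ← zpow_add₀ hq0.ne',
      ← zpow_natCast, ← zpow_mul, ← zpow_add₀ hq0.ne',
      show -(2 * l) + (-(2 * l) + 3 * l) * ((2 : ℕ) : ℤ) = 0 by push_cast; ring, zpow_zero]
  set z₁ := y / c₁ with hz₁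
  have hz₁fix : ∀ g ∈ tame 2, g z₁ = z₁ := fun g hg => by
    rw [hz₁, map_div₀, hyfix g hg, hF g hg c₁ hc₁F]
  have hAz₁ : A₁ * z₁ ^ 2 = α₁ ^ 2 := by
    rw [hA₁, hz₁, div_pow, mul_assoc, mul_div_cancel₀ _ (pow_ne_zero 2 hc₁0), hay]
  -- make it a principal unit
  obtain ⟨j, hj⟩ := exists_odd_pow_near_one hA₁1
  set c₂ := c₁ * A₁ ^ j with hc₂
  set A₂ := a * c₂ ^ 2 with hA₂
  have hA₂e : A₂ = A₁ ^ (2 * j + 1) := by rw [hA₂, hc₂, hA₁]; ring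
  have hc₂F : c₂ ∈ F := mul_mem hc₁F (pow_mem hA₁F j)
  have hA₁0 : A₁ ≠ 0 := mul_ne_zero ha0 (pow_ne_zero 2 hc₁0)
  have hc₂0 : c₂ ≠ 0 := mul_ne_zero hc₁0 (pow_ne_zero j hA₁0)
  have hA₂F : A₂ ∈ F := mul_mem ha (pow_mem hc₂F 2)
  have hA₂1 : nrm 2 A₂ = 1 := by rw [hA₂e, Fermat.Agent.CFT.Flat.nrm_pow, hA₁1, one_pow]
  have h5₂ : nrm 2 (A₂ * (z₁ ^ (2 * j + 1)) ^ 2 - 1) ≤ qr ^ 5 := by
    rw [hA₂e, ← pow_mul, mul_comm (2 * j + 1) 2, pow_mul z₁, ← mul_pow, hAz₁]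
    refine le_trans ?_ h5
    conv_lhs => rw [← one_pow (M := QBar) (2 * j + 1)]
    exact nrm_two_pow_sub_pow_le hα1.le (nrm_one 2).le _
  have hfix₂ : ∀ g ∈ tame 2, g (z₁ ^ (2 * j + 1)) = z₁ ^ (2 * j + 1) := fun g hg => by
    rw [map_pow, hz₁fix g hg]
  have hsub : ∀ {A : QBar}, A ∈ F → ∀ g ∈ tame 2, g (A - 1) = A - 1 := fun hA g hg =>
    hF g hg _ (sub_mem hA (one_mem F))
  have h1 : nrm 2 (A₂ - 1) ≤ qr ^ 1 :=
    u.nrm_le_of_lt (hsub hA₂F) (k := 0) (by rw [pow_zero, hA₂e]; exact hj)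
  have h2 := nrm_sub_one_le_of_odd hA₂1 hfix₂ h5₂ (n := 1) (by omega) (by omega) h1
  rcases h2.lt_or_eq with hlt | heq
  · exact ⟨c₂, hc₂F, hc₂0, nrm_sub_one_le_of_odd hA₂1 hfix₂ h5₂ (n := 3) (by omega) (by omega)
      (u.nrm_le_of_lt (hsub hA₂F) hlt)⟩
  -- remove the digit at level two
  set t := A₂ - 1 with ht
  have htF : t ∈ F := sub_mem hA₂F (one_mem F)
  have ht0 : t ≠ 0 := fun e => by
    rw [e, nrm_zero] at heq
    exact (pow_ne_zero _ hq0.ne') heq.symm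
  set v := (2 : QBar) / t with hv
  have hvF : v ∈ F := div_mem h2F htF
  have hv1 : nrm 2 v = qr := by
    rw [hv, nrm_div, heq, ← qr_cube, pow_succ' qr 2, mul_div_assoc,
      div_self (pow_ne_zero _ hq0.ne'), mul_one]
  set x := t / v ^ 2 with hx
  have hx1 : nrm 2 x = 1 := by
    rw [hx, nrm_div, Fermat.Agent.CFT.Flat.nrm_pow, hv1, heq, div_self (pow_ne_zero _ hq0.ne')]
  obtain ⟨i, hi⟩ := exists_odd_pow_near_one hx1
  set s := v * x ^ (i + 1) with hs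
  have hsF : s ∈ F := mul_mem hvF (pow_mem (div_mem htF (pow_mem hvF 2)) _)
  have hs1 : nrm 2 s = qr := by
    rw [hs, nrm_mul, Fermat.Agent.CFT.Flat.nrm_pow, hx1, one_pow, mul_one, hv1]
  have h1s : nrm 2 (1 + s) = 1 := by
    rw [nrm_add_eq_of_lt 2, nrm_one]
    rwa [nrm_one, hs1]
  have h1s0 : 1 + s ≠ 0 := fun e => by rw [e, nrm_zero] at h1s; exact zero_ne_one h1s
  have hts : nrm 2 (t - s ^ 2) < qr ^ 2 := by
    have hv0 : v ≠ 0 := div_ne_zero two_ne_zero ht0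
    rw [show t - s ^ 2 = v ^ 2 * (x * (1 - x ^ (2 * i + 1))) by
      rw [mul_sub, mul_sub, mul_one, hx, mul_div_cancel₀ _ (pow_ne_zero 2 hv0), ← hx, hs]
      ring, nrm_mul, nrm_mul, Fermat.Agent.CFT.Flat.nrm_pow, hv1, hx1, one_mul, nrm_sub_comm]
    exact mul_lt_of_lt_one_right (pow_pos hq0 2) hi
  set c₃ := c₂ / (1 + s) with hc₃
  have hc₃F : c₃ ∈ F := div_mem hc₂F (add_mem (one_mem F) hsF)
  have hA₃ : a * c₃ ^ 2 = A₂ / (1 + s) ^ 2 := by rw [hA₂, hc₃, div_pow, mul_div_assoc]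
  have hA₃1 : nrm 2 (a * c₃ ^ 2) = 1 := by
    rw [hA₃, nrm_div, hA₂1, Fermat.Agent.CFT.Flat.nrm_pow, h1s, one_pow, div_one]
  have h5₃ : nrm 2 (a * c₃ ^ 2 * (z₁ ^ (2 * j + 1) * (1 + s)) ^ 2 - 1) ≤ qr ^ 5 := by
    rw [hA₃, mul_pow, ← mul_assoc, mul_right_comm,
      div_mul_cancel₀ _ (pow_ne_zero 2 h1s0)]
    exact h5₂
  have hlt : nrm 2 (a * c₃ ^ 2 - 1) < qr ^ 2 := by
    rw [hA₃, show A₂ / (1 + s) ^ 2 - 1 = ((t - s ^ 2) - 2 * s) / (1 + s) ^ 2 by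
      rw [ht, div_sub_one (pow_ne_zero 2 h1s0)]; ring, nrm_div, Fermat.Agent.CFT.Flat.nrm_pow,
      h1s, one_pow, div_one]
    refine nrm_sub_lt_of_lt 2 hts ?_
    rw [nrm_mul, ← qr_cube, hs1, ← pow_succ]
    exact pow_lt_pow_right_of_lt_one₀ hq0 hq1 (by omega)
  refine ⟨c₃, hc₃F, div_ne_zero hc₂0 h1s0, nrm_sub_one_le_of_odd hA₃1
    (fun g hg => ?_) h5₃ (n := 3) (by omega) (by omega)
    (u.nrm_le_of_lt (hsub (mul_mem ha (pow_mem hc₃F 2))) hlt)⟩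
  rw [map_mul, hfix₂ g hg, hF g hg _ (add_mem (one_mem F) hsF)]

end Fermat.Agent.Two.Recip
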