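import Fermat.Agent.Two.Recip.Cubic
import Fermat.Agent.Two.Recip.TwoAdic

/-!
# The sum of the symbols at the auxiliary primes

Radicals in a cubic subfield of `ℚ̄` fixed by tame inertia at two, positive at the real places, deep
at two and with vanishing symbols at the other odd primes: the symbols at the remaining odd primes
sum to zero.
-/

set_option autoImplicit false
set_option linter.style.haveILetI false

noncomputable section

namespace Fermat.Agent.Two.Recip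

open Fermat.Agent.Arith Fermat.Agent.CFT.Flat IsDedekindDomain
open scoped NumberField

section

variable {F : Type*} [Field F] [NumberField F]

omit [NumberField F] in
theorem realTerm_eq_zero_of_pos {a b : Fˣ} (h : ∀ σ : F →+* ℝ, 0 < σ (a : F)) :
    realTerm a b = 0 :=
  finsum_eq_zero_of_forall_eq_zero fun σ => if_neg fun e => (h σ).not_gt e.1

theorem oddTame_mul_sq_mul_sq (a b c d : Fˣ) :
    oddTame (a * c ^ 2) (b * d ^ 2) = oddTame a b := by
  rw [oddTame_mul_left, oddTame_sq_left, add_zero, oddTame_comm, oddTame_mul_left,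
    oddTame_sq_left, add_zero, oddTame_comm]

/-- The symbols of a finite family of odd primes outside which the symbols vanish. -/
theorem oddTame_eq_sum {ι : Type*} (V : Finset ι) (P Q : ι → OddPlace F) {a b : Fˣ}
    (hP : Set.InjOn P V) (hQ : Set.InjOn Q V) (hPQ : ∀ v ∈ V, ∀ w ∈ V, P v ≠ Q w)
    (hout : ∀ R : OddPlace F, (∀ v ∈ V, R ≠ P v ∧ R ≠ Q v) → tame R.1 a b = 0) :
    oddTame a b = ∑ v ∈ V, (tame (P v).1 a b + tame (Q v).1 a b) := by
  classical
  rw [oddTame, finsum_eq_finsetSum_of_support_subset _ (s := V.image P ∪ V.image Q) fun R hR => by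
    rw [Finset.coe_union, Finset.coe_image, Finset.coe_image]
    by_contra hne
    simp only [Set.mem_union, Set.mem_image, not_or, not_exists, not_and] at hne
    exact hR (hout R fun v hv => ⟨fun e => hne.1 v hv e.symm, fun e => hne.2 v hv e.symm⟩)]
  rw [Finset.sum_union, Finset.sum_image hP, Finset.sum_image hQ, Finset.sum_add_distrib]
  rw [Finset.disjoint_left]
  intro R h1 h2
  obtain ⟨v, hv, rfl⟩ := Finset.mem_image.1 h1
  obtain ⟨w, hw, e⟩ := Finset.mem_image.1 h2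
  exact hPQ v hv w hw e.symm

end

variable {F : IntermediateField ℚ QBar}

theorem exists_deep_mul_units (hF : ∀ g ∈ CFT.Flat.tame 2, ∀ x ∈ F, g x = x) (a : Fˣ) {α : QBar}
    (hα : α ^ 2 = ((a : F) : QBar)) {ψ : GQ → ZMod 2}
    (heig : ∀ g ∈ CFT.Flat.tame 2, g α = (-1) ^ (ψ g).val * α) (h : HasDeep 2 ψ 5) :
    ∃ c : Fˣ, nrm 2 ((((a * c ^ 2 : Fˣ) : F) : QBar) - 1) ≤ nrm 2 (rad 2) ^ 4 := by
  have ha0 : ((a : F) : QBar) ≠ 0 := fun e => a.ne_zero (Subtype.ext e)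
  have hα0 : α ≠ 0 := fun e => ha0 (by rw [← hα, e, zero_pow two_ne_zero])
  obtain ⟨c, hc, hc0, hle⟩ := exists_deep_mul hF (a : F).2 ha0 hα
    ⟨hα0, fun g hg => by rw [(zp_spec 2).eq_neg_one_of_two_right, heig g hg]⟩ h
  exact ⟨Units.mk0 ⟨c, hc⟩ fun e => hc0 (congrArg Subtype.val e), hle⟩

variable [NumberField F]

/-- The condition at two from the closeness to one at the distinguished place. -/
theorem valuation_lt_four
    (hval : ∀ P : HeightOneSpectrum (𝓞 F), (2 : 𝓞 F) ∈ P.asIdeal →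
      ∀ x : F, P.valuation F x < 1 ↔ nrm 2 (x : QBar) < 1)
    {a b : F} (ha : nrm 2 ((a : QBar) - 1) ≤ nrm 2 (rad 2) ^ 4)
    (hb : nrm 2 ((b : QBar) - 1) ≤ nrm 2 (rad 2) ^ 4)
    (P : HeightOneSpectrum (𝓞 F)) (hP : (2 : 𝓞 F) ∈ P.asIdeal) :
    P.valuation F (a - 1) * P.valuation F (b - 1) < P.valuation F (4 : F) := by
  have hq0 := (isUnif_rad 2).pos
  have hq1 := (isUnif_rad 2).lt_one
  have h4 : nrm 2 (4 : QBar) = nrm 2 (rad 2) ^ 6 := by
    rw [show (4 : QBar) = 2 * 2 by norm_num, nrm_mul, ← qr_cube, ← pow_add]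
  have hz : P.valuation F ((a - 1) * (b - 1) / 4) < 1 := by
    rw [hval P hP]
    push_cast
    rw [nrm_div, nrm_mul, show ((4 : F) : QBar) = 4 from map_ofNat F.val 4, h4, div_lt_one (pow_pos hq0 6)]
    refine (mul_le_mul ha hb (nrm_nonneg 2 _) (pow_nonneg hq0.le 4)).trans_lt ?_
    rw [← pow_add]
    exact pow_lt_pow_right_of_lt_one₀ hq0 hq1 (by norm_num)
  rwa [map_div₀, div_lt_one₀ ((Valuation.pos_iff _).2 (by norm_num)), map_mul] at hz

/-- **Reciprocity for deep radicals.** -/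
theorem sum_tame_eq_zero (hd : Module.finrank ℚ F = 3)
    (hF : ∀ g ∈ CFT.Flat.tame 2, ∀ x ∈ F, g x = x)
    (hval : ∀ P : HeightOneSpectrum (𝓞 F), (2 : 𝓞 F) ∈ P.asIdeal →
      ∀ x : F, P.valuation F x < 1 ↔ nrm 2 (x : QBar) < 1)
    {ι : Type*} (V : Finset ι) (P Q : ι → OddPlace F)
    (hP : Set.InjOn P V) (hQ : Set.InjOn Q V) (hPQ : ∀ v ∈ V, ∀ w ∈ V, P v ≠ Q w)
    {a b : Fˣ} (hpos : ∀ σ : F →+* ℝ, 0 < σ (a : F)) {α β : QBar}
    (hα : α ^ 2 = ((a : F) : QBar)) (hβ : β ^ 2 = ((b : F) : QBar)) {ψ ψ' : GQ → ZMod 2}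
    (hαψ : ∀ g ∈ CFT.Flat.tame 2, g α = (-1) ^ (ψ g).val * α)
    (hβψ : ∀ g ∈ CFT.Flat.tame 2, g β = (-1) ^ (ψ' g).val * β)
    (hψ : HasDeep 2 ψ 5) (hψ' : HasDeep 2 ψ' 5)
    (hout : ∀ R : OddPlace F, (∀ v ∈ V, R ≠ P v ∧ R ≠ Q v) → tame R.1 a b = 0) :
    ∑ v ∈ V, (tame (P v).1 a b + tame (Q v).1 a b) = 0 := by
  obtain ⟨c, hc⟩ := exists_deep_mul_units hF a hα hαψ hψ
  obtain ⟨d, hd'⟩ := exists_deep_mul_units hF b hβ hβψ hψ'
  have hpos' : ∀ σ : F →+* ℝ, 0 < σ ((a * c ^ 2 : Fˣ) : F) := fun σ => by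
    rw [Units.val_mul, Units.val_pow_eq_pow_val, map_mul, map_pow]
    exact mul_pos (hpos σ) (pow_two_pos_of_ne_zero ((map_ne_zero σ).2 c.ne_zero))
  rw [← oddTame_eq_sum V P Q hP hQ hPQ hout, ← oddTame_mul_sq_mul_sq a b c d]
  exact oddTame_eq_zero hd (realTerm_eq_zero_of_pos hpos') (valuation_lt_four hval hc hd')

end Fermat.Agent.Two.Recip
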