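import Fermat.Agent.Two.Recip.CubicCosets
import Fermat.Agent.Two.Recip.CubicPlace
import Fermat.Agent.Two.Recip.CubicSum

/-!
# The prime over two of the cubic field, and the separation of the auxiliary primes

An elliptic element of inertia at two permutes the three cosets, so a single prime lies over two.
-/

set_option autoImplicit false
set_option linter.style.haveILetI false
set_option linter.unusedSectionVars false

noncomputable section

namespace Fermat.Agent.Two.Recip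

open Fermat.Agent.Deform Fermat.Agent.Arith IsDedekindDomain
open Fermat.Agent.CFT.Flat (decG inG inG_le_decG nrm)
open Fermat.Agent.Two.Tangent (Dihedral InCubic rinv_mul rmul_inv)
open scoped NumberField

variable {k : Type} [Field k] [CharP k 2] {r : Gal →* M2 k} {D : Finset ℕ} {δ : QBar}
  (h : Dihedral r D δ) {R : M2 k} (hR : R * R = 1) {σ₀ : Gal} (hσ₀ : r σ₀ = R)
  (hmove : σ₀ δ ≠ δ)

include h hR hσ₀ hmove

/-- Powers of an elliptic element represent all cosets. -/
theorem exists_pow_coset {τ : Gal} (hτ : (r τ - 1).det ≠ 0) (g : Gal) :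
    ∃ n : ℕ, InCubic r R ((τ ^ n)⁻¹ * g) := by
  haveI := qBar_isGalois
  have h1 : r τ ≠ 1 := fun e => hτ (by rw [e, sub_self, Matrix.det_zero])
  have hfix : τ δ = δ := by_contra fun e => hτ (by
    have htr := h.trace_of_move e
    have hsq := h.sq_of_move e
    have hmul : (r τ - 1) * (r τ - 1) = 0 := by
      rw [sub_mul, mul_sub, one_mul, hsq, mul_one, sub_sub_sub_eq]
      ext i j
      simp only [Matrix.sub_apply, Matrix.add_apply, Matrix.zero_apply]
      linear_combination ((1 : M2 k) i j - r τ i j) * (CharTwo.two_eq_zero : (2 : k) = 0)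
    have hdet := congrArg Matrix.det hmul
    rw [Matrix.det_mul, Matrix.det_zero, mul_self_eq_zero] at hdet
    exact hdet)
  have hfix2 : (τ * τ) δ = δ := by rw [AlgEquiv.mul_apply, hfix, hfix]
  have h2 : r (τ * τ) ≠ 1 := fun e => move_of_sq_eq_one h h1 (by rwa [map_mul] at e) hfix
  have hne : ∀ σ : Gal, σ δ = δ → r σ ≠ 1 → ¬ InCubic r R σ := fun σ hσ hσ1 hin =>
    hmove ((h.diag_iff σ₀).1 (by rw [hσ₀, ← hin.resolve_left hσ1]; exact (h.diag_iff σ).2 hσ))
  set G := cubicSubgroup r R hR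
  have hcard : Nat.card (Gal ⧸ G) = 3 := by
    rw [← finrank_cubicField h hR hσ₀ hmove, IntermediateField.finrank_eq_fixingSubgroup_index,
      fixingSubgroup_cubicField h hR]
    rfl
  haveI : Finite (Gal ⧸ G) := Nat.finite_of_card_ne_zero (by omega)
  letI : Fintype (Gal ⧸ G) := Fintype.ofFinite _
  classical
  set a : Gal ⧸ G := QuotientGroup.mk 1
  set b : Gal ⧸ G := QuotientGroup.mk τ
  set c : Gal ⧸ G := QuotientGroup.mk (τ * τ)
  have hab : a ≠ b := fun e => hne τ hfix h1 (by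
    have := QuotientGroup.eq.1 e; rwa [inv_one, one_mul] at this)
  have hac : a ≠ c := fun e => hne _ hfix2 h2 (by
    have := QuotientGroup.eq.1 e; rwa [inv_one, one_mul] at this)
  have hbc : b ≠ c := fun e => hne τ hfix h1 (by
    have := QuotientGroup.eq.1 e; rwa [inv_mul_cancel_left] at this)
  have huniv : ({a, b, c} : Finset (Gal ⧸ G)) = Finset.univ :=
    Finset.eq_univ_of_card _ (by
      rw [Finset.card_eq_three.2 ⟨a, b, c, hab, hac, hbc, rfl⟩, ← Nat.card_eq_fintype_card, hcard])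
  have hg : (QuotientGroup.mk g : Gal ⧸ G) ∈ ({a, b, c} : Finset (Gal ⧸ G)) :=
    huniv ▸ Finset.mem_univ _
  simp only [Finset.mem_insert, Finset.mem_singleton] at hg
  rcases hg with e | e | e <;> have e' := QuotientGroup.eq.1 e.symm
  · exact ⟨0, by rwa [pow_zero]⟩
  · exact ⟨1, by rwa [pow_one]⟩
  · exact ⟨2, by rwa [pow_two]⟩

variable [NumberField (cubicField r R hR)]

/-- A single prime lies over two. -/
theorem valuation_over_two (hell : ∃ τ ∈ inG 2, (r τ - 1).det ≠ 0)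
    (P : HeightOneSpectrum (𝓞 (cubicField r R hR))) (hP : (2 : 𝓞 (cubicField r R hR)) ∈ P.asIdeal)
    (x : cubicField r R hR) : P.valuation _ x < 1 ↔ nrm 2 (x : QBar) < 1 := by
  obtain ⟨τ, hτ, hdet⟩ := hell
  obtain ⟨g, rfl⟩ := exists_placeAt (cubicField r R hR) 2 P (by exact_mod_cast hP)
  obtain ⟨n, hn⟩ := exists_pow_coset h hR hσ₀ hmove hdet g
  have e : placeAt (cubicField r R hR) 2 g = placeAt (cubicField r R hR) 2 1 := by
    rw [show g = τ ^ n * (1 * ((τ ^ n)⁻¹ * g)) by rw [one_mul, mul_inv_cancel_left],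
      placeAt_mul_left _ _ ((decG 2).pow_mem (inG_le_decG 2 hτ) n),
      placeAt_mul_right _ _ _ ((mem_cubicField_fixing h hR).2 hn)]
  rw [e, valuation_placeAt_lt_one_iff]
  rfl

/-- The two primes over an auxiliary prime differ. -/
theorem placeAt_ne {v : ℕ} [Fact v.Prime] {φ g₁ g₂ : Gal}
    (hφ : (padicPlace v).IsFrobeniusAt φ v) (hunr : ∀ t ∈ inG v, r t = 1)
    (h1 : InCubic r R (g₁ * φ * g₁⁻¹)) (h2 : ¬ InCubic r R (g₂ * φ * g₂⁻¹)) :
    placeAt (cubicField r R hR) v g₁⁻¹ ≠ placeAt (cubicField r R hR) v g₂⁻¹ := by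
  intro e
  obtain ⟨x, hx, hd⟩ := exists_of_placeAt_eq (cubicField r R hR) v e
  rw [inv_inv] at hd
  have hx' : x ∈ cubicSubgroup r R hR := (mem_cubicField_fixing h hR).1 hx
  have h3 : g₁ * (g₂⁻¹ * x * g₁) * g₁⁻¹ ∈ cubicSubgroup r R hR :=
    inCubic_conj_decG h hR hφ hunr h1 hd
  have h4 : g₁ * g₂⁻¹ ∈ cubicSubgroup r R hR := by
    have := mul_mem h3 (inv_mem hx')
    rwa [show g₁ * (g₂⁻¹ * x * g₁) * g₁⁻¹ * x⁻¹ = g₁ * g₂⁻¹ by group] at this
  apply h2
  have := mul_mem (mul_mem (inv_mem h4) (show g₁ * φ * g₁⁻¹ ∈ cubicSubgroup r R hR from h1)) h4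
  rwa [show (g₁ * g₂⁻¹)⁻¹ * (g₁ * φ * g₁⁻¹) * (g₁ * g₂⁻¹) = g₂ * φ * g₂⁻¹ by group] at this

end Fermat.Agent.Two.Recip
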