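import Mathlib.NumberTheory.NumberField.Basic
import Mathlib.NumberTheory.NumberField.Norm
import Mathlib.RingTheory.DedekindDomain.SelmerGroup
import Mathlib.NumberTheory.LegendreSymbol.Basic
import Mathlib.NumberTheory.Padics.PadicNumbers
import Mathlib.Algebra.BigOperators.Finprod

/-!
# Quadratic symbols away from two

The tame symbols at the odd primes of a number field and the signs at its real places, written
additively in `ℤ/2`, and the same symbols over `ℚ`.
-/

set_option autoImplicit false

noncomputable section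

namespace Fermat.Agent.Two.Recip

open IsDedekindDomain
open scoped NumberField

variable {F : Type*} [Field F] [NumberField F]

/-- The exponent of `P` in `x`. -/
def ordAt (P : HeightOneSpectrum (𝓞 F)) (x : Fˣ) : ℤ :=
  -Multiplicative.toAdd (P.valuationOfNeZero x)

/-- The unit at `P` whose residue is the tame symbol of `a` and `b`. -/
def tameUnit (P : HeightOneSpectrum (𝓞 F)) (a b : Fˣ) : Fˣ :=
  (-1) ^ (ordAt P a * ordAt P b) * a ^ ordAt P b * (b ^ ordAt P a)⁻¹

/-- `t` is congruent to a square at `P`. -/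
def IsSqMod (P : HeightOneSpectrum (𝓞 F)) (t : F) : Prop :=
  ∃ z : F, P.valuation F (t - z ^ 2) < 1

open Classical in
/-- The tame symbol at `P`. -/
def tame (P : HeightOneSpectrum (𝓞 F)) (a b : Fˣ) : ZMod 2 :=
  if IsSqMod P (tameUnit P a b : F) then 0 else 1

variable (F) in
/-- The primes not dividing two. -/
def OddPlace : Type _ := {P : HeightOneSpectrum (𝓞 F) // (2 : 𝓞 F) ∉ P.asIdeal}

/-- The sum of the tame symbols at the odd primes. -/
def oddTame (a b : Fˣ) : ZMod 2 := ∑ᶠ P : OddPlace F, tame P.1 a b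

open Classical in
/-- The sum of the symbols at the real places. -/
def realTerm (a b : Fˣ) : ZMod 2 :=
  ∑ᶠ σ : F →+* ℝ, if σ (a : F) < 0 ∧ σ (b : F) < 0 then 1 else 0

/-- The sum of the symbols at all places not over two. -/
def away2 (a b : Fˣ) : ZMod 2 := oddTame a b + realTerm a b

/-- Rational numbers in a number field. -/
def ratUnit : ℚˣ →* Fˣ := Units.map (algebraMap ℚ F).toMonoidHom

/-- The norm of a nonzero element. -/
def normUnit : Fˣ →* ℚˣ := Units.map (Algebra.norm ℚ : F →* ℚ)

/-- The unit at `p` whose residue is the tame symbol of `x` and `y`. -/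
def tameUnitQ (p : Nat.Primes) (x y : ℚˣ) : ℚˣ :=
  (-1) ^ (padicValRat p x * padicValRat p y) * x ^ padicValRat p y * (y ^ padicValRat p x)⁻¹

/-- The tame symbol at `p`. -/
def tameQ (p : Nat.Primes) (x y : ℚˣ) : ZMod 2 :=
  haveI : Fact (p : ℕ).Prime := ⟨p.2⟩
  if legendreSym p ((tameUnitQ p x y : ℚ).num * (tameUnitQ p x y : ℚ).den) = -1 then 1 else 0

/-- The sum of the rational symbols at all places but two. -/
def hilbertTwo (x y : ℚˣ) : ZMod 2 :=
  (∑ᶠ p : {p : Nat.Primes // (p : ℕ) ≠ 2}, tameQ p.1 x y) +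
    if (x : ℚ) < 0 ∧ (y : ℚ) < 0 then 1 else 0

/-- `u` is congruent to one modulo eight in `ℚ₂`. -/
def NearOne (u : ℚˣ) : Prop := ‖((u : ℚ) : ℚ_[2]) - 1‖ ≤ 1 / 8

end Fermat.Agent.Two.Recip
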