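import Fermat.Agent.CFT.Idele.LocalTower
import Fermat.Agent.CFT.Coh.Splitting

/-!
# The invariant of a fixed element modulo norms

For a class formation `u` and a subgroup `S` of order `p` with a character `χ`, the carry cocycle
of an `S`-invariant element is a multiple of `u`; the multiple modulo `p` is additive, kills norms,
is unchanged by the centraliser of `S`, and vanishes only when the carry cocycle is a coboundary.
-/

set_option autoImplicit false
set_option linter.unusedSectionVars false

noncomputable section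

namespace Fermat.Agent.Two.Recip

open groupCohomology Fermat.Agent.CFT Fermat.Agent.CFT.Idele

variable {G A : Type*} [Group G] [Fintype G] [AddCommGroup A] [DistribMulAction G A] {p : ℕ}
  [hp : Fact p.Prime]

/-- The elements fixed by `S`. -/
def fixedA (S : Subgroup G) (A : Type*) [AddCommGroup A] [DistribMulAction G A] : AddSubgroup A where
  carrier := {x | ∀ s : S, (s : G) • x = x}
  zero_mem' _ := smul_zero _
  add_mem' {x y} hx hy s := by rw [smul_add, hx s, hy s]
  neg_mem' {x} hx s := by rw [smul_neg, hx s]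

variable {u : NormCocycle G A} (hu : IsClassFormation p u) {S : Subgroup G}
  (hS : Nat.card S = p) (χ : S →* Multiplicative (ZMod p))

include hS in
theorem isPGroup_of_card_prime : IsPGroup p S := IsPGroup.of_card (n := 1) (by rw [pow_one, hS])

/-- `k` times the class formation is the carry class of `x`. -/
def IsInv (u : NormCocycle G A) (χ : S →* Multiplicative (ZMod p)) (x : A) (k : ℤ) : Prop :=
  IsCoboundary₂ fun gh : S × S => carryN χ x gh - k • u.toFun ((gh.1 : G), (gh.2 : G))

include hu hS in
theorem exists_isInv {x : A} (hx : x ∈ fixedA S A) : ∃ k, IsInv u χ x k :=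
  hu.generates S (isPGroup_of_card_prime hS) _ (isCocycle₂_carryN (χ := χ) (fun s => hx s))

theorem IsInv.sub {x y : A} {k l : ℤ} (h1 : IsInv u χ x k) (h2 : IsInv u χ y l) :
    IsInv u χ (x - y) (k - l) := by
  obtain ⟨b, hb⟩ := h1
  obtain ⟨c, hc⟩ := h2
  refine ⟨b - c, fun g h => ?_⟩
  have e1 := hb g h
  have e2 := hc g h
  simp only [carryN, smul_sub, sub_zsmul, Pi.sub_apply] at e1 e2 ⊢
  linear_combination (norm := abel) e1 - e2

theorem IsInv.add {x y : A} {k l : ℤ} (h1 : IsInv u χ x k) (h2 : IsInv u χ y l) :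
    IsInv u χ (x + y) (k + l) := by
  obtain ⟨b, hb⟩ := h1
  obtain ⟨c, hc⟩ := h2
  refine ⟨b + c, fun g h => ?_⟩
  have e1 := hb g h
  have e2 := hc g h
  simp only [carryN, smul_add, add_zsmul, Pi.add_apply] at e1 e2 ⊢
  linear_combination (norm := abel) e1 + e2

include hu hS in
theorem IsInv.congr {x : A} {k l : ℤ} (h1 : IsInv u χ x k) (h2 : IsInv u χ x l) :
    ((k : ℤ) : ZMod p) = (l : ZMod p) := by
  obtain ⟨b, hb⟩ := h1.sub χ h2
  have hd := hu.order S (isPGroup_of_card_prime hS) (k - l) ⟨-b, fun g h => by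
    have e := hb g h
    simp only [carryN, sub_self, smul_zero, zero_sub, Pi.neg_apply, smul_neg] at e ⊢
    linear_combination (norm := abel) -e⟩
  rw [hS] at hd
  exact ((ZMod.intCast_eq_intCast_iff_dvd_sub l k p).2 hd).symm

open Classical in
/-- The invariant as a function. -/
def invFun (u : NormCocycle G A) (χ : S →* Multiplicative (ZMod p)) (x : A) : ZMod p :=
  if h : ∃ k, IsInv u χ x k then (h.choose : ZMod p) else 0

include hu hS in
theorem invFun_eq {x : A} {k : ℤ} (h : IsInv u χ x k) : invFun u χ x = k := by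
  unfold invFun
  rw [dif_pos ⟨k, h⟩]
  exact (Exists.choose_spec (⟨k, h⟩ : ∃ k, IsInv u χ x k)).congr hu hS χ h

include hu hS in
/-- The invariant of a fixed element. -/
def normInv : fixedA S A →+ ZMod p :=
  AddMonoidHom.mk' (fun x => invFun u χ (x : A)) fun x y => by
    obtain ⟨k, hk⟩ := exists_isInv hu hS χ x.2
    obtain ⟨l, hl⟩ := exists_isInv hu hS χ y.2
    rw [invFun_eq hu hS χ hk, invFun_eq hu hS χ hl, AddSubgroup.coe_add,
      invFun_eq hu hS χ (hk.add χ hl), Int.cast_add]

theorem normInv_apply (x : fixedA S A) : normInv hu hS χ x = invFun u χ (x : A) := rfl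

/-- Norms have invariant zero. -/
theorem normInv_normSum [Fintype S] (w : A) (x : fixedA S A) (hx : (x : A) = normSum S A w) :
    normInv hu hS χ x = 0 := by
  have h : IsInv u χ (x : A) 0 := by
    obtain ⟨b, hb⟩ := carryN_normSum_mem χ w
    refine ⟨b, fun g h => ?_⟩
    simp only [hb g h, hx, zero_zsmul, sub_zero]
  rw [normInv_apply, invFun_eq hu hS χ h, Int.cast_zero]

/-- The centraliser of `S` preserves the invariant. -/
theorem normInv_smul (τ : G) (hτ : ∀ s : S, τ * (s : G) = s * τ) (x y : fixedA S A)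
    (hy : (y : A) = τ • (x : A)) : normInv hu hS χ y = normInv hu hS χ x := by
  obtain ⟨k, hk⟩ := exists_isInv hu hS χ x.2
  have h : IsInv u χ (y : A) k := by
    obtain ⟨b, hb⟩ := hk
    refine ⟨fun g => τ • b g + k • (u.toFun (τ, (g : G)) - u.toFun ((g : G), τ)), fun g h => ?_⟩
    have e0 := congrArg (fun z => τ • z) (hb g h)
    have c1 := u.isCocycle τ g h
    have c2 := u.isCocycle g τ h
    have c3 := u.isCocycle g h τ
    rw [hτ g] at c1
    rw [hτ h] at c2
    have e1 := congrArg (fun z => k • z) c1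
    have e2 := congrArg (fun z => k • z) c2
    have e3 := congrArg (fun z => k • z) c3
    rw [hy]
    simp only [carryN, smul_add, smul_sub, smul_comm τ k, smul_comm τ ((chiVal χ g + chiVal χ h) / p)]
      at e0 e1 e2 e3 ⊢
    simp only [Subgroup.smul_def, Subgroup.coe_mul, smul_smul, smul_comm ((g : G)) k,
      hτ g] at e0 e1 e2 e3 ⊢
    linear_combination (norm := abel) e0 + e1 - e2 + e3
  rw [normInv_apply, normInv_apply, invFun_eq hu hS χ h, invFun_eq hu hS χ hk]

/-- Invariant zero forces a trivial carry class. -/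
theorem isCoboundary_of_normInv (hA : StepAxioms p G A) (x : fixedA S A)
    (h0 : normInv hu hS χ x = 0) : IsCoboundary₂ (carryN χ (x : A)) := by
  obtain ⟨k, hk⟩ := exists_isInv hu hS χ x.2
  rw [normInv_apply, invFun_eq hu hS χ hk, ZMod.intCast_zmod_eq_zero_iff_dvd] at h0
  obtain ⟨t, rfl⟩ := h0
  obtain ⟨b, hb⟩ := hk
  obtain ⟨c, hc⟩ := hA.card_zsmul_mem S (isPGroup_of_card_prime hS)
    (fun gh : S × S => u.toFun ((gh.1 : G), (gh.2 : G))) fun a b d => u.isCocycle a b d
  refine ⟨fun g => b g + t • c g, fun g h => ?_⟩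
  have e1 := hb g h
  have e2 := congrArg (fun z => t • z) (hc g h)
  simp only [hS, Pi.smul_apply, smul_smul, mul_comm t, smul_add, smul_sub] at e1 e2 ⊢
  simp only [smul_comm (g : S) t] at e2 ⊢
  linear_combination (norm := abel) e1 + e2

end Fermat.Agent.Two.Recip
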