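import Fermat.Agent.CFT.Idele.LocalTriv
import Fermat.Agent.CFT.Idele.Classes

/-!
# Ideles which are local norms everywhere are norms

An idele fixed by `S` whose values are norms from the stabilisers is a norm from `S`.  Units are
norms where the stabiliser meets inertia trivially; principal units at two are norms from groups
whose order divides three.
-/

set_option autoImplicit false
set_option synthInstance.maxHeartbeats 200000
set_option linter.unusedSectionVars false
set_option linter.style.haveILetI false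

noncomputable section

namespace Fermat.Agent.Two.Recip

open ExtCitation Fermat.Agent.Arith IntermediateField Fermat.Agent.CFT.Local Fermat.Agent.CFT.Idele

local instance factPrimeTwoNormLocal (q : Nat.Primes) : Fact (q : ℕ).Prime := ⟨q.2⟩

variable {L : IntermediateField ℚ QBar} [FiniteDimensional ℚ L] [Normal ℚ L]

/-- An idele which is a norm at every place is a norm. -/
theorem exists_norm_of_local (S : Subgroup (L ≃ₐ[ℚ] L)) [Fintype S] (x : idl L)
    (hfix : ∀ h : S, (h : L ≃ₐ[ℚ] L) • x = x)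
    (hloc : ∀ (q : Nat.Primes) (r : L ≃ₐ[ℚ] L),
      ∃ z : (E L q)ˣ, ∀ [Fintype (semiStab (toGlobal (q : ℕ) L) S r)],
        ∏ s : semiStab (toGlobal (q : ℕ) L) S r,
          (s : E L q ≃ₐ[ℚ_[(q : ℕ)]] E L q) • z = val x q r) :
    ∃ y : idl L, ∏ h : S, (h : L ≃ₐ[ℚ] L) • y = x := by
  classical
  choose z hz using hloc
  obtain ⟨T, hT⟩ := val_mem_unitGroup_cofinite x
  have hzu : ∀ q ∉ T, ∀ r, z q r ∈ unitGroup (E L q) := fun q hq r => by
    letI : Fintype (semiStab (toGlobal (q : ℕ) L) S r) := Fintype.ofFinite _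
    have h1 := congrArg (fun u : (E L q)ˣ => ‖(u : E L q)‖) (hz q r)
    simp only [Units.coe_prod, norm_prod, norm_smul_unit, Finset.prod_const,
      (mem_unitGroup _).1 (hT q hq r)] at h1
    exact (mem_unitGroup _).2 ((pow_eq_one_iff_of_nonneg (norm_nonneg _)
      (Finset.card_ne_zero.2 Finset.univ_nonempty)).1 h1)
  have hy : ∀ q : Nat.Primes,
      SemiIn (toGlobal (q : ℕ) L) ⊤ (semiExt (toGlobal (q : ℕ) L) S (z q)) := fun q =>
    semiExt_semiIn (toGlobal_injective (q : ℕ) L) (fun _ _ _ => Subgroup.mem_top _)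
      fun _ => Subgroup.mem_top _
  let F : Family L := ⟨fun q => semiExt (toGlobal (q : ℕ) L) S (z q), fun q t σ => (hy q).equi t σ,
    ⟨T, fun q hq σ => (semiExt_semiIn (H := S) (toGlobal_injective (q : ℕ) L)
      (fun t u hu => (smul_mem_unitGroup_iff t u).2 hu) (hzu q hq)).mem σ⟩⟩
  refine ⟨F.toIdl, val_ext fun q σ => ?_⟩
  have key : ∀ g, ∏ h : S, semiExt (toGlobal (q : ℕ) L) S (z q) (g * h) = val x q g := congrFun
    (semi_ext_rep (D := ⊤) (H := S) (toGlobal_injective (q : ℕ) L)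
      ⟨fun t g => by simp only [Finset.smul_prod', mul_assoc, (hy q).equi],
        fun _ => Subgroup.mem_top _⟩
      ⟨fun t g => val_toGlobal_mul x q t g, fun _ => Subgroup.mem_top _⟩
      (fun g h hh => by
        simp only [mul_assoc]
        exact Fintype.prod_equiv (Equiv.mulLeft (⟨h, hh⟩ : S)) _ _ fun k => rfl)
      (fun g h hh => by rw [← val_smul, hfix ⟨h, hh⟩])
      fun g => by
        letI : Fintype (semiStab (toGlobal (q : ℕ) L) S (semiRep (toGlobal (q : ℕ) L) S g)) :=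
          Fintype.ofFinite _
        exact (prod_semiExt_rep (toGlobal_injective (q : ℕ) L)
          (semiRep_idem _ S g) (z q)).trans (hz q _))
  rw [val_prod, ← key σ]
  exact Finset.prod_congr rfl fun h _ => by rw [val_smul, F.val_toIdl]

/-- The values of a fixed idele are fixed by the stabilisers. -/
theorem smul_val_of_fixed (S : Subgroup (L ≃ₐ[ℚ] L)) (x : idl L)
    (hfix : ∀ h : S, (h : L ≃ₐ[ℚ] L) • x = x) (q : Nat.Primes) (r : L ≃ₐ[ℚ] L)
    (s : semiStab (toGlobal (q : ℕ) L) S r) :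
    (s : E L q ≃ₐ[ℚ_[(q : ℕ)]] E L q) • val x q r = val x q r := by
  rw [← val_toGlobal_mul]
  have h : r⁻¹ * toGlobal (q : ℕ) L s * r ∈ S := (mem_semiStab _ S).1 s.2
  conv_rhs => rw [← hfix ⟨_, h⟩, val_smul]
  congr 1
  group

/-- The stabilisers have order dividing that of `S`. -/
theorem card_semiStab_dvd (S : Subgroup (L ≃ₐ[ℚ] L)) (q : Nat.Primes) (r : L ≃ₐ[ℚ] L) :
    Nat.card (semiStab (toGlobal (q : ℕ) L) S r) ∣ Nat.card S :=
  Subgroup.card_dvd_of_injective
    (MonoidHom.mk' (fun s : semiStab (toGlobal (q : ℕ) L) S r =>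
        (⟨r⁻¹ * toGlobal (q : ℕ) L s * r, (mem_semiStab _ S).1 s.2⟩ : S)) fun a b => by
      refine Subtype.ext ?_
      simp only [Subgroup.coe_mul, map_mul]
      group)
    fun a b h => Subtype.ext (toGlobal_injective (q : ℕ) L
      (by simpa using congrArg Subtype.val h))

/-- Units are norms from a group meeting inertia trivially. -/
theorem exists_norm_of_unit (q : Nat.Primes) (H : Subgroup (E L q ≃ₐ[ℚ_[(q : ℕ)]] E L q))
    (hH : H ⊓ inertia (E L q) = ⊥) {v : (E L q)ˣ} (hv : ‖(v : E L q)‖ = 1)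
    (hfix : ∀ s : H, (s : E L q ≃ₐ[ℚ_[(q : ℕ)]] E L q) • v = v) :
    ∃ z : (E L q)ˣ, ∀ [Fintype H], ∏ s : H, (s : E L q ≃ₐ[ℚ_[(q : ℕ)]] E L q) • z = v := by
  classical
  letI : Fintype H := Fintype.ofFinite _
  have h0 : ordZ (E L q) v = 0 := by
    rw [ordZ, (ord_eq_one_iff _).2 ((mem_unitGroup _).2 hv), toAdd_one]
  obtain ⟨y, hy⟩ := (exists_normHom_eq_iff H hH (fun h => hfix h)).2 (h0 ▸ dvd_zero _)
  refine ⟨y, fun {i} => ?_⟩
  rw [Subsingleton.elim i (Fintype.ofFinite _)]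
  exact hy

/-- Repeated squares of a principal unit approach one. -/
theorem norm_pow_two_pow_sub_one {R : Type*} [NormedCommRing R] [IsUltrametricDist R] {x : R}
    (h2 : ‖(2 : R)‖ ≤ 1 / 2) (hx : ‖x - 1‖ ≤ 1 / 2) (n : ℕ) :
    ‖x ^ 2 ^ n - 1‖ ≤ (1 / 2) ^ (n + 1) := by
  induction n with
  | zero => simpa using hx
  | succ n ih =>
    rw [pow_succ, pow_mul,
      show (x ^ 2 ^ n) ^ 2 - 1 = (x ^ 2 ^ n - 1) * ((x ^ 2 ^ n - 1) + 2) by ring]
    refine (norm_mul_le _ _).trans ?_
    rw [pow_succ]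
    refine mul_le_mul ih ((IsUltrametricDist.norm_add_le_max _ _).trans (max_le (ih.trans ?_) h2))
      (norm_nonneg _) (by positivity)
    exact (pow_le_pow_of_le_one (by norm_num) (by norm_num) (Nat.succ_pos n)).trans (pow_one _).le

/-- Principal units at two have invariant cube roots. -/
theorem exists_cube_root {F : IntermediateField ℚ_[2] (PadicAlgCl 2)} [FiniteDimensional ℚ_[2] F]
    (x : Fˣ) (hx : ‖(x : F) - 1‖ ≤ 1 / 2) :
    ∃ y : Fˣ, y ^ 3 = x ∧ ∀ t : F ≃ₐ[ℚ_[2]] F, t • x = x → t • y = y := by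
  haveI : CompleteSpace F := inferInstance
  have h2 : ‖(2 : F)‖ ≤ 1 / 2 := by
    have h : ‖(2 : ℚ_[2])‖ = 1 / 2 := by
      simpa using Padic.norm_p (p := 2)
    rw [show (2 : F) = algebraMap ℚ_[2] F 2 from (map_ofNat _ 2).symm, norm_algebraMap', h]
  have hn : ‖(x : F)‖ = 1 := by
    rw [show (x : F) = ((x : F) - 1) + 1 by ring, IsUltrametricDist.norm_add_eq_max_of_norm_ne_norm]
    · rw [norm_one, max_eq_right]; linarith
    · rw [norm_one]; linarith
  -- exponents
  let m : ℕ → ℕ := fun k => (2 ^ (2 * k + 1) + 1) / 3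
  have hm : ∀ k, 3 * m k = 2 ^ (2 * k + 1) + 1 := fun k => Nat.mul_div_cancel' (by
    rw [← ZMod.natCast_eq_zero_iff]
    push_cast
    rw [pow_succ, pow_mul, show ((2 : ZMod 3) ^ 2) = 1 from rfl, one_pow]
    rfl)
  have hstep : ∀ k, m (k + 1) = m k + 2 ^ (2 * k + 1) := fun k => by
    have h1 := hm k
    have h2 := hm (k + 1)
    rw [show 2 * (k + 1) + 1 = 2 * k + 1 + 2 by ring, pow_add] at h2
    omega
  have hc : ∀ k, dist ((x : F) ^ m k) ((x : F) ^ m (k + 1)) ≤ 1 * (1 / 2) ^ k := fun k => by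
    rw [dist_eq_norm', hstep, pow_add,
      show (x : F) ^ m k * (x : F) ^ 2 ^ (2 * k + 1) - (x : F) ^ m k =
        (x : F) ^ m k * ((x : F) ^ 2 ^ (2 * k + 1) - 1) by ring, norm_mul, norm_pow, hn, one_pow]
    simp only [one_mul]
    exact (norm_pow_two_pow_sub_one h2 hx _).trans
      (pow_le_pow_of_le_one (by norm_num) (by norm_num) (by omega))
  obtain ⟨y, hy⟩ := cauchySeq_tendsto_of_complete
    (cauchySeq_of_le_geometric (1 / 2) 1 (by norm_num) hc)
  have hy3 : y ^ 3 = (x : F) := by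
    refine tendsto_nhds_unique (hy.pow 3) (tendsto_iff_norm_sub_tendsto_zero.2 ?_)
    refine squeeze_zero (fun _ => norm_nonneg _) (fun k => ?_)
      (tendsto_pow_atTop_nhds_zero_of_lt_one (by norm_num : (0 : ℝ) ≤ 1 / 2) (by norm_num))
    rw [← pow_mul, mul_comm (m k), hm, pow_succ,
      show (x : F) ^ 2 ^ (2 * k + 1) * x - x = x * ((x : F) ^ 2 ^ (2 * k + 1) - 1) by ring,
      norm_mul, hn, one_mul]
    exact (norm_pow_two_pow_sub_one h2 hx _).trans
      (pow_le_pow_of_le_one (by norm_num) (by norm_num) (by omega))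
  have hy0 : y ≠ 0 := fun h => x.ne_zero (by rw [← hy3, h, zero_pow (by norm_num)])
  refine ⟨Units.mk0 y hy0, Units.ext hy3, fun t ht => Units.ext ?_⟩
  show t y = y
  have htc : Continuous fun z : F => t z :=
    AddMonoidHomClass.continuous_of_bound t 1 fun z => by rw [norm_algEquiv, one_mul]
  refine tendsto_nhds_unique ((htc.tendsto y).comp hy) ?_
  refine hy.congr fun k => ?_
  show (x : F) ^ m k = t ((x : F) ^ m k)
  rw [map_pow, show t (x : F) = x from congrArg Units.val ht]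

/-- Principal units at two are norms from groups of order dividing three. -/
theorem exists_norm_at_two (H : Subgroup
      (E L ⟨2, Nat.prime_two⟩ ≃ₐ[ℚ_[2]] E L ⟨2, Nat.prime_two⟩))
    (hH : Nat.card H ∣ 3) {v : (E L ⟨2, Nat.prime_two⟩)ˣ}
    (hv : ‖(v : E L ⟨2, Nat.prime_two⟩) - 1‖ ≤ 1 / 2) (hfix : ∀ s : H, s.1 • v = v) :
    ∃ z, ∀ [Fintype H], ∏ s : H, s.1 • z = v := by
  obtain ⟨y, hy, hyf⟩ := exists_cube_root (F := E L ⟨2, Nat.prime_two⟩) v hv
  obtain ⟨e, he⟩ := hH
  refine ⟨y ^ e, fun {i} => ?_⟩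
  rw [Finset.prod_congr rfl fun s _ => show s.1 • y ^ e = y ^ e by
    rw [smul_pow', hyf s.1 (hfix s)], Finset.prod_const, Finset.card_univ,
    ← Nat.card_eq_fintype_card, ← pow_mul, mul_comm, ← he, hy]

end Fermat.Agent.Two.Recip
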