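import Fermat.Agent.Two.Recip.NormChar
import Fermat.Agent.Two.Recip.NormLocal
import Fermat.Agent.CFT.Idele.LocalClass

/-!
# The cubic norm residue character of the ideles

For a normal subgroup `S` of order three of `Gal(L/ℚ)`, `ζ₃ ∈ L`, whose intersection with inertia is
trivial outside two: an additive invariant of `S`-invariant ideles, killing principal ideles, units
outside two and principal units at two, and nonzero on an element of valuation prime to three
placed at a prime where `S` lies in the decomposition group and is unramified.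
-/

set_option autoImplicit false
set_option synthInstance.maxHeartbeats 200000
set_option linter.unusedSectionVars false
set_option linter.style.haveILetI false

noncomputable section

namespace Fermat.Agent.Two.Recip

open ExtCitation Fermat.Agent.Arith IntermediateField Fermat.Agent.CFT.Local Fermat.Agent.CFT.Idele
  groupCohomology

local instance factPrimeTwoNormIdele (q : Nat.Primes) : Fact (q : ℕ).Prime := ⟨q.2⟩

local instance factThree : Fact (Nat.Prime 3) := ⟨Nat.prime_three⟩

attribute [local instance 2000] galUnitsMulAction idlAction classAction cAction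
attribute [local instance 2000] CFT.Duality.cAddCommGroup CFT.Duality.cAddZeroClass
attribute [local instance 1200] instSMulOfMul
attribute [local instance 1100] SemigroupAction.toSMul MulAction.toSemigroupAction
  MulDistribMulAction.toMulAction

variable {L : IntermediateField ℚ QBar} [FiniteDimensional ℚ L] [Normal ℚ L]

open Classical in
/-- The element `x` placed at all places over `q`. -/
def compAt (q : Nat.Primes) (x : Lˣ) : idl L :=
  Family.toIdl
    { toFun := Function.update (fun _ _ => 1) q fun σ =>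
        Units.map (localEmb (q : ℕ) L).toMonoidHom (σ • x)
      equi := fun q' t σ => by
        rcases eq_or_ne q' q with rfl | hne
        · simp only [Function.update_self]
          refine Units.ext ?_
          show localEmb _ L ((toGlobal (q' : ℕ) L t * σ) (x : L)) = t (localEmb _ L (σ (x : L)))
          rw [AlgEquiv.mul_apply, localEmb_toGlobal]
        · simp [Function.update_of_ne hne]
      cofinite := ⟨{q}, fun q' hq' σ => by
        rw [Function.update_of_ne (by simpa using hq')]; exact one_mem _⟩ }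

theorem val_compAt_self (q : Nat.Primes) (x : Lˣ) (σ : L ≃ₐ[ℚ] L) :
    val (compAt q x) q σ = Units.map (localEmb (q : ℕ) L).toMonoidHom (σ • x) := by
  classical
  rw [compAt, Family.val_toIdl]
  simp

theorem val_compAt_of_ne (q : Nat.Primes) (x : Lˣ) {q' : Nat.Primes} (h : q' ≠ q)
    (σ : L ≃ₐ[ℚ] L) : val (compAt q x) q' σ = 1 := by
  classical
  rw [compAt, Family.val_toIdl]
  simp [Function.update_of_ne h]

theorem compAt_mul (q : Nat.Primes) (x y : Lˣ) : compAt q (x * y) = compAt q x * compAt q y :=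
  val_ext fun q' σ => by
    rcases eq_or_ne q' q with rfl | hne
    · rw [val_mul, val_compAt_self, val_compAt_self, val_compAt_self, smul_mul', map_mul]
    · rw [val_mul, val_compAt_of_ne q _ hne, val_compAt_of_ne q _ hne, val_compAt_of_ne q _ hne,
        one_mul]

theorem smul_compAt (g : L ≃ₐ[ℚ] L) (q : Nat.Primes) (x : Lˣ) :
    g • compAt q x = compAt q (g • x) :=
  val_ext fun q' σ => by
    rcases eq_or_ne q' q with rfl | hne
    · rw [val_smul, val_compAt_self, val_compAt_self, mul_smul]
    · rw [val_smul, val_compAt_of_ne q _ hne, val_compAt_of_ne q _ hne]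

/-- An idele with unit values outside two and principal values at two. -/
structure IsSmall (f : idl L) : Prop where
  unit : ∀ q σ, ‖((val f q σ : (E L q)ˣ) : E L q)‖ = 1
  two : ∀ q : Nat.Primes, (q : ℕ) = 2 → ∀ σ, ‖((val f q σ : (E L q)ˣ) : E L q) - 1‖ ≤ 1 / 2

/-- The data of the construction. -/
structure CubicStep (L : IntermediateField ℚ QBar) [FiniteDimensional ℚ L] [Normal ℚ L] where
  S : Subgroup (L ≃ₐ[ℚ] L)
  normal : S.Normal
  card : Nat.card S = 3
  zeta : ∃ ζ : L, IsPrimitiveRoot ζ 3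
  unram : ∀ q : Nat.Primes, (q : ℕ) ≠ 2 → ∀ t ∈ inertia (E L q),
    toGlobal (q : ℕ) L t ∈ S → t = 1

namespace CubicStep

variable (c : CubicStep L)

/-- A character of `S`. -/
def chr : c.S →* Multiplicative (ZMod 3) :=
  (mulEquivOfPrimeCardEq (p := 3) c.card
    (by rw [Nat.card_congr Multiplicative.toAdd, Nat.card_zmod])).toMonoidHom

theorem chr_injective : Function.Injective c.chr := MulEquiv.injective _

include c in
theorem stepAxioms : CFT.StepAxioms 3 (L ≃ₐ[ℚ] L) (C L) :=
  CFT.Idele.stepAxioms L (by norm_num) c.zeta.choose_spec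

include c in
theorem exists_class : ∃ u : CFT.NormCocycle (L ≃ₐ[ℚ] L) (C L), CFT.IsClassFormation 3 u := by
  obtain ⟨u, hu⟩ := exists_fundamental L (p := 3) (by norm_num) c.zeta.choose_spec
  exact ⟨u, c.stepAxioms.isClassFormation u hu⟩

/-- The fundamental class. -/
def cls : CFT.NormCocycle (L ≃ₐ[ℚ] L) (C L) := c.exists_class.choose

theorem cls_spec : CFT.IsClassFormation 3 c.cls := c.exists_class.choose_spec

theorem proj_mem {f : idl L} (hf : f ∈ fixedBy c.S (idl L)) :
    proj L (Additive.ofMul f) ∈ fixedA c.S (C L) := fun s => by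
  rw [← proj_smul]
  exact congrArg (fun g => proj L (Additive.ofMul g)) (hf s s.2)

/-- The invariant. -/
def inv : fixedBy c.S (idl L) →* Multiplicative (ZMod 3) :=
  MonoidHom.mk' (fun f => Multiplicative.ofAdd
      (normInv c.cls_spec c.card c.chr ⟨_, c.proj_mem f.2⟩)) fun f g => by
    rw [← ofAdd_add, ← map_add]
    rfl

theorem inv_congr {f g : fixedBy c.S (idl L)}
    (h : proj L (Additive.ofMul (f : idl L)) = proj L (Additive.ofMul (g : idl L))) :
    c.inv f = c.inv g :=
  congrArg (fun z => Multiplicative.ofAdd (normInv c.cls_spec c.card c.chr z)) (Subtype.ext h)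

theorem inv_prin (f : fixedBy c.S (idl L)) {x : Lˣ} (hx : (f : idl L) = prinL L x) :
    c.inv f = 1 := by
  rw [← map_one c.inv]
  refine c.inv_congr ?_
  rw [hx, show proj L (Additive.ofMul (prinL L x)) = 0 from (proj_eq_zero_iff L).2 ⟨x, rfl⟩]
  exact (map_zero (proj L)).symm

theorem inv_norm (f : fixedBy c.S (idl L)) [Fintype c.S] (y : idl L)
    (h : ∏ s : c.S, (s : L ≃ₐ[ℚ] L) • y = (f : idl L)) : c.inv f = 1 := by
  refine congrArg Multiplicative.ofAdd
    (normInv_normSum c.cls_spec c.card c.chr (proj L (Additive.ofMul y)) _ ?_)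
  show proj L (Additive.ofMul (f : idl L)) = _
  rw [← h, CFT.normSum, ofMul_prod, map_sum]
  exact Finset.sum_congr rfl fun s _ => proj_smul L (s : L ≃ₐ[ℚ] L) (Additive.ofMul y)

theorem inv_smul (f g : fixedBy c.S (idl L)) (τ : L ≃ₐ[ℚ] L)
    (hτ : ∀ s : c.S, τ * (s : L ≃ₐ[ℚ] L) = s * τ) (h : (g : idl L) = τ • (f : idl L)) :
    c.inv g = c.inv f :=
  congrArg Multiplicative.ofAdd (normInv_smul c.cls_spec c.card c.chr τ hτ _ _
    (by
      show proj L (Additive.ofMul (g : idl L)) = _
      rw [h]
      exact proj_smul L τ (Additive.ofMul (f : idl L))))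

/-- Local norms everywhere are killed. -/
theorem inv_of_local (f : fixedBy c.S (idl L))
    (hloc : ∀ (q : Nat.Primes) (r : L ≃ₐ[ℚ] L),
      ∃ z : (E L q)ˣ, ∀ [Fintype (semiStab (toGlobal (q : ℕ) L) c.S r)],
        ∏ s : semiStab (toGlobal (q : ℕ) L) c.S r,
          (s : E L q ≃ₐ[ℚ_[(q : ℕ)]] E L q) • z = val (f : idl L) q r) : c.inv f = 1 := by
  letI : Fintype c.S := Fintype.ofFinite _
  obtain ⟨y, hy⟩ := exists_norm_of_local c.S (f : idl L) (fun h => f.2 h h.2) hloc
  exact c.inv_norm f y hy

theorem semiStab_inf_inertia (q : Nat.Primes) (hq : (q : ℕ) ≠ 2) (r : L ≃ₐ[ℚ] L) :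
    semiStab (toGlobal (q : ℕ) L) c.S r ⊓ inertia (E L q) = ⊥ := by
  refine eq_bot_iff.2 fun t ⟨h1, h2⟩ => c.unram q hq t h2 ?_
  have h := c.normal.conj_mem _ ((mem_semiStab _ c.S).1 h1) r
  simpa [mul_assoc] using h

set_option maxHeartbeats 1000000 in
/-- Units, principal at two, are killed; so are values at places whose stabiliser is trivial. -/
theorem inv_of_unit (f : fixedBy c.S (idl L))
    (h : ∀ (q : Nat.Primes) (r : L ≃ₐ[ℚ] L),
      (‖((val (f : idl L) q r : (E L q)ˣ) : E L q)‖ = 1 ∧ ((q : ℕ) = 2 →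
        ‖((val (f : idl L) q r : (E L q)ˣ) : E L q) - 1‖ ≤ 1 / 2)) ∨
      semiStab (toGlobal (q : ℕ) L) c.S r = ⊥) : c.inv f = 1 := by
  refine c.inv_of_local f fun q r => ?_
  have hfix := smul_val_of_fixed c.S (f : idl L) (fun s => f.2 s s.2) q r
  rcases h q r with ⟨hu, h2⟩ | hbot
  · by_cases hq : (q : ℕ) = 2
    · have e : q = ⟨2, Nat.prime_two⟩ := Subtype.ext hq
      subst e
      have hd := card_semiStab_dvd c.S ⟨2, Nat.prime_two⟩ r
      rw [c.card] at hd
      have h2' := h2 rfl
      exact exists_norm_at_two (semiStab (toGlobal 2 L) c.S r) hd h2' hfix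
    · exact exists_norm_of_unit q _ (c.semiStab_inf_inertia q hq r) hu hfix
  · refine ⟨val (f : idl L) q r, fun {i} => ?_⟩
    rw [Finset.prod_congr rfl fun s _ => hfix s, Finset.prod_const, Finset.card_univ,
      ← Nat.card_eq_fintype_card, hbot, Subgroup.card_bot, pow_one]

theorem inv_of_isSmall (f : fixedBy c.S (idl L)) (h : IsSmall (f : idl L)) : c.inv f = 1 :=
  c.inv_of_unit f fun q r => Or.inl ⟨h.unit q r, fun hq => h.two q hq r⟩

attribute [local instance 1100] AddCommGroup.toAddGroup AddGroup.toSubNegMonoid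
  SubNegMonoid.toAddMonoid
  AddCommGroup.toAddCommMonoid AddGroup.toAddCancelMonoid AddCancelMonoid.toIsCancelAdd
  IsCancelAdd.toIsRightCancelAdd

set_option maxHeartbeats 1000000 in
/-- An element of valuation prime to three at an unramified place containing `S` is not killed. -/
theorem inv_locIdl_ne_one (q : Nat.Primes) (hS : c.S ≤ (toGlobal (q : ℕ) L).range)
    (y : (E L q)ˣ)
    (hfix : ∀ t : E L q ≃ₐ[ℚ_[(q : ℕ)]] E L q, toGlobal (q : ℕ) L t ∈ c.S → t • y = y)
    (hy : ¬ (3 : ℤ) ∣ ordZ (E L q) y) (f : fixedBy c.S (idl L))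
    (hf : (f : idl L) = locIdl q y) : c.inv f ≠ 1 := by
  intro h0
  obtain ⟨ζ, hζ⟩ := c.zeta
  obtain ⟨u, hu, hord⟩ := exists_local_fundamental (p := 3) L (by norm_num) hζ q
  set S' : Subgroup (E L q ≃ₐ[ℚ_[(q : ℕ)]] E L q) := c.S.comap (toGlobal (q : ℕ) L)
  let j : S' →* c.S := ((toGlobal (q : ℕ) L).comp S'.subtype).codRestrict c.S fun t => t.2
  have hj : Function.Injective j := fun a b h =>
    Subtype.ext (toGlobal_injective (q : ℕ) L (congrArg Subtype.val h))
  have hjs : Function.Surjective j := fun s => by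
    obtain ⟨t, ht⟩ := hS s.2
    exact ⟨⟨t, show toGlobal (q : ℕ) L t ∈ c.S from ht ▸ s.2⟩, Subtype.ext ht⟩
  have hcard : Nat.card S' = 3 := (Nat.card_eq_of_bijective j ⟨hj, hjs⟩).trans c.card
  set χ' : S' →* Multiplicative (ZMod 3) := c.chr.comp j
  have hχ' : Function.Injective χ' := c.chr_injective.comp hj
  have hyfix : Additive.ofMul y ∈ fixedA S' (Additive (E L q)ˣ) := fun s =>
    congrArg Additive.ofMul (hfix s s.2)
  obtain ⟨k, hk⟩ := exists_isInv hu hcard χ' hyfix
  -- a trivial carry class forces a valuation divisible by three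
  have hk3 : ¬ (3 : ℤ) ∣ k := fun hk3 => by
    have h1 : normInv hu hcard χ' ⟨_, hyfix⟩ = 0 := by
      rw [normInv_apply, invFun_eq hu hcard χ' hk]
      exact (ZMod.intCast_zmod_eq_zero_iff_dvd k 3).2 hk3
    have h2 := isCoboundary_of_normInv hu hcard χ' (stepAxioms_local (p := 3) L q) _ h1
    obtain ⟨γ, hγ⟩ : ∃ γ : S', χ' γ = Multiplicative.ofAdd 1 :=
      ((Nat.bijective_iff_injective_and_card χ').2 ⟨hχ',
        by rw [hcard, Nat.card_congr Multiplicative.toAdd, Nat.card_zmod]⟩).2 _
    have hker : CFT.H1Zero χ'.ker (Additive (E L q)ˣ) := fun d hd => by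
      have h1 : ∀ x : χ'.ker, x = 1 := fun x =>
        Subtype.ext (hχ' ((MonoidHom.mem_ker.1 x.2).trans χ'.map_one.symm))
      refine ⟨0, fun x => ?_⟩
      rw [h1 x, smul_zero, sub_zero, map_one_of_isCocycle₁ hd]
    obtain ⟨w, -, hw⟩ := exists_eq_norm_of_carryN (χ := χ') (by norm_num) hγ hker h2
    refine hy ⟨ordZ (E L q) w.toMul, ?_⟩
    have e := congrArg (fun z : Additive (E L q)ˣ => ordZ (E L q) z.toMul) hw
    simp only [toMul_sum, toMul_ofMul, Finset.prod_range_succ, Finset.prod_range_zero,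
      one_mul, ordZ_mul] at e
    have hinv : ∀ t : S', ordZ (E L q) ((t • w).toMul) = ordZ (E L q) w.toMul := fun t =>
      congrArg Multiplicative.toAdd (ord_smul_unit (t : E L q ≃ₐ[ℚ_[(q : ℕ)]] E L q) w.toMul)
    rw [hinv, hinv, hinv] at e
    linarith
  have h1 : normInv c.cls_spec c.card c.chr ⟨_, c.proj_mem f.2⟩ = 0 := h0
  obtain ⟨b, hb⟩ := isCoboundary_of_normInv c.cls_spec c.card c.chr c.stepAxioms _ h1
  obtain ⟨b₀, hb₀⟩ := hk
  refine hk3 ?_
  have hd := hord S' (IsPGroup.of_card (n := 1) (by rw [pow_one, hcard])) k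
    (fun g => b (j g) - proj L (loc' L q (b₀ g))) fun g g' => ?_
  · rwa [hcard] at hd
  have e1 := hb (j g) (j g')
  have e2 := congrArg (fun z => proj L (loc' L q z)) (hb₀ g g')
  rw [← map_mul j] at e1
  have e3 : ((j g : c.S) : L ≃ₐ[ℚ] L) = toGlobal (q : ℕ) L (g : E L q ≃ₐ[ℚ_[(q : ℕ)]] E L q) := rfl
  have e4 : Additive.ofMul (locIdl q y) = loc' L q (Additive.ofMul y) := rfl
  simp only [carryN, hf, e4, χ', chiVal, MonoidHom.comp_apply, map_sub, map_add, map_zsmul,
    map_nsmul, Subgroup.smul_def, e3, loc'_smul, proj_smul] at e1 e2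
  rw [smul_sub]
  linear_combination (norm := abel) e1 - e2

end CubicStep

end Fermat.Agent.Two.Recip
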