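import Fermat.Agent.Two.Recip.Defs
import Mathlib.NumberTheory.LegendreSymbol.QuadraticReciprocity
import Mathlib.NumberTheory.Padics.PadicVal.Basic

/-!
# The rational symbols away from two

Bimultiplicativity, finite support, and triviality when one argument is `1` modulo `8`: the
quadratic reciprocity law with its two supplements.
-/

set_option autoImplicit false
set_option linter.style.haveILetI false

noncomputable section

namespace Fermat.Agent.Two.Recip

open ZMod

/-- A sign as an element of `ℤ/2`. -/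
def signBit (z : ℤ) : ZMod 2 := if z = -1 then 1 else 0

theorem signBit_one : signBit 1 = 0 := by simp [signBit]

theorem signBit_mul {z w : ℤ} (hz : z = 1 ∨ z = -1) (hw : w = 1 ∨ w = -1) :
    signBit (z * w) = signBit z + signBit w := by
  rcases hz with rfl | rfl <;> rcases hw with rfl | rfl <;> decide

theorem signBit_eq_of_mul_eq {a b c d : ℤ} (ha : a = 1 ∨ a = -1) (hb : b = 1 ∨ b = -1)
    (hc : c = 1 ∨ c = -1) (hd : d = 1 ∨ d = -1) (h : a * b = c * d) :
    signBit a + signBit b = signBit c + signBit d := by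
  rw [← signBit_mul ha hb, ← signBit_mul hc hd, h]

variable (p : Nat.Primes)

local instance factPrime : Fact (p : ℕ).Prime := ⟨p.2⟩

/-- Quadratic nonresidue as an element of `ℤ/2`. -/
def nonres (t : ℚ) : ZMod 2 := signBit (legendreSym p (t.num * t.den))

theorem tameQ_eq_nonres (x y : ℚˣ) : tameQ p x y = nonres p (tameUnitQ p x y : ℚ) := rfl

theorem not_dvd_num_den {t : ℚ} (ht : t ≠ 0) (h : padicValRat p t = 0) :
    ¬ ((p : ℕ) : ℤ) ∣ t.num ∧ ¬ (p : ℕ) ∣ t.den := by
  have hn : t.num ≠ 0 := Rat.num_ne_zero.mpr ht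
  rw [show padicValRat p t = (padicValInt p t.num : ℤ) - padicValNat p t.den from rfl] at h
  have hboth : ¬ (((p : ℕ) : ℤ) ∣ t.num ∧ (p : ℕ) ∣ t.den) := fun ⟨h1, h2⟩ =>
    p.2.ne_one (Nat.dvd_one.mp (t.reduced.gcd_eq_one ▸ Nat.dvd_gcd (Int.natCast_dvd.mp h1) h2))
  refine ⟨fun h1 => ?_, fun h2 => ?_⟩
  · have h3 : padicValNat p t.den = 0 :=
      padicValNat.eq_zero_of_not_dvd fun h2 => hboth ⟨h1, h2⟩
    have h4 : padicValInt p t.num = 0 := by omega
    rw [padicValInt.eq_zero_iff] at h4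
    rcases h4 with h4 | h4 | h4
    · exact p.2.ne_one h4
    · exact hn h4
    · exact h4 h1
  · have h3 : padicValInt p t.num = 0 :=
      padicValInt.eq_zero_of_not_dvd fun h1 => hboth ⟨h1, h2⟩
    have h4 : 1 ≤ padicValNat p t.den := one_le_padicValNat_of_dvd t.den_nz h2
    omega

theorem legendre_pm {a : ℤ} (h : ¬ ((p : ℕ) : ℤ) ∣ a) :
    legendreSym p a = 1 ∨ legendreSym p a = -1 :=
  legendreSym.eq_one_or_neg_one p fun h0 => h ((ZMod.intCast_zmod_eq_zero_iff_dvd a p).mp h0)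

theorem nonres_mul {t t' : ℚ} (ht : t ≠ 0) (ht' : t' ≠ 0) (h : padicValRat p t = 0)
    (h' : padicValRat p t' = 0) : nonres p (t * t') = nonres p t + nonres p t' := by
  have hm : padicValRat p (t * t') = 0 := by rw [padicValRat.mul ht ht', h, h', add_zero]
  obtain ⟨a1, b1⟩ := not_dvd_num_den p ht h
  obtain ⟨a2, b2⟩ := not_dvd_num_den p ht' h'
  obtain ⟨a3, b3⟩ := not_dvd_num_den p (mul_ne_zero ht ht') hm
  have hb : ∀ {n : ℕ}, ¬ (p : ℕ) ∣ n → legendreSym p n = 1 ∨ legendreSym p n = -1 :=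
    fun hn => legendre_pm p fun h0 => hn (Int.natCast_dvd_natCast.mp h0)
  have e := congrArg (legendreSym p) (Rat.mul_num_den' t t')
  rw [legendreSym.mul, legendreSym.mul, legendreSym.mul, legendreSym.mul] at e
  have pm : ∀ {z w : ℤ}, (z = 1 ∨ z = -1) → (w = 1 ∨ w = -1) → (z * w = 1 ∨ z * w = -1) := by
    rintro z w (rfl | rfl) (rfl | rfl) <;> decide
  have e2 := signBit_eq_of_mul_eq (pm (legendre_pm p a3) (hb b1)) (hb b2)
    (pm (legendre_pm p a1) (legendre_pm p a2)) (hb b3) e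
  simp only [nonres, legendreSym.mul]
  rw [signBit_mul (legendre_pm p a3) (hb b1), signBit_mul (legendre_pm p a1) (legendre_pm p a2)]
    at e2
  rw [signBit_mul (legendre_pm p a3) (hb b3), signBit_mul (legendre_pm p a1) (hb b1),
    signBit_mul (legendre_pm p a2) (hb b2)]
  generalize signBit (legendreSym p (t * t').num) = n₃ at *
  generalize signBit (legendreSym p ((t * t').den : ℤ)) = d₃ at *
  generalize signBit (legendreSym p t.num) = n₁ at *
  generalize signBit (legendreSym p (t.den : ℤ)) = d₁ at *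
  generalize signBit (legendreSym p t'.num) = n₂ at *
  generalize signBit (legendreSym p (t'.den : ℤ)) = d₂ at *
  revert n₁ d₁ n₂ d₂ n₃ d₃
  decide

/-- The valuation as a homomorphism. -/
def valHom : ℚˣ →* Multiplicative ℤ where
  toFun x := Multiplicative.ofAdd (padicValRat p x)
  map_one' := by simp
  map_mul' x y := by simp [padicValRat.mul x.ne_zero y.ne_zero, ofAdd_add]

theorem padicValRat_units_mul (x y : ℚˣ) :
    padicValRat p ((x * y : ℚˣ) : ℚ) = padicValRat p x + padicValRat p y := by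
  simp [padicValRat.mul x.ne_zero y.ne_zero]

theorem padicValRat_units_zpow (x : ℚˣ) (k : ℤ) :
    padicValRat p ((x ^ k : ℚˣ) : ℚ) = k * padicValRat p x := by
  simp

theorem padicValRat_tameUnitQ (x y : ℚˣ) : padicValRat p (tameUnitQ p x y : ℚ) = 0 := by
  have hinv : ∀ z : ℚˣ, padicValRat p ((z⁻¹ : ℚˣ) : ℚ) = -padicValRat p z := fun z => by
    rw [Units.val_inv_eq_inv_val, padicValRat.inv]
  have hneg : padicValRat p ((-1 : ℚˣ) : ℚ) = 0 := by simp
  unfold tameUnitQ
  rw [padicValRat_units_mul, padicValRat_units_mul, hinv, padicValRat_units_zpow,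
    padicValRat_units_zpow, padicValRat_units_zpow, hneg]
  ring

theorem tameUnitQ_mul_left (x x' y : ℚˣ) :
    tameUnitQ p (x * x') y = tameUnitQ p x y * tameUnitQ p x' y := by
  simp only [tameUnitQ, padicValRat_units_mul, add_mul, zpow_add, mul_zpow, mul_inv_rev]
  simp only [mul_comm, mul_left_comm, mul_assoc]

theorem tameQ_mul_left (x x' y : ℚˣ) : tameQ p (x * x') y = tameQ p x y + tameQ p x' y := by
  rw [tameQ_eq_nonres, tameQ_eq_nonres, tameQ_eq_nonres, tameUnitQ_mul_left, Units.val_mul,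
    nonres_mul p (Units.ne_zero _) (Units.ne_zero _) (padicValRat_tameUnitQ p x y)
      (padicValRat_tameUnitQ p x' y)]

theorem tameQ_comm (x y : ℚˣ) : tameQ p x y = tameQ p y x := by
  have e : tameUnitQ p x y * tameUnitQ p y x = 1 := by
    unfold tameUnitQ
    rw [mul_comm (padicValRat p (y : ℚ)) (padicValRat p (x : ℚ))]
    set n := padicValRat p (x : ℚ) * padicValRat p (y : ℚ)
    have h1 : ((-1 : ℚˣ) ^ n) * (-1) ^ n = 1 := by rw [← mul_zpow]; simp
    calc _ = ((-1 : ℚˣ) ^ n * (-1) ^ n) *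
          (x ^ padicValRat p (y : ℚ) * (x ^ padicValRat p (y : ℚ))⁻¹) *
          (y ^ padicValRat p (x : ℚ) * (y ^ padicValRat p (x : ℚ))⁻¹) := by
            simp only [mul_comm, mul_left_comm, mul_assoc]
      _ = 1 := by rw [h1, mul_inv_cancel, mul_inv_cancel, one_mul, one_mul]
  have h2 := nonres_mul p (Units.ne_zero _) (Units.ne_zero _) (padicValRat_tameUnitQ p x y)
    (padicValRat_tameUnitQ p y x)
  rw [← Units.val_mul, e, Units.val_one, ← tameQ_eq_nonres, ← tameQ_eq_nonres] at h2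
  have h3 : nonres p (1 : ℚ) = 0 := by simp [nonres, signBit]
  rw [h3] at h2
  generalize tameQ p x y = a at *
  generalize tameQ p y x = b at *
  revert a b
  decide

theorem tameQ_mul_right (x y y' : ℚˣ) : tameQ p x (y * y') = tameQ p x y + tameQ p x y' := by
  rw [tameQ_comm, tameQ_mul_left, tameQ_comm p y, tameQ_comm p y']

theorem tameQ_of_units (x y : ℚˣ) (hx : padicValRat p (x : ℚ) = 0)
    (hy : padicValRat p (y : ℚ) = 0) : tameQ p x y = 0 := by
  simp [tameQ_eq_nonres, tameUnitQ, hx, hy, nonres, signBit]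

theorem finite_support_tameQ (x y : ℚˣ) :
    (Function.support fun p : {p : Nat.Primes // (p : ℕ) ≠ 2} => tameQ p.1 x y).Finite := by
  set N : ℕ := (x : ℚ).num.natAbs * (x : ℚ).den * ((y : ℚ).num.natAbs * (y : ℚ).den) with hN
  have hN0 : N ≠ 0 := by
    simp [hN, Rat.num_ne_zero.mpr x.ne_zero, Rat.num_ne_zero.mpr y.ne_zero]
  refine Set.Finite.of_finite_image (f := fun p => ((p.1 : Nat.Primes) : ℕ))
    ((Nat.divisors N).finite_toSet.subset ?_) (fun a _ b _ e => Subtype.ext (Subtype.ext e))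
  rintro _ ⟨q, hq, rfl⟩
  rw [Finset.mem_coe, Nat.mem_divisors]
  refine ⟨by_contra fun hdvd => hq ?_, hN0⟩
  haveI := factPrime q.1
  have key : ∀ t : ℚ, ¬ (q.1 : ℕ) ∣ t.num.natAbs * t.den → padicValRat q.1 t = 0 := fun t ht => by
    rw [show padicValRat q.1 t = (padicValInt q.1 t.num : ℤ) - padicValNat q.1 t.den from rfl,
      padicValInt.eq_zero_of_not_dvd
      (fun h => ht (dvd_mul_of_dvd_left (Int.natCast_dvd.mp h) _)),
      padicValNat.eq_zero_of_not_dvd (fun h => ht (dvd_mul_of_dvd_right h _))]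
    rfl
  exact tameQ_of_units q.1 x y (key _ fun h => hdvd (dvd_mul_of_dvd_left h _))
    (key _ fun h => hdvd (dvd_mul_of_dvd_right h _))

/-! ### The sum -/

theorem hilbertTwo_comm (x y : ℚˣ) : hilbertTwo x y = hilbertTwo y x := by
  simp only [hilbertTwo, tameQ_comm _ x y, and_comm]

theorem hilbertTwo_mul_left (x x' y : ℚˣ) :
    hilbertTwo (x * x') y = hilbertTwo x y + hilbertTwo x' y := by
  have hreal : (if ((x * x' : ℚˣ) : ℚ) < 0 ∧ (y : ℚ) < 0 then (1 : ZMod 2) else 0) =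
      (if (x : ℚ) < 0 ∧ (y : ℚ) < 0 then 1 else 0) +
        (if (x' : ℚ) < 0 ∧ (y : ℚ) < 0 then 1 else 0) := by
    rw [Units.val_mul]
    by_cases hy : (y : ℚ) < 0
    · rcases lt_or_gt_of_ne x.ne_zero with hx | hx <;>
        rcases lt_or_gt_of_ne x'.ne_zero with hx' | hx'
      · simp only [not_lt.mpr (mul_pos_of_neg_of_neg hx hx').le, hx, hx', hy, and_true, if_true,
          if_false]
        decide
      · simp [mul_neg_of_neg_of_pos hx hx', hx, not_lt.mpr hx'.le, hy]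
      · simp [mul_neg_of_pos_of_neg hx hx', hx', not_lt.mpr hx.le, hy]
      · simp [not_lt.mpr (mul_pos hx hx').le, not_lt.mpr hx.le, not_lt.mpr hx'.le]
    · simp [hy]
  simp only [hilbertTwo, tameQ_mul_left, hreal,
    finsum_add_distrib (finite_support_tameQ x y) (finite_support_tameQ x' y)]
  abel

theorem hilbertTwo_mul_right (x y y' : ℚˣ) :
    hilbertTwo x (y * y') = hilbertTwo x y + hilbertTwo x y' := by
  rw [hilbertTwo_comm, hilbertTwo_mul_left, hilbertTwo_comm y, hilbertTwo_comm y']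

theorem hilbertTwo_sq_left (z y : ℚˣ) : hilbertTwo (z * z) y = 0 := by
  rw [hilbertTwo_mul_left]
  generalize hilbertTwo z y = a
  revert a
  decide

theorem hilbertTwo_inv_left (x y : ℚˣ) : hilbertTwo x⁻¹ y = hilbertTwo x y := by
  have h := hilbertTwo_sq_left x⁻¹ y
  have h1 : x⁻¹ = x * (x⁻¹ * x⁻¹) := by rw [mul_inv_cancel_left]
  conv_lhs => rw [h1]
  rw [hilbertTwo_mul_left, h, add_zero]

theorem hilbertTwo_one_left (y : ℚˣ) : hilbertTwo 1 y = 0 := by
  simpa using hilbertTwo_sq_left 1 y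

/-! ### The generators -/

/-- A prime as a unit of `ℚ`. -/
def primeUnit (q : Nat.Primes) : ℚˣ := Units.mk0 ((q : ℕ) : ℚ) (Nat.cast_ne_zero.mpr q.2.ne_zero)

theorem coe_primeUnit (q : Nat.Primes) : ((primeUnit q : ℚˣ) : ℚ) = ((q : ℕ) : ℚ) := rfl

theorem padicValRat_primeUnit (q : Nat.Primes) :
    padicValRat p ((primeUnit q : ℚˣ) : ℚ) = if q = p then 1 else 0 := by
  rw [coe_primeUnit, padicValRat.of_nat]
  split_ifs with h
  · subst h
    simp [q.2.one_lt]
  · have hne : (p : ℕ) ≠ q := fun e => h (Subtype.ext e.symm)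
    simp [padicValNat_primes hne]

theorem padicValRat_neg_one : padicValRat p ((-1 : ℚˣ) : ℚ) = 0 := by simp

theorem nonres_intCast (a : ℤ) : nonres p (a : ℚ) = signBit (legendreSym p a) := by
  simp [nonres]

theorem nonres_natCast (a : ℕ) : nonres p (a : ℚ) = signBit (legendreSym p a) :=
  nonres_intCast p a

theorem nonres_inv {t : ℚ} (ht : t ≠ 0) (h : padicValRat p t = 0) :
    nonres p t⁻¹ = nonres p t := by
  have h1 : padicValRat p t⁻¹ = 0 := by rw [padicValRat.inv, h, neg_zero]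
  have h2 := nonres_mul p ht (inv_ne_zero ht) h h1
  rw [mul_inv_cancel₀ ht, show nonres p (1 : ℚ) = 0 by simp [nonres, signBit]] at h2
  generalize nonres p t⁻¹ = a at *
  generalize nonres p t = b at *
  revert a b
  decide

theorem tameQ_neg_one_prime (q : Nat.Primes) :
    tameQ p (-1) (primeUnit q) = if q = p then nonres p (-1) else 0 := by
  split_ifs with h
  · rw [tameQ_eq_nonres]
    simp [tameUnitQ, padicValRat_primeUnit, h]
  · exact tameQ_of_units p _ _ (padicValRat_neg_one p) (by rw [padicValRat_primeUnit, if_neg h])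

theorem tameQ_prime_prime (q r : Nat.Primes) :
    tameQ p (primeUnit q) (primeUnit r) =
      if q = p then (if r = p then nonres p (-1) else nonres p ((r : ℕ) : ℚ))
      else if r = p then nonres p ((q : ℕ) : ℚ) else 0 := by
  split_ifs with hq hr hr
  · subst hq hr
    rw [tameQ_eq_nonres]
    simp [tameUnitQ, padicValRat_primeUnit]
  · rw [tameQ_eq_nonres, tameUnitQ, padicValRat_primeUnit, padicValRat_primeUnit, if_pos hq,
      if_neg hr]
    simp only [mul_zero, one_mul, zpow_zero, zpow_one, Units.val_inv_eq_inv_val, coe_primeUnit]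
    refine nonres_inv p (Nat.cast_ne_zero.mpr r.2.ne_zero) ?_
    rw [← coe_primeUnit, padicValRat_primeUnit, if_neg hr]
  · rw [tameQ_eq_nonres, tameUnitQ, padicValRat_primeUnit, padicValRat_primeUnit, if_neg hq,
      if_pos hr]
    simp [coe_primeUnit]
  · exact tameQ_of_units p _ _ (by rw [padicValRat_primeUnit, if_neg hq])
      (by rw [padicValRat_primeUnit, if_neg hr])

end Fermat.Agent.Two.Recip

namespace Fermat.Agent.Two.Recip

open ZMod

theorem chi_pm {n : ℕ} (χ : MulChar (ZMod n) ℤ) (hχ : χ.IsQuadratic) {a : ZMod n}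
    (ha : IsUnit a) : χ a = 1 ∨ χ a = -1 := by
  rcases hχ a with h | h | h
  · exact absurd h (ha.map χ).ne_zero
  · exact Or.inl h
  · exact Or.inr h

/-- The character of conductor four as an element of `ℤ/2`. -/
def eps4 (x : ℤ) : ZMod 2 := signBit (χ₄ x)

/-- The character of conductor eight as an element of `ℤ/2`. -/
def omega8 (x : ℤ) : ZMod 2 := signBit (χ₈ x)

theorem isUnit_four {x : ℤ} (hx : Odd x) : IsUnit (x : ZMod 4) := by
  obtain ⟨k, rfl⟩ := hx
  push_cast
  generalize ((k : ℤ) : ZMod 4) = j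
  revert j
  decide

theorem isUnit_eight {x : ℤ} (hx : Odd x) : IsUnit (x : ZMod 8) := by
  obtain ⟨k, rfl⟩ := hx
  push_cast
  generalize ((k : ℤ) : ZMod 8) = j
  revert j
  decide

theorem eps4_mul {x y : ℤ} (hx : Odd x) (hy : Odd y) : eps4 (x * y) = eps4 x + eps4 y := by
  rw [eps4, Int.cast_mul, map_mul, signBit_mul (chi_pm _ isQuadratic_χ₄ (isUnit_four hx))
    (chi_pm _ isQuadratic_χ₄ (isUnit_four hy))]
  rfl

theorem omega8_mul {x y : ℤ} (hx : Odd x) (hy : Odd y) :
    omega8 (x * y) = omega8 x + omega8 y := by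
  rw [omega8, Int.cast_mul, map_mul, signBit_mul (chi_pm _ isQuadratic_χ₈ (isUnit_eight hx))
    (chi_pm _ isQuadratic_χ₈ (isUnit_eight hy))]
  rfl

/-- The prime two. -/
def twoPrime : Nat.Primes := ⟨2, Nat.prime_two⟩

theorem finsum_single_prime (f : {p : Nat.Primes // (p : ℕ) ≠ 2} → ZMod 2) (q : Nat.Primes)
    (hq : (q : ℕ) ≠ 2) (h : ∀ p : {p : Nat.Primes // (p : ℕ) ≠ 2}, p.1 ≠ q → f p = 0) :
    ∑ᶠ p, f p = f ⟨q, hq⟩ :=
  finsum_eq_single f ⟨q, hq⟩ fun p hp => h p fun e => hp (Subtype.ext e)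

theorem not_neg_primeUnit (q : Nat.Primes) : ¬ ((primeUnit q : ℚˣ) : ℚ) < 0 :=
  not_lt.mpr (by rw [coe_primeUnit]; positivity)

theorem hilbertTwo_neg_one_neg_one : hilbertTwo (-1) (-1) = 1 := by
  have h0 : ∀ p : {p : Nat.Primes // (p : ℕ) ≠ 2}, tameQ p.1 (-1 : ℚˣ) (-1 : ℚˣ) = 0 := fun p =>
    tameQ_of_units p.1 (-1) (-1) (padicValRat_neg_one p.1) (padicValRat_neg_one p.1)
  simp only [hilbertTwo, h0, finsum_zero, zero_add, Units.val_neg, Units.val_one]
  norm_num

theorem nonres_neg_one (q : Nat.Primes) (hq : (q : ℕ) ≠ 2) :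
    nonres q (-1 : ℚ) = eps4 (q : ℕ) := by
  haveI := factPrime q
  rw [show (-1 : ℚ) = ((-1 : ℤ) : ℚ) by norm_num, nonres_intCast, legendreSym.at_neg_one hq, eps4,
    Int.cast_natCast]

theorem hilbertTwo_neg_one_prime (q : Nat.Primes) (hq : (q : ℕ) ≠ 2) :
    hilbertTwo (-1) (primeUnit q) = eps4 (q : ℕ) := by
  rw [hilbertTwo, if_neg fun h => not_neg_primeUnit q h.2, add_zero,
    finsum_single_prime _ q hq fun p hp => by rw [tameQ_neg_one_prime, if_neg (Ne.symm hp)],
    tameQ_neg_one_prime, if_pos rfl, nonres_neg_one q hq]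

theorem hilbertTwo_neg_one_two : hilbertTwo (-1) (primeUnit twoPrime) = 0 := by
  rw [hilbertTwo, if_neg fun h => not_neg_primeUnit _ h.2, add_zero,
    finsum_eq_zero_of_forall_eq_zero fun p => ?_]
  rw [tameQ_neg_one_prime, if_neg fun e : twoPrime = p.1 => p.2 (by rw [← e]; rfl)]

theorem hilbertTwo_prime_two (q : Nat.Primes) (hq : (q : ℕ) ≠ 2) :
    hilbertTwo (primeUnit q) (primeUnit twoPrime) = omega8 (q : ℕ) := by
  haveI := factPrime q
  have h2 : ∀ p : {p : Nat.Primes // (p : ℕ) ≠ 2}, twoPrime ≠ p.1 := fun p e =>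
    p.2 (by rw [← e]; rfl)
  rw [hilbertTwo, if_neg fun h => not_neg_primeUnit _ h.2, add_zero,
    finsum_single_prime _ q hq fun p hp => by
      rw [tameQ_prime_prime, if_neg (Ne.symm hp), if_neg (h2 p)],
    tameQ_prime_prime, if_pos rfl, if_neg (h2 ⟨q, hq⟩), nonres_natCast]
  rw [omega8, Int.cast_natCast, ← legendreSym.at_two hq]
  rfl

theorem hilbertTwo_prime_prime (q r : Nat.Primes) (hq : (q : ℕ) ≠ 2) (hr : (r : ℕ) ≠ 2) :
    hilbertTwo (primeUnit q) (primeUnit r) = eps4 (q : ℕ) * eps4 (r : ℕ) := by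
  classical
  haveI := factPrime q
  haveI := factPrime r
  rw [hilbertTwo, if_neg fun h => not_neg_primeUnit _ h.2, add_zero]
  rcases eq_or_ne q r with rfl | hqr
  · rw [finsum_single_prime _ q hq fun p hp => by
        rw [tameQ_prime_prime, if_neg (Ne.symm hp), if_neg (Ne.symm hp)],
      tameQ_prime_prime, if_pos rfl, if_pos rfl, nonres_neg_one q hq]
    generalize eps4 ((q : ℕ) : ℤ) = a
    revert a
    decide
  · have hsum : (Function.support fun p : {p : Nat.Primes // (p : ℕ) ≠ 2} =>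
        tameQ p.1 (primeUnit q) (primeUnit r)) ⊆
        ↑({⟨q, hq⟩, ⟨r, hr⟩} : Finset {p : Nat.Primes // (p : ℕ) ≠ 2}) := by
      intro p hp
      by_contra hn
      simp only [Finset.coe_insert, Finset.coe_singleton, Set.mem_insert_iff,
        Set.mem_singleton_iff, not_or] at hn
      refine hp ?_
      show tameQ p.1 (primeUnit q) (primeUnit r) = 0
      rw [tameQ_prime_prime, if_neg fun e => hn.1 (Subtype.ext e.symm),
        if_neg fun e => hn.2 (Subtype.ext e.symm)]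
    rw [finsum_eq_sum_of_support_subset _ hsum,
      Finset.sum_pair fun e => hqr (congrArg Subtype.val e), tameQ_prime_prime, tameQ_prime_prime,
      if_pos rfl, if_neg hqr.symm, if_neg hqr, if_pos rfl, nonres_natCast, nonres_natCast]
    have hne : (q : ℕ) ≠ r := fun e => hqr (Subtype.ext e)
    have h0 : ∀ {a b : Nat.Primes}, (a : ℕ) ≠ b → ¬ ((a : ℕ) : ℤ) ∣ ((b : ℕ) : ℤ) := fun hab h =>
      hab ((Nat.prime_dvd_prime_iff_eq (Subtype.prop _) (Subtype.prop _)).mp
        (Int.natCast_dvd_natCast.mp h))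
    have hqr' := legendre_pm q (h0 hne)
    have hrq' := legendre_pm r (h0 hne.symm)
    rw [← signBit_mul hqr' hrq', mul_comm, legendreSym.quadratic_reciprocity hq hr hne]
    rcases Nat.odd_iff.mp (q.2.odd_of_ne_two hq) with hq2
    have hr2 := Nat.odd_iff.mp (r.2.odd_of_ne_two hr)
    rw [eps4, eps4, Int.cast_natCast, Int.cast_natCast, χ₄_eq_neg_one_pow hq2,
      χ₄_eq_neg_one_pow hr2, pow_mul]
    rcases neg_one_pow_eq_or ℤ ((q : ℕ) / 2) with e | e <;>
      rcases neg_one_pow_eq_or ℤ ((r : ℕ) / 2) with e' | e'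
    all_goals rw [e]
    all_goals try rw [one_pow]
    all_goals rw [e']
    all_goals decide

/-- An odd natural number as a unit of `ℚ`. -/
theorem hilbertTwo_nat (y : ℚˣ) (F : ℤ → ZMod 2) (hF1 : F 1 = 0)
    (hFmul : ∀ {a b : ℤ}, Odd a → Odd b → F (a * b) = F a + F b)
    (hF : ∀ q : Nat.Primes, (q : ℕ) ≠ 2 → hilbertTwo (primeUnit q) y = F (q : ℕ)) :
    ∀ (n : ℕ), Odd n → ∀ x : ℚˣ, (x : ℚ) = n → hilbertTwo x y = F n := by
  intro n
  induction n using Nat.recOnMul with
  | zero => intro h; exact absurd h (by decide)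
  | one =>
    intro _ x hx
    rw [show x = 1 from Units.ext (by simpa using hx), hilbertTwo_one_left, Nat.cast_one, hF1]
  | prime q hq =>
    intro hodd x hx
    have h2 : q ≠ 2 := by rintro rfl; exact absurd hodd (by decide)
    rw [show x = primeUnit ⟨q, hq⟩ from Units.ext hx]
    exact hF ⟨q, hq⟩ h2
  | mul a b ha hb =>
    intro hodd x hx
    obtain ⟨hoa, hob⟩ := Nat.odd_mul.mp hodd
    have ha0 : (a : ℚ) ≠ 0 := Nat.cast_ne_zero.mpr hoa.pos.ne'
    have hb0 : (b : ℚ) ≠ 0 := Nat.cast_ne_zero.mpr hob.pos.ne'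
    rw [show x = Units.mk0 _ ha0 * Units.mk0 _ hb0 from Units.ext (by simp [hx]),
      hilbertTwo_mul_left, ha hoa _ rfl, hb hob _ rfl, Nat.cast_mul,
      hFmul (by exact_mod_cast hoa) (by exact_mod_cast hob)]

theorem hilbertTwo_int (y : ℚˣ) (F : ℤ → ZMod 2) (hF1 : F 1 = 0)
    (hFmul : ∀ {a b : ℤ}, Odd a → Odd b → F (a * b) = F a + F b)
    (hneg : hilbertTwo (-1) y = F (-1))
    (hF : ∀ q : Nat.Primes, (q : ℕ) ≠ 2 → hilbertTwo (primeUnit q) y = F (q : ℕ)) (x : ℚˣ)
    (N : ℤ) (hN : Odd N) (hx : (x : ℚ) = N) : hilbertTwo x y = F N := by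
  have hna : Odd N.natAbs := Int.natAbs_odd.mpr hN
  have hnat := hilbertTwo_nat y F hF1 hFmul hF N.natAbs hna
  rcases Int.natAbs_eq N with e | e
  · rw [e]
    refine hnat x ?_
    rw [hx, ← Int.cast_natCast (R := ℚ), ← e]
  · have hx' : x = -1 * -x := by simp
    rw [hx', hilbertTwo_mul_left, hneg, hnat (-x) (by
      rw [Units.val_neg, hx, ← Int.cast_natCast (R := ℚ) N.natAbs, ← Int.cast_neg]
      congr 1
      omega)]
    conv_rhs => rw [e, neg_eq_neg_one_mul, hFmul (by decide) (by exact_mod_cast hna)]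

/-- **Reciprocity**: a unit congruent to one modulo eight pairs trivially. -/
theorem hilbertTwo_of_int_one_mod_eight (x : ℚˣ) (N : ℤ) (hN : (8 : ℤ) ∣ N - 1)
    (hx : (x : ℚ) = N) (y : ℚˣ) : hilbertTwo x y = 0 := by
  obtain ⟨k, hk⟩ := hN
  have hodd : Odd N := ⟨4 * k, by omega⟩
  have h4 : (N : ZMod 4) = 1 := by
    rw [show N = 1 + 4 * (2 * k) by omega, Int.cast_add, Int.cast_mul, Int.cast_one,
      show ((4 : ℤ) : ZMod 4) = 0 by decide, zero_mul, add_zero]
  have h8 : (N : ZMod 8) = 1 := by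
    rw [show N = 1 + 8 * k by omega, Int.cast_add, Int.cast_mul, Int.cast_one,
      show ((8 : ℤ) : ZMod 8) = 0 by decide, zero_mul, add_zero]
  have he : eps4 N = 0 := by rw [eps4, h4, map_one, signBit_one]
  have ho : omega8 N = 0 := by rw [omega8, h8, map_one, signBit_one]
  have hprime : ∀ q : Nat.Primes, hilbertTwo x (primeUnit q) = 0 := fun q => by
    rcases eq_or_ne (q : ℕ) 2 with h2 | h2
    · obtain rfl : q = twoPrime := Subtype.ext h2
      rw [hilbertTwo_int (primeUnit twoPrime) omega8 (by simp [omega8, signBit])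
        (fun ha hb => omega8_mul ha hb) ?_ (fun r hr => hilbertTwo_prime_two r hr) x N hodd hx, ho]
      rw [hilbertTwo_neg_one_two]
      decide
    · rw [hilbertTwo_int (primeUnit q) (fun z => eps4 z * eps4 (q : ℕ)) (by simp [eps4, signBit])
        (fun ha hb => by simp only [eps4_mul ha hb, add_mul]) ?_
        (fun r hr => hilbertTwo_prime_prime r q hr h2) x N hodd hx, he, zero_mul]
      rw [hilbertTwo_neg_one_prime q h2, show eps4 (-1) = 1 by decide, one_mul]
  have hnegone : hilbertTwo x (-1) = 0 := by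
    rw [hilbertTwo_int (-1) eps4 (by simp [eps4, signBit]) (fun ha hb => eps4_mul ha hb) ?_
      (fun r hr => by rw [hilbertTwo_comm, hilbertTwo_neg_one_prime r hr]) x N hodd hx, he]
    rw [hilbertTwo_neg_one_neg_one]
    decide
  have hnat : ∀ n : ℕ, ∀ z : ℚˣ, (z : ℚ) = n → hilbertTwo x z = 0 := by
    intro n
    induction n using Nat.recOnMul with
    | zero => intro z hz; exact absurd (by simp at hz) z.ne_zero
    | one =>
      intro z hz
      rw [show z = 1 from Units.ext (by simpa using hz), hilbertTwo_comm, hilbertTwo_one_left]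
    | prime q hq => intro z hz; rw [show z = primeUnit ⟨q, hq⟩ from Units.ext hz]; exact hprime _
    | mul a b ha hb =>
      intro z hz
      have h0 : (a : ℚ) * b ≠ 0 := by rw [← Nat.cast_mul, ← hz]; exact z.ne_zero
      rw [show z = Units.mk0 _ (left_ne_zero_of_mul h0) * Units.mk0 _ (right_ne_zero_of_mul h0)
        from Units.ext (by simp [hz]), hilbertTwo_mul_right, ha _ rfl, hb _ rfl, add_zero]
  have hint : ∀ m : ℤ, ∀ z : ℚˣ, (z : ℚ) = m → hilbertTwo x z = 0 := by
    intro m z hz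
    rcases Int.natAbs_eq m with e | e
    · exact hnat m.natAbs z (by rw [hz, ← Int.cast_natCast (R := ℚ), ← e])
    · rw [show z = -1 * -z by simp, hilbertTwo_mul_right, hnegone, zero_add]
      refine hnat m.natAbs (-z) ?_
      rw [Units.val_neg, hz, ← Int.cast_natCast (R := ℚ) m.natAbs, ← Int.cast_neg]
      congr 1
      omega
  have hd : ((y : ℚ).den : ℚ) ≠ 0 := Nat.cast_ne_zero.mpr (y : ℚ).den_nz
  have hn : ((y : ℚ).num : ℚ) ≠ 0 := Int.cast_ne_zero.mpr (Rat.num_ne_zero.mpr y.ne_zero)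
  rw [show y = Units.mk0 _ hn * (Units.mk0 _ hd)⁻¹ from Units.ext (by
      rw [Units.val_mul, Units.val_inv_eq_inv_val, Units.val_mk0, Units.val_mk0,
        ← div_eq_mul_inv, Rat.num_div_den]),
    hilbertTwo_mul_right, hint _ _ rfl, zero_add, hilbertTwo_comm, hilbertTwo_inv_left,
    hilbertTwo_comm]
  exact hnat _ _ rfl

theorem nearOne_iff (u : ℚˣ) :
    NearOne u ↔ ((8 : ℤ) ∣ (u : ℚ).num - (u : ℚ).den ∧ ¬ 2 ∣ (u : ℚ).den) := by
  haveI : Fact (Nat.Prime 2) := ⟨Nat.prime_two⟩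
  set n := (u : ℚ).num
  set d := (u : ℚ).den
  have hd : ((d : ℤ) : ℚ_[2]) ≠ 0 := by exact_mod_cast (u : ℚ).den_nz
  have hu : ((u : ℚ) : ℚ_[2]) - 1 = ((n - d : ℤ) : ℚ_[2]) / ((d : ℤ) : ℚ_[2]) := by
    rw [eq_div_iff hd, Rat.cast_def, sub_mul, one_mul, Int.cast_natCast,
      div_mul_cancel₀ _ (by exact_mod_cast (u : ℚ).den_nz), Int.cast_sub, Int.cast_natCast]
  have hdle : ‖((d : ℤ) : ℚ_[2])‖ ≤ 1 := Padic.norm_int_le_one _
  have key : ∀ k : ℤ, ‖(k : ℚ_[2])‖ ≤ 1 / 8 ↔ (8 : ℤ) ∣ k := fun k => by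
    have h := Padic.norm_int_le_pow_iff_dvd (p := 2) k 3
    norm_num at h ⊢
    exact h
  rw [NearOne, hu, norm_div, div_le_iff₀ (norm_pos_iff.mpr hd)]
  constructor
  · intro h
    have h8 : (8 : ℤ) ∣ n - d := (key _).mp (h.trans (by nlinarith [norm_nonneg ((d : ℤ) : ℚ_[2])]))
    refine ⟨h8, fun h2 => ?_⟩
    have hn2 : (2 : ℤ) ∣ n := by
      have h1 : (2 : ℤ) ∣ n - d := (show (2 : ℤ) ∣ 8 by norm_num).trans h8
      simpa using h1.add (Int.natCast_dvd_natCast.mpr h2 : (2 : ℤ) ∣ d)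
    exact Nat.not_coprime_of_dvd_of_dvd (by norm_num) (Int.natCast_dvd.mp hn2) h2
      (u : ℚ).reduced
  · rintro ⟨h8, h2⟩
    have : ‖((d : ℤ) : ℚ_[2])‖ = 1 := le_antisymm hdle (not_lt.mp fun hlt => h2
      (Int.natCast_dvd_natCast.mp ((Padic.norm_intCast_lt_one_iff).mp hlt)))
    rw [this, mul_one]
    exact (key _).mpr h8

/-- **Rational reciprocity in the form used**: `u ≡ 1 (mod 8)` pairs trivially away from two. -/
theorem hilbertTwo_of_nearOne {u y : ℚˣ} (h : NearOne u) : hilbertTwo u y = 0 := by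
  obtain ⟨h8, h2⟩ := (nearOne_iff u).mp h
  have hn : ((u : ℚ).num : ℚ) ≠ 0 := Int.cast_ne_zero.mpr (Rat.num_ne_zero.mpr u.ne_zero)
  have hd : ((u : ℚ).den : ℚ) ≠ 0 := Nat.cast_ne_zero.mpr (u : ℚ).den_nz
  set nU := Units.mk0 _ hn
  set dU := Units.mk0 _ hd
  have e : u = nU * dU * (dU⁻¹ * dU⁻¹) := by
    refine Units.ext ?_
    simp only [Units.val_mul, Units.val_inv_eq_inv_val, nU, dU, Units.val_mk0]
    conv_lhs => rw [← Rat.num_div_den (u : ℚ)]
    field_simp
  rw [e, hilbertTwo_mul_left, hilbertTwo_sq_left, add_zero]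
  refine hilbertTwo_of_int_one_mod_eight _ ((u : ℚ).num * ((u : ℚ).den : ℤ)) ?_
    (by simp [nU, dU]) y
  obtain ⟨j, hj⟩ : ∃ j, (u : ℚ).den = 2 * j + 1 :=
    ⟨(u : ℚ).den / 2, by omega⟩
  obtain ⟨a, ha⟩ := h8
  obtain ⟨b, hb⟩ : (2 : ℤ) ∣ (j : ℤ) * (j + 1) := (Int.even_mul_succ_self _).two_dvd
  refine ⟨a * (u : ℚ).den + b, ?_⟩
  have hjZ : ((u : ℚ).den : ℤ) = 2 * j + 1 := by exact_mod_cast hj
  linear_combination ((u : ℚ).den : ℤ) * ha + (((u : ℚ).den : ℤ) + 2 * j + 1) * hjZ + 4 * hb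

theorem nearOne_mul {u v : ℚˣ} (hu : NearOne u) (hv : NearOne v) : NearOne (u * v) := by
  unfold NearOne at *
  rw [Units.val_mul, Rat.cast_mul]
  set a := ((u : ℚ) : ℚ_[2])
  set b := ((v : ℚ) : ℚ_[2])
  have ha : ‖a‖ ≤ 1 := by
    calc ‖a‖ = ‖(a - 1) + 1‖ := by rw [sub_add_cancel]
      _ ≤ max ‖a - 1‖ ‖(1 : ℚ_[2])‖ := Padic.nonarchimedean _ _
      _ ≤ 1 := max_le (hu.trans (by norm_num)) norm_one.le
  calc ‖a * b - 1‖ = ‖a * (b - 1) + (a - 1)‖ := by congr 1; ring
    _ ≤ max ‖a * (b - 1)‖ ‖a - 1‖ := Padic.nonarchimedean _ _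
    _ ≤ 1 / 8 := max_le (by
        rw [norm_mul]
        exact (mul_le_mul ha hv (norm_nonneg _) zero_le_one).trans (by norm_num)) hu

end Fermat.Agent.Two.Recip
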