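import Fermat.Agent.Two.Recip.RingClassStep

/-!
# The cubic character of a ring class field

The local components of the character of `Kˣ` attached to `H`: finitely many nontrivial, product
one, trivial on units outside two and on principal units at two, trivial on rational numbers and
inverted by the conjugation of `K`.
-/

set_option autoImplicit false
set_option synthInstance.maxHeartbeats 200000
set_option linter.unusedSectionVars false
set_option linter.style.haveILetI false

noncomputable section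

namespace Fermat.Agent.Two.Recip

open ExtCitation Fermat.Agent.Arith IntermediateField Fermat.Agent.CFT.Local Fermat.Agent.CFT.Idele

local instance factPrimeTwoRat (q : Nat.Primes) : Fact (q : ℕ).Prime := ⟨q.2⟩

variable {H : IntermediateField ℚ QBar} [FiniteDimensional ℚ H] [Normal ℚ H]
  {K : IntermediateField ℚ QBar} [FiniteDimensional ℚ K] [Normal ℚ K]
  (hKH : K ≤ H) (hK : Module.finrank ℚ K = 2) (hH : Module.finrank ℚ H = 6)
  (hun : UnramAwayTwo H K)

/-- Inclusion in `H(ζ₃)`. -/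
def toL : Kˣ →* (fieldL H)ˣ := inclUnits (hKH.trans (le_fieldL H))

theorem coe_toL (x : Kˣ) : (((toL hKH x : (fieldL H)ˣ) : fieldL H) : QBar) = ((x : K) : QBar) := rfl

theorem smul_toL (s : stepGroup H K) (x : Kˣ) :
    (s : fieldL H ≃ₐ[ℚ] fieldL H) • toL hKH x = toL hKH x := by
  obtain ⟨g, hg⟩ := AlgEquiv.restrictNormalHom_surjective (K₁ := fieldL H) QBar
    (s : fieldL H ≃ₐ[ℚ] fieldL H)
  rw [← hg]
  refine Units.ext (Subtype.ext ?_)
  show ((res (fieldL H) g (toL hKH x : fieldL H) : fieldL H) : QBar) = _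
  rw [res_apply, coe_toL]
  exact ((mem_stepGroup H K hKH).1 (hg ▸ s.2)).1 _ (x : K).2

theorem emb_compAt (q : Nat.Primes) (x : Kˣ) {g : GQ} {σ : fieldL H ≃ₐ[ℚ] fieldL H}
    (hg : res (fieldL H) g = σ) :
    (((val (compAt q (toL hKH x)) q σ : (E (fieldL H) q)ˣ) : E (fieldL H) q) : Ω q)
      = emb q (g ((x : K) : QBar)) := by
  rw [val_compAt_self, Units.coe_map]
  show emb q ((σ (toL hKH x : fieldL H) : fieldL H) : QBar) = _
  rw [← hg, res_apply, coe_toL]

theorem norm_val_compAt (q : Nat.Primes) (x : Kˣ) {g : GQ} {σ : fieldL H ≃ₐ[ℚ] fieldL H}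
    (hg : res (fieldL H) g = σ) :
    ‖((val (compAt q (toL hKH x)) q σ : (E (fieldL H) q)ˣ) : E (fieldL H) q)‖
      = ‖emb q (g ((x : K) : QBar))‖ := by
  rw [← emb_compAt hKH q x hg]
  rfl

/-- The idele of `x` at `q`, as an idele fixed by the step group. -/
def compFix (q : Nat.Primes) (x : Kˣ) : fixedBy (stepGroup H K) (idl (fieldL H)) :=
  ⟨compAt q (toL hKH x), fun s hs => by rw [smul_compAt, smul_toL hKH ⟨s, hs⟩]⟩

theorem coe_compFix (q : Nat.Primes) (x : Kˣ) :
    (compFix hKH q x : idl (fieldL H)) = compAt q (toL hKH x) := rfl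

/-- The component at `q` of the character. -/
def ringChar (q : Nat.Primes) : Kˣ →* Multiplicative (ZMod 3) :=
  MonoidHom.mk' (fun x => (cubicStep H K hKH hK hH hun).inv (compFix hKH q x)) fun x y => by
    refine (congrArg _ (Subtype.ext ?_)).trans (map_mul _ (compFix hKH q x) (compFix hKH q y))
    show compAt q (toL hKH (x * y)) = compAt q (toL hKH x) * compAt q (toL hKH y)
    rw [map_mul, compAt_mul]

theorem ringChar_apply (q : Nat.Primes) (x : Kˣ) :
    ringChar hKH hK hH hun q x = (cubicStep H K hKH hK hH hun).inv (compFix hKH q x) := rfl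

theorem ringChar_of_unit (q : Nat.Primes) (x : Kˣ) (h : ∀ g : GQ, ‖emb q (g ((x : K) : QBar))‖ = 1)
    (h2 : (q : ℕ) = 2 → ∀ g : GQ, ‖emb q (g ((x : K) : QBar)) - 1‖ ≤ 1 / 2) :
    ringChar hKH hK hH hun q x = 1 := by
  refine (cubicStep H K hKH hK hH hun).inv_of_isSmall _ ⟨fun q' σ => ?_, fun q' hq' σ => ?_⟩
  · rcases eq_or_ne q' q with rfl | hne
    · rw [coe_compFix, norm_val_compAt hKH q' x (res_lift _ σ)]; exact h _
    · rw [coe_compFix, val_compAt_of_ne q _ hne, Units.val_one, norm_one]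
  · rcases eq_or_ne q' q with rfl | hne
    · refine le_of_eq_of_le ?_ (h2 hq' (lift _ σ))
      rw [coe_compFix, ← emb_compAt hKH q' x (res_lift _ σ)]
      rfl
    · rw [coe_compFix, val_compAt_of_ne q _ hne, Units.val_one, sub_self, norm_zero]
      norm_num

include hKH in
theorem exists_finset_units (x : Kˣ) :
    ∃ T : Finset Nat.Primes, (∀ q : Nat.Primes, (q : ℕ) = 2 → q ∈ T) ∧
      ∀ q ∉ T, ∀ g : GQ, ‖emb q (g ((x : K) : QBar))‖ = 1 := by
  classical
  obtain ⟨T, hT⟩ := val_mem_unitGroup_cofinite (prinL (fieldL H) (toL hKH x))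
  refine ⟨insert ⟨2, Nat.prime_two⟩ T, fun q hq => ?_, fun q hq g => ?_⟩
  · exact Finset.mem_insert.2 (Or.inl (Subtype.ext hq))
  · have h := (mem_unitGroup _).1 (hT q (fun h => hq (Finset.mem_insert_of_mem h))
      (res (fieldL H) g))
    rwa [norm_val _ q rfl] at h

theorem finite_mulSupport_ringChar (x : Kˣ) :
    (Function.mulSupport fun q => ringChar hKH hK hH hun q x).Finite := by
  obtain ⟨T, hT2, hT⟩ := exists_finset_units hKH x
  refine T.finite_toSet.subset fun q hq => ?_
  by_contra h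
  exact hq (ringChar_of_unit hKH hK hH hun q x (hT q h) fun e => absurd (hT2 q e) h)

/-- The product formula. -/
theorem finprod_ringChar (x : Kˣ) : ∏ᶠ q, ringChar hKH hK hH hun q x = 1 := by
  classical
  set c := cubicStep H K hKH hK hH hun
  obtain ⟨T, hT2, hT⟩ := exists_finset_units hKH x
  rw [finprod_eq_prod_of_mulSupport_subset _ (s := T) fun q hq => by_contra fun h => hq
    (ringChar_of_unit hKH hK hH hun q x (hT q h) fun e => absurd (hT2 q e) h)]
  refine (map_prod c.inv (fun q => compFix hKH q x) T).symm.trans ?_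
  set P : fixedBy c.S (idl (fieldL H)) := ⟨prinL _ (toL hKH x), fun s hs => by
    rw [smul_prinL, smul_toL hKH ⟨s, hs⟩]⟩ with hP
  set F : fixedBy c.S (idl (fieldL H)) := ∏ q ∈ T, compFix hKH q x with hF
  have h1 : c.inv P = 1 := c.inv_prin P (x := toL hKH x) rfl
  have h2 : c.inv (F⁻¹ * P) = 1 := by
    refine c.inv_of_unit _ fun q r => Or.inl ?_
    set v := valHom q r with hv
    have eF : v (F : idl (fieldL H)) = ∏ i ∈ T, val (compAt i (toL hKH x)) q r := by
      exact map_prod (v.comp (fixedBy c.S (idl (fieldL H))).subtype) _ T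
    have e : val ((F⁻¹ * P : fixedBy c.S (idl (fieldL H))) : idl (fieldL H)) q r =
        (v (F : idl (fieldL H)))⁻¹ * val (prinL _ (toL hKH x)) q r := by
      show v _ = _
      rw [Subgroup.coe_mul, Subgroup.coe_inv, map_mul, map_inv]; rfl
    rw [e, eF]
    by_cases hq : q ∈ T
    · have e1 : ∏ i ∈ T, val (compAt i (toL hKH x)) q r = val (prinL _ (toL hKH x)) q r := by
        rw [Finset.prod_eq_single_of_mem q hq fun i _ hi => val_compAt_of_ne i _ hi.symm r]
        refine Units.ext (Subtype.ext ?_)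
        rw [emb_compAt hKH q x (res_lift _ r), val_prinL]
        show _ = emb q ((r (toL hKH x : fieldL H) : fieldL H) : QBar)
        conv_rhs => rw [← res_lift (fieldL H) r, res_apply, coe_toL]
      rw [e1, inv_mul_cancel, Units.val_one, norm_one, sub_self, norm_zero]
      exact ⟨rfl, fun _ => by norm_num⟩
    · rw [Finset.prod_eq_one fun i hi => val_compAt_of_ne i _ (fun e => hq (by rwa [e])) r, inv_one,
        one_mul]
      refine ⟨?_, fun e => absurd (hT2 q e) hq⟩
      rw [norm_val _ q (res_lift _ r)]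
      exact hT q hq (lift _ r)
  rw [map_mul, h1, mul_one, map_inv, inv_eq_one] at h2
  exact h2

/-- The units of `K` coming from `ℚ`. -/
abbrev ratK (K : IntermediateField ℚ QBar) : ℚˣ →* Kˣ :=
  Units.map (algebraMap ℚ K).toMonoidHom

theorem emb_ratK (q : Nat.Primes) (r : ℚˣ) (g : GQ) :
    emb q (g (((ratK K r : Kˣ) : K) : QBar)) = ((r : ℚ) : Ω q) := by
  show emb q (g (algebraMap ℚ QBar (r : ℚ))) = _
  rw [AlgEquiv.commutes, AlgHom.commutes, eq_ratCast]

theorem norm_ratCast_Ω (q : Nat.Primes) (r : ℚ) : ‖((r : ℚ) : Ω q)‖ = ‖((r : ℚ) : ℚ_[(q : ℕ)])‖ := by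
  rw [← map_ratCast (algebraMap ℚ_[(q : ℕ)] (Ω q)) r, norm_algebraMap']

theorem ringChar_prime (q p : Nat.Primes) :
    ringChar hKH hK hH hun q (ratK K (Units.mk0 ((p : ℕ) : ℚ) (Nat.cast_ne_zero.2 p.2.ne_zero)))
      = 1 := by
  have key : ∀ q : Nat.Primes, q ≠ p →
      ringChar hKH hK hH hun q (ratK K (Units.mk0 ((p : ℕ) : ℚ) (Nat.cast_ne_zero.2 p.2.ne_zero)))
        = 1 := fun q hne => by
    have hd : ¬ (q : ℕ) ∣ (p : ℕ) := fun h =>
      hne (Subtype.ext ((Nat.prime_dvd_prime_iff_eq q.2 p.2).1 h))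
    refine ringChar_of_unit hKH hK hH hun q _ (fun g => ?_) fun hq2 g => ?_
    · rw [emb_ratK, Units.val_mk0, Rat.cast_natCast, ← map_natCast (emb q)]
      exact norm_emb_natCast q hd
    · rw [emb_ratK, Units.val_mk0, ← Rat.cast_one, ← Rat.cast_sub, norm_ratCast_Ω,
        Rat.cast_sub, Rat.cast_one, Rat.cast_natCast]
      rw [hq2] at hd
      have h := (Padic.norm_int_le_pow_iff_dvd (p := (q : ℕ)) ((p : ℕ) - 1 : ℤ) 1).2
        (by rw [hq2]; simp only [Nat.cast_ofNat, pow_one]; omega)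
      push_cast at h
      refine h.trans_eq ?_
      rw [hq2]; norm_num
  by_cases hqp : q = p
  · subst hqp
    have h := finprod_ringChar hKH hK hH hun
      (ratK K (Units.mk0 ((q : ℕ) : ℚ) (Nat.cast_ne_zero.2 q.2.ne_zero)))
    rwa [finprod_eq_single _ q key] at h
  · exact key q hqp

theorem ringChar_rat (q : Nat.Primes) (r : ℚˣ) : ringChar hKH hK hH hun q (ratK K r) = 1 := by
  set ψ : ℚˣ →* Multiplicative (ZMod 3) := (ringChar hKH hK hH hun q).comp (ratK K)
  show ψ r = 1
  have hneg : ψ (-1) = 1 := by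
    have h : ψ (-1) * ψ (-1) = 1 := by rw [← map_mul, neg_mul_neg, one_mul, map_one]
    revert h; generalize ψ (-1) = v; revert v; decide
  have hnat : ∀ n : ℕ, ∀ hn : (n : ℚ) ≠ 0, ψ (Units.mk0 (n : ℚ) hn) = 1 := by
    intro n
    induction n using induction_on_primes with
    | zero => intro hn; exact absurd Nat.cast_zero hn
    | one =>
      intro hn
      rw [show Units.mk0 ((1 : ℕ) : ℚ) hn = 1 from Units.ext Nat.cast_one, map_one]
    | prime_mul p a hp ih =>
      intro hn
      have ha : (a : ℚ) ≠ 0 := fun e => hn (by rw [Nat.cast_mul, e, mul_zero])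
      rw [show Units.mk0 ((p * a : ℕ) : ℚ) hn = Units.mk0 ((p : ℕ) : ℚ)
          (Nat.cast_ne_zero.2 hp.ne_zero) * Units.mk0 (a : ℚ) ha from Units.ext (Nat.cast_mul p a),
        map_mul, ih ha, mul_one]
      exact ringChar_prime hKH hK hH hun q ⟨p, hp⟩
  have hn : ((r : ℚ).num.natAbs : ℚ) ≠ 0 :=
    Nat.cast_ne_zero.2 (Int.natAbs_ne_zero.2 (Rat.num_ne_zero.2 r.ne_zero))
  have hd : ((r : ℚ).den : ℚ) ≠ 0 := Nat.cast_ne_zero.2 (r : ℚ).den_nz
  have e : r = Units.mk0 _ hn * (Units.mk0 _ hd)⁻¹ ∨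
      r = -1 * (Units.mk0 _ hn * (Units.mk0 _ hd)⁻¹) := by
    rcases Int.natAbs_eq (r : ℚ).num with h | h
    · left; refine Units.ext ?_
      rw [Units.val_mul, Units.val_inv_eq_inv_val, Units.val_mk0, Units.val_mk0, ← div_eq_mul_inv]
      conv_lhs => rw [← Rat.num_div_den (r : ℚ), h]
      rw [Int.cast_natCast]
    · right; refine Units.ext ?_
      rw [Units.val_mul, Units.val_neg, Units.val_one, Units.val_mul, Units.val_inv_eq_inv_val,
        Units.val_mk0, Units.val_mk0, ← div_eq_mul_inv]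
      conv_lhs => rw [← Rat.num_div_den (r : ℚ), h]
      rw [Int.cast_neg, Int.cast_natCast]
      ring
  rcases e with e | e <;> rw [e] <;> simp only [map_mul, map_inv, hneg, hnat, inv_one, mul_one]

include hK in
/-- The conjugation inverts the character. -/
theorem ringChar_conj (q : Nat.Primes) (x : Kˣ) (σ : K ≃ₐ[ℚ] K) (hσ : σ ≠ 1) :
    ringChar hKH hK hH hun q (σ • x) = (ringChar hKH hK hH hun q x)⁻¹ := by
  haveI : IsGalois ℚ K := ⟨⟩
  have hc : Nat.card (K ≃ₐ[ℚ] K) = 2 := by rw [IsGalois.card_aut_eq_finrank, hK]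
  have hall : ∀ f : K ≃ₐ[ℚ] K, f = 1 ∨ f = σ := fun f => by
    by_contra! h
    classical
    haveI : Fintype (K ≃ₐ[ℚ] K) := Fintype.ofFinite _
    have h3 : ({f, σ, 1} : Finset (K ≃ₐ[ℚ] K)).card ≤ 2 := by
      rw [← hc, Nat.card_eq_fintype_card]; exact Finset.card_le_univ _
    rw [Finset.card_insert_of_notMem (by simp [h.1, h.2]),
      Finset.card_insert_of_notMem (by simpa using hσ), Finset.card_singleton] at h3
    omega
  have hσ2 : σ * σ = 1 := (hall (σ * σ)).resolve_right fun e => hσ (mul_eq_left.1 e)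
  have hfix : ∀ f : K ≃ₐ[ℚ] K, f ((x : K) * σ x) = (x : K) * σ x := fun f => by
    rcases hall f with rfl | rfl
    · rfl
    · rw [map_mul, ← AlgEquiv.mul_apply, hσ2, AlgEquiv.one_apply, mul_comm]
  obtain ⟨r, hr⟩ := (IsGalois.mem_range_algebraMap_iff_fixed ((x : K) * σ x)).2 hfix
  have hr0 : r ≠ 0 := by
    rintro rfl
    rw [map_zero, eq_comm, mul_eq_zero] at hr
    exact hr.elim x.ne_zero fun e => x.ne_zero (σ.map_eq_zero_iff.1 e)
  have h := ringChar_rat hKH hK hH hun q (Units.mk0 r hr0)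
  rw [show ratK K (Units.mk0 r hr0) = x * σ • x from Units.ext hr, map_mul] at h
  exact eq_inv_of_mul_eq_one_right h

end Fermat.Agent.Two.Recip
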