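import Fermat.Agent.Two.Recip.TameBasic
import Mathlib.NumberTheory.NumberField.Units.DirichletTheorem
import Mathlib.GroupTheory.FiniteAbelian.Basic
import Mathlib.NumberTheory.NumberField.ClassNumber

/-!
# Finitely many square classes are even away from a finite set of primes

The elements of a number field with even exponents outside a finite set of primes have finitely
many classes modulo squares: class group and units.
-/

set_option autoImplicit false

noncomputable section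

namespace Fermat.Agent.Two.Recip

open IsDedekindDomain UniqueFactorizationMonoid
open scoped NumberField nonZeroDivisors

variable {F : Type*} [Field F] [NumberField F]

/-- The units modulo squares have finitely many classes. -/
theorem exists_finite_units_sq :
    ∃ U : Set (𝓞 F)ˣ, U.Finite ∧ ∀ u, ∃ u₀ ∈ U, ∃ w, u = u₀ * w ^ 2 := by
  let H : Subgroup (𝓞 F)ˣ := (powMonoidHom 2).range
  have : Group.FG (𝓞 F)ˣ := Group.fg_iff_monoid_fg.mpr inferInstance
  have : Finite ((𝓞 F)ˣ ⧸ H) := CommGroup.finite_of_fg_isMulTorsion _ fun q => by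
    induction q using QuotientGroup.induction_on with
    | H u =>
      refine isOfFinOrder_iff_pow_eq_one.mpr ⟨2, two_pos, ?_⟩
      rw [← QuotientGroup.mk_pow, QuotientGroup.eq_one_iff]
      exact ⟨u, rfl⟩
  refine ⟨Set.range fun q : (𝓞 F)ˣ ⧸ H => q.out, Set.finite_range _, fun u => ?_⟩
  obtain ⟨h, hh⟩ := QuotientGroup.mk_out_eq_mul H u
  obtain ⟨w, hw⟩ := h.2
  refine ⟨_, ⟨(u : (𝓞 F)ˣ ⧸ H), rfl⟩, w⁻¹, ?_⟩
  have hw' : (h : (𝓞 F)ˣ) = w ^ 2 := hw.symm
  dsimp only
  rw [hh, hw', mul_assoc, ← mul_pow, mul_inv_cancel, one_pow, mul_one]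

theorem ordAt_algebraMap {x : 𝓞 F} (hx : x ≠ 0) (a : Fˣ) (ha : (a : F) = algebraMap (𝓞 F) F x)
    (P : HeightOneSpectrum (𝓞 F)) :
    ordAt P a = ((normalizedFactors (Ideal.span {x})).count P.asIdeal : ℤ) := by
  have h := valuation_eq_exp P a
  rw [ha, P.valuation_of_algebraMap, P.intValuation_if_neg hx, WithZero.exp_inj, neg_inj,
    Ideal.count_associates_factors_eq (by simpa using hx) P.isPrime P.ne_bot] at h
  exact h.symm

/-- **Finitely many square classes are even outside a finite set of primes.** -/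
theorem exists_finite_evenOrd (S : Finset (HeightOneSpectrum (𝓞 F))) :
    ∃ T : Set Fˣ, T.Finite ∧ ∀ a : Fˣ, (∀ P ∉ S, Even (ordAt P a)) →
      ∃ t ∈ T, ∃ c : Fˣ, a = t * c ^ 2 := by
  classical
  obtain ⟨U, hU, hUs⟩ := exists_finite_units_sq (F := F)
  let 𝒜 : Set (Ideal (𝓞 F)) :=
    (fun s : Finset (Ideal (𝓞 F)) => ∏ P ∈ s, P) '' (S.image HeightOneSpectrum.asIdeal).powerset
  have h𝒜 : 𝒜.Finite := (Finset.finite_toSet _).image _
  -- decomposition of a principal ideal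
  have hdec : ∀ (x : 𝓞 F) (hx : x ≠ 0), (∀ P : HeightOneSpectrum (𝓞 F), P ∉ S →
      Even ((normalizedFactors (Ideal.span {x})).count P.asIdeal)) →
      ∃ A ∈ 𝒜, ∃ B : (Ideal (𝓞 F))⁰, Ideal.span {x} = A * (B : Ideal (𝓞 F)) ^ 2 := by
    intro x hx heven
    set m := normalizedFactors (Ideal.span {x})
    have hne : ∀ Q ∈ m.toFinset, Q ≠ ⊥ := fun Q hQ =>
      (prime_of_normalized_factor Q (Multiset.mem_toFinset.mp hQ)).ne_zero
    have hB : ∏ Q ∈ m.toFinset, Q ^ (m.count Q / 2) ∈ (Ideal (𝓞 F))⁰ := by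
      rw [mem_nonZeroDivisors_iff_ne_zero]
      exact Finset.prod_ne_zero_iff.mpr fun Q hQ => pow_ne_zero _ (hne Q hQ)
    refine ⟨∏ Q ∈ m.toFinset.filter (fun Q => m.count Q % 2 = 1), Q, ⟨_, ?_, rfl⟩, ⟨_, hB⟩, ?_⟩
    · rw [Finset.mem_coe, Finset.mem_powerset]
      intro Q hQ
      rw [Finset.mem_filter] at hQ
      have hQp := prime_of_normalized_factor Q (Multiset.mem_toFinset.mp hQ.1)
      let P : HeightOneSpectrum (𝓞 F) := ⟨Q, Ideal.isPrime_of_prime hQp, hQp.ne_zero⟩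
      by_cases hP : P ∈ S
      · exact Finset.mem_image.mpr ⟨P, hP, rfl⟩
      · exact absurd hQ.2 (by
          have := Nat.even_iff.mp (heven P hP)
          simp only [P] at this
          omega)
    · show _ = _ * (∏ Q ∈ m.toFinset, Q ^ (m.count Q / 2)) ^ 2
      rw [Finset.prod_filter, ← Finset.prod_pow, ← Finset.prod_mul_distrib]
      conv_lhs => rw [← associated_iff_eq.mp (prod_normalizedFactors (a := Ideal.span {x})
        (by simpa using hx)), Finset.prod_multiset_count]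
      refine Finset.prod_congr rfl fun Q _ => ?_
      rw [← pow_mul]
      dsimp only [m]
      rcases Nat.mod_two_eq_zero_or_one ((normalizedFactors (Ideal.span {x})).count Q) with h | h
      · rw [if_neg (by omega), one_mul]; congr 1; omega
      · rw [if_pos h, ← pow_succ']; congr 1; omega
  -- representatives
  let Ok : Ideal (𝓞 F) × ClassGroup (𝓞 F) → Fˣ → Prop := fun k a =>
    ∃ (x : 𝓞 F) (B : (Ideal (𝓞 F))⁰), x ≠ 0 ∧ (a : F) = algebraMap (𝓞 F) F x ∧
      Ideal.span {x} = k.1 * (B : Ideal (𝓞 F)) ^ 2 ∧ ClassGroup.mk0 B = k.2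
  let rep : Ideal (𝓞 F) × ClassGroup (𝓞 F) → Fˣ :=
    fun k => if h : ∃ a, Ok k a then h.choose else 1
  let toF : (𝓞 F)ˣ → Fˣ := Units.map (algebraMap (𝓞 F) F : 𝓞 F →* F)
  refine ⟨(fun p : (Ideal (𝓞 F) × ClassGroup (𝓞 F)) × (𝓞 F)ˣ => rep p.1 * toF p.2) ''
    ((𝒜 ×ˢ Set.univ) ×ˢ U), ((h𝒜.prod Set.finite_univ).prod hU).image _, fun a ha => ?_⟩
  -- make `a` integral
  obtain ⟨x, y, hy, hxy⟩ := IsFractionRing.div_surjective (𝓞 F) (a : F)
  have hy0 : algebraMap (𝓞 F) F y ≠ 0 := by simpa using nonZeroDivisors.ne_zero hy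
  have hz : ((a * Units.mk0 _ hy0 ^ 2 : Fˣ) : F) = algebraMap (𝓞 F) F (x * y) := by
    rw [Units.val_mul, Units.val_pow_eq_pow_val, Units.val_mk0, ← hxy, map_mul]
    field_simp
  set z := a * Units.mk0 _ hy0 ^ 2
  have hz0 : x * y ≠ 0 := fun h => z.ne_zero (by rw [hz, h, map_zero])
  obtain ⟨A, hA, B, hAB⟩ := hdec _ hz0 fun P hP => by
    have h : Even (ordAt P z) := by
      rw [ordAt_mul, ordAt_pow]
      exact (ha P hP).add ((even_two.map (Nat.castRingHom ℤ)).mul_right _)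
    rw [ordAt_algebraMap hz0 z hz P] at h
    exact_mod_cast h
  have hex : ∃ b, Ok (A, ClassGroup.mk0 B) b := ⟨z, x * y, B, hz0, hz, hAB, rfl⟩
  obtain ⟨x', B', hx'0, hx', hAB', hcl⟩ := hex.choose_spec
  set b := hex.choose
  -- the two square roots differ by a principal ideal
  obtain ⟨α, β, hα, hβ, hαβ⟩ := ClassGroup.mk0_eq_mk0_iff.mp hcl.symm
  have hassoc : Associated (x' * β ^ 2) (x * y * α ^ 2) := by
    rw [← Ideal.span_singleton_eq_span_singleton]
    rw [← Ideal.span_singleton_mul_span_singleton, ← Ideal.span_singleton_mul_span_singleton,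
      hAB, hAB', ← Ideal.span_singleton_pow, ← Ideal.span_singleton_pow]
    calc A * (B' : Ideal (𝓞 F)) ^ 2 * Ideal.span {β} ^ 2
        = A * (Ideal.span {β} * (B' : Ideal (𝓞 F))) ^ 2 := by ring
      _ = _ := by rw [← hαβ]; ring
  obtain ⟨u, hu⟩ := hassoc
  obtain ⟨u₀, hu₀, w, hw⟩ := hUs u
  refine ⟨rep (A, ClassGroup.mk0 B) * toF u₀,
    ⟨((A, ClassGroup.mk0 B), u₀), ⟨⟨hA, Set.mem_univ _⟩, hu₀⟩, rfl⟩, ?_⟩
  have hrep : rep (A, ClassGroup.mk0 B) = b := dif_pos hex
  have hαF : algebraMap (𝓞 F) F α ≠ 0 := by simpa using hα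
  have hβF : algebraMap (𝓞 F) F β ≠ 0 := by simpa using hβ
  refine ⟨toF w * Units.mk0 _ hβF * (Units.mk0 _ hαF)⁻¹ * (Units.mk0 _ hy0)⁻¹, Units.ext ?_⟩
  have hu' := congrArg (algebraMap (𝓞 F) F) hu
  rw [hw] at hu'
  simp only [map_mul, map_pow, Units.val_mul, Units.val_pow_eq_pow_val, ← hx'] at hu'
  rw [← map_mul, ← hz] at hu'
  simp only [z, Units.val_mul, Units.val_pow_eq_pow_val, Units.val_mk0] at hu'
  simp only [hrep, toF, Units.val_mul, Units.val_pow_eq_pow_val, Units.val_mk0,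
    Units.val_inv_eq_inv_val, Units.coe_map, MonoidHom.coe_coe]
  field_simp
  linear_combination -hu'

end Fermat.Agent.Two.Recip
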