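import Fermat.Agent.Two.Recip.Defs
import Mathlib.NumberTheory.LegendreSymbol.QuadraticChar.Basic
import Mathlib.RingTheory.DedekindDomain.FiniteAdeleRing
import Mathlib.RingTheory.Ideal.Quotient.Basic
import Mathlib.NumberTheory.NumberField.InfinitePlace.Embeddings
import Mathlib.Algebra.CharP.Two
import Mathlib.RingTheory.Ideal.Quotient.HasFiniteQuotients

/-!
# The symbols away from two: formal properties

Bimultiplicativity, symmetry, the Steinberg relation and finiteness of support of the tame symbols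
at odd primes and of the signs at real places.
-/

set_option autoImplicit false

noncomputable section

namespace Fermat.Agent.Two.Recip

open IsDedekindDomain
open scoped NumberField WithZero

variable {F : Type*} [Field F] [NumberField F] (P : HeightOneSpectrum (𝓞 F))

theorem valuation_eq_exp (x : Fˣ) : P.valuation F (x : F) = WithZero.exp (-ordAt P x) := by
  rw [← HeightOneSpectrum.valuationOfNeZero_eq, ordAt, neg_neg]
  rfl

@[simp]
theorem ordAt_one : ordAt P (1 : Fˣ) = 0 := by simp [ordAt]

theorem ordAt_mul (x y : Fˣ) : ordAt P (x * y) = ordAt P x + ordAt P y := by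
  simp [ordAt]; ring

theorem ordAt_inv (x : Fˣ) : ordAt P x⁻¹ = -ordAt P x := by simp [ordAt]

theorem ordAt_pow (x : Fˣ) (n : ℕ) : ordAt P (x ^ n) = n * ordAt P x := by
  induction n with
  | zero => simp
  | succ n ih => rw [pow_succ, ordAt_mul, ih]; push_cast; ring

theorem ordAt_zpow (x : Fˣ) (n : ℤ) : ordAt P (x ^ n) = n * ordAt P x := by
  simp [ordAt]

theorem valuation_eq_one_iff (x : Fˣ) : P.valuation F (x : F) = 1 ↔ ordAt P x = 0 := by
  rw [valuation_eq_exp, ← WithZero.exp_zero, WithZero.exp_inj, neg_eq_zero]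

theorem valuation_lt_one_iff (x : Fˣ) : P.valuation F (x : F) < 1 ↔ 0 < ordAt P x := by
  rw [valuation_eq_exp, ← WithZero.exp_zero, WithZero.exp_lt_exp]; omega

theorem valuation_le_one_iff (x : Fˣ) : P.valuation F (x : F) ≤ 1 ↔ 0 ≤ ordAt P x := by
  rw [valuation_eq_exp, ← WithZero.exp_zero, WithZero.exp_le_exp]; omega

@[simp]
theorem ordAt_neg_one : ordAt P (-1 : Fˣ) = 0 := by
  rw [← valuation_eq_one_iff, Units.val_neg, Units.val_one, Valuation.map_neg, map_one]

theorem ordAt_neg (x : Fˣ) : ordAt P (-x) = ordAt P x := by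
  rw [← neg_one_mul, ordAt_mul, ordAt_neg_one, zero_add]

/-! ### Residues -/

theorem exists_residue {t : F} (ht : P.valuation F t ≤ 1) :
    ∃ r : 𝓞 F, P.valuation F (t - algebraMap (𝓞 F) F r) < 1 := by
  obtain ⟨n, d, h⟩ := P.exists_primeCompl_mul_eq_of_integer t ht
  obtain ⟨e, i, hi, he⟩ := P.isMaximal.exists_inv d.2
  refine ⟨n * e, ?_⟩
  have hd : P.valuation F (algebraMap (𝓞 F) F d) = 1 :=
    (P.valuation_eq_one_iff_notMem).mpr d.2
  have key : (t - algebraMap (𝓞 F) F (n * e)) * algebraMap (𝓞 F) F d =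
      algebraMap (𝓞 F) F (n * i) := by
    have he' : i = 1 - e * d := by rw [← he]; ring
    rw [he', map_mul, map_mul, map_sub, map_one, map_mul, sub_mul, h]; ring
  calc P.valuation F (t - algebraMap (𝓞 F) F (n * e))
      = P.valuation F ((t - algebraMap (𝓞 F) F (n * e)) * algebraMap (𝓞 F) F d) := by
        rw [map_mul (P.valuation F), hd, mul_one]
    _ < 1 := by
        rw [key, P.valuation_lt_one_iff_mem]
        exact P.asIdeal.mul_mem_left n hi

open Classical in
/-- The residue at `P`, zero on non-integral elements. -/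
def res (t : F) : 𝓞 F ⧸ P.asIdeal :=
  if h : P.valuation F t ≤ 1 then Ideal.Quotient.mk _ (exists_residue P h).choose else 0

theorem res_eq {t : F} {r : 𝓞 F} (h : P.valuation F (t - algebraMap (𝓞 F) F r) < 1) :
    res P t = Ideal.Quotient.mk _ r := by
  have ht : P.valuation F t ≤ 1 := by
    rw [show t = (t - algebraMap (𝓞 F) F r) + algebraMap (𝓞 F) F r by ring]
    exact (Valuation.map_add _ _ _).trans (max_le h.le (P.valuation_le_one r))
  rw [res, dif_pos ht, Ideal.Quotient.eq, ← P.valuation_lt_one_iff_mem (K := F)]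
  show P.valuation F (algebraMap (𝓞 F) F ((exists_residue P ht).choose - r)) < 1
  rw [map_sub,
    show algebraMap (𝓞 F) F (exists_residue P ht).choose - algebraMap (𝓞 F) F r =
      (t - algebraMap (𝓞 F) F r) - (t - algebraMap (𝓞 F) F (exists_residue P ht).choose) by ring]
  exact Valuation.map_sub_lt _ h (exists_residue P ht).choose_spec

@[simp]
theorem res_algebraMap (r : 𝓞 F) : res P (algebraMap (𝓞 F) F r) = Ideal.Quotient.mk _ r :=
  res_eq P (by simp)

theorem res_mul {s t : F} (hs : P.valuation F s ≤ 1) (ht : P.valuation F t ≤ 1) :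
    res P (s * t) = res P s * res P t := by
  obtain ⟨a, ha⟩ := exists_residue P hs
  obtain ⟨b, hb⟩ := exists_residue P ht
  rw [res_eq P ha, res_eq P hb, ← map_mul]
  refine res_eq P ?_
  rw [map_mul, show s * t - algebraMap (𝓞 F) F a * algebraMap (𝓞 F) F b =
      (s - algebraMap (𝓞 F) F a) * t + algebraMap (𝓞 F) F a * (t - algebraMap (𝓞 F) F b) by ring]
  refine Valuation.map_add_lt _ ?_ ?_
  · rw [map_mul]; exact lt_of_le_of_lt (mul_le_of_le_one_right zero_le ht) ha
  · rw [map_mul]; exact lt_of_le_of_lt (mul_le_of_le_one_left zero_le (P.valuation_le_one a)) hb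

theorem res_ne_zero {t : F} (ht : P.valuation F t = 1) : res P t ≠ 0 := by
  obtain ⟨r, hr⟩ := exists_residue P ht.le
  rw [res_eq P hr, Ne, Ideal.Quotient.eq_zero_iff_mem, ← P.valuation_lt_one_iff_mem (K := F),
    not_lt]
  rw [← Valuation.map_sub_swap] at hr
  rw [← Valuation.map_add_eq_of_lt_right (P.valuation F) (hr.trans_eq ht.symm), sub_add_cancel] at ht
  exact ht.ge

theorem res_eq_of_lt {s t : F} (ht : P.valuation F t ≤ 1) (h : P.valuation F (s - t) < 1) :
    res P s = res P t := by
  obtain ⟨r, hr⟩ := exists_residue P ht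
  rw [res_eq P hr]
  refine res_eq P ?_
  rw [show s - algebraMap (𝓞 F) F r = (s - t) + (t - algebraMap (𝓞 F) F r) by ring]
  exact Valuation.map_add_lt _ h hr

theorem isSqMod_iff {t : F} (ht : P.valuation F t ≤ 1) : IsSqMod P t ↔ IsSquare (res P t) := by
  constructor
  · rintro ⟨z, hz⟩
    have hz1 : P.valuation F z ≤ 1 := by
      have h2 : P.valuation F (z ^ 2) ≤ 1 := by
        rw [show z ^ 2 = t - (t - z ^ 2) by ring]
        exact (Valuation.map_sub _ _ _).trans (max_le ht hz.le)
      rw [map_pow] at h2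
      exact (pow_le_one_iff (by norm_num)).mp h2
    refine ⟨res P z, ?_⟩
    rw [← res_mul P hz1 hz1]
    refine res_eq_of_lt P ?_ (by rwa [← pow_two])
    rw [map_mul]; exact mul_le_one' hz1 hz1
  · rintro ⟨y, hy⟩
    obtain ⟨w, rfl⟩ := Ideal.Quotient.mk_surjective y
    obtain ⟨r, hr⟩ := exists_residue P ht
    refine ⟨algebraMap (𝓞 F) F w, ?_⟩
    rw [res_eq P hr, ← map_mul, Ideal.Quotient.eq, ← P.valuation_lt_one_iff_mem (K := F)] at hy
    rw [show t - algebraMap (𝓞 F) F w ^ 2 = (t - algebraMap (𝓞 F) F r) +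
      algebraMap (𝓞 F) F (r - w * w) by rw [map_sub, map_mul]; ring]
    exact Valuation.map_add_lt _ hr hy

/-! ### Squares modulo `P` -/

open Classical in
/-- Zero on squares modulo `P`, one otherwise. -/
def nsq (t : F) : ZMod 2 := if IsSqMod P t then 0 else 1

theorem tame_eq_nsq (a b : Fˣ) : tame P a b = nsq P (tameUnit P a b : F) := rfl

theorem nsq_one : nsq P (1 : F) = 0 := if_pos ⟨1, by simp⟩

theorem nsq_congr {s t : F} (ht : P.valuation F t ≤ 1) (h : P.valuation F (s - t) < 1) :
    nsq P s = nsq P t := by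
  have hs : P.valuation F s ≤ 1 := by
    rw [show s = (s - t) + t by ring]
    exact (Valuation.map_add _ _ _).trans (max_le h.le ht)
  have hiff : IsSqMod P s ↔ IsSqMod P t := by
    rw [isSqMod_iff P hs, isSqMod_iff P ht, res_eq_of_lt P ht h]
  by_cases hq : IsSqMod P t <;> simp [nsq, hiff, hq]

theorem nsq_mul {s t : F} (hs : P.valuation F s = 1) (ht : P.valuation F t = 1) :
    nsq P (s * t) = nsq P s + nsq P t := by
  classical
  have hst : P.valuation F (s * t) ≤ 1 := by rw [map_mul, hs, ht, one_mul]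
  let : Field (𝓞 F ⧸ P.asIdeal) :=
    haveI := P.isMaximal
    Ideal.Quotient.field _
  have : Finite (𝓞 F ⧸ P.asIdeal) := Ring.HasFiniteQuotients.finiteQuotient P.ne_bot
  let := Fintype.ofFinite (𝓞 F ⧸ P.asIdeal)
  simp only [nsq, isSqMod_iff P hst, isSqMod_iff P hs.le, isSqMod_iff P ht.le,
    res_mul P hs.le ht.le]
  have hx := res_ne_zero P hs
  have hy := res_ne_zero P ht
  simp only [← quadraticChar_one_iff_isSquare hx, ← quadraticChar_one_iff_isSquare hy,
    ← quadraticChar_one_iff_isSquare (mul_ne_zero hx hy), map_mul]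
  rcases quadraticChar_dichotomy hx with h | h <;> rcases quadraticChar_dichotomy hy with h' | h' <;>
    norm_num [h, h']
  decide

theorem nsq_sq {z : F} : nsq P (z ^ 2) = 0 := if_pos ⟨z, by simp⟩

theorem nsq_inv {t : F} (ht : P.valuation F t = 1) : nsq P t⁻¹ = nsq P t := by
  have ht0 : t ≠ 0 := fun h => by simp [h] at ht
  have h := nsq_mul P ht (t := t⁻¹) (by rw [map_inv₀, ht, inv_one])
  rw [mul_inv_cancel₀ ht0, nsq_one] at h
  exact ((CharTwo.add_eq_zero).mp h.symm).symm

/-- `nsq` on the units at `P`. -/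
theorem nsq_unit_mul {x y : Fˣ} (hx : ordAt P x = 0) (hy : ordAt P y = 0) :
    nsq P ((x * y : Fˣ) : F) = nsq P (x : F) + nsq P (y : F) := by
  rw [Units.val_mul]
  exact nsq_mul P ((valuation_eq_one_iff P x).mpr hx) ((valuation_eq_one_iff P y).mpr hy)

theorem nsq_unit_zpow {x : Fˣ} (hx : ordAt P x = 0) (n : ℤ) :
    nsq P ((x ^ n : Fˣ) : F) = n • nsq P (x : F) := by
  induction n using Int.induction_on with
  | zero => simp [nsq_one]
  | succ i ih =>
    rw [zpow_add_one, nsq_unit_mul P (by rw [ordAt_zpow, hx, mul_zero]) hx, ih, add_zsmul, one_zsmul]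
  | pred i ih =>
    rw [zpow_sub_one, nsq_unit_mul P (by rw [ordAt_zpow, hx, mul_zero])
      (by rw [ordAt_inv, hx, neg_zero]), ih, Units.val_inv_eq_inv_val,
      nsq_inv P ((valuation_eq_one_iff P x).mpr hx), sub_zsmul, one_zsmul, CharTwo.neg_eq (nsq P (x : F))]

/-! ### The tame symbol -/

theorem ordAt_tameUnit (a b : Fˣ) : ordAt P (tameUnit P a b) = 0 := by
  simp only [tameUnit, ordAt_mul, ordAt_zpow, ordAt_inv, ordAt_neg_one]
  ring

theorem tame_comm (a b : Fˣ) : tame P a b = tame P b a := by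
  have h : tameUnit P b a = (tameUnit P a b)⁻¹ := by
    refine eq_inv_of_mul_eq_one_left ?_
    have key : ∀ u x y : Fˣ, u * u = 1 → u * y * x⁻¹ * (u * x * y⁻¹) = 1 := fun u x y hu => by
      have hu' : (u : F) * u = 1 := by rw [← Units.val_mul, hu, Units.val_one]
      apply Units.ext
      simp only [Units.val_mul, Units.val_inv_eq_inv_val, Units.val_one]
      field_simp [x.ne_zero, y.ne_zero]
      linear_combination hu'
    simp only [tameUnit, mul_comm (ordAt P b) (ordAt P a)]
    exact key _ _ _ (by rw [← mul_zpow]; simp)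
  rw [tame_eq_nsq, tame_eq_nsq, h, Units.val_inv_eq_inv_val,
    nsq_inv P ((valuation_eq_one_iff P _).mpr (ordAt_tameUnit P a b))]

theorem tame_mul_left (a a' b : Fˣ) : tame P (a * a') b = tame P a b + tame P a' b := by
  have h : tameUnit P (a * a') b = tameUnit P a b * tameUnit P a' b := by
    simp only [tameUnit, ordAt_mul, add_mul, zpow_add, mul_zpow, mul_inv]
    ac_rfl
  rw [tame_eq_nsq, h, nsq_unit_mul P (ordAt_tameUnit P a b) (ordAt_tameUnit P a' b)]
  rfl

theorem tame_mul_right (a b b' : Fˣ) : tame P a (b * b') = tame P a b + tame P a b' := by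
  rw [tame_comm, tame_mul_left, tame_comm P b, tame_comm P b']

@[simp]
theorem tame_one_left (b : Fˣ) : tame P 1 b = 0 := by
  have h := tame_mul_left P 1 1 b
  rw [one_mul] at h
  exact left_eq_add.mp h

theorem tame_sq_left (z b : Fˣ) : tame P (z ^ 2) b = 0 := by
  rw [pow_two, tame_mul_left, CharTwo.add_self_eq_zero]

theorem tame_of_ordAt_eq_zero {a : Fˣ} (ha : ordAt P a = 0) (b : Fˣ) :
    tame P a b = ordAt P b • nsq P (a : F) := by
  rw [tame_eq_nsq]
  simp only [tameUnit, ha, zero_mul, zpow_zero, one_mul, inv_one, mul_one]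
  exact nsq_unit_zpow P ha _

theorem tame_eq_zero_of_units {a b : Fˣ} (ha : ordAt P a = 0) (hb : ordAt P b = 0) :
    tame P a b = 0 := by
  rw [tame_of_ordAt_eq_zero P ha, hb, zero_zsmul]

theorem tame_eq_zero_of_even {a b : Fˣ} (ha : Even (ordAt P a)) (hb : Even (ordAt P b)) :
    tame P a b = 0 := by
  obtain ⟨m, hm⟩ := ha
  obtain ⟨n, hn⟩ := hb
  have h : tameUnit P a b = ((-1) ^ (m * ordAt P b) * a ^ n * (b ^ m)⁻¹) ^ 2 := by
    simp only [tameUnit, hm, hn, pow_two, add_mul, zpow_add, mul_inv]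
    ac_rfl
  rw [tame_eq_nsq, h, Units.val_pow_eq_pow_val, nsq_sq]

theorem tame_self_neg (a : Fˣ) : tame P a (-a) = 0 := by
  have h : tameUnit P a (-a) = 1 := by
    have hn : (-a) ^ ordAt P a = (-1) ^ ordAt P a * a ^ ordAt P a := by
      rw [← mul_zpow, neg_one_mul]
    simp only [tameUnit, ordAt_neg, hn, mul_inv, ← inv_zpow, inv_neg, inv_one]
    rw [show (-1 : Fˣ) ^ (ordAt P a * ordAt P a) * a ^ ordAt P a *
        ((-1) ^ ordAt P a * a⁻¹ ^ ordAt P a) =
      (-1 : Fˣ) ^ (ordAt P a * ordAt P a) * (-1) ^ ordAt P a *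
        (a ^ ordAt P a * a⁻¹ ^ ordAt P a) by ac_rfl, inv_zpow, mul_inv_cancel, mul_one, ← zpow_add]
    refine Even.neg_one_zpow ?_
    rw [show ordAt P a * ordAt P a + ordAt P a = ordAt P a * (ordAt P a + 1) by ring]
    exact Int.even_mul_succ_self _
  rw [tame_eq_nsq, h, Units.val_one, nsq_one]

theorem tame_steinberg {a b : Fˣ} (h : (a : F) + b = 1) : tame P a b = 0 := by
  have hb : (b : F) = 1 - a := eq_sub_of_add_eq' h
  rcases lt_trichotomy (ordAt P a) 0 with ha | ha | ha
  · have hva : 1 < P.valuation F (a : F) := by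
      rw [← not_le, valuation_le_one_iff]; omega
    have hvb : P.valuation F (b : F) = P.valuation F (a : F) := by
      rw [hb, Valuation.map_sub_eq_of_lt_right _ (by rwa [map_one])]
    have hord : ordAt P b = ordAt P a := by
      rw [valuation_eq_exp, valuation_eq_exp, WithZero.exp_inj] at hvb; omega
    set w : Fˣ := -(b * a⁻¹) with hw
    have hw0 : ordAt P w = 0 := by rw [hw, ordAt_neg, ordAt_mul, ordAt_inv, hord]; ring
    have hw1 : nsq P (w : F) = 0 := by
      rw [← nsq_one P]
      refine nsq_congr P (by rw [map_one]) ?_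
      rw [hw, Units.val_neg, Units.val_mul, Units.val_inv_eq_inv_val, hb,
        show -((1 - (a : F)) * (a : F)⁻¹) - 1 = -(a : F)⁻¹ by field_simp; ring, Valuation.map_neg,
        map_inv₀]
      exact inv_lt_one_of_one_lt₀ hva
    have hu : tameUnit P a b =
        (-1) ^ (ordAt P a * ordAt P a + ordAt P a) * w ^ (-ordAt P a) := by
      simp only [tameUnit, hord, hw, ← neg_one_mul (b * a⁻¹), mul_zpow,
        zpow_add, zpow_neg, inv_zpow, mul_inv, inv_inv]
      rw [show (-1 : Fˣ) ^ (ordAt P a * ordAt P a) * (-1) ^ ordAt P a *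
        (((-1) ^ ordAt P a)⁻¹ * ((b ^ ordAt P a)⁻¹ * a ^ ordAt P a)) =
        (-1 : Fˣ) ^ (ordAt P a * ordAt P a) * a ^ ordAt P a * (b ^ ordAt P a)⁻¹ *
          ((-1) ^ ordAt P a * ((-1) ^ ordAt P a)⁻¹) by ac_rfl]
      rw [mul_inv_cancel, mul_one]
    rw [tame_eq_nsq, hu, Even.neg_one_zpow (by
      rw [show ordAt P a * ordAt P a + ordAt P a = ordAt P a * (ordAt P a + 1) by ring]
      exact Int.even_mul_succ_self _), one_mul, nsq_unit_zpow P hw0, hw1, smul_zero]
  · rw [tame_of_ordAt_eq_zero P ha]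
    rcases eq_or_ne (ordAt P b) 0 with hb0 | hb0
    · rw [hb0, zero_zsmul]
    · have hlt : P.valuation F ((a : F) - 1) < 1 := by
        rw [show (a : F) - 1 = -(b : F) by rw [hb]; ring, Valuation.map_neg, valuation_lt_one_iff]
        have hle : P.valuation F (b : F) ≤ 1 := by
          rw [hb]
          exact (Valuation.map_sub _ _ _).trans
            (max_le (map_one _).le ((valuation_eq_one_iff P a).mpr ha).le)
        rw [valuation_le_one_iff] at hle
        omega
      rw [nsq_congr P (map_one _).le hlt, nsq_one, smul_zero]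
  · have hlt : P.valuation F ((b : F) - 1) < 1 := by
      rw [hb, show (1 - (a : F)) - 1 = -(a : F) by ring, Valuation.map_neg, valuation_lt_one_iff]
      exact ha
    have hb0 : ordAt P b = 0 := by
      rw [← valuation_eq_one_iff,
        show (b : F) = ((b : F) - 1) + 1 by ring, Valuation.map_add_eq_of_lt_right _ (by rwa [map_one]),
        map_one]
    rw [tame_comm, tame_of_ordAt_eq_zero P hb0, nsq_congr P (map_one _).le hlt, nsq_one, smul_zero]

/-! ### Sums over the places -/

theorem finite_ordAt_ne_zero (x : Fˣ) :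
    {Q : HeightOneSpectrum (𝓞 F) | ordAt Q x ≠ 0}.Finite := by
  refine ((HeightOneSpectrum.Support.finite (𝓞 F) (x : F)).union
    (HeightOneSpectrum.Support.finite (𝓞 F) ((x⁻¹ : Fˣ) : F))).subset fun Q hQ => ?_
  rcases lt_or_gt_of_ne hQ with h | h
  · left
    show 1 < Q.valuation F (x : F)
    rw [← not_le, valuation_le_one_iff]; omega
  · right
    show 1 < Q.valuation F ((x⁻¹ : Fˣ) : F)
    rw [← not_le, valuation_le_one_iff, ordAt_inv]; omega

theorem finite_support_tame (a b : Fˣ) :
    (Function.support fun Q : OddPlace F => tame Q.1 a b).Finite := by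
  refine Set.Finite.subset (((finite_ordAt_ne_zero a).union (finite_ordAt_ne_zero b)).preimage
    Subtype.val_injective.injOn) fun Q hQ => ?_
  by_contra h
  simp only [Set.mem_preimage, Set.mem_union, Set.mem_ofPred_eq, not_or, not_not] at h
  exact hQ (tame_eq_zero_of_units Q.1 h.1 h.2)

theorem oddTame_comm (a b : Fˣ) : oddTame a b = oddTame b a :=
  finsum_congr fun Q => tame_comm Q.1 a b

theorem oddTame_mul_left (a a' b : Fˣ) : oddTame (a * a') b = oddTame a b + oddTame a' b := by
  rw [oddTame, finsum_congr fun Q : OddPlace F => tame_mul_left Q.1 a a' b]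
  exact finsum_add_distrib (finite_support_tame a b) (finite_support_tame a' b)

theorem finite_embeddings : Finite (F →+* ℝ) :=
  Finite.of_injective (fun σ => Complex.ofRealHom.comp σ) fun _ _ h =>
    RingHom.ext fun x => Complex.ofReal_injective (RingHom.congr_fun h x)

theorem realTerm_comm (a b : Fˣ) : realTerm a b = realTerm b a := by
  refine finsum_congr fun σ => ?_
  simp only [and_comm]

theorem realTerm_mul_left (a a' b : Fˣ) : realTerm (a * a') b = realTerm a b + realTerm a' b := by
  have := finite_embeddings (F := F)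
  rw [realTerm, realTerm, realTerm, ← finsum_add_distrib (Set.toFinite _) (Set.toFinite _)]
  refine finsum_congr fun σ => ?_
  rw [Units.val_mul, map_mul]
  have ha : σ (a : F) ≠ 0 := (map_ne_zero σ).mpr a.ne_zero
  have ha' : σ (a' : F) ≠ 0 := (map_ne_zero σ).mpr a'.ne_zero
  by_cases hb : σ (b : F) < 0
  · rcases lt_or_gt_of_ne ha with h | h <;> rcases lt_or_gt_of_ne ha' with h' | h'
    · simp [hb, h, h', (mul_pos_of_neg_of_neg h h').not_gt, CharTwo.add_self_eq_zero]
    · simp [hb, h, h'.not_gt, mul_neg_of_neg_of_pos h h']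
    · simp [hb, h.not_gt, h', mul_neg_of_pos_of_neg h h']
    · simp [hb, h.not_gt, h'.not_gt, (mul_pos h h').not_gt]
  · simp [hb]

theorem away2_comm (a b : Fˣ) : away2 a b = away2 b a := by
  rw [away2, away2, oddTame_comm, realTerm_comm]

theorem away2_mul_left (a a' b : Fˣ) : away2 (a * a') b = away2 a b + away2 a' b := by
  simp only [away2, oddTame_mul_left, realTerm_mul_left]; ring

theorem away2_mul_right (a b b' : Fˣ) : away2 a (b * b') = away2 a b + away2 a b' := by
  rw [away2_comm, away2_mul_left, away2_comm b, away2_comm b']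

theorem away2_sq_left (z b : Fˣ) : away2 (z ^ 2) b = 0 := by
  rw [pow_two, away2_mul_left, CharTwo.add_self_eq_zero]

theorem oddTame_sq_left (z b : Fˣ) : oddTame (z ^ 2) b = 0 := by
  rw [pow_two, oddTame_mul_left, CharTwo.add_self_eq_zero]

theorem away2_self_neg (a : Fˣ) : away2 a (-a) = 0 := by
  have h1 : oddTame a (-a) = 0 := finsum_eq_zero_of_forall_eq_zero fun Q => tame_self_neg Q.1 a
  have h2 : realTerm a (-a) = 0 := finsum_eq_zero_of_forall_eq_zero fun σ => by
    rw [Units.val_neg, map_neg]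
    exact if_neg fun h => absurd h.2 (not_lt.mpr (neg_nonneg.mpr h.1.le))
  rw [away2, h1, h2, add_zero]

theorem away2_steinberg {a b : Fˣ} (h : (a : F) + b = 1) : away2 a b = 0 := by
  have h1 : oddTame a b = 0 := finsum_eq_zero_of_forall_eq_zero fun Q => tame_steinberg Q.1 h
  have h2 : realTerm a b = 0 := finsum_eq_zero_of_forall_eq_zero fun σ => if_neg fun hs => by
    have := congrArg σ h
    rw [map_add, map_one] at this
    linarith [hs.1, hs.2]
  rw [away2, h1, h2, add_zero]

end Fermat.Agent.Two.Recip
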