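import Fermat.Agent.Two.Recip.TameLocal
import Mathlib.LinearAlgebra.Charpoly.ToMatrix
import Mathlib.LinearAlgebra.Charpoly.Basic
import Mathlib.LinearAlgebra.Eigenspace.Zero
import Mathlib.RingTheory.Ideal.Operations
import Mathlib.FieldTheory.Finiteness

/-!
# The primes over `p` in a cubic field

Residue degrees, ramification, elements supported at one prime and the cubic equation of a
uniformiser of degree one.
-/

set_option autoImplicit false

noncomputable section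

namespace Fermat.Agent.Two.Recip

open IsDedekindDomain Polynomial
open scoped NumberField WithZero

variable {F : Type*} [Field F] [NumberField F] {p : Nat.Primes}

local instance factPrimeCount : Fact (p : ℕ).Prime := ⟨p.2⟩

/-- An integer divisible enough at every prime over `p` is divisible by `p`. -/
theorem dvd_of_forall_mem {y : 𝓞 F} (hy : ∀ Q ∈ over F p, y ∈ Q.asIdeal ^ ram p Q) :
    ((p : ℕ) : 𝓞 F) ∣ y := by
  rcases eq_or_ne y 0 with rfl | hy0
  · exact dvd_zero _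
  obtain ⟨z, hz⟩ := HeightOneSpectrum.mem_integers_of_valuation_le_one F
    ((intUnit y hy0 * (primeElt p)⁻¹ : Fˣ) : F) fun Q => by
      rw [valuation_le_one_iff, ordAt_mul, ordAt_inv, ordAt_primeElt]
      by_cases hQ : Q ∈ over F p
      · have := (le_ordAt_intUnit_iff Q hy0 _).mpr (hy Q hQ)
        omega
      · have h0 : ram p Q = 0 := by
          rw [mem_over, mem_iff_ordAt_pos, ordAt_primeElt] at hQ
          omega
        have := ordAt_intUnit_nonneg Q hy0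
        omega
  refine ⟨z, FaithfulSMul.algebraMap_injective (𝓞 F) F ?_⟩
  rw [map_mul, hz, Units.val_mul, Units.val_inv_eq_inv_val, coe_primeElt, coe_intUnit,
    mul_comm (algebraMap (𝓞 F) F y), ← mul_assoc, mul_inv_cancel₀, one_mul]
  simpa using natPrime_ne_zero (F := F) p

/-- An integer congruent to one at every prime over `p` has norm one modulo `p`. -/
theorem norm_eq_one_of_forall_mem {w : 𝓞 F}
    (hw : ∀ Q ∈ over F p, w - 1 ∈ Q.asIdeal ^ ram p Q) :
    ((Algebra.norm ℤ w : ℤ) : ZMod (p : ℕ)) = 1 := by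
  let := quotAlgebra (p : ℕ) (I := Ideal.span {((p : ℕ) : 𝓞 F)}) (Ideal.mem_span_singleton_self _)
  rw [← (norm_trace_mod (p : ℕ) (Ideal.Quotient.mk (Ideal.span {((p : ℕ) : 𝓞 F)}))
    Ideal.Quotient.mk_surjective
    (fun x => by rw [Ideal.Quotient.eq_zero_iff_mem, Ideal.mem_span_singleton]) w).1]
  have e : Ideal.Quotient.mk (Ideal.span {((p : ℕ) : 𝓞 F)}) w = 1 := by
    rw [← map_one (Ideal.Quotient.mk (Ideal.span {((p : ℕ) : 𝓞 F)})), Ideal.Quotient.eq,
      Ideal.mem_span_singleton]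
    exact dvd_of_forall_mem hw
  rw [e, map_one]

variable {P : HeightOneSpectrum (𝓞 F)}

theorem natCast_mem_pow_ram : ((p : ℕ) : 𝓞 F) ∈ P.asIdeal ^ ram p P := by
  rw [← le_ordAt_intUnit_iff P (natPrime_ne_zero p), ← primeElt_eq, ordAt_primeElt]

theorem absNorm_span_natPrime (hd : Module.finrank ℚ F = 3) :
    Ideal.absNorm (Ideal.span {((p : ℕ) : 𝓞 F)}) = (p : ℕ) ^ 3 := by
  rw [Ideal.absNorm_span_singleton, ← map_natCast (algebraMap ℤ (𝓞 F)), Algebra.norm_algebraMap,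
    NumberField.RingOfIntegers.rank, hd, Int.natAbs_pow, Int.natAbs_natCast]

/-- The norm of a prime over `p` and its count inside `(p)`. -/
theorem exists_degree (hd : Module.finrank ℚ F = 3) (hP : P ∈ over F p) :
    ∃ f : ℕ, 0 < f ∧ Ideal.absNorm P.asIdeal = (p : ℕ) ^ f ∧ ram p P * f ≤ 3 ∧
      ∀ {Q : HeightOneSpectrum (𝓞 F)}, Q ≠ P → ∀ g : ℕ,
        Ideal.absNorm Q.asIdeal = (p : ℕ) ^ g → ram p P * f + ram p Q * g ≤ 3 := by
  obtain ⟨J, hJ, -⟩ := exists_split p P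
  have key := congrArg Ideal.absNorm hJ
  rw [map_mul, map_pow, absNorm_span_natPrime hd] at key
  have hdvd : Ideal.absNorm P.asIdeal ∣ (p : ℕ) ^ 3 := by
    rw [← key]
    exact (dvd_pow_self _ (ram_pos p hP).ne').mul_right _
  obtain ⟨f, -, hf⟩ := (Nat.dvd_prime_pow p.2).mp hdvd
  have hf0 : 0 < f := Nat.pos_of_ne_zero fun h => P.isPrime.ne_top
    (Ideal.absNorm_eq_one_iff.mp (by rw [hf, h, pow_zero]))
  rw [hf, ← pow_mul] at key
  have hle : ∀ {n : ℕ}, (p : ℕ) ^ n ∣ Ideal.absNorm J → ram p P * f + n ≤ 3 := fun {n} h => by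
    have h3 : (p : ℕ) ^ (f * ram p P) * (p : ℕ) ^ n ∣ (p : ℕ) ^ 3 := key ▸ mul_dvd_mul_left _ h
    rw [← pow_add, Nat.pow_dvd_pow_iff_le_right p.2.one_lt] at h3
    rw [mul_comm]
    exact h3
  refine ⟨f, hf0, hf, by simpa using hle (n := 0) (by simp), fun {Q} hQ g hg => hle ?_⟩
  obtain ⟨J', hJ'⟩ := Ideal.dvd_iff_le.mpr (le_of_split hJ hQ)
  rw [hJ', map_mul, map_pow, hg, ← pow_mul, mul_comm g]
  exact dvd_mul_right _ _

/-- Every residue is rational. -/
def DegreeOne (P : HeightOneSpectrum (𝓞 F)) : Prop := ∀ r : 𝓞 F, ∃ m : ℤ, r - m ∈ P.asIdeal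

theorem degreeOne_of_absNorm (hP : P ∈ over F p) (h : Ideal.absNorm P.asIdeal = (p : ℕ)) :
    DegreeOne P := fun r => by
  let := quotAlgebra (p : ℕ) ((mem_over p P).mp hP)
  have hc : Nat.card (𝓞 F ⧸ P.asIdeal) = (p : ℕ) := by
    rw [← h, Ideal.absNorm_apply]
    exact (Submodule.cardQuot_apply _).symm
  have : Finite (𝓞 F ⧸ P.asIdeal) := Ring.HasFiniteQuotients.finiteQuotient P.ne_bot
  have : Nontrivial (𝓞 F ⧸ P.asIdeal) := Ideal.Quotient.nontrivial_iff.mpr P.isPrime.ne_top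
  have hb := (Nat.bijective_iff_injective_and_card (algebraMap (ZMod (p : ℕ)) (𝓞 F ⧸ P.asIdeal))).mpr
    ⟨(algebraMap (ZMod (p : ℕ)) (𝓞 F ⧸ P.asIdeal)).injective, by rw [Nat.card_zmod, hc]⟩
  obtain ⟨m, hm⟩ := hb.2 (Ideal.Quotient.mk _ r)
  obtain ⟨m, rfl⟩ := ZMod.intCast_surjective m
  refine ⟨m, Ideal.Quotient.eq.mp ?_⟩
  rw [← hm, map_intCast, map_intCast]

variable (p) in
/-- A prime of degree one and ramification at most two. -/
def IsGood (P : HeightOneSpectrum (𝓞 F)) : Prop :=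
  Ideal.absNorm P.asIdeal = (p : ℕ) ∧ ram p P ≤ 2

theorem two_le_of_not_good (hd : Module.finrank ℚ F = 3) (hP : P ∈ over F p) (hb : ¬ IsGood p P) :
    Odd (ram p P) ∧ ∀ Q ∈ over F p, Q ≠ P → IsGood p Q := by
  obtain ⟨f, hf0, hf, hef, hsum⟩ := exists_degree hd hP
  have he := ram_pos p hP
  have hb' : 2 ≤ f ∨ 3 ≤ ram p P := by
    by_contra h
    push Not at h
    obtain rfl : f = 1 := by omega
    exact hb ⟨by simpa using hf, by omega⟩
  have hpair : ram p P = 1 ∨ (ram p P = 3 ∧ f = 1) := by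
    rcases hb' with h | h
    · exact Or.inl (by nlinarith)
    · exact Or.inr ⟨by nlinarith, by nlinarith⟩
  refine ⟨?_, fun Q hQ hQP => ?_⟩
  · rcases hpair with h | ⟨h, -⟩ <;> rw [h] <;> decide
  obtain ⟨g, hg0, hg, -, -⟩ := exists_degree hd hQ
  have h3 := hsum hQP g hg
  have hQ0 := ram_pos p hQ
  have h2 : 2 ≤ ram p P * f := by rcases hb' with h | h <;> nlinarith
  have h1 : ram p Q * g ≤ 1 := by omega
  have hg1 : g = 1 := by nlinarith
  subst hg1
  exact ⟨by simpa using hg, by omega⟩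

theorem degreeOne_of_two_le (hd : Module.finrank ℚ F = 3) (hP : P ∈ over F p)
    (he : 2 ≤ ram p P) : Ideal.absNorm P.asIdeal = (p : ℕ) := by
  obtain ⟨f, hf0, hf, hef, -⟩ := exists_degree hd hP
  have : f = 1 := by nlinarith
  rw [hf, this, pow_one]

/-- An integer congruent to `i` at `P` and to one at the other primes over `p`. -/
theorem exists_supported (i : 𝓞 F) (n : ℕ) {J : Ideal (𝓞 F)} (hJ : ¬ J ≤ P.asIdeal) :
    ∃ z : 𝓞 F, z - i ∈ P.asIdeal ^ n ∧ z - 1 ∈ J := by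
  obtain ⟨a, ha, b, hb, hab⟩ := Ideal.isCoprime_iff_exists.mp (isCoprime_pow_left P n hJ)
  refine ⟨i * b + a, ?_, ?_⟩
  · rw [show i * b + a - i = (1 - i) * a + i * (b + a - 1) by ring, add_comm b a, hab, sub_self,
      mul_zero, add_zero]
    exact Ideal.mul_mem_left _ _ ha
  · rw [show i * b + a - 1 = (i - 1) * b + (a + b - 1) by ring, hab, sub_self, add_zero]
    exact Ideal.mul_mem_left _ _ hb

/-- A uniformiser at `P` that is one modulo the rest of `p`. -/
theorem exists_uniformiser {J : Ideal (𝓞 F)} (hJ : ¬ J ≤ P.asIdeal) :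
    ∃ π : 𝓞 F, π ∈ P.asIdeal ∧ π ∉ P.asIdeal ^ 2 ∧ π - 1 ∈ J := by
  obtain ⟨c, hc, hc2⟩ := SetLike.exists_of_lt (Ideal.pow_right_strictAnti P.asIdeal P.ne_bot
    P.isPrime.ne_top one_lt_two)
  simp only at hc hc2
  replace hc : c ∈ P.asIdeal := pow_one P.asIdeal ▸ hc
  obtain ⟨π, hπ, hπJ⟩ := exists_supported c 2 hJ
  refine ⟨π, ?_, fun h => hc2 ?_, hπJ⟩
  · simpa using add_mem (Ideal.pow_le_self two_ne_zero hπ) hc
  · simpa using sub_mem h hπ

/-- The cubic equation of an element nilpotent at `P` and one elsewhere over `p`. -/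
theorem exists_cubic (hd : Module.finrank ℚ F = 3) {π : 𝓞 F} {J : Ideal (𝓞 F)}
    (hJ : P.asIdeal ^ ram p P * J = Ideal.span {((p : ℕ) : 𝓞 F)}) (hJP : ¬ J ≤ P.asIdeal)
    (hP : P ∈ over F p) (hdeg : Ideal.absNorm P.asIdeal = (p : ℕ))
    (hπ : π ∈ P.asIdeal) (hπJ : π - 1 ∈ J) :
    ∃ c₁ c₂ : ℤ, π ^ 3 + (c₂ : 𝓞 F) * π ^ 2 + (c₁ : 𝓞 F) * π = (Algebra.norm ℤ π : 𝓞 F) ∧
      (X ^ ram p P * (X - 1) ^ (3 - ram p P) : (ZMod (p : ℕ))[X]).coeff 1 = (c₁ : ZMod (p : ℕ)) ∧
      (X ^ ram p P * (X - 1) ^ (3 - ram p P) : (ZMod (p : ℕ))[X]).coeff 2 = (c₂ : ZMod (p : ℕ)) ∧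
      ((Algebra.norm ℤ π : ℤ) : ZMod (p : ℕ)) = 0 := by
  classical
  obtain ⟨I, hI⟩ : ∃ I, I = P.asIdeal ^ ram p P := ⟨_, rfl⟩
  rw [← hI] at hJ
  have hpI : ((p : ℕ) : 𝓞 F) ∈ I := by
    rw [hI]
    exact natCast_mem_pow_ram
  have hspan : Ideal.span {((p : ℕ) : 𝓞 F)} ≤ J := by
    rw [← hJ]
    exact Ideal.mul_le_right
  have hpJ : ((p : ℕ) : 𝓞 F) ∈ J := hspan (Ideal.mem_span_singleton_self _)
  let := quotAlgebra (p : ℕ) hpI
  let := quotAlgebra (p : ℕ) hpJ
  have hcop : IsCoprime I J := hI ▸ isCoprime_pow_left P _ hJP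
  obtain ⟨hN, -, fI, fJ, hdim⟩ := norm_trace_crt hJ hcop
  have := fI; have := fJ
  have hcard : Module.finrank (ZMod (p : ℕ)) (𝓞 F ⧸ I) = ram p P := by
    have h := Module.natCard_eq_pow_finrank (K := ZMod (p : ℕ)) (V := 𝓞 F ⧸ I)
    rw [Nat.card_zmod, ← Submodule.cardQuot_apply, ← Ideal.absNorm_apply, congrArg Ideal.absNorm hI, map_pow, hdeg] at h
    exact (Nat.pow_right_injective p.2.two_le h).symm
  rw [hd, hcard] at hdim
  let φ : 𝓞 F →+* (𝓞 F ⧸ I) × (𝓞 F ⧸ J) := (Ideal.Quotient.mk I).prod (Ideal.Quotient.mk J)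
  have hsurj : Function.Surjective φ := fun z => by
    obtain ⟨a, ha⟩ := (Ideal.quotientInfEquivQuotientProd I J hcop).surjective z
    obtain ⟨x, rfl⟩ := Ideal.Quotient.mk_surjective a
    exact ⟨x, by rw [← ha]; exact Prod.ext rfl rfl⟩
  have hker : ∀ x, φ x = 0 ↔ ((p : ℕ) : 𝓞 F) ∣ x := fun x => by
    rw [← Ideal.mem_span_singleton, ← hJ, Ideal.mul_eq_inf_of_coprime
      (Ideal.isCoprime_iff_sup_eq.mp hcop)]
    simp [φ, Prod.ext_iff, Ideal.Quotient.eq_zero_iff_mem, hI]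
  obtain ⟨bA, hbA⟩ := exists_basis_mod (p : ℕ) φ hsurj hker
  set b := NumberField.RingOfIntegers.basis F
  have hb : ∀ i, bA i = φ (b i) := fun i => bA.repr.injective (Finsupp.ext fun j => by
    rw [hbA, b.repr_self, bA.repr_self]
    rcases eq_or_ne i j with h | h <;> simp [h])
  set M := Algebra.leftMulMatrix b π with hM
  have hMA : Algebra.leftMulMatrix bA (φ π) = M.map (Int.castRingHom (ZMod (p : ℕ))) := by
    ext i j
    rw [Algebra.leftMulMatrix_eq_repr_mul, hb, ← map_mul, hbA, Matrix.map_apply, hM,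
      Algebra.leftMulMatrix_eq_repr_mul, eq_intCast]
  have hcard3 : Fintype.card (Module.Free.ChooseBasisIndex ℤ (𝓞 F)) = 3 := by
    rw [← Module.finrank_eq_card_chooseBasisIndex, NumberField.RingOfIntegers.rank, hd]
  set q := M.charpoly with hq
  have hqdeg : q.natDegree = 3 := by rw [hq, Matrix.charpoly_natDegree_eq_dim, hcard3]
  have hmap : q.map (Int.castRingHom (ZMod (p : ℕ))) = X ^ ram p P * (X - 1) ^ (3 - ram p P) := by
    rw [hq, ← Matrix.charpoly_map, ← hMA, ← Algebra.toMatrix_lmul_eq, LinearMap.charpoly_toMatrix,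
      show LinearMap.mulLeft (ZMod (p : ℕ)) (φ π) =
        (Algebra.lmul (ZMod (p : ℕ)) _ (Ideal.Quotient.mk I π)).prodMap
          (Algebra.lmul (ZMod (p : ℕ)) _ (Ideal.Quotient.mk J π)) from LinearMap.ext fun z => rfl,
      LinearMap.charpoly_prodMap]
    congr 1
    · have hn : IsNilpotent (Ideal.Quotient.mk I π) := ⟨ram p P, by
        rw [← map_pow, Ideal.Quotient.eq_zero_iff_mem, hI]; exact Ideal.pow_mem_pow hπ _⟩
      rw [(hn.map (Algebra.lmul (ZMod (p : ℕ)) _)).charpoly_eq_X_pow_finrank, hcard]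
    · have h1 : Ideal.Quotient.mk J π = 1 := by
        rw [← map_one (Ideal.Quotient.mk J), Ideal.Quotient.eq]; exact hπJ
      rw [h1, map_one, LinearMap.charpoly_one]
      congr 1
      omega
  have hCH : aeval π q = 0 := Algebra.leftMulMatrix_injective b (by
    rw [map_zero, ← Polynomial.aeval_algHom_apply, hq, ← hM, Matrix.aeval_self_charpoly])
  have hc0 : q.coeff 0 = -Algebra.norm ℤ π := by
    have h := Matrix.det_eq_sign_charpoly_coeff M
    rw [hcard3, ← hq, hM, ← Algebra.norm_eq_matrix_det b] at h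
    rw [h]
    ring
  have hc3 : q.coeff 3 = 1 := by
    rw [← hqdeg]; exact (hq ▸ M.charpoly_monic : q.Monic).coeff_natDegree
  refine ⟨q.coeff 1, q.coeff 2, ?_, ?_, ?_, ?_⟩
  · rw [aeval_eq_sum_range, hqdeg] at hCH
    simp only [Finset.sum_range_succ, Finset.sum_range_zero, zero_add, hc0, hc3, zsmul_eq_mul,
      pow_zero, mul_one, pow_one, Int.cast_one, one_mul, Int.cast_neg] at hCH
    linear_combination hCH
  · rw [← hmap, coeff_map, eq_intCast]
  · rw [← hmap, coeff_map, eq_intCast]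
  · have h := congrArg (fun g : (ZMod (p : ℕ))[X] => g.coeff 0) hmap
    simp only [coeff_map, eq_intCast, hc0, mul_coeff_zero, coeff_X_pow] at h
    rw [if_neg (ram_pos p hP).ne, zero_mul, Int.cast_neg, neg_eq_zero] at h
    exact h

end Fermat.Agent.Two.Recip
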