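import Fermat.Agent.Two.Recip.TameResidue
import Fermat.Agent.Two.Recip.Rational
import Mathlib.RingTheory.UniqueFactorizationDomain.Multiplicity

/-!
# Projection of the tame symbols to `ℚ` in a cubic field

For a prime `p ≠ 2` and a rational `c` the symbols of `c` and `x` at the primes over `p` add up to
the symbol of `c` and the norm of `x` at `p`.
-/

set_option autoImplicit false

noncomputable section

namespace Fermat.Agent.Two.Recip

open IsDedekindDomain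
open scoped NumberField WithZero

variable {F : Type*} [Field F] [NumberField F] (p : Nat.Primes)

local instance factPrimeTame : Fact (p : ℕ).Prime := ⟨p.2⟩

/-- The unit of `F` given by a nonzero integer. -/
def intUnit (r : 𝓞 F) (hr : r ≠ 0) : Fˣ :=
  Units.mk0 (algebraMap (𝓞 F) F r) (by simpa using hr)

@[simp]
theorem coe_intUnit (r : 𝓞 F) (hr : r ≠ 0) : (intUnit r hr : F) = algebraMap (𝓞 F) F r := rfl

theorem coe_ratUnit (t : ℚˣ) : ((ratUnit t : Fˣ) : F) = algebraMap ℚ F (t : ℚ) := rfl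

theorem coe_normUnit (x : Fˣ) : ((normUnit x : ℚˣ) : ℚ) = Algebra.norm ℚ (x : F) := rfl

variable (P : HeightOneSpectrum (𝓞 F))

theorem le_ordAt_intUnit_iff {r : 𝓞 F} (hr : r ≠ 0) (n : ℕ) :
    (n : ℤ) ≤ ordAt P (intUnit r hr) ↔ r ∈ P.asIdeal ^ n := by
  rw [← P.intValuation_le_pow_iff_mem, ← P.valuation_of_algebraMap (K := F)]
  change _ ↔ P.valuation F (intUnit r hr : F) ≤ _
  rw [valuation_eq_exp, WithZero.exp_le_exp]
  omega

theorem ordAt_intUnit_nonneg {r : 𝓞 F} (hr : r ≠ 0) : 0 ≤ ordAt P (intUnit r hr) := by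
  simpa using (le_ordAt_intUnit_iff P hr 0).mpr (by simp)

theorem ordAt_intUnit_eq_zero_iff {r : 𝓞 F} (hr : r ≠ 0) :
    ordAt P (intUnit r hr) = 0 ↔ r ∉ P.asIdeal := by
  rw [← valuation_eq_one_iff, coe_intUnit, P.valuation_eq_one_iff_notMem]

theorem coe_ratUnit_intCast (a : ℤ) (t : ℚˣ) (ht : (t : ℚ) = a) :
    ((ratUnit t : Fˣ) : F) = algebraMap (𝓞 F) F (a : 𝓞 F) := by
  rw [coe_ratUnit, ht, map_intCast, map_intCast]

/-- The `p` as an element of `Fˣ`. -/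
abbrev primeElt : Fˣ := ratUnit (primeUnit p)

theorem coe_primeElt : ((primeElt p : Fˣ) : F) = algebraMap (𝓞 F) F ((p : ℕ) : 𝓞 F) := by
  rw [coe_ratUnit, coe_primeUnit, map_natCast, map_natCast]

theorem natPrime_ne_zero : ((p : ℕ) : 𝓞 F) ≠ 0 := Nat.cast_ne_zero.mpr p.2.ne_zero

theorem primeElt_eq : (primeElt p : Fˣ) = intUnit ((p : ℕ) : 𝓞 F) (natPrime_ne_zero p) :=
  Units.ext (coe_primeElt p)

theorem mem_iff_ordAt_pos :
    ((p : ℕ) : 𝓞 F) ∈ P.asIdeal ↔ 0 < ordAt P (primeElt p) := by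
  rw [primeElt_eq, ← not_iff_not, ← ordAt_intUnit_eq_zero_iff P (natPrime_ne_zero p)]
  have := ordAt_intUnit_nonneg P (natPrime_ne_zero (F := F) p)
  omega

variable (F) in
theorem finite_over : {Q : HeightOneSpectrum (𝓞 F) | ((p : ℕ) : 𝓞 F) ∈ Q.asIdeal}.Finite :=
  (finite_ordAt_ne_zero (primeElt p : Fˣ)).subset fun Q hQ =>
    ((mem_iff_ordAt_pos p Q).mp hQ).ne'

variable (F) in
/-- The primes over `p`. -/
def over : Finset (HeightOneSpectrum (𝓞 F)) := (finite_over F p).toFinset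

theorem mem_over : P ∈ over F p ↔ ((p : ℕ) : 𝓞 F) ∈ P.asIdeal := (finite_over F p).mem_toFinset

/-- The exponent of `P` in `p`. -/
def ram : ℕ := (ordAt P (primeElt p)).toNat

theorem ordAt_primeElt : ordAt P (primeElt p) = ram p P := by
  rw [ram, Int.toNat_of_nonneg]
  rw [primeElt_eq]; exact ordAt_intUnit_nonneg P _

theorem ram_pos {P : HeightOneSpectrum (𝓞 F)} (hP : P ∈ over F p) : 0 < ram p P := by
  have := (mem_iff_ordAt_pos p P).mp ((mem_over p P).mp hP)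
  rw [ordAt_primeElt] at this
  exact_mod_cast this

theorem isMaximal_sup_eq_top {J : Ideal (𝓞 F)} (hJ : ¬ J ≤ P.asIdeal) : P.asIdeal ⊔ J = ⊤ :=
  P.isMaximal.1.2 _ (lt_of_le_of_ne le_sup_left fun h => hJ (le_sup_right.trans h.ge))

theorem isCoprime_pow_left {J : Ideal (𝓞 F)} (n : ℕ) (hJ : ¬ J ≤ P.asIdeal) :
    IsCoprime (P.asIdeal ^ n) J :=
  Ideal.isCoprime_iff_sup_eq.mpr (Ideal.pow_sup_eq_top (isMaximal_sup_eq_top P hJ))

/-- `(p) = P ^ e * J` with `J` prime to `P`. -/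
theorem exists_split : ∃ J : Ideal (𝓞 F),
    P.asIdeal ^ ram p P * J = Ideal.span {((p : ℕ) : 𝓞 F)} ∧ ¬ J ≤ P.asIdeal := by
  have hb : Ideal.span {((p : ℕ) : 𝓞 F)} ≠ ⊥ := by
    rw [Ne, Ideal.span_singleton_eq_bot]; exact natPrime_ne_zero p
  have h1 : ((p : ℕ) : 𝓞 F) ∈ P.asIdeal ^ ram p P := by
    rw [← le_ordAt_intUnit_iff P (natPrime_ne_zero p), ← primeElt_eq, ordAt_primeElt]
  have h2 : ((p : ℕ) : 𝓞 F) ∉ P.asIdeal ^ (ram p P + 1) := by
    rw [← le_ordAt_intUnit_iff P (natPrime_ne_zero p), ← primeElt_eq, ordAt_primeElt]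
    push_cast
    omega
  obtain ⟨J, hJ⟩ := Ideal.dvd_iff_le.mpr ((Ideal.span_singleton_le_iff_mem _).mpr h1)
  refine ⟨J, hJ.symm, fun h => h2 ?_⟩
  have h3 : Ideal.span {((p : ℕ) : 𝓞 F)} ≤ P.asIdeal ^ (ram p P + 1) := by
    rw [hJ, pow_succ]
    exact Ideal.mul_mono le_rfl h
  exact (Ideal.span_singleton_le_iff_mem _).mp h3

variable {p P}

theorem le_of_split {J : Ideal (𝓞 F)} (hJ : P.asIdeal ^ ram p P * J = Ideal.span {((p : ℕ) : 𝓞 F)})
    {Q : HeightOneSpectrum (𝓞 F)} (hQP : Q ≠ P) : J ≤ Q.asIdeal ^ ram p Q := by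
  obtain ⟨J', hJ', -⟩ := exists_split p Q
  have hd : Q.asIdeal ^ ram p Q ∣ P.asIdeal ^ ram p P * J := ⟨J', by rw [hJ, ← hJ']⟩
  have hne : ¬ P.asIdeal ^ ram p P ≤ Q.asIdeal := fun h => hQP
    (HeightOneSpectrum.ext (P.isMaximal.eq_of_le Q.isPrime.ne_top
      (Q.isPrime.le_of_pow_le h)).symm)
  exact Ideal.le_of_dvd ((isCoprime_pow_left Q _ hne).dvd_of_dvd_mul_left hd)

/-! ### Rational residues -/

theorem ordAt_ratUnit_eq_zero (hP : P ∈ over F p) {t : ℚˣ} (ht : padicValRat p (t : ℚ) = 0) :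
    ordAt P (ratUnit t) = 0 := by
  have key : ∀ a : ℤ, ¬ ((p : ℕ) : ℤ) ∣ a → (a : 𝓞 F) ∉ P.asIdeal := fun a ha h => by
    obtain ⟨u, v, huv⟩ := (Nat.prime_iff_prime_int.mp p.2).coprime_iff_not_dvd.mpr ha
    refine P.isPrime.ne_top ((Ideal.eq_top_iff_one _).mpr ?_)
    rw [show (1 : 𝓞 F) = (u : 𝓞 F) * ((p : ℕ) : 𝓞 F) + (v : 𝓞 F) * (a : 𝓞 F) by
      exact_mod_cast (congrArg (fun z : ℤ => (z : 𝓞 F)) huv).symm]
    exact add_mem (P.asIdeal.mul_mem_left _ ((mem_over p P).mp hP)) (P.asIdeal.mul_mem_left _ h)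
  obtain ⟨hn, hd⟩ := not_dvd_num_den p t.ne_zero ht
  have h1 : P.valuation F (algebraMap (𝓞 F) F ((t : ℚ).num : 𝓞 F)) = 1 :=
    P.valuation_eq_one_iff_notMem.mpr (key _ hn)
  have h2 : P.valuation F (algebraMap (𝓞 F) F ((((t : ℚ).den : ℤ)) : 𝓞 F)) = 1 :=
    P.valuation_eq_one_iff_notMem.mpr (key _ fun h => hd (Int.natCast_dvd_natCast.mp h))
  rw [← valuation_eq_one_iff, coe_ratUnit,
    show algebraMap ℚ F (t : ℚ) = algebraMap (𝓞 F) F ((t : ℚ).num : 𝓞 F) /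
      algebraMap (𝓞 F) F (((t : ℚ).den : ℤ) : 𝓞 F) by
    rw [eq_ratCast, Rat.cast_def, map_intCast, map_intCast, Int.cast_natCast],
    map_div₀, h1, h2, div_one]

theorem ordAt_ratUnit (hP : P ∈ over F p) (t : ℚˣ) :
    ordAt P (ratUnit t) = padicValRat p (t : ℚ) * ram p P := by
  have hu : padicValRat p ((t * (primeUnit p)⁻¹ ^ padicValRat p (t : ℚ) : ℚˣ) : ℚ) = 0 := by
    rw [padicValRat_units_mul, padicValRat_units_zpow, Units.val_inv_eq_inv_val, padicValRat.inv,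
      padicValRat_primeUnit, if_pos rfl]
    ring
  have h := ordAt_ratUnit_eq_zero hP hu
  rw [map_mul, map_zpow, map_inv, ordAt_mul, ordAt_zpow, ordAt_inv, ordAt_primeElt] at h
  linarith

theorem nonres_eq (a : ℤ) : nonres p (a : ℚ) = if IsSquare (a : ZMod (p : ℕ)) then 0 else 1 := by
  rw [nonres_intCast, signBit]
  simp only [legendreSym.eq_neg_one_iff]
  split_ifs <;> rfl

theorem nsq_ratUnit (hP : P ∈ over F p) {t : ℚˣ} (ht : padicValRat p (t : ℚ) = 0)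
    (hf : ∀ r : 𝓞 F, ∃ m : ℤ, r - m ∈ P.asIdeal) :
    nsq P ((ratUnit t : Fˣ) : F) = nonres p (t : ℚ) := by
  have key : ∀ a : ℤ, ¬ ((p : ℕ) : ℤ) ∣ a →
      nsq P (algebraMap (𝓞 F) F (a : 𝓞 F)) = nonres p (a : ℚ) := fun a ha => by
    have hiff : IsSqMod P (algebraMap (𝓞 F) F (a : 𝓞 F)) ↔ IsSquare (a : ZMod (p : ℕ)) := by
      rw [isSqMod_iff P (P.valuation_le_one _), res_algebraMap]
      constructor
      · rintro ⟨y, hy⟩
        obtain ⟨r, rfl⟩ := Ideal.Quotient.mk_surjective y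
        obtain ⟨m, hm⟩ := hf r
        refine ⟨(m : ZMod (p : ℕ)), ?_⟩
        rw [← Int.cast_mul, ZMod.intCast_eq_intCast_iff_dvd_sub]
        by_contra hnd
        obtain ⟨u, v, huv⟩ := (Nat.prime_iff_prime_int.mp p.2).coprime_iff_not_dvd.mpr hnd
        refine P.isPrime.ne_top ((Ideal.eq_top_iff_one _).mpr ?_)
        rw [show (1 : 𝓞 F) = (u : 𝓞 F) * ((p : ℕ) : 𝓞 F) + (v : 𝓞 F) * ((m * m - a : ℤ) : 𝓞 F) by
          exact_mod_cast (congrArg (fun z : ℤ => (z : 𝓞 F)) huv).symm]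
        refine add_mem (P.asIdeal.mul_mem_left _ ((mem_over p P).mp hP))
          (P.asIdeal.mul_mem_left _ ?_)
        rw [← map_mul, Ideal.Quotient.eq] at hy
        have e : ((m * m - a : ℤ) : 𝓞 F) =
            -((r - m) * (r + m)) + -((a : 𝓞 F) - r * r) := by push_cast; ring
        rw [e]
        exact add_mem (neg_mem (Ideal.mul_mem_right _ _ hm)) (neg_mem hy)
      · rintro ⟨y, hy⟩
        obtain ⟨m, rfl⟩ := ZMod.intCast_surjective y
        rw [← Int.cast_mul, ZMod.intCast_eq_intCast_iff_dvd_sub] at hy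
        obtain ⟨c, hc⟩ := hy
        refine ⟨Ideal.Quotient.mk _ (m : 𝓞 F), ?_⟩
        rw [← map_mul, Ideal.Quotient.eq,
          show (a : 𝓞 F) - m * m = -(((p : ℕ) : 𝓞 F) * c) by
            have := congrArg (fun z : ℤ => (z : 𝓞 F)) hc
            push_cast at this
            linear_combination -this]
        exact neg_mem (Ideal.mul_mem_right _ _ ((mem_over p P).mp hP))
    rw [nonres_eq]
    by_cases h : IsSquare (a : ZMod (p : ℕ))
    · rw [if_pos h, nsq, if_pos (hiff.mpr h)]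
    · rw [if_neg h, nsq, if_neg (mt hiff.mp h)]
  obtain ⟨hn, hd⟩ := not_dvd_num_den p t.ne_zero ht
  have hd' : ¬ ((p : ℕ) : ℤ) ∣ ((t : ℚ).den : ℤ) := fun h => hd (Int.natCast_dvd_natCast.mp h)
  have hdq : (((t : ℚ).den : ℤ) : ℚ) ≠ 0 := by exact_mod_cast (t : ℚ).den_nz
  have hval : ∀ a : ℤ, ¬ ((p : ℕ) : ℤ) ∣ a → ∀ u : ℚˣ, (u : ℚ) = a →
      padicValRat p (u : ℚ) = 0 ∧ P.valuation F (algebraMap (𝓞 F) F (a : 𝓞 F)) = 1 := by
    intro a ha u hu
    have h0 : padicValRat p (u : ℚ) = 0 := by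
      rw [hu, padicValRat.of_int, padicValInt.eq_zero_of_not_dvd ha]; rfl
    refine ⟨h0, ?_⟩
    rw [← coe_ratUnit_intCast a u hu, valuation_eq_one_iff]
    exact ordAt_ratUnit_eq_zero hP h0
  obtain ⟨-, v1⟩ := hval _ hn (Units.mk0 ((t : ℚ).num : ℚ)
    (by exact_mod_cast Rat.num_ne_zero.mpr t.ne_zero)) rfl
  obtain ⟨pd, v2⟩ := hval _ hd' (Units.mk0 (((t : ℚ).den : ℤ) : ℚ) hdq) rfl
  have hmul : (t : ℚ) * (((t : ℚ).den : ℤ) : ℚ) = ((t : ℚ).num : ℚ) := by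
    rw [Int.cast_natCast]; exact Rat.mul_den_eq_num _
  have e1 := nonres_mul p t.ne_zero hdq ht pd
  rw [hmul] at e1
  have e2 : nsq P (algebraMap (𝓞 F) F ((t : ℚ).num : 𝓞 F)) =
      nsq P ((ratUnit t : Fˣ) : F) + nsq P (algebraMap (𝓞 F) F ((((t : ℚ).den : ℤ)) : 𝓞 F)) := by
    rw [← nsq_mul P ((valuation_eq_one_iff P _).mpr (ordAt_ratUnit_eq_zero hP ht)) v2]
    congr 1
    rw [coe_ratUnit, map_intCast, map_intCast,
      ← map_intCast (algebraMap ℚ F), ← map_intCast (algebraMap ℚ F), ← map_mul, hmul]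
  rw [key _ hn, key _ hd', e1] at e2
  exact (add_right_cancel e2).symm

end Fermat.Agent.Two.Recip
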