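import Fermat.Agent.Two.Recip.TameProj
import Mathlib.RingTheory.Norm.Transitivity
import Mathlib.NumberTheory.NumberField.InfinitePlace.Embeddings

/-!
# The projection formula away from two

`away2 c x` is the symbol of `c` and the norm of `x` over `ℚ`, for a cubic field.
-/

set_option autoImplicit false

noncomputable section

namespace Fermat.Agent.Two.Recip

open IsDedekindDomain
open scoped NumberField ComplexConjugate

variable {F : Type*} [Field F] [NumberField F]

/-! ### The signs -/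

omit [NumberField F] in
theorem isReal_iff_conj (φ : F →+* ℂ) :
    NumberField.ComplexEmbedding.IsReal φ ↔ NumberField.ComplexEmbedding.conjugate φ = φ :=
  NumberField.ComplexEmbedding.isReal_iff

omit [NumberField F] in
/-- The product over embeddings stable under conjugation and without real ones is positive. -/
theorem prod_nonreal_pos {x : F} (hx : x ≠ 0) : ∀ T : Finset (F →+* ℂ),
    (∀ φ ∈ T, NumberField.ComplexEmbedding.conjugate φ ∈ T ∧
      NumberField.ComplexEmbedding.conjugate φ ≠ φ) → ∃ r : ℝ, 0 < r ∧ ∏ φ ∈ T, φ x = r := by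
  classical
  intro T
  induction T using Finset.strongInduction with
  | H T ih =>
    intro hT
    rcases T.eq_empty_or_nonempty with rfl | ⟨φ, hφ⟩
    · exact ⟨1, one_pos, by simp⟩
    obtain ⟨hc, hne⟩ := hT φ hφ
    set ψ := NumberField.ComplexEmbedding.conjugate φ with hψ
    have hinv : ∀ θ : F →+* ℂ, NumberField.ComplexEmbedding.conjugate
        (NumberField.ComplexEmbedding.conjugate θ) = θ := fun θ =>
      RingHom.ext fun y => by simp
    obtain ⟨r, hr, hprod⟩ := ih ((T.erase φ).erase ψ)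
      (Finset.ssubset_of_subset_of_ssubset (Finset.erase_subset _ _) (Finset.erase_ssubset hφ))
      fun θ hθ => by
        obtain ⟨h1, h2, h3⟩ := Finset.mem_erase.mp hθ |>.imp id Finset.mem_erase.mp
        refine ⟨Finset.mem_erase.mpr ⟨fun e => h2 ?_, Finset.mem_erase.mpr
          ⟨fun e => h1 ?_, (hT θ h3).1⟩⟩, (hT θ h3).2⟩
        · rw [← hinv θ, e, hψ, hinv]
        · rw [← hinv θ, e]
    refine ⟨Complex.normSq (φ x) * r, mul_pos (Complex.normSq_pos.mpr ((map_ne_zero φ).mpr hx)) hr,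
      ?_⟩
    rw [← Finset.mul_prod_erase T _ hφ,
      ← Finset.mul_prod_erase (T.erase φ) _ (Finset.mem_erase.mpr ⟨hne, hc⟩), hprod, ← mul_assoc,
      hψ, NumberField.ComplexEmbedding.conjugate_coe_eq, Complex.mul_conj]
    push_cast
    ring

theorem norm_eq_pos_mul_prod (x : Fˣ) [Fintype (F →+* ℝ)] :
    ∃ r : ℝ, 0 < r ∧ ((Algebra.norm ℚ (x : F) : ℚ) : ℝ) = r * ∏ σ : F →+* ℝ, σ (x : F) := by
  classical
  have hN : (∏ φ : F →+* ℂ, φ (x : F)) = ((Algebra.norm ℚ (x : F) : ℚ) : ℂ) := by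
    rw [← eq_ratCast (algebraMap ℚ ℂ), Algebra.norm_eq_prod_embeddings ℚ ℂ (x : F)]
    exact Fintype.prod_equiv (RingHom.equivRatAlgHom F ℂ) _ _ fun φ => rfl
  obtain ⟨r, hr, hprod⟩ := prod_nonreal_pos x.ne_zero
    (Finset.univ.filter fun φ : F →+* ℂ => ¬ NumberField.ComplexEmbedding.IsReal φ) fun φ hφ => by
      rw [Finset.mem_filter, isReal_iff_conj] at hφ
      refine ⟨Finset.mem_filter.mpr ⟨Finset.mem_univ _, ?_⟩, hφ.2⟩
      rw [isReal_iff_conj]
      exact fun h => hφ.2 (RingHom.ext fun y => by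
        have := RingHom.congr_fun h y
        simp only [NumberField.ComplexEmbedding.conjugate_coe_eq, Complex.conj_conj] at this ⊢
        exact this.symm)
  have hreal : ∏ φ ∈ Finset.univ.filter
      (fun φ : F →+* ℂ => NumberField.ComplexEmbedding.IsReal φ), φ (x : F) =
      ((∏ σ : F →+* ℝ, σ (x : F) : ℝ) : ℂ) := by
    rw [Complex.ofReal_prod]
    symm
    refine Finset.prod_bij (fun σ _ => Complex.ofRealHom.comp σ) (fun σ _ => ?_)
      (fun σ _ τ _ h => RingHom.ext fun y => Complex.ofReal_injective (RingHom.congr_fun h y))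
      (fun φ hφ => ⟨(Finset.mem_filter.mp hφ).2.embedding, Finset.mem_univ _,
        RingHom.ext fun y => (Finset.mem_filter.mp hφ).2.coe_embedding_apply y⟩) (fun σ _ => rfl)
    rw [Finset.mem_filter, isReal_iff_conj]
    exact ⟨Finset.mem_univ _, RingHom.ext fun y => by
      simp [NumberField.ComplexEmbedding.conjugate_coe_eq]⟩
  refine ⟨r, hr, ?_⟩
  have h : ((Algebra.norm ℚ (x : F) : ℚ) : ℂ) = ((r * ∏ σ : F →+* ℝ, σ (x : F) : ℝ) : ℂ) := by
    rw [← hN, ← Finset.prod_filter_mul_prod_filter_not Finset.univ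
      (fun φ : F →+* ℂ => NumberField.ComplexEmbedding.IsReal φ), hreal, hprod, Complex.ofReal_mul,
      mul_comm]
  exact Complex.ofReal_injective (by rw [Complex.ofReal_ratCast]; exact h)

theorem sum_neg_eq {ι : Type*} (s : Finset ι) (a : ι → ℝ) (ha : ∀ i ∈ s, a i ≠ 0) :
    (∑ i ∈ s, if a i < 0 then (1 : ZMod 2) else 0) = if ∏ i ∈ s, a i < 0 then 1 else 0 := by
  classical
  induction s using Finset.induction_on with
  | empty => simp [zero_lt_one.not_gt]
  | insert i s hi ih =>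
    rw [Finset.sum_insert hi, Finset.prod_insert hi,
      ih fun j hj => ha j (Finset.mem_insert_of_mem hj)]
    have hP : ∏ j ∈ s, a j ≠ 0 :=
      Finset.prod_ne_zero_iff.mpr fun j hj => ha j (Finset.mem_insert_of_mem hj)
    rcases lt_or_gt_of_ne (ha i (Finset.mem_insert_self i s)) with h1 | h1 <;>
      rcases lt_or_gt_of_ne hP with h2 | h2
    · rw [if_pos h1, if_pos h2, if_neg (mul_pos_of_neg_of_neg h1 h2).not_gt,
        CharTwo.add_self_eq_zero]
    · rw [if_pos h1, if_neg h2.not_gt, if_pos (mul_neg_of_neg_of_pos h1 h2), add_zero]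
    · rw [if_neg h1.not_gt, if_pos h2, if_pos (mul_neg_of_pos_of_neg h1 h2), zero_add]
    · rw [if_neg h1.not_gt, if_neg h2.not_gt, if_neg (mul_pos h1 h2).not_gt, add_zero]

theorem realTerm_ratUnit (c : ℚˣ) (x : Fˣ) :
    realTerm (ratUnit c) x = if (c : ℚ) < 0 ∧ (normUnit x : ℚ) < 0 then 1 else 0 := by
  classical
  have := finite_embeddings (F := F)
  let := Fintype.ofFinite (F →+* ℝ)
  have hc : ∀ σ : F →+* ℝ, σ ((ratUnit c : Fˣ) : F) < 0 ↔ (c : ℚ) < 0 := fun σ => by
    rw [coe_ratUnit, ← RingHom.comp_apply, eq_ratCast, Rat.cast_lt_zero]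
  rw [realTerm, finsum_eq_sum_of_fintype]
  by_cases h : (c : ℚ) < 0
  · have hx : ∀ σ : F →+* ℝ, σ (x : F) ≠ 0 := fun σ => (map_ne_zero σ).mpr x.ne_zero
    simp only [hc, h, true_and]
    rw [sum_neg_eq Finset.univ (fun σ : F →+* ℝ => σ (x : F)) fun σ _ => hx σ]
    obtain ⟨r, hr, hN⟩ := norm_eq_pos_mul_prod x
    refine if_congr ?_ rfl rfl
    rw [← Rat.cast_lt_zero (K := ℝ), coe_normUnit, hN, mul_neg_iff]
    simp [hr, hr.not_gt]
  · simp [hc, h]

/-! ### The odd primes -/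

theorem exists_prime_mem (P : HeightOneSpectrum (𝓞 F)) :
    ∃ p : Nat.Primes, ((p : ℕ) : 𝓞 F) ∈ P.asIdeal := by
  have hex : ∃ n : ℕ, 0 < n ∧ (n : 𝓞 F) ∈ P.asIdeal :=
    ⟨Ideal.absNorm P.asIdeal, Nat.pos_of_ne_zero fun h => P.ne_bot (Ideal.absNorm_eq_zero_iff.mp h),
      Ideal.absNorm_mem _⟩
  classical
  obtain ⟨hn0, hn⟩ := Nat.find_spec hex
  set n := Nat.find hex
  have hn1 : n ≠ 1 := fun h => P.isPrime.ne_top ((Ideal.eq_top_iff_one _).mpr (by simpa [h] using hn))
  have hprime : n.Prime := Nat.prime_def_lt'.mpr ⟨by omega, fun m hm hmn hdvd => by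
    obtain ⟨k, hk⟩ := hdvd
    have hk0 : 0 < k := Nat.pos_of_ne_zero fun h => by simp [h] at hk; omega
    rw [hk, Nat.cast_mul] at hn
    rcases P.isPrime.mem_or_mem hn with h | h
    · exact Nat.find_min hex hmn ⟨by omega, h⟩
    · exact Nat.find_min hex (show k < n by nlinarith) ⟨hk0, h⟩⟩
  exact ⟨⟨n, hprime⟩, hn⟩

theorem prime_mem_unique {P : HeightOneSpectrum (𝓞 F)} {p q : Nat.Primes}
    (hp : ((p : ℕ) : 𝓞 F) ∈ P.asIdeal) (hq : ((q : ℕ) : 𝓞 F) ∈ P.asIdeal) : p = q := by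
  by_contra h
  obtain ⟨u, v, huv⟩ : IsCoprime ((p : ℕ) : ℤ) ((q : ℕ) : ℤ) := Nat.Coprime.isCoprime
    ((Nat.coprime_primes p.2 q.2).mpr fun e => h (Subtype.ext e))
  refine P.isPrime.ne_top ((Ideal.eq_top_iff_one _).mpr ?_)
  rw [show (1 : 𝓞 F) = (u : 𝓞 F) * ((p : ℕ) : 𝓞 F) + (v : 𝓞 F) * ((q : ℕ) : 𝓞 F) by
    exact_mod_cast (congrArg (fun z : ℤ => (z : 𝓞 F)) huv).symm]
  exact add_mem (P.asIdeal.mul_mem_left _ hp) (P.asIdeal.mul_mem_left _ hq)

theorem two_notMem_of_over {P : HeightOneSpectrum (𝓞 F)} {p : Nat.Primes} (hp : (p : ℕ) ≠ 2)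
    (hP : P ∈ over F p) : (2 : 𝓞 F) ∉ P.asIdeal := fun h =>
  hp (congrArg Subtype.val (prime_mem_unique (q := twoPrime) ((mem_over p P).mp hP)
    (by simpa [twoPrime] using h)))

/-- The residue characteristic of an odd place. -/
def charOf (P : OddPlace F) : {p : Nat.Primes // (p : ℕ) ≠ 2} :=
  ⟨(exists_prime_mem P.1).choose, fun h => P.2 (by
    simpa [h] using (exists_prime_mem P.1).choose_spec)⟩

theorem mem_over_charOf (P : OddPlace F) : P.1 ∈ over F (charOf P).1 :=
  (mem_over _ _).mpr (exists_prime_mem P.1).choose_spec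

theorem oddTame_ratUnit (hd : Module.finrank ℚ F = 3) (c : ℚˣ) (x : Fˣ) :
    oddTame (ratUnit c) x =
      ∑ᶠ p : {p : Nat.Primes // (p : ℕ) ≠ 2}, tameQ p.1 c (normUnit x) := by
  classical
  have h1 := finite_support_tame (ratUnit c : Fˣ) x
  have h2 := finite_support_tameQ c (normUnit x)
  set S := h1.toFinset with hS
  set T := S.image charOf ∪ h2.toFinset with hT
  rw [oddTame, finsum_eq_sum _ h1, finsum_eq_sum_of_support_subset _ (s := T)
    (fun p hp => Finset.mem_coe.mpr (Finset.mem_union_right _ (h2.mem_toFinset.mpr hp))),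
    ← Finset.sum_fiberwise_of_maps_to (g := charOf) (t := T) fun P hP =>
      Finset.mem_union_left _ (Finset.mem_image_of_mem _ hP)]
  refine Finset.sum_congr rfl fun p _ => ?_
  rw [← sum_tame_ratUnit hd p.2]
  refine Finset.sum_bij_ne_zero (fun P _ _ => P.1) (fun P hP _ => ?_)
    (fun P _ _ Q _ _ h => Subtype.ext h) (fun P hP hne => ?_) (fun P _ _ => rfl)
  · rw [← (Finset.mem_filter.mp hP).2]
    exact mem_over_charOf P
  · refine ⟨⟨P, two_notMem_of_over p.2 hP⟩, Finset.mem_filter.mpr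
      ⟨h1.mem_toFinset.mpr hne, Subtype.ext ?_⟩, hne, rfl⟩
    exact prime_mem_unique ((mem_over _ _).mp (mem_over_charOf _)) ((mem_over _ _).mp hP)

/-- **Projection to `ℚ`.** -/
theorem away2_ratUnit (hd : Module.finrank ℚ F = 3) (c : ℚˣ) (x : Fˣ) :
    away2 (ratUnit c) x = hilbertTwo c (normUnit x) := by
  rw [away2, hilbertTwo, oddTame_ratUnit hd, realTerm_ratUnit]

end Fermat.Agent.Two.Recip
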