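import Fermat.Agent.Two.Recip.TameCount

/-!
# Projection at one odd prime

For an odd `p`, a rational `c` and `x` in a cubic field, the symbols at the primes over `p` add up
to the symbol of `c` and the norm of `x`.
-/

set_option autoImplicit false

noncomputable section

namespace Fermat.Agent.Two.Recip

open IsDedekindDomain
open scoped NumberField WithZero

variable {F : Type*} [Field F] [NumberField F] {p : Nat.Primes}

local instance factPrimeProj : Fact (p : ℕ).Prime := ⟨p.2⟩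

theorem padicValRat_intCast_eq_zero {a : ℤ} (ha : (a : ZMod (p : ℕ)) ≠ 0) :
    padicValRat p (a : ℚ) = 0 := by
  rw [padicValRat.of_int,
    padicValInt.eq_zero_of_not_dvd fun h => ha ((ZMod.intCast_zmod_eq_zero_iff_dvd a p).mpr h)]
  rfl

theorem intCast_rat_ne_zero {a : ℤ} (ha : (a : ZMod (p : ℕ)) ≠ 0) : (a : ℚ) ≠ 0 := by
  rw [Int.cast_ne_zero]; rintro rfl; exact ha Int.cast_zero

theorem nonres_congr {a b : ℤ} (h : (a : ZMod (p : ℕ)) = b) :
    nonres p (a : ℚ) = nonres p (b : ℚ) := by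
  rw [nonres_eq, nonres_eq, h]

theorem nonres_one : nonres p (1 : ℚ) = 0 := by
  simp [nonres, signBit]

theorem nonres_int_mul {a b : ℤ} (ha : (a : ZMod (p : ℕ)) ≠ 0) (hb : (b : ZMod (p : ℕ)) ≠ 0) :
    nonres p ((a * b : ℤ) : ℚ) = nonres p (a : ℚ) + nonres p (b : ℚ) := by
  rw [Int.cast_mul]
  exact nonres_mul p (intCast_rat_ne_zero ha) (intCast_rat_ne_zero hb)
    (padicValRat_intCast_eq_zero ha) (padicValRat_intCast_eq_zero hb)

theorem tameQ_unit_prime {y : ℚˣ} (hy : padicValRat p (y : ℚ) = 0) :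
    tameQ p y (primeUnit p) = nonres p (y : ℚ) := by
  rw [tameQ_eq_nonres]
  simp [tameUnitQ, hy, padicValRat_primeUnit]

variable (p) in
/-- The defect of the unit formula at an integer. -/
def psi (r : 𝓞 F) : ZMod 2 :=
  (∑ P ∈ over F p, (ram p P : ZMod 2) * nsq P (algebraMap (𝓞 F) F r)) +
    nonres p ((Algebra.norm ℤ r : ℤ) : ℚ)

variable (p) in
/-- Prime to every prime over `p`, with norm prime to `p`. -/
def PrimeTo (r : 𝓞 F) : Prop :=
  (∀ P ∈ over F p, r ∉ P.asIdeal) ∧ ((Algebra.norm ℤ r : ℤ) : ZMod (p : ℕ)) ≠ 0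

theorem primeTo_one : PrimeTo p (1 : 𝓞 F) :=
  ⟨fun P _ h => P.isPrime.ne_top ((Ideal.eq_top_iff_one _).mpr h), by simp⟩

theorem psi_one : psi p (1 : 𝓞 F) = 0 := by
  simp [psi, nsq_one, nonres_one]

theorem primeTo_mul {r s : 𝓞 F} (hr : PrimeTo p r) (hs : PrimeTo p s) : PrimeTo p (r * s) :=
  ⟨fun P hP h => (P.isPrime.mem_or_mem h).elim (hr.1 P hP) (hs.1 P hP),
    by rw [map_mul, Int.cast_mul]; exact mul_ne_zero hr.2 hs.2⟩

theorem psi_mul {r s : 𝓞 F} (hr : PrimeTo p r) (hs : PrimeTo p s) :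
    psi p (r * s) = psi p r + psi p s := by
  rw [psi, map_mul (Algebra.norm ℤ), nonres_int_mul hr.2 hs.2,
    Finset.sum_congr rfl fun P hP => by
      rw [map_mul, nsq_mul P (P.valuation_eq_one_iff_notMem.mpr (hr.1 P hP))
        (P.valuation_eq_one_iff_notMem.mpr (hs.1 P hP)), mul_add],
    Finset.sum_add_distrib, psi, psi]
  ring

/-- The formula for an integer supported at one prime. -/
theorem psi_supported (hd : Module.finrank ℚ F = 3) (hp : (p : ℕ) ≠ 2)
    {P : HeightOneSpectrum (𝓞 F)} (hP : P ∈ over F p) {J : Ideal (𝓞 F)}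
    (hJ : P.asIdeal ^ ram p P * J = Ideal.span {((p : ℕ) : 𝓞 F)}) (hJP : ¬ J ≤ P.asIdeal)
    {z : 𝓞 F} (hz : z ∉ P.asIdeal) (hz1 : z - 1 ∈ J) : PrimeTo p z ∧ psi p z = 0 := by
  classical
  have hother : ∀ Q ∈ over F p, Q ≠ P → z - 1 ∈ Q.asIdeal := fun Q hQ hQP =>
    Ideal.pow_le_self (ram_pos p hQ).ne' (le_of_split hJ hQP hz1)
  have hnot : ∀ Q ∈ over F p, z ∉ Q.asIdeal := fun Q hQ h => by
    rcases eq_or_ne Q P with rfl | hQP
    · exact hz h
    · exact Q.isPrime.ne_top ((Ideal.eq_top_iff_one _).mpr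
        (by simpa using sub_mem h (hother Q hQ hQP)))
  have hsum : (∑ Q ∈ over F p, (ram p Q : ZMod 2) * nsq Q (algebraMap (𝓞 F) F z)) =
      (ram p P : ZMod 2) * nsq P (algebraMap (𝓞 F) F z) := by
    refine Finset.sum_eq_single P (fun Q hQ hQP => ?_) fun h => absurd hP h
    rw [nsq_congr Q (t := 1) (map_one _).le ?_, nsq_one, mul_zero]
    rw [← map_one (algebraMap (𝓞 F) F), ← map_sub, Q.valuation_lt_one_iff_mem]
    exact hother Q hQ hQP
  obtain ⟨I, hI⟩ : ∃ I, I = P.asIdeal ^ ram p P := ⟨_, rfl⟩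
  rw [← hI] at hJ
  have hpI : ((p : ℕ) : 𝓞 F) ∈ I := by
    rw [hI]
    exact natCast_mem_pow_ram
  have hspan : Ideal.span {((p : ℕ) : 𝓞 F)} ≤ J := by
    rw [← hJ]
    exact Ideal.mul_le_right
  have hpJ : ((p : ℕ) : 𝓞 F) ∈ J := hspan (Ideal.mem_span_singleton_self _)
  let := quotAlgebra (p : ℕ) hpI
  let := quotAlgebra (p : ℕ) hpJ
  obtain ⟨hN, -, fI, -, -⟩ := norm_trace_crt hJ (hI ▸ isCoprime_pow_left P _ hJP)
  have := fI
  have hNz : ((Algebra.norm ℤ z : ℤ) : ZMod (p : ℕ)) =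
      Algebra.norm (ZMod (p : ℕ)) (Ideal.Quotient.mk I z) := by
    rw [hN, show Ideal.Quotient.mk J z = 1 by
      rw [← map_one (Ideal.Quotient.mk J), Ideal.Quotient.eq]; exact hz1, map_one, mul_one]
  have hunit : IsUnit (Ideal.Quotient.mk I z) := by
    obtain ⟨a, ha, b, hb, hab⟩ := Ideal.isCoprime_iff_exists.mp (isCoprime_pow_left P (ram p P)
      (J := Ideal.span {z}) fun h => hz (h (Ideal.mem_span_singleton_self _)))
    obtain ⟨c, rfl⟩ := Ideal.mem_span_singleton'.mp hb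
    refine .of_mul_eq_one (Ideal.Quotient.mk I c) ?_
    rw [← map_mul, ← map_one (Ideal.Quotient.mk I), Ideal.Quotient.eq, hI,
      show z * c - 1 = -a by linear_combination hab]
    exact neg_mem ha
  have hN0 : ((Algebra.norm ℤ z : ℤ) : ZMod (p : ℕ)) ≠ 0 := by
    rw [hNz]
    exact (hunit.map (Algebra.norm (ZMod (p : ℕ)))).ne_zero
  refine ⟨⟨hnot, hN0⟩, ?_⟩
  rw [psi, hsum]
  by_cases he : ram p P = 1
  · obtain rfl : I = P.asIdeal := by rw [hI, he, pow_one]
    let : Field (𝓞 F ⧸ P.asIdeal) :=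
      haveI := P.isMaximal
      Ideal.Quotient.field _
    have hne : Ideal.Quotient.mk P.asIdeal z ≠ 0 := by
      rwa [Ne, Ideal.Quotient.eq_zero_iff_mem]
    have hiff : IsSquare ((Algebra.norm ℤ z : ℤ) : ZMod (p : ℕ)) ↔
        IsSqMod P (algebraMap (𝓞 F) F z) := by
      rw [hNz, isSquare_norm_iff hp hne, isSqMod_iff P (P.valuation_le_one z), res_algebraMap]
    rw [nonres_eq, he, Nat.cast_one, one_mul, nsq]
    by_cases hs : IsSquare ((Algebra.norm ℤ z : ℤ) : ZMod (p : ℕ))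
    · rw [if_pos hs, if_pos (hiff.mp hs), add_zero]
    · rw [if_neg hs, if_neg (mt hiff.mpr hs)]
      decide
  · have he2 : 2 ≤ ram p P := by have := ram_pos p hP; omega
    have hdeg := degreeOne_of_two_le hd hP he2
    obtain ⟨c, hc⟩ := degreeOne_of_absNorm hP hdeg z
    have hc0 : (c : ZMod (p : ℕ)) ≠ 0 := fun h => hz (by
      obtain ⟨d, rfl⟩ := (ZMod.intCast_zmod_eq_zero_iff_dvd c p).mp h
      have := add_mem hc (P.asIdeal.mul_mem_right (d : 𝓞 F) ((mem_over p P).mp hP))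
      push_cast at this
      simpa using this)
    have hnil : IsNilpotent (Ideal.Quotient.mk I (z - c)) := ⟨ram p P, by
      rw [← map_pow, Ideal.Quotient.eq_zero_iff_mem, hI]; exact Ideal.pow_mem_pow hc _⟩
    have hfr : Module.finrank (ZMod (p : ℕ)) (𝓞 F ⧸ I) = ram p P := by
      have h := Module.natCard_eq_pow_finrank (K := ZMod (p : ℕ)) (V := 𝓞 F ⧸ I)
      rw [Nat.card_zmod, ← Submodule.cardQuot_apply, ← Ideal.absNorm_apply,
        congrArg Ideal.absNorm hI, map_pow, hdeg] at h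
      exact (Nat.pow_right_injective p.2.two_le h).symm
    have hNc : ((Algebra.norm ℤ z : ℤ) : ZMod (p : ℕ)) = ((c ^ ram p P : ℤ) : ZMod (p : ℕ)) := by
      have e : Ideal.Quotient.mk I z = algebraMap (ZMod (p : ℕ)) (𝓞 F ⧸ I) (c : ZMod (p : ℕ)) *
          (1 + algebraMap (ZMod (p : ℕ)) (𝓞 F ⧸ I) (c : ZMod (p : ℕ))⁻¹ *
            Ideal.Quotient.mk I (z - c)) := by
        rw [mul_add, mul_one, ← mul_assoc, ← map_mul, mul_inv_cancel₀ hc0, map_one, one_mul,
          map_sub, map_intCast, map_intCast]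
        ring
      rw [hNz, e, map_mul (Algebra.norm (ZMod (p : ℕ))), Algebra.norm_algebraMap, hfr,
        norm_one_add_nilpotent ((Commute.all _ _).isNilpotent_mul_left hnil), mul_one, Int.cast_pow]
    have hPc : nsq P (algebraMap (𝓞 F) F z) = nonres p (c : ℚ) := by
      let u : ℚˣ := Units.mk0 (c : ℚ) (intCast_rat_ne_zero hc0)
      change _ = nonres p (u : ℚ)
      rw [← nsq_ratUnit hP (t := u) (padicValRat_intCast_eq_zero hc0)
        (degreeOne_of_absNorm hP hdeg), coe_ratUnit_intCast c u rfl]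
      refine nsq_congr P (P.valuation_le_one _) ?_
      rw [← map_sub, P.valuation_lt_one_iff_mem]
      exact hc
    have hpow : ∀ n : ℕ, nonres p ((c ^ n : ℤ) : ℚ) = (n : ZMod 2) * nonres p (c : ℚ) := fun n => by
      induction n with
      | zero => simp [nonres_one]
      | succ n ih =>
        rw [pow_succ, nonres_int_mul (by rw [Int.cast_pow]; exact pow_ne_zero _ hc0) hc0, ih,
          Nat.cast_succ, add_mul, one_mul]
    rw [nonres_congr hNc, hpow, hPc, CharTwo.add_self_eq_zero]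

/-- **The unit formula** for an integer. -/
theorem psi_eq_zero (hd : Module.finrank ℚ F = 3) (hp : (p : ℕ) ≠ 2) {r : 𝓞 F}
    (hr : ∀ P ∈ over F p, r ∉ P.asIdeal) : PrimeTo p r ∧ psi p r = 0 := by
  classical
  choose J hJ hJP using exists_split (F := F) p
  have hinv : ∀ P : HeightOneSpectrum (𝓞 F), P ∈ over F p →
      ∃ i : 𝓞 F, r * i - 1 ∈ P.asIdeal ^ ram p P := fun P hP => by
    obtain ⟨a, ha, b, hb, hab⟩ := Ideal.isCoprime_iff_exists.mp (isCoprime_pow_left P (ram p P)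
      (J := Ideal.span {r}) fun h => hr P hP (h (Ideal.mem_span_singleton_self _)))
    obtain ⟨c, rfl⟩ := Ideal.mem_span_singleton'.mp hb
    refine ⟨c, ?_⟩
    rw [show r * c - 1 = -a by linear_combination hab]
    exact neg_mem ha
  choose! i hi using hinv
  choose z hzi hz1 using fun P : HeightOneSpectrum (𝓞 F) =>
    exists_supported (i P) (ram p P) (hJP P)
  have hzP : ∀ P ∈ over F p, z P ∉ P.asIdeal := fun P hP h => by
    have h1 := Ideal.pow_le_self (ram_pos p hP).ne' (hi P hP)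
    have h2 := Ideal.pow_le_self (ram_pos p hP).ne' (hzi P)
    refine P.isPrime.ne_top ((Ideal.eq_top_iff_one _).mpr ?_)
    rw [show (1 : 𝓞 F) = r * z P - ((r * i P - 1) + r * (z P - i P)) by ring]
    exact sub_mem (P.asIdeal.mul_mem_left _ h) (add_mem h1 (P.asIdeal.mul_mem_left _ h2))
  have hz : ∀ P ∈ over F p, PrimeTo p (z P) ∧ psi p (z P) = 0 := fun P hP =>
    psi_supported hd hp hP (hJ P) (hJP P) (hzP P hP) (hz1 P)
  have hprod : PrimeTo p (∏ P ∈ over F p, z P) ∧ psi p (∏ P ∈ over F p, z P) = 0 :=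
    Finset.prod_induction _ (fun s => PrimeTo p s ∧ psi p s = 0)
      (fun a b ha hb => ⟨primeTo_mul ha.1 hb.1, by rw [psi_mul ha.1 hb.1, ha.2, hb.2, add_zero]⟩)
      ⟨primeTo_one, psi_one⟩ hz
  set w := r * ∏ P ∈ over F p, z P with hw
  have hwQ : ∀ Q ∈ over F p, w - 1 ∈ Q.asIdeal ^ ram p Q := fun Q hQ => by
    have hq : ∀ P ∈ over F p, P ≠ Q →
        Ideal.Quotient.mk (Q.asIdeal ^ ram p Q) (z P) = 1 := fun P hP hPQ => by
      rw [← map_one (Ideal.Quotient.mk (Q.asIdeal ^ ram p Q)), Ideal.Quotient.eq]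
      exact le_of_split (hJ P) hPQ.symm (hz1 P)
    rw [← Ideal.Quotient.eq, map_one, hw, map_mul, map_prod,
      Finset.prod_eq_single Q hq fun h => absurd hQ h, ← map_mul,
      ← map_one (Ideal.Quotient.mk (Q.asIdeal ^ ram p Q)), Ideal.Quotient.eq,
      show r * z Q - 1 = (r * i Q - 1) + r * (z Q - i Q) by ring]
    exact add_mem (hi Q hQ) (Ideal.mul_mem_left _ _ (hzi Q))
  have hNw := norm_eq_one_of_forall_mem hwQ
  have hrN : ((Algebra.norm ℤ r : ℤ) : ZMod (p : ℕ)) ≠ 0 := fun h => one_ne_zero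
    (α := ZMod (p : ℕ)) (by rw [← hNw, hw, map_mul, Int.cast_mul, h, zero_mul])
  refine ⟨⟨hr, hrN⟩, ?_⟩
  have hw0 : psi p w = 0 := by
    rw [psi, nonres_congr (b := 1) (by rw [hNw, Int.cast_one]), Int.cast_one, nonres_one, add_zero]
    refine Finset.sum_eq_zero fun Q hQ => ?_
    rw [nsq_congr Q (t := 1) (map_one _).le ?_, nsq_one, mul_zero]
    rw [← map_one (algebraMap (𝓞 F) F), ← map_sub, Q.valuation_lt_one_iff_mem]
    exact Ideal.pow_le_self (ram_pos p hQ).ne' (hwQ Q hQ)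
  rwa [hw, psi_mul ⟨hr, hrN⟩ hprod.1, hprod.2, add_zero] at hw0

/-- A unit at every prime over `p` is a quotient of integers prime to them. -/
theorem exists_fraction {x : Fˣ} (hx : ∀ P ∈ over F p, ordAt P x = 0) :
    ∃ a b : 𝓞 F, (∀ P ∈ over F p, a ∉ P.asIdeal) ∧ (∀ P ∈ over F p, b ∉ P.asIdeal) ∧
      (x : F) * algebraMap (𝓞 F) F b = algebraMap (𝓞 F) F a := by
  classical
  let D : Ideal (𝓞 F) :=
    { carrier := {s | ∃ a, (x : F) * algebraMap (𝓞 F) F s = algebraMap (𝓞 F) F a}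
      add_mem' := fun ⟨a, ha⟩ ⟨b, hb⟩ => ⟨a + b, by rw [map_add, map_add, mul_add, ha, hb]⟩
      zero_mem' := ⟨0, by simp⟩
      smul_mem' := fun c s ⟨a, ha⟩ => ⟨c * a, by rw [smul_eq_mul, map_mul, map_mul, ← ha]; ring⟩ }
  have hD : ∀ P ∈ over F p, ¬ D ≤ P.asIdeal := fun P hP h => by
    obtain ⟨n, d, hnd⟩ := P.exists_primeCompl_mul_eq_of_integer (x : F)
      ((valuation_le_one_iff P x).mpr (hx P hP).ge)
    exact d.2 (h ⟨n, hnd⟩)
  rcases (over F p).eq_empty_or_nonempty with he | ⟨P₀, hP₀⟩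
  · obtain ⟨⟨n, d⟩, hnd⟩ := IsLocalization.surj (nonZeroDivisors (𝓞 F)) (x : F)
    exact ⟨n, d, by simp [he], by simp [he], hnd⟩
  have hsub : ¬ ((D : Set (𝓞 F)) ⊆ ⋃ P ∈ (↑(over F p) : Set (HeightOneSpectrum (𝓞 F))), (P.asIdeal : Set (𝓞 F))) := fun h => by
    obtain ⟨P, hP, hle⟩ := (Ideal.subset_union_prime P₀ P₀ fun P _ _ _ => P.isPrime).mp h
    exact hD P hP hle
  obtain ⟨b, ⟨a, hab⟩, hb⟩ := Set.not_subset.mp hsub
  simp only [Set.mem_iUnion, SetLike.mem_coe, not_exists] at hb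
  refine ⟨a, b, fun P hP ha => ?_, hb, hab⟩
  have h1 := congrArg (P.valuation F) hab
  rw [map_mul, (valuation_eq_one_iff P x).mpr (hx P hP),
    P.valuation_eq_one_iff_notMem.mpr (hb P hP), one_mul, eq_comm,
    P.valuation_eq_one_iff_notMem] at h1
  exact h1 ha

/-- **The unit formula**. -/
theorem unit_formula (hd : Module.finrank ℚ F = 3) (hp : (p : ℕ) ≠ 2) {x : Fˣ}
    (hx : ∀ P ∈ over F p, ordAt P x = 0) : padicValRat p (normUnit x : ℚ) = 0 ∧
      ∑ P ∈ over F p, (ram p P : ZMod 2) * nsq P (x : F) = nonres p (normUnit x : ℚ) := by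
  obtain ⟨a, b, ha, hb, hab⟩ := exists_fraction hx
  obtain ⟨⟨-, hNa⟩, hpa⟩ := psi_eq_zero hd hp ha
  obtain ⟨⟨-, hNb⟩, hpb⟩ := psi_eq_zero hd hp hb
  have hN : (normUnit x : ℚ) * ((Algebra.norm ℤ b : ℤ) : ℚ) = ((Algebra.norm ℤ a : ℤ) : ℚ) := by
    rw [coe_normUnit, Algebra.coe_norm_int, Algebra.coe_norm_int, ← map_mul, hab]
  have hv : padicValRat p (normUnit x : ℚ) = 0 := by
    have h := congrArg (padicValRat (p : ℕ)) hN
    rw [padicValRat.mul (Units.ne_zero _) (intCast_rat_ne_zero hNb),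
      padicValRat_intCast_eq_zero hNa, padicValRat_intCast_eq_zero hNb, add_zero] at h
    exact h
  refine ⟨hv, ?_⟩
  rw [psi, CharTwo.add_eq_zero] at hpa hpb
  have h2 := nonres_mul p (Units.ne_zero _) (intCast_rat_ne_zero hNb) hv
    (padicValRat_intCast_eq_zero hNb)
  rw [hN, ← hpa, ← hpb, Finset.sum_congr rfl fun P hP => by
      rw [← hab, nsq_mul P ((valuation_eq_one_iff P x).mpr (hx P hP))
        (P.valuation_eq_one_iff_notMem.mpr (hb P hP)), mul_add],
    Finset.sum_add_distrib] at h2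
  exact add_right_cancel h2

variable (p) in
/-- The two sides of the projection formula at `p` added up. -/
def defect (c : ℚˣ) (x : Fˣ) : ZMod 2 :=
  (∑ P ∈ over F p, tame P (ratUnit c) x) + tameQ p c (normUnit x)

theorem defect_mul_left (c c' : ℚˣ) (x : Fˣ) :
    defect p (c * c') x = defect p c x + defect p c' x := by
  simp only [defect, map_mul, tame_mul_left, tameQ_mul_left, Finset.sum_add_distrib]
  ring

theorem defect_mul_right (c : ℚˣ) (x y : Fˣ) :
    defect p c (x * y) = defect p c x + defect p c y := by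
  simp only [defect, map_mul, tame_mul_right, tameQ_mul_right, Finset.sum_add_distrib]
  ring

variable (p) in
/-- The defect as a character of `x`. -/
def defectHom (c : ℚˣ) : Fˣ →* Multiplicative (ZMod 2) :=
  MonoidHom.mk' (fun x => Multiplicative.ofAdd (defect p c x)) fun x y => by
    rw [defect_mul_right, ofAdd_add]

variable (p) in
/-- The defect as a character of `c`. -/
def defectHomQ (x : Fˣ) : ℚˣ →* Multiplicative (ZMod 2) :=
  MonoidHom.mk' (fun c => Multiplicative.ofAdd (defect p c x)) fun c d => by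
    rw [defect_mul_left, ofAdd_add]

/-- Reduction to a unit and the prime in the rational variable. -/
theorem defect_eq_zero_of_generators {x : Fˣ}
    (hu : ∀ c : ℚˣ, padicValRat p (c : ℚ) = 0 → defect p c x = 0)
    (hq : defect p (primeUnit p) x = 0) (c : ℚˣ) : defect p c x = 0 := by
  have h0 : padicValRat p ((c * (primeUnit p)⁻¹ ^ padicValRat p (c : ℚ) : ℚˣ) : ℚ) = 0 := by
    rw [padicValRat_units_mul, padicValRat_units_zpow, Units.val_inv_eq_inv_val, padicValRat.inv,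
      padicValRat_primeUnit, if_pos rfl]
    ring
  have h := congrArg Multiplicative.ofAdd (hu _ h0)
  change defectHomQ p x (c * (primeUnit p)⁻¹ ^ padicValRat p (c : ℚ)) = 1 at h
  rw [map_mul, map_zpow, map_inv, show defectHomQ p x (primeUnit p) = 1 from
    congrArg Multiplicative.ofAdd hq, inv_one, one_zpow, mul_one] at h
  exact congrArg Multiplicative.toAdd h

theorem defect_units (hd : Module.finrank ℚ F = 3) (hp : (p : ℕ) ≠ 2) {x : Fˣ}
    (hx : ∀ P ∈ over F p, ordAt P x = 0) (c : ℚˣ) : defect p c x = 0 := by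
  obtain ⟨hv, hf⟩ := unit_formula hd hp hx
  refine defect_eq_zero_of_generators (fun d hd0 => ?_) ?_ c
  · rw [defect, tameQ_of_units p _ _ hd0 hv, add_zero]
    exact Finset.sum_eq_zero fun P hP =>
      tame_eq_zero_of_units P (ordAt_ratUnit_eq_zero hP hd0) (hx P hP)
  · rw [defect, tameQ_comm, tameQ_unit_prime hv, CharTwo.add_eq_zero, ← hf]
    refine Finset.sum_congr rfl fun P hP => ?_
    rw [tame_comm, tame_of_ordAt_eq_zero P (hx P hP), ordAt_primeElt, zsmul_eq_mul, Int.cast_natCast]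

theorem normUnit_ratUnit (hd : Module.finrank ℚ F = 3) (t : ℚˣ) :
    normUnit (ratUnit t : Fˣ) = t ^ 3 := by
  refine Units.ext ?_
  rw [coe_normUnit, coe_ratUnit, Algebra.norm_algebraMap, hd, Units.val_pow_eq_pow_val]

theorem tameQ_cube_right (a b : ℚˣ) : tameQ p a (b ^ 3) = tameQ p a b := by
  rw [pow_succ, pow_two, tameQ_mul_right, tameQ_mul_right, CharTwo.add_self_eq_zero, zero_add]

theorem defect_prime (hd : Module.finrank ℚ F = 3) (hp : (p : ℕ) ≠ 2) (c : ℚˣ) :
    defect p c (ratUnit (primeUnit p) : Fˣ) = 0 := by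
  have hprop : ∀ t : ℚˣ, padicValRat p (t : ℚ) = 0 →
      ∑ P ∈ over F p, (ram p P : ZMod 2) * nsq P ((ratUnit t : Fˣ) : F) = nonres p (t : ℚ) := by
    intro t ht
    obtain ⟨-, h⟩ := unit_formula hd hp fun P hP => ordAt_ratUnit_eq_zero (F := F) hP ht
    rw [h, normUnit_ratUnit hd, Units.val_pow_eq_pow_val, pow_succ, pow_two,
      nonres_mul p (mul_ne_zero t.ne_zero t.ne_zero) t.ne_zero
        (by rw [padicValRat.mul t.ne_zero t.ne_zero, ht, add_zero]) ht,
      nonres_mul p t.ne_zero t.ne_zero ht ht, CharTwo.add_self_eq_zero, zero_add]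
  refine defect_eq_zero_of_generators (fun d hd0 => ?_) ?_ c
  · rw [defect, normUnit_ratUnit hd, tameQ_cube_right, tameQ_unit_prime hd0, CharTwo.add_eq_zero,
      ← hprop d hd0]
    refine Finset.sum_congr rfl fun P hP => ?_
    rw [tame_of_ordAt_eq_zero P (ordAt_ratUnit_eq_zero hP hd0), ordAt_primeElt, zsmul_eq_mul,
      Int.cast_natCast]
  · rw [defect, normUnit_ratUnit hd, tameQ_cube_right, tameQ_prime_prime, if_pos rfl, if_pos rfl,
      CharTwo.add_eq_zero]
    have h1 := hprop (-1) (padicValRat_neg_one p)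
    rw [Units.val_neg, Units.val_one] at h1
    rw [← h1]
    refine Finset.sum_congr rfl fun P hP => ?_
    rw [tame_eq_nsq, tameUnit, mul_assoc, mul_inv_cancel, mul_one,
      show (-1 : Fˣ) = ratUnit (-1) from Units.ext (by simp [coe_ratUnit]),
      nsq_unit_zpow P (ordAt_ratUnit_eq_zero hP (padicValRat_neg_one p)), ordAt_primeElt,
      zsmul_eq_mul, Int.cast_mul, Int.cast_natCast]
    generalize (ram p P : ZMod 2) = e
    generalize nsq P ((ratUnit (-1 : ℚˣ) : Fˣ) : F) = n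
    revert e n
    decide

/-- The formula at a uniformiser of a good prime. -/
theorem defect_uniformiser (hd : Module.finrank ℚ F = 3) (hp : (p : ℕ) ≠ 2)
    {P : HeightOneSpectrum (𝓞 F)} (hP : P ∈ over F p) (hg : IsGood p P) {J : Ideal (𝓞 F)}
    (hJ : P.asIdeal ^ ram p P * J = Ideal.span {((p : ℕ) : 𝓞 F)}) (hJP : ¬ J ≤ P.asIdeal)
    {π : 𝓞 F} (hπ : π ∈ P.asIdeal) (hπ2 : π ∉ P.asIdeal ^ 2) (hπJ : π - 1 ∈ J) (hπ0 : π ≠ 0)
    (c : ℚˣ) : defect p c (intUnit π hπ0) = 0 := by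
  classical
  obtain ⟨hdeg, he2⟩ := hg
  have he := ram_pos p hP
  set x := intUnit π hπ0 with hx
  have hord : ordAt P x = 1 := by
    have h1 := (le_ordAt_intUnit_iff P hπ0 1).mpr (by simpa using hπ)
    have h2 := mt (le_ordAt_intUnit_iff P hπ0 2).mp hπ2
    rw [← hx] at h1 h2
    push_cast at h1 h2
    omega
  have hone : ∀ Q ∈ over F p, Q ≠ P → ordAt Q x = 0 ∧ nsq Q (x : F) = 0 := fun Q hQ hQP => by
    have hm : π - 1 ∈ Q.asIdeal := Ideal.pow_le_self (ram_pos p hQ).ne' (le_of_split hJ hQP hπJ)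
    refine ⟨(ordAt_intUnit_eq_zero_iff Q hπ0).mpr fun h => Q.isPrime.ne_top
      ((Ideal.eq_top_iff_one _).mpr (by simpa using sub_mem h hm)), ?_⟩
    rw [hx, coe_intUnit, nsq_congr Q (t := 1) (map_one _).le ?_, nsq_one]
    rwa [← map_one (algebraMap (𝓞 F) F), ← map_sub, Q.valuation_lt_one_iff_mem]
  have hsum : ∀ d : ℚˣ, ∑ Q ∈ over F p, tame Q (ratUnit d) x = tame P (ratUnit d) x := fun d =>
    Finset.sum_eq_single P (fun Q hQ hQP => by
      rw [tame_comm, tame_of_ordAt_eq_zero Q (hone Q hQ hQP).1, (hone Q hQ hQP).2, smul_zero])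
      fun h => absurd hP h
  obtain ⟨c₁, c₂, hcub, hc1, hc2, hN⟩ := exists_cubic hd hJ hJP hP hdeg hπ hπJ
  set e := ram p P with hee
  set C := Algebra.norm ℤ π with hC
  have hpP : ((p : ℕ) : 𝓞 F) ∈ P.asIdeal := (mem_over p P).mp hP
  -- `C = π ^ e * g` with `g ≡ (-1) ^ (e + 1)`
  obtain ⟨g, hgC, hgP⟩ : ∃ g : F, (C : F) = algebraMap (𝓞 F) F π ^ e * g ∧
      P.valuation F (g - (-1) ^ (e + 1)) < 1 := by
    have hcubF : (C : F) = algebraMap (𝓞 F) F π ^ 3 + (c₂ : F) * algebraMap (𝓞 F) F π ^ 2 +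
        (c₁ : F) * algebraMap (𝓞 F) F π := by
      have := congrArg (algebraMap (𝓞 F) F) hcub
      simp only [map_add, map_mul, map_pow, map_intCast] at this
      exact this.symm
    have hdvd : ∀ a : ℤ, (a : ZMod (p : ℕ)) = 0 → (a : 𝓞 F) ∈ P.asIdeal ^ e := fun a ha => by
      obtain ⟨b, rfl⟩ := (ZMod.intCast_zmod_eq_zero_iff_dvd a p).mp ha
      push_cast
      exact Ideal.mul_mem_right _ _ natCast_mem_pow_ram
    rcases (show e = 1 ∨ e = 2 by omega) with h | h
    · rw [h] at hc1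
      have hz : ((c₁ - 1 : ℤ) : ZMod (p : ℕ)) = 0 := by
        rw [Int.cast_sub, ← hc1]
        simp [pow_two, sub_mul, mul_sub, Polynomial.coeff_X]
      have hm : π * π + c₂ * π + ((c₁ - 1 : ℤ) : 𝓞 F) ∈ P.asIdeal := by
        refine add_mem (add_mem (P.asIdeal.mul_mem_left _ hπ) (P.asIdeal.mul_mem_left _ hπ)) ?_
        simpa [h] using hdvd _ hz
      refine ⟨algebraMap (𝓞 F) F (π * π + c₂ * π + c₁), ?_, ?_⟩
      · rw [hcubF, h]; simp only [map_add, map_mul, map_intCast]; ring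
      · rw [h, show ((-1 : F) ^ (1 + 1)) = algebraMap (𝓞 F) F 1 by norm_num, ← map_sub,
          P.valuation_lt_one_iff_mem]
        convert hm using 1
        push_cast; ring
    · rw [h] at hc1 hc2
      have hz1 : ((c₁ : ℤ) : ZMod (p : ℕ)) = 0 := by
        rw [← hc1]; simp [pow_two, mul_assoc, mul_sub, Polynomial.coeff_X]
      have hz2 : ((c₂ + 1 : ℤ) : ZMod (p : ℕ)) = 0 := by
        rw [Int.cast_add, ← hc2]
        simp [mul_sub, Polynomial.coeff_X_pow, ← pow_succ]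
      have hπF : algebraMap (𝓞 F) F π ≠ 0 := by simpa using hπ0
      refine ⟨algebraMap (𝓞 F) F π + c₂ + (c₁ : F) / algebraMap (𝓞 F) F π, ?_, ?_⟩
      · rw [hcubF, h]; field_simp
      · rw [h, show algebraMap (𝓞 F) F π + (c₂ : F) + (c₁ : F) / algebraMap (𝓞 F) F π -
            (-1) ^ (2 + 1) = algebraMap (𝓞 F) F (π + ((c₂ + 1 : ℤ) : 𝓞 F)) +
              algebraMap (𝓞 F) F ((c₁ : 𝓞 F)) / algebraMap (𝓞 F) F π by
          simp only [map_add, map_intCast]; push_cast; ring]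
        refine Valuation.map_add_lt _ ?_ ?_
        · rw [P.valuation_lt_one_iff_mem]
          exact add_mem hπ (Ideal.pow_le_self (by omega) (hdvd _ hz2))
        · rcases eq_or_ne (c₁ : 𝓞 F) 0 with h0 | h0
          · simp [h0]
          · rw [show algebraMap (𝓞 F) F (c₁ : 𝓞 F) / algebraMap (𝓞 F) F π =
              ((intUnit _ h0 * x⁻¹ : Fˣ) : F) by
              rw [hx, Units.val_mul, Units.val_inv_eq_inv_val, coe_intUnit, coe_intUnit,
                div_eq_mul_inv], valuation_lt_one_iff, ordAt_mul, ordAt_inv, hord]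
            have := (le_ordAt_intUnit_iff P h0 2).mpr (by simpa [h] using hdvd _ hz1)
            push_cast at this
            omega
  have hg1 : P.valuation F g = 1 := by
    rw [show g = (g - (-1) ^ (e + 1)) + (-1) ^ (e + 1) by ring,
      Valuation.map_add_eq_of_lt_right] <;>
      simp [map_pow, Valuation.map_neg, hgP]
  have hC0 : (C : ℚ) ≠ 0 := by
    rw [hC, Int.cast_ne_zero]; exact Algebra.norm_ne_zero_iff.mpr hπ0
  set CU : ℚˣ := Units.mk0 (C : ℚ) hC0 with hCU
  have hNx : normUnit x = CU := Units.ext (by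
    rw [coe_normUnit, hx, coe_intUnit, ← Algebra.coe_norm_int]; rfl)
  have hCF : ((ratUnit CU : Fˣ) : F) = (C : F) := by
    rw [coe_ratUnit, hCU, Units.val_mk0, map_intCast]
  have hgne : g ≠ 0 := fun h => by simp [h] at hg1
  set gU : Fˣ := Units.mk0 g hgne
  have hfac : ratUnit CU = x ^ e * gU := Units.ext (by
    rw [hCF, hgC, Units.val_mul, Units.val_pow_eq_pow_val]; rfl)
  have hgU : ordAt P gU = 0 := (valuation_eq_one_iff P gU).mp hg1
  have hvC : padicValRat p (CU : ℚ) = 1 := by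
    have h := congrArg (ordAt P) hfac
    rw [ordAt_ratUnit hP, ordAt_mul, ordAt_pow, hord, hgU, ← hee, add_zero] at h
    have he0 : (e : ℤ) ≠ 0 := by exact_mod_cast he.ne'
    exact mul_right_cancel₀ he0 (h.trans (by ring))
  set u : ℚˣ := CU * (primeUnit p)⁻¹ with hu
  have hvu : padicValRat p (u : ℚ) = 0 := by
    rw [hu, padicValRat_units_mul, Units.val_inv_eq_inv_val, padicValRat.inv, hvC,
      padicValRat_primeUnit, if_pos rfl]
    ring
  have hCU' : CU = primeUnit p * u := by rw [hu, mul_comm, inv_mul_cancel_right]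
  refine defect_eq_zero_of_generators (fun d hd0 => ?_) ?_ c
  · rw [defect, hsum, tame_of_ordAt_eq_zero P (ordAt_ratUnit_eq_zero hP hd0), hord, one_zsmul,
      nsq_ratUnit hP hd0 (degreeOne_of_absNorm hP hdeg), hNx, hCU', tameQ_mul_right,
      tameQ_unit_prime hd0, tameQ_of_units p _ _ hd0 hvu, add_zero, CharTwo.add_self_eq_zero]
  · rw [defect, hsum, hNx, CharTwo.add_eq_zero]
    have hR : tameQ p (primeUnit p) CU = nonres p ((-u : ℚˣ) : ℚ) := by
      rw [hCU', tameQ_mul_right, tameQ_prime_prime, if_pos rfl, if_pos rfl, tameQ_comm,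
        tameQ_unit_prime hvu, ← nonres_mul p (by norm_num) u.ne_zero (by simp) hvu, Units.val_neg,
        neg_one_mul]
    rw [hR, tame_eq_nsq]
    have hu' : padicValRat p ((-u⁻¹ : ℚˣ) : ℚ) = 0 := by simp [hvu]
    have hT : tameUnit P (primeElt p) x =
        ratUnit (-u⁻¹) * ((-1) ^ (e + 1) * gU) := by
      have hprime : (primeElt p : Fˣ) = ratUnit u⁻¹ * (x ^ e * gU) := by
        rw [← hfac, ← map_mul, hCU', mul_comm u⁻¹, mul_inv_cancel_right]
      rw [tameUnit, hord, ordAt_primeElt, ← hee, mul_one, zpow_one, zpow_natCast, zpow_natCast,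
        hprime]
      apply Units.ext
      simp only [Units.val_mul, Units.val_pow_eq_pow_val, Units.val_neg, Units.val_one,
        Units.val_inv_eq_inv_val, coe_ratUnit, map_neg, pow_succ]
      have hxe : (x : F) ^ e ≠ 0 := pow_ne_zero _ x.ne_zero
      field_simp
    have hw : ordAt P ((-1) ^ (e + 1) * gU) = 0 := by
      rw [ordAt_mul, ordAt_pow, ordAt_neg_one, hgU]; ring
    have hw1 : nsq P (((-1 : Fˣ) ^ (e + 1) * gU : Fˣ) : F) = 0 := by
      rw [← nsq_one P]
      refine nsq_congr P (map_one _).le ?_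
      rw [Units.val_mul, Units.val_pow_eq_pow_val, Units.val_neg, Units.val_one,
        show ((-1 : F) ^ (e + 1) * (gU : F) - 1) = (-1) ^ (e + 1) * (g - (-1) ^ (e + 1)) by
          rw [mul_sub, ← mul_pow]; simp [gU],
        map_mul, map_pow, Valuation.map_neg, map_one, one_pow, one_mul]
      exact hgP
    rw [hT, nsq_unit_mul P (ordAt_ratUnit_eq_zero hP hu') hw, hw1, add_zero,
      nsq_ratUnit hP hu' (degreeOne_of_absNorm hP hdeg),
      show ((-u⁻¹ : ℚˣ) : ℚ) = ((-u : ℚˣ) : ℚ)⁻¹ by simp [inv_neg],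
      nonres_inv p (Units.ne_zero _) (by simp [hvu])]

/-- **Projection at `p`**. -/
theorem sum_tame_ratUnit (hd : Module.finrank ℚ F = 3) (hp : (p : ℕ) ≠ 2) (c : ℚˣ) (x : Fˣ) :
    ∑ P ∈ over F p, tame P (ratUnit c) x = tameQ p c (normUnit x) := by
  classical
  choose J hJ hJP using exists_split (F := F) p
  choose π hπ hπ2 hπJ using fun P : HeightOneSpectrum (𝓞 F) => exists_uniformiser (hJP P)
  have hπ0 : ∀ P, π P ≠ 0 := fun P h => hπ2 P (by rw [h]; exact zero_mem _)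
  obtain ⟨E, k, hE, hbad⟩ : ∃ E : ℕ, ∃ k : ℤ, Odd E ∧
      ∀ P ∈ over F p, ¬ IsGood p P → (E : ℤ) * ordAt P x = k * ram p P := by
    by_cases h : ∃ P ∈ over F p, ¬ IsGood p P
    · obtain ⟨P₀, hP₀, hb₀⟩ := h
      refine ⟨ram p P₀, ordAt P₀ x, (two_le_of_not_good hd hP₀ hb₀).1, fun P hP hb => ?_⟩
      obtain rfl : P = P₀ := by
        by_contra hne
        exact hb ((two_le_of_not_good hd hP₀ hb₀).2 P hP hne)
      ring
    · exact ⟨1, 0, odd_one, fun P hP hb => absurd ⟨P, hP, hb⟩ h⟩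
  set S := (over F p).filter (fun P => IsGood p P) with hS
  let m : HeightOneSpectrum (𝓞 F) → ℤ := fun P => (E : ℤ) * ordAt P x - k * ram p P
  set M : Fˣ := ∏ P ∈ S, intUnit (π P) (hπ0 P) ^ m P with hM
  have hordπ : ∀ Q ∈ over F p, ∀ P,
      ordAt Q (intUnit (π P) (hπ0 P)) = if Q = P then 1 else 0 := fun Q hQ P => by
    split_ifs with h
    · subst h
      have h1 := (le_ordAt_intUnit_iff Q (hπ0 Q) 1).mpr (by simpa using hπ Q)
      have h2 := mt (le_ordAt_intUnit_iff Q (hπ0 Q) 2).mp (hπ2 Q)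
      push_cast at h1 h2
      omega
    · have hm' : π P - 1 ∈ Q.asIdeal :=
        Ideal.pow_le_self (ram_pos p hQ).ne' (le_of_split (hJ P) h (hπJ P))
      exact (ordAt_intUnit_eq_zero_iff Q (hπ0 P)).mpr fun h' => Q.isPrime.ne_top
        ((Ideal.eq_top_iff_one _).mpr (by simpa using sub_mem h' hm'))
  let ordHom : HeightOneSpectrum (𝓞 F) → Fˣ →* Multiplicative ℤ := fun Q =>
    MonoidHom.mk' (fun y => Multiplicative.ofAdd (ordAt Q y)) fun a b => by
      rw [ordAt_mul, ofAdd_add]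
  have hordM : ∀ Q ∈ over F p, ordAt Q M = if Q ∈ S then m Q else 0 := fun Q hQ => by
    have h : ordHom Q M = ∏ P ∈ S, ordHom Q (intUnit (π P) (hπ0 P)) ^ m P := by
      rw [hM, map_prod]
      exact Finset.prod_congr rfl fun P _ => map_zpow _ _ _
    have h2 := congrArg Multiplicative.toAdd h
    simp only [toAdd_prod, toAdd_zpow] at h2
    refine h2.trans ?_
    simp only [ordHom, MonoidHom.mk'_apply, toAdd_ofAdd, hordπ Q hQ, smul_eq_mul, mul_ite,
      mul_one, mul_zero, Finset.sum_ite_eq]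
  set U : Fˣ := x ^ E * ((ratUnit (primeUnit p) : Fˣ) ^ k)⁻¹ * M⁻¹ with hU
  have hordU : ∀ Q ∈ over F p, ordAt Q U = 0 := fun Q hQ => by
    rw [hU, ordAt_mul, ordAt_mul, ordAt_inv, ordAt_inv, ordAt_pow, ordAt_zpow, ordAt_primeElt,
      hordM Q hQ]
    split_ifs with h
    · ring
    · have := hbad Q hQ fun hg => h (Finset.mem_filter.mpr ⟨hQ, hg⟩)
      rw [this]; ring
  have hx : x ^ E = U * (ratUnit (primeUnit p) : Fˣ) ^ k * M := by
    rw [hU, mul_assoc, mul_comm ((ratUnit (primeUnit p) : Fˣ) ^ k) M, ← mul_assoc,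
      inv_mul_cancel_right, inv_mul_cancel_right]
  set φ := defectHom (F := F) p c
  have h1 : φ U = 1 := congrArg Multiplicative.ofAdd (defect_units hd hp hordU c)
  have h2 : φ (ratUnit (primeUnit p)) = 1 := congrArg Multiplicative.ofAdd (defect_prime hd hp c)
  have h3 : φ M = 1 := by
    rw [hM, map_prod]
    refine Finset.prod_eq_one fun P hP => ?_
    obtain ⟨hP, hg⟩ := Finset.mem_filter.mp hP
    rw [map_zpow, show φ (intUnit (π P) (hπ0 P)) = 1 from congrArg Multiplicative.ofAdd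
      (defect_uniformiser hd hp hP hg (hJ P) (hJP P) (hπ P) (hπ2 P) (hπJ P) (hπ0 P) c), one_zpow]
  have h4 : φ x ^ E = 1 := by
    rw [← map_pow, hx, map_mul, map_mul, map_zpow, h1, h2, h3, one_zpow, one_mul, one_mul]
  obtain ⟨n, rfl⟩ := hE
  have h5 := congrArg Multiplicative.toAdd h4
  rw [toAdd_pow, toAdd_one, add_smul, mul_smul, one_smul, two_smul, CharTwo.add_self_eq_zero,
    zero_add] at h5
  exact CharTwo.add_eq_zero.mp h5

end Fermat.Agent.Two.Recip
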