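import Fermat.Agent.Two.Recip.TameBasic
import Mathlib.RingTheory.Norm.Basic
import Mathlib.RingTheory.Trace.Basic
import Mathlib.LinearAlgebra.Trace
import Mathlib.LinearAlgebra.Determinant
import Mathlib.Data.ZMod.QuotientRing
import Mathlib.RingTheory.Ideal.Norm.AbsNorm
import Mathlib.NumberTheory.NumberField.Norm
import Mathlib.FieldTheory.Finite.GaloisField

/-!
# Norms modulo a rational prime

The norm and the trace of an integer modulo `p` are those of its image in `O / P ^ e × O / J`,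
for a factorisation of `(p)` into coprime ideals.
-/

set_option autoImplicit false

noncomputable section

namespace Fermat.Agent.Two.Recip

open scoped NumberField
open Module

variable {F : Type*} [Field F] [NumberField F] (p : ℕ) [Fact p.Prime]

/-- The algebra structure over `ZMod p` of a quotient by an ideal containing `p`. -/
@[implicit_reducible]
def quotAlgebra {I : Ideal (𝓞 F)} (hI : (p : 𝓞 F) ∈ I) : Algebra (ZMod p) (𝓞 F ⧸ I) :=
  ((Ideal.Quotient.lift (Ideal.span {(p : ℤ)}) (Int.castRingHom (𝓞 F ⧸ I)) fun a ha => by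
    obtain ⟨b, rfl⟩ := Ideal.mem_span_singleton'.mp ha
    rw [map_mul, map_natCast, show ((p : ℕ) : 𝓞 F ⧸ I) = 0 by
      rw [← map_natCast (Ideal.Quotient.mk I), Ideal.Quotient.eq_zero_iff_mem]; exact hI,
      mul_zero]).comp (Int.quotientSpanNatEquivZMod p).symm.toRingHom).toAlgebra

section Reduction

variable {A : Type*} [CommRing A] [Algebra (ZMod p) A]

theorem algebraMap_intCast (c : ℤ) : algebraMap (ZMod p) A (c : ZMod p) = (c : A) :=
  map_intCast _ c

/-- The image of an integral basis is a basis modulo `p`. -/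
theorem exists_basis_mod (φ : 𝓞 F →+* A) (hsurj : Function.Surjective φ)
    (hker : ∀ x, φ x = 0 ↔ (p : 𝓞 F) ∣ x) :
    ∃ bA : Basis (Free.ChooseBasisIndex ℤ (𝓞 F)) (ZMod p) A,
      ∀ x i, bA.repr (φ x) i = (((NumberField.RingOfIntegers.basis F).repr x i : ℤ) : ZMod p) := by
  classical
  set b := NumberField.RingOfIntegers.basis F
  have hsum : ∀ x, φ x = ∑ i, ((b.repr x i : ℤ) : ZMod p) • φ (b i) := fun x => by
    conv_lhs => rw [← b.sum_repr x]
    rw [map_sum]
    refine Finset.sum_congr rfl fun i _ => ?_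
    rw [zsmul_eq_mul, map_mul, map_intCast, Algebra.smul_def, algebraMap_intCast]
  have hli : LinearIndependent (ZMod p) fun i => φ (b i) := by
    refine Fintype.linearIndependent_iff.mpr fun g hg i => ?_
    choose c hc using fun j => ZMod.intCast_surjective (g j)
    have hz : φ (∑ j, c j • b j) = 0 := by
      rw [map_sum, ← hg]
      refine Finset.sum_congr rfl fun j _ => ?_
      rw [zsmul_eq_mul, map_mul, map_intCast, ← hc, Algebra.smul_def, algebraMap_intCast]
    obtain ⟨y, hy⟩ := (hker _).mp hz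
    have hy' : ∑ j, c j • b j = (p : ℤ) • y := by rw [hy, zsmul_eq_mul]; norm_num
    have e : b.repr (∑ j, c j • b j) i = b.repr ((p : ℤ) • y) i := by rw [hy']
    rw [b.repr_sum_self, map_zsmul, Finsupp.smul_apply, smul_eq_mul] at e
    rw [← hc i, e]
    simp
  have hspan : ⊤ ≤ Submodule.span (ZMod p) (Set.range fun i => φ (b i)) := fun a _ => by
    obtain ⟨x, rfl⟩ := hsurj a
    rw [hsum x]
    exact Submodule.sum_mem _ fun i _ => Submodule.smul_mem _ _ (Submodule.subset_span ⟨i, rfl⟩)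
  refine ⟨Basis.mk hli hspan, fun x i => ?_⟩
  conv_lhs => rw [hsum x]
  rw [show (∑ j, ((b.repr x j : ℤ) : ZMod p) • φ (b j)) =
      ∑ j, ((b.repr x j : ℤ) : ZMod p) • Basis.mk hli hspan j by simp, Basis.repr_sum_self]

theorem norm_trace_mod (φ : 𝓞 F →+* A) (hsurj : Function.Surjective φ)
    (hker : ∀ x, φ x = 0 ↔ (p : 𝓞 F) ∣ x) (x : 𝓞 F) :
    Algebra.norm (ZMod p) (φ x) = ((Algebra.norm ℤ x : ℤ) : ZMod p) ∧
      Algebra.trace (ZMod p) A (φ x) = ((Algebra.trace ℤ (𝓞 F) x : ℤ) : ZMod p) ∧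
      finrank (ZMod p) A = finrank ℚ F := by
  classical
  obtain ⟨bA, hbA⟩ := exists_basis_mod p φ hsurj hker
  set b := NumberField.RingOfIntegers.basis F
  have hb : ∀ i, bA i = φ (b i) := fun i => bA.repr.injective (Finsupp.ext fun j => by
    rw [hbA, b.repr_self, bA.repr_self]
    rcases eq_or_ne i j with h | h <;> simp [h])
  have hM : Algebra.leftMulMatrix bA (φ x) =
      (Int.castRingHom (ZMod p)).mapMatrix (Algebra.leftMulMatrix b x) := by
    ext i j
    rw [Algebra.leftMulMatrix_eq_repr_mul, hb, ← map_mul, hbA, RingHom.mapMatrix_apply,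
      Matrix.map_apply, Algebra.leftMulMatrix_eq_repr_mul, eq_intCast]
  refine ⟨?_, ?_, ?_⟩
  · rw [Algebra.norm_eq_matrix_det bA, hM, ← RingHom.map_det, Algebra.norm_eq_matrix_det b,
      eq_intCast]
  · rw [Algebra.trace_eq_matrix_trace bA, hM, Algebra.trace_eq_matrix_trace b, RingHom.mapMatrix_apply]
    exact (AddMonoidHom.map_trace (Int.castRingHom (ZMod p)).toAddMonoidHom _).symm
  · rw [finrank_eq_card_basis bA, ← finrank_eq_card_chooseBasisIndex,
      NumberField.RingOfIntegers.rank]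

end Reduction

section Prod

variable {k B C : Type*} [Field k] [CommRing B] [CommRing C] [Algebra k B] [Algebra k C]
  [Module.Finite k B] [Module.Finite k C]

theorem norm_prod_mk (u : B) (v : C) :
    Algebra.norm k (u, v) = Algebra.norm k u * Algebra.norm k v := by
  rw [Algebra.norm_apply, Algebra.norm_apply, Algebra.norm_apply,
    ← LinearMap.det_prodMap]
  rfl

theorem trace_prod_mk (u : B) (v : C) :
    Algebra.trace k (B × C) (u, v) = Algebra.trace k B u + Algebra.trace k C v := by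
  rw [Algebra.trace_apply, Algebra.trace_apply, Algebra.trace_apply,
    ← LinearMap.trace_prodMap']
  rfl

end Prod

variable {p}

/-- The data of a coprime factorisation of `(p)`. -/
theorem norm_trace_crt {I J : Ideal (𝓞 F)} (hIJ : I * J = Ideal.span {(p : 𝓞 F)})
    (hcop : IsCoprime I J) [Algebra (ZMod p) (𝓞 F ⧸ I)] [Algebra (ZMod p) (𝓞 F ⧸ J)] :
    (∀ x : 𝓞 F, ((Algebra.norm ℤ x : ℤ) : ZMod p) =
        Algebra.norm (ZMod p) (Ideal.Quotient.mk I x) *
          Algebra.norm (ZMod p) (Ideal.Quotient.mk J x)) ∧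
      (∀ x : 𝓞 F, ((Algebra.trace ℤ (𝓞 F) x : ℤ) : ZMod p) =
        Algebra.trace (ZMod p) _ (Ideal.Quotient.mk I x) +
          Algebra.trace (ZMod p) _ (Ideal.Quotient.mk J x)) ∧
      Finite (𝓞 F ⧸ I) ∧ Finite (𝓞 F ⧸ J) ∧
      finrank (ZMod p) (𝓞 F ⧸ I) + finrank (ZMod p) (𝓞 F ⧸ J) = finrank ℚ F := by
  have hp0 : Ideal.span {(p : 𝓞 F)} ≠ ⊥ := by
    rw [Ne, Ideal.span_singleton_eq_bot, Nat.cast_eq_zero]
    exact (Fact.out : p.Prime).ne_zero
  have hI : I ≠ ⊥ := fun h => hp0 (by rw [← hIJ, h, Ideal.bot_mul])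
  have hJ : J ≠ ⊥ := fun h => hp0 (by rw [← hIJ, h, Ideal.mul_bot])
  have fI : Finite (𝓞 F ⧸ I) := Ring.HasFiniteQuotients.finiteQuotient hI
  have fJ : Finite (𝓞 F ⧸ J) := Ring.HasFiniteQuotients.finiteQuotient hJ
  let φ : 𝓞 F →+* (𝓞 F ⧸ I) × (𝓞 F ⧸ J) :=
    (Ideal.Quotient.mk I).prod (Ideal.Quotient.mk J)
  have hsurj : Function.Surjective φ := fun z => by
    obtain ⟨a, ha⟩ := (Ideal.quotientInfEquivQuotientProd I J hcop).surjective z
    obtain ⟨x, rfl⟩ := Ideal.Quotient.mk_surjective a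
    exact ⟨x, by rw [← ha]; exact Prod.ext rfl rfl⟩
  have hker : ∀ x, φ x = 0 ↔ (p : 𝓞 F) ∣ x := fun x => by
    rw [← Ideal.mem_span_singleton, ← hIJ, Ideal.mul_eq_inf_of_coprime
      (Ideal.isCoprime_iff_sup_eq.mp hcop)]
    simp [φ, Prod.ext_iff, Ideal.Quotient.eq_zero_iff_mem]
  refine ⟨fun x => ?_, fun x => ?_, fI, fJ, ?_⟩
  · rw [← (norm_trace_mod p φ hsurj hker x).1, ← norm_prod_mk]
    rfl
  · rw [← (norm_trace_mod p φ hsurj hker x).2.1, ← trace_prod_mk]
    rfl
  · rw [← Module.finrank_prod, (norm_trace_mod p φ hsurj hker 0).2.2]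

section Quotient

variable {A : Type*} [CommRing A] [Algebra (ZMod p) A]

/-- A unipotent element has norm one modulo `p`. -/
theorem norm_one_add_nilpotent {x : A} (hx : IsNilpotent x) :
    Algebra.norm (ZMod p) (1 + x) = 1 := by
  obtain ⟨n, hn⟩ := hx
  rcases subsingleton_or_nontrivial A with h | h
  · rw [Subsingleton.elim (1 + x) 1, map_one]
  have : CharP A p := charP_of_injective_algebraMap (algebraMap (ZMod p) A).injective p
  have h1 : (1 + x) ^ p ^ n = 1 := by
    rw [add_pow_char_pow, one_pow,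
      pow_eq_zero_of_le (Nat.lt_pow_self (Fact.out : p.Prime).one_lt).le hn, add_zero]
  have h2 := congrArg (Algebra.norm (ZMod p)) h1
  rwa [map_pow, ZMod.pow_card_pow, map_one] at h2

/-- In a finite field of odd characteristic the norm to the prime field preserves nonsquares. -/
theorem isSquare_norm_iff {K : Type*} [Field K] [Algebra (ZMod p) K] [Finite K] (hp : p ≠ 2)
    {a : K} (ha : a ≠ 0) : IsSquare (Algebra.norm (ZMod p) a) ↔ IsSquare a := by
  classical
  let := Fintype.ofFinite K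
  refine ⟨fun h => ?_, fun ⟨b, hb⟩ => ⟨Algebra.norm (ZMod p) b, by rw [hb, map_mul]⟩⟩
  by_contra hns
  obtain ⟨t, ht⟩ := FiniteField.exists_nonsquare (F := ZMod p) (by rwa [ZMod.ringChar_zmod_n])
  refine ht ?_
  obtain ⟨b, rfl⟩ := FiniteField.norm_surjective (ZMod p) K t
  rcases eq_or_ne b 0 with rfl | hb
  · exact ⟨0, by simp⟩
  by_cases hbs : IsSquare b
  · obtain ⟨c, rfl⟩ := hbs
    exact ⟨Algebra.norm (ZMod p) c, map_mul _ _ _⟩
  · have hab : IsSquare (a * b) := by
      rw [← quadraticChar_one_iff_isSquare (mul_ne_zero ha hb), map_mul]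
      rcases quadraticChar_dichotomy ha with h1 | h1
      · exact absurd ((quadraticChar_one_iff_isSquare ha).mp h1) hns
      rcases quadraticChar_dichotomy hb with h2 | h2
      · exact absurd ((quadraticChar_one_iff_isSquare hb).mp h2) hbs
      rw [h1, h2]; norm_num
    obtain ⟨c, hc⟩ := hab
    obtain ⟨d, hd⟩ := h
    have hN : Algebra.norm (ZMod p) a ≠ 0 := Algebra.norm_ne_zero_iff.mpr ha
    have hd0 : d ≠ 0 := fun e => hN (by rw [hd, e, mul_zero])
    refine ⟨Algebra.norm (ZMod p) c / d, ?_⟩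
    have e := congrArg (Algebra.norm (ZMod p)) hc
    rw [map_mul, map_mul, hd] at e
    field_simp
    linear_combination e

end Quotient

end Fermat.Agent.Two.Recip
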